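import Mathlib

/-!
# TW-F / F-gw (helper86): the Greenberg–Wiles inequality — the linear algebra

Pure linear algebra over a field `k` (glue style, as `Fermat.Agent.PT.F.glue_sha_pairing`).

Data: `loc : H1 → P`, `loc' : H1' → P'` (global-to-local maps for `A` and for `A'`), a pairing
`B : P × P' → k` with trivial left and right kernel (sum of the local Tate pairings), reciprocity
`B (loc x) (loc' y) = 0`, and a subspace `L ≤ P` (the local conditions) with annihilator
`L^⊥ = gwPerp B L ≤ P'`.  Selmer groups: `Sel_L = L.comap loc`, `Sel_{L^⊥} = (gwPerp B L).comap loc'`.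

* `gw_selmer_le` :  `dim Sel_L + dim H1' ≤ dim ker loc + dim L + dim Sel_{L^⊥}`.
* `gw_inequality` : with the numerical inputs (F-sha) `dim ker loc = dim ker loc₂'`,
  (F-h2) `dim Q' ≤ dim range loc₂' + h⁰(A)`, `Σ_v h⁰(G_v, A) ≤ dim Q'` and the Euler characteristic
  bound (EC) `h⁰(A') + dim H2' + e ≤ dim H1'`:
  `dim Sel_L + h⁰(A') + e + Σ_v h⁰(G_v, A) ≤ dim Sel_{L^⊥} + h⁰(A) + dim L`.
-/

set_option autoImplicit false

namespace Fermat.Agent.TW.F

open Module

variable {k : Type*} [Field k]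
  {H1 H1' P P' : Type*}
  [AddCommGroup H1] [Module k H1] [AddCommGroup H1'] [Module k H1']
  [AddCommGroup P] [Module k P] [AddCommGroup P'] [Module k P']

/-- the annihilator in `P'` of a subspace of `P` -/
def gwPerp (B : P →ₗ[k] P' →ₗ[k] k) (L : Submodule k P) : Submodule k P' where
  carrier := {y | ∀ x ∈ L, B x y = 0}
  add_mem' := fun {a b} ha hb x hx => by rw [map_add, ha x hx, hb x hx, add_zero]
  zero_mem' := fun x _ => by rw [map_zero]
  smul_mem' := fun c a ha x hx => by rw [map_smul, ha x hx, smul_zero]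

/-- the annihilator in `P` of a subspace of `P'` -/
def gwPerpL (B : P →ₗ[k] P' →ₗ[k] k) (W : Submodule k P') : Submodule k P where
  carrier := {x | ∀ y ∈ W, B x y = 0}
  add_mem' := fun {a b} ha hb y hy => by
    rw [map_add, LinearMap.add_apply, ha y hy, hb y hy, add_zero]
  zero_mem' := fun y _ => by rw [map_zero, LinearMap.zero_apply]
  smul_mem' := fun c a ha y hy => by
    rw [map_smul, LinearMap.smul_apply, ha y hy, smul_zero]

lemma gw_mem_perp (B : P →ₗ[k] P' →ₗ[k] k) (L : Submodule k P) (y : P') :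
    y ∈ gwPerp B L ↔ ∀ x ∈ L, B x y = 0 := Iff.rfl

lemma gw_mem_perpL (B : P →ₗ[k] P' →ₗ[k] k) (W : Submodule k P') (x : P) :
    x ∈ gwPerpL B W ↔ ∀ y ∈ W, B x y = 0 := Iff.rfl

/-- `dim W^⊥ + dim W = dim P` when the right kernel is trivial. -/
lemma gw_finrank_perpL [FiniteDimensional k P] (B : P →ₗ[k] P' →ₗ[k] k)
    (hBr : ∀ y, (∀ x, B x y = 0) → y = 0) (W : Submodule k P') :
    finrank k (gwPerpL B W) + finrank k W = finrank k P := by
  have hinj : Function.Injective B.flip := by
    rw [← LinearMap.ker_eq_bot, LinearMap.ker_eq_bot']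
    intro y hy
    exact hBr y (fun x => by
      have := LinearMap.congr_fun hy x
      simpa using this)
  have h1 : finrank k (W.map B.flip) = finrank k W :=
    (Submodule.equivMapOfInjective B.flip hinj W).finrank_eq.symm
  have h2 : gwPerpL B W = (W.map B.flip).dualCoannihilator := by
    ext x
    rw [gw_mem_perpL, Submodule.mem_dualCoannihilator]
    constructor
    · rintro h φ ⟨y, hy, rfl⟩
      exact h y hy
    · intro h y hy
      exact h (B.flip y) ⟨y, hy, rfl⟩
  have h3 := Subspace.finrank_add_finrank_dualCoannihilator_eq (W.map B.flip)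
  rw [h2, add_comm]
  exact (congrArg (· + _) h1.symm).trans h3

/-- `dim P' ≤ dim L + dim L^⊥`. -/
lemma gw_finrank_perp_ge [FiniteDimensional k P] [FiniteDimensional k P']
    (B : P →ₗ[k] P' →ₗ[k] k) (L : Submodule k P) :
    finrank k P' ≤ finrank k L + finrank k (gwPerp B L) := by
  let ψ : P' →ₗ[k] Module.Dual k L := (B.domRestrict L).flip
  have hker : LinearMap.ker ψ = gwPerp B L := by
    ext y
    rw [LinearMap.mem_ker, gw_mem_perp]
    constructor
    · intro h x hx
      have := LinearMap.congr_fun h ⟨x, hx⟩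
      simpa [ψ] using this
    · intro h
      ext x
      simpa [ψ] using h x.1 x.2
  have h1 := LinearMap.finrank_range_add_finrank_ker ψ
  have h2 : finrank k (LinearMap.range ψ) ≤ finrank k (Module.Dual k L) :=
    Submodule.finrank_le _
  have h3 : finrank k (Module.Dual k L) = finrank k L := Subspace.dual_finrank_eq
  have h4 : finrank k (LinearMap.range ψ) ≤ finrank k L := le_of_le_of_eq h2 h3
  rw [hker] at h1
  omega

/-- `dim P ≤ dim P'` when the left kernel is trivial. -/
lemma gw_finrank_le [FiniteDimensional k P] [FiniteDimensional k P']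
    (B : P →ₗ[k] P' →ₗ[k] k) (hBl : ∀ x, (∀ y, B x y = 0) → x = 0) :
    finrank k P ≤ finrank k P' := by
  have hinj : Function.Injective B := by
    rw [← LinearMap.ker_eq_bot, LinearMap.ker_eq_bot']
    intro x hx
    exact hBl x (fun y => by rw [hx, LinearMap.zero_apply])
  have h1 := LinearMap.finrank_le_finrank_of_injective hinj
  have h3 : finrank k (Module.Dual k P') = finrank k P' := Subspace.dual_finrank_eq
  exact le_of_le_of_eq h1 h3

/-- dimension of a Selmer group: `dim loc⁻¹(L) = dim ker loc + dim (range loc ⊓ L)`. -/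
lemma gw_finrank_comap [FiniteDimensional k H1] (loc : H1 →ₗ[k] P) (L : Submodule k P) :
    finrank k (L.comap loc) =
      finrank k (LinearMap.ker loc) + finrank k ↥(LinearMap.range loc ⊓ L) := by
  let f : ↥(L.comap loc) →ₗ[k] P := loc.domRestrict (L.comap loc)
  have h1 := LinearMap.finrank_range_add_finrank_ker f
  have hr : LinearMap.range f = LinearMap.range loc ⊓ L := by
    ext z
    constructor
    · rintro ⟨⟨x, hx⟩, rfl⟩
      exact ⟨⟨x, rfl⟩, hx⟩
    · rintro ⟨⟨x, rfl⟩, hz⟩
      exact ⟨⟨x, hz⟩, rfl⟩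
  have hk : finrank k (LinearMap.ker f) = finrank k (LinearMap.ker loc) := by
    have hle : LinearMap.ker loc ≤ L.comap loc := by
      intro x hx
      rw [Submodule.mem_comap, LinearMap.mem_ker.1 hx]
      exact L.zero_mem
    have hk' : LinearMap.ker f = (LinearMap.ker loc).comap (L.comap loc).subtype := by
      ext x
      rfl
    rw [hk']
    exact LinearEquiv.finrank_eq (Submodule.comapSubtypeEquivOfLe hle)
  rw [hr, hk] at h1
  omega

/-- **Greenberg–Wiles, the Selmer part**:
`dim Sel_L + dim H1' ≤ dim ker loc + dim L + dim Sel_{L^⊥}`. -/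
theorem gw_selmer_le [FiniteDimensional k H1] [FiniteDimensional k H1']
    [FiniteDimensional k P] [FiniteDimensional k P']
    (loc : H1 →ₗ[k] P) (loc' : H1' →ₗ[k] P') (B : P →ₗ[k] P' →ₗ[k] k)
    (hBl : ∀ x, (∀ y, B x y = 0) → x = 0) (hBr : ∀ y, (∀ x, B x y = 0) → y = 0)
    (hrec : ∀ x y, B (loc x) (loc' y) = 0) (L : Submodule k P) :
    finrank k (L.comap loc) + finrank k H1' ≤
      finrank k (LinearMap.ker loc) + finrank k L + finrank k ((gwPerp B L).comap loc') := by
  have hS := gw_finrank_comap loc L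
  have hS' := gw_finrank_comap loc' (gwPerp B L)
  have hrn' := LinearMap.finrank_range_add_finrank_ker loc'
  -- `range loc ⊓ L ≤ (range loc' ⊔ L^⊥)^⊥`
  have hle : LinearMap.range loc ⊓ L ≤ gwPerpL B (LinearMap.range loc' ⊔ gwPerp B L) := by
    rintro x ⟨⟨x₀, rfl⟩, hxL⟩ y hy
    obtain ⟨y₁, ⟨y₀, rfl⟩, y₂, hy₂, rfl⟩ := Submodule.mem_sup.1 hy
    rw [map_add, hrec, hy₂ _ hxL, add_zero]
  have h1 : finrank k ↥(LinearMap.range loc ⊓ L) ≤
      finrank k (gwPerpL B (LinearMap.range loc' ⊔ gwPerp B L)) :=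
    Submodule.finrank_mono hle
  have h2 := gw_finrank_perpL B hBr (LinearMap.range loc' ⊔ gwPerp B L)
  have h3 := Submodule.finrank_sup_add_finrank_inf_eq (LinearMap.range loc') (gwPerp B L)
  have h4 := gw_finrank_perp_ge B L
  have h5 := gw_finrank_le B hBl
  omega

/-- **Greenberg–Wiles inequality** (abstract form):
`dim Sel_L + h⁰(A') + e + Σ_v h⁰(G_v, A) ≤ dim Sel_{L^⊥} + h⁰(A) + dim L`, from
(F-sha) `dim ker loc = dim ker loc₂'`, (F-h2) `dim Q' ≤ dim range loc₂' + h⁰(A)`,
`Σ_v h⁰(G_v, A) ≤ dim Q'`, and (EC) `h⁰(A') + dim H2' + e ≤ dim H1'`. -/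
theorem gw_inequality {H2' Q' : Type*} [AddCommGroup H2'] [Module k H2'] [AddCommGroup Q']
    [Module k Q'] [FiniteDimensional k H1] [FiniteDimensional k H1']
    [FiniteDimensional k P] [FiniteDimensional k P'] [FiniteDimensional k H2']
    (loc : H1 →ₗ[k] P) (loc' : H1' →ₗ[k] P') (loc₂' : H2' →ₗ[k] Q')
    (B : P →ₗ[k] P' →ₗ[k] k)
    (hBl : ∀ x, (∀ y, B x y = 0) → x = 0) (hBr : ∀ y, (∀ x, B x y = 0) → y = 0)
    (hrec : ∀ x y, B (loc x) (loc' y) = 0) (L : Submodule k P)
    (h0A h0A' hloc0 e : ℕ)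
    (hsha : finrank k (LinearMap.ker loc) = finrank k (LinearMap.ker loc₂'))
    (hh2 : finrank k Q' ≤ finrank k (LinearMap.range loc₂') + h0A)
    (hQ : hloc0 ≤ finrank k Q')
    (hEC : h0A' + finrank k H2' + e ≤ finrank k H1') :
    finrank k (L.comap loc) + h0A' + e + hloc0 ≤
      finrank k ((gwPerp B L).comap loc') + h0A + finrank k L := by
  have h1 := gw_selmer_le loc loc' B hBl hBr hrec L
  have h2 := LinearMap.finrank_range_add_finrank_ker loc₂'
  omega

/-! ### Products: the sum of local pairings and products of local conditions -/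

section Pi

variable {ι : Type*} [Fintype ι] {Pv Pv' : ι → Type*}
  [∀ v, AddCommGroup (Pv v)] [∀ v, Module k (Pv v)]
  [∀ v, AddCommGroup (Pv' v)] [∀ v, Module k (Pv' v)]

/-- the sum of the local pairings, on the products -/
def gwPiPair (Bv : ∀ v, Pv v →ₗ[k] Pv' v →ₗ[k] k) :
    (∀ v, Pv v) →ₗ[k] (∀ v, Pv' v) →ₗ[k] k :=
  ∑ v, (Bv v).compl₁₂ (LinearMap.proj v) (LinearMap.proj v)

lemma gw_piPair_apply (Bv : ∀ v, Pv v →ₗ[k] Pv' v →ₗ[k] k) (x : ∀ v, Pv v) (y : ∀ v, Pv' v) :
    gwPiPair Bv x y = ∑ v, Bv v (x v) (y v) := by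
  simp [gwPiPair, LinearMap.sum_apply, LinearMap.compl₁₂_apply]

lemma gw_piPair_single_left [DecidableEq ι] (Bv : ∀ v, Pv v →ₗ[k] Pv' v →ₗ[k] k) (v : ι)
    (x : Pv v) (y : ∀ v, Pv' v) : gwPiPair Bv (Pi.single v x) y = Bv v x (y v) := by
  rw [gw_piPair_apply, Finset.sum_eq_single v]
  · rw [Pi.single_eq_same]
  · intro w _ hw
    rw [Pi.single_eq_of_ne hw, map_zero, LinearMap.zero_apply]
  · intro h
    exact absurd (Finset.mem_univ v) h

lemma gw_piPair_single_right [DecidableEq ι] (Bv : ∀ v, Pv v →ₗ[k] Pv' v →ₗ[k] k) (v : ι)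
    (x : ∀ v, Pv v) (y : Pv' v) : gwPiPair Bv x (Pi.single v y) = Bv v (x v) y := by
  rw [gw_piPair_apply, Finset.sum_eq_single v]
  · rw [Pi.single_eq_same]
  · intro w _ hw
    rw [Pi.single_eq_of_ne hw, map_zero]
  · intro h
    exact absurd (Finset.mem_univ v) h

/-- the sum of pairings with trivial left kernels has trivial left kernel -/
lemma gw_piPair_left (Bv : ∀ v, Pv v →ₗ[k] Pv' v →ₗ[k] k)
    (h : ∀ v, ∀ x, (∀ y, Bv v x y = 0) → x = 0) :
    ∀ x, (∀ y, gwPiPair Bv x y = 0) → x = 0 := by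
  classical
  intro x hx
  funext v
  refine h v (x v) (fun y => ?_)
  rw [← gw_piPair_single_right Bv v x y]
  exact hx _

/-- the sum of pairings with trivial right kernels has trivial right kernel -/
lemma gw_piPair_right (Bv : ∀ v, Pv v →ₗ[k] Pv' v →ₗ[k] k)
    (h : ∀ v, ∀ y, (∀ x, Bv v x y = 0) → y = 0) :
    ∀ y, (∀ x, gwPiPair Bv x y = 0) → y = 0 := by
  classical
  intro y hy
  funext v
  refine h v (y v) (fun x => ?_)
  rw [← gw_piPair_single_left Bv v x y]
  exact hy _

/-- the annihilator of a product of local conditions is the product of the annihilators -/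
lemma gw_perp_pi (Bv : ∀ v, Pv v →ₗ[k] Pv' v →ₗ[k] k) (L : ∀ v, Submodule k (Pv v)) :
    gwPerp (gwPiPair Bv) (Submodule.pi Set.univ L) =
      Submodule.pi Set.univ (fun v => gwPerp (Bv v) (L v)) := by
  classical
  ext y
  rw [gw_mem_perp, Submodule.mem_pi]
  constructor
  · intro hy v _ x hx
    rw [← gw_piPair_single_left Bv v x y]
    refine hy _ ?_
    rw [Submodule.mem_pi]
    intro w _
    by_cases hw : w = v
    · subst hw
      rw [Pi.single_eq_same]
      exact hx
    · rw [Pi.single_eq_of_ne hw]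
      exact (L w).zero_mem
  · intro hy x hx
    rw [gw_piPair_apply]
    refine Finset.sum_eq_zero (fun v _ => ?_)
    exact hy v (Set.mem_univ v) (x v) ((Submodule.mem_pi.1 hx) v (Set.mem_univ v))

/-- the product of the local conditions, as a product of modules -/
def gwPiEquiv (L : ∀ v, Submodule k (Pv v)) :
    ↥(Submodule.pi Set.univ L) ≃ₗ[k] (∀ v, ↥(L v)) where
  toFun x v := ⟨x.1 v, (Submodule.mem_pi.1 x.2) v (Set.mem_univ v)⟩
  invFun y := ⟨fun v => (y v : Pv v), Submodule.mem_pi.2 (fun v _ => (y v).2)⟩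
  left_inv _ := rfl
  right_inv _ := rfl
  map_add' _ _ := rfl
  map_smul' _ _ := rfl

/-- `dim ∏ L_v = Σ_v dim L_v`. -/
lemma gw_finrank_pi [∀ v, FiniteDimensional k (Pv v)] (L : ∀ v, Submodule k (Pv v)) :
    finrank k ↥(Submodule.pi Set.univ L) = ∑ v, finrank k ↥(L v) := by
  rw [(gwPiEquiv L).finrank_eq, Module.finrank_pi_fintype]

end Pi

end Fermat.Agent.TW.F
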