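/-
Project TW (Taylor–Wiles primes, S56; captain helper63) — part TW-F (sub-captain helper68):
THE GREENBERG–WILES INEQUALITY FROM A `PTDatum`.  INTERFACE FILE: definitions and statements only.
Mathematics and piece table: NOTES/TW-F.md.   Linear algebra: TW/F/GW.lean (helper86, landed).

Conventions.  `D : PTDatum p G ι Gloc`.  `A`, `B` : finite `𝔽_p[G]`-modules, trivial on a level,
in PERFECT `χ`-EQUIVARIANT DUALITY `P : DualPair D.χ A B` (for instance `B = A.dualTwist D.χ`,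
`DualPair.std`).  Everything local is stated for `(Gloc v, D.𝒯loc v, D.Jloc v, ζ_v = j_v ζ)`.
The local pairing is the CUP PRODUCT on cochain functions
  `cupCoc P J ζ x y (σ, τ) = β(x σ, σ • y τ).val • ζ`   (a 2-cochain with values in `J`),
so orthogonality of local conditions is intrinsic (no presentation, no choice of invariant map).
A piece `X` is DONE when `theorem stmtX : StmtX` (or `stmtX_of : … → StmtX`) is landed in its own
file `Fermat/Agent/TW/F/<X>.lean`, namespace `Fermat.Agent.TW.F`, sorry-free, names prefixed.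
-/
import Fermat.Agent.PT.F.Pair
import Fermat.Agent.PT.F.LocNondeg
import Fermat.Agent.TW.F.GW

set_option autoImplicit false

noncomputable section

namespace Fermat.Agent.TW.F

open CategoryTheory groupCohomology Module Fermat.Agent.PT Fermat.Agent.PT.F

/-! ### Dual pairs -/

section DualPair

variable {p : ℕ} {G : Type} [Group G]

/-- A perfect `χ`-equivariant pairing `β : A × B → 𝔽_p`, `β(g a, g b) = χ(g) β(a, b)`. -/
structure DualPair (χ : G →* (ZMod p)ˣ) (A B : Rep.{0} (ZMod p) G) where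
  /-- the pairing -/
  β : A.V →ₗ[ZMod p] B.V →ₗ[ZMod p] ZMod p
  equivariant : ∀ (g : G) (a : A.V) (b : B.V), β (A.ρ g a) (B.ρ g b) = (χ g : ZMod p) * β a b
  left : ∀ a : A.V, (∀ b : B.V, β a b = 0) → a = 0
  right : ∀ b : B.V, (∀ a : A.V, β a b = 0) → b = 0

variable {χ : G →* (ZMod p)ˣ} {A B : Rep.{0} (ZMod p) G}

/-- the flipped pair -/
def DualPair.flip (P : DualPair χ A B) : DualPair χ B A where
  β := P.β.flip
  equivariant g b a := P.equivariant g a b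
  left := P.right
  right := P.left

/-- restriction of a dual pair along `f : H → G` -/
def DualPair.res (P : DualPair χ A B) {H : Type} [Group H] (f : H →* G) :
    DualPair (χ.comp f) (Rep.res f A) (Rep.res f B) where
  β := P.β
  equivariant h a b := P.equivariant (f h) a b
  left := P.left
  right := P.right

/-- the standard pair `A × A^*(χ) → 𝔽_p`, `(a, f) ↦ f a` -/
def DualPair.std [Fact p.Prime] (χ : G →* (ZMod p)ˣ) (A : Rep.{0} (ZMod p) G) :
    DualPair χ A (A.dualTwist χ) where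
  β := (LinearMap.id : Module.Dual (ZMod p) A.V →ₗ[ZMod p] Module.Dual (ZMod p) A.V).flip
  equivariant g a f := by
    show ((A.dualTwist χ).ρ g f) (A.ρ g a) = (χ g : ZMod p) * f a
    rw [Rep.dualTwist_ρ_apply]
    simp only [LinearMap.smul_apply, LinearMap.coe_comp, Function.comp_apply, smul_eq_mul]
    rw [← Module.End.mul_apply, ← map_mul, inv_mul_cancel, map_one, Module.End.one_apply]
  left a h := (Module.forall_dual_apply_eq_zero_iff (ZMod p) a).1 fun f => h f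
  right f h := LinearMap.ext fun a => h a

end DualPair

/-! ### Cup products on cochain functions -/

section Cup

variable {p : ℕ} {G : Type} [Group G] {χ : G →* (ZMod p)ˣ} {A B : Rep.{0} (ZMod p) G}

/-- "`J` contains `μ_p = ⟨ζ⟩` with the action `χ`": `p • ζ = 0` and `g ζ = χ(g) ζ`. -/
def IsKummer (χ : G →* (ZMod p)ˣ) (J : Rep.{0} ℤ G) (ζ : J.V) : Prop :=
  p • ζ = 0 ∧ ∀ g : G, J.ρ g ζ = ((χ g : ZMod p).val) • ζ

/-- the cup product of two 1-cochains: `(x ∪ y)(σ, τ) = β(x σ, σ • y τ) • ζ` -/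
def cupCoc (P : DualPair χ A B) (J : Rep.{0} ℤ G) (ζ : J.V) (x : G → A.V) (y : G → B.V) :
    G × G → J.V :=
  fun στ => ((P.β (x στ.1) (B.ρ στ.1 (y στ.2))).val) • ζ

/-- the cup product of an element of `A` (think: an invariant) with a 2-cochain of `B` -/
def cupZero (P : DualPair χ A B) (J : Rep.{0} ℤ G) (ζ : J.V) (a : A.V) (z : G × G → B.V) :
    G × G → J.V :=
  fun στ => ((P.β a (z στ)).val) • ζ

end Cup

/-! ### Local objects of a datum -/

section Local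

variable {p : ℕ} {G : Type} [Group G] {ι : Type} {Gloc : ι → Type} [∀ v, Group (Gloc v)]

/-- the local `p`-th root of unity `ζ_v = j_v(ζ) ∈ J_v` -/
def zetaLoc (D : PTDatum p G ι Gloc) (v : ι) : (D.Jloc v).V := (D.j v).hom D.ζ

/-- the local cyclotomic character -/
def chiLoc (D : PTDatum p G ι Gloc) (v : ι) : Gloc v →* (ZMod p)ˣ := D.χ.comp (D.r v)

/-- the local level cohomology `H¹_lev(G_v, A)` -/
abbrev locH1 (D : PTDatum p G ι Gloc) (A : Rep.{0} (ZMod p) G) (v : ι) :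
    Submodule (ZMod p) (H1 (Rep.res (D.r v) A)) :=
  levH1 (D.𝒯loc v) (Rep.res (D.r v) A)

/-- the local cup product `H¹(G_v, A) × H¹(G_v, B) → H²(G_v, J_v)` on cochain functions -/
def cupLoc (D : PTDatum p G ι Gloc) {A B : Rep.{0} (ZMod p) G} (P : DualPair D.χ A B) (v : ι)
    (x : Gloc v → A.V) (y : Gloc v → B.V) : Gloc v × Gloc v → (D.Jloc v).V :=
  cupCoc (P.res (D.r v)) (D.Jloc v) (zetaLoc D v) x y

/-- **Local orthogonality** of two classes: the cup product of any two level representatives is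
a level coboundary in `J_v`. -/
def LocOrth (D : PTDatum p G ι Gloc) {A B : Rep.{0} (ZMod p) G} (P : DualPair D.χ A B) (v : ι)
    (x : H1 (Rep.res (D.r v) A)) (y : H1 (Rep.res (D.r v) B)) : Prop :=
  ∀ (cx : cocycles₁ (Rep.res (D.r v) A)) (cy : cocycles₁ (Rep.res (D.r v) B)),
    IsLevel₁ (D.𝒯loc v) (cx : Gloc v → A.V) → IsLevel₁ (D.𝒯loc v) (cy : Gloc v → B.V) →
    (H1π (Rep.res (D.r v) A)).hom cx = x → (H1π (Rep.res (D.r v) B)).hom cy = y →
    cupLoc D P v cx cy ∈ levCoboundaries₂ (D.𝒯loc v) (D.Jloc v)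

/-- `L'` is the exact annihilator of the local condition `L` (inside level cohomology). -/
def IsPerp (D : PTDatum p G ι Gloc) {A B : Rep.{0} (ZMod p) G} (P : DualPair D.χ A B) (v : ι)
    (L : Submodule (ZMod p) (H1 (Rep.res (D.r v) A)))
    (L' : Submodule (ZMod p) (H1 (Rep.res (D.r v) B))) : Prop :=
  ∀ y, y ∈ L' ↔ y ∈ locH1 D B v ∧ ∀ x ∈ L, x ∈ locH1 D A v → LocOrth D P v x y

/-- **The Selmer group** `Sel_L(A) = {x ∈ H¹_lev(G, A) | loc_v x ∈ L_v ∀ v}`. -/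
def selLev (D : PTDatum p G ι Gloc) [Fact p.Prime] (A : Rep.{0} (ZMod p) G)
    (L : ∀ v, Submodule (ZMod p) (H1 (Rep.res (D.r v) A))) : Submodule (ZMod p) (H1 A) :=
  levH1 D.𝒯 A ⊓ selmer D.r A L

/-- `A` is trivial on a level -/
def TrivOnLevel (𝒯 : Tower G) (A : Rep.{0} (ZMod p) G) : Prop :=
  ∃ U ∈ 𝒯.lev, ∀ s ∈ U, A.ρ s = 1

/-- the generic form of the datum axiom `exist` (existence theorem mod `p`) for `(G, 𝒯, C)` -/
def HasExist (p : ℕ) (𝒯 : Tower G) (C : Rep.{0} ℤ G) : Prop :=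
  ∀ U ∈ 𝒯.lev, ∃ U₁ ∈ 𝒯.lev, ∃ U' ∈ 𝒯.lev, U₁ ≤ U ∧ U' ≤ U₁ ∧ U₁.Normal ∧ U'.Normal ∧
    ∀ c : C.V, (∀ s ∈ U', C.ρ s c = c) →
      ∃ c' : C.V, (∀ s ∈ U₁, C.ρ s c' = c') ∧
        p • c' = ∑ᶠ t : ↥U₁ ⧸ U'.subgroupOf U₁, C.ρ ((Quotient.out t : ↥U₁) : G) c

/-- **(LocExist)** the local existence theorem mod `p` — NOT a field of `PTDatum`; to be supplied
for the concrete datum by TW-L / PT-L (`kummerMax`, `compositumNorm`). -/
def LocExist (D : PTDatum p G ι Gloc) : Prop :=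
  ∀ v, HasExist p (D.𝒯loc v) (D.Jloc v)

end Local

/-! ### The pieces -/

/-- **F-cup** (cochain calculus; each clause a few lines).  Generic over `(G, 𝒯, J, ζ)`:
1. the cup product of two level 1-cocycles is a level 2-cocycle;
2./3. additivity in each variable (on the nose);
4. `coboundary ∪ cocycle` and 5. `cocycle ∪ coboundary` are level coboundaries;
6. the cup product is killed by `p` (on the nose). -/
def StmtCupBasic : Prop :=
  ∀ (p : ℕ) [Fact p.Prime] (G : Type) [Group G] (𝒯 : Tower G) (χ : G →* (ZMod p)ˣ)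
    (A B : Rep.{0} (ZMod p) G) (P : DualPair χ A B) (J : Rep.{0} ℤ G) (ζ : J.V),
    IsKummer χ J ζ → TrivOnLevel 𝒯 A → TrivOnLevel 𝒯 B →
    (∀ (x : G → A.V) (y : G → B.V), x ∈ cocycles₁ A → y ∈ cocycles₁ B → IsLevel₁ 𝒯 x →
      IsLevel₁ 𝒯 y → cupCoc P J ζ x y ∈ levCocycles₂ 𝒯 J) ∧
    (∀ (x x' : G → A.V) (y : G → B.V),
      cupCoc P J ζ (x + x') y - (cupCoc P J ζ x y + cupCoc P J ζ x' y) ∈ levCoboundaries₂ 𝒯 J) ∧
    (∀ (x : G → A.V) (y y' : G → B.V),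
      cupCoc P J ζ x (y + y') - (cupCoc P J ζ x y + cupCoc P J ζ x y') ∈ levCoboundaries₂ 𝒯 J) ∧
    (∀ (x : G → A.V) (y : G → B.V), x ∈ coboundaries₁ A → y ∈ cocycles₁ B → IsLevel₁ 𝒯 y →
      cupCoc P J ζ x y ∈ levCoboundaries₂ 𝒯 J) ∧
    (∀ (x : G → A.V) (y : G → B.V), x ∈ cocycles₁ A → IsLevel₁ 𝒯 x → y ∈ coboundaries₁ B →
      cupCoc P J ζ x y ∈ levCoboundaries₂ 𝒯 J) ∧
    (∀ (x : G → A.V) (y : G → B.V), p • cupCoc P J ζ x y = 0)

/-- **F-anti** (anticommutativity): `x ∪ y + (y ∪ x)ᵗ = -d h`, `h σ = β(x σ, y σ) ζ`.  Here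
`(y ∪ x)` is formed with the flipped pair, so no transposition of arguments is needed:
`cupCoc P.flip y x (σ, τ) = β(σ x τ, y σ) ζ`. -/
def StmtCupAnti : Prop :=
  ∀ (p : ℕ) [Fact p.Prime] (G : Type) [Group G] (𝒯 : Tower G) (χ : G →* (ZMod p)ˣ)
    (A B : Rep.{0} (ZMod p) G) (P : DualPair χ A B) (J : Rep.{0} ℤ G) (ζ : J.V),
    IsKummer χ J ζ →
    ∀ (x : G → A.V) (y : G → B.V), x ∈ cocycles₁ A → y ∈ cocycles₁ B → IsLevel₁ 𝒯 x →
      IsLevel₁ 𝒯 y → cupCoc P J ζ x y + cupCoc P.flip J ζ y x ∈ levCoboundaries₂ 𝒯 J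

/-- **F-conn** (connecting map and comparison with the PT-F pairing).  Generic over `(G, 𝒯, J, ζ)`
with `J` discrete, `p`-divisible, `J[p] = ⟨ζ⟩`; `Pr` a presentation of `B`.  For every
`g : M₁ ⟶ J` there is a level 1-cocycle `x` of `A` (namely `x σ = κ⁻¹(σ g̃ σ⁻¹ - g̃)`, `g̃` an
additive extension of `g` to `M₀`, `StmtExt`) with
`pairCoc Pr g c + x ∪ c = d u`, `u σ = g̃ (s (c σ))`, for all level 1-cocycles `c` of `B`. -/
def StmtConnCmp : Prop :=
  ∀ (p : ℕ) [Fact p.Prime] (G : Type) [Group G] (𝒯 : Tower G) (χ : G →* (ZMod p)ˣ)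
    (A B : Rep.{0} (ZMod p) G) [FiniteDimensional (ZMod p) A] [FiniteDimensional (ZMod p) B]
    (P : DualPair χ A B) (J : Rep.{0} ℤ G) (ζ : J.V),
    IsKummer χ J ζ → IsDiscrete 𝒯 J → (∀ x : J.V, ∃ y : J.V, p • y = x) →
    (∀ x : J.V, p • x = 0 → ∃ n : ℕ, x = n • ζ) → ζ ≠ 0 →
    ∀ (Pr : Presentation 𝒯 B) (g : Pr.M₁ ⟶ J),
      ∃ x : G → A.V, x ∈ cocycles₁ A ∧ IsLevel₁ 𝒯 x ∧
        ∀ c : G → B.V, c ∈ cocycles₁ B → IsLevel₁ 𝒯 c →
          pairCoc Pr g c + cupCoc P J ζ x c ∈ levCoboundaries₂ 𝒯 J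

/-- **F-connSurj** (the connecting map is onto; Hilbert 90 + Shapiro, i.e. `In4`): every level
1-cocycle `x` of `A` on `G_v` is, up to a coboundary, the cocycle attached to some `g : M₁ ⟶ J_v`. -/
def StmtConnSurj : Prop :=
  ∀ (p : ℕ) [Fact p.Prime] (G : Type) [Group G] (ι : Type) [Fintype ι] (Gloc : ι → Type)
    [∀ v, Group (Gloc v)] (D : PTDatum p G ι Gloc)
    (A B : Rep.{0} (ZMod p) G) [FiniteDimensional (ZMod p) A] [FiniteDimensional (ZMod p) B]
    (P : DualPair D.χ A B) (Pr : Presentation D.𝒯 B), In4 D Pr.M₀ →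
    ∀ (v : ι) (x : Gloc v → A.V), x ∈ cocycles₁ (Rep.res (D.r v) A) → IsLevel₁ (D.𝒯loc v) x →
      ∃ g : Rep.res (D.r v) Pr.M₁ ⟶ D.Jloc v,
        ∀ c : Gloc v → B.V, c ∈ cocycles₁ (Rep.res (D.r v) B) → IsLevel₁ (D.𝒯loc v) c →
          pairCoc (LocNondeg.presRes Pr (D.𝒯loc v) (D.r v) (D.comap_mem v)) g c + cupLoc D P v x c ∈
            levCoboundaries₂ (D.𝒯loc v) (D.Jloc v)

/-- **F-locRight** (local Tate duality, right kernel): a level 1-cocycle `y` of `B` on `G_v` whose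
cup product with every level 1-cocycle of `A` is a level coboundary, is a coboundary.
(`StmtRightKer` for `(G_v, 𝒯loc v, J_v)` with the standard presentation of `B`, and `StmtConnCmp`.) -/
def StmtLocRight : Prop :=
  ∀ (p : ℕ) [Fact p.Prime] (G : Type) [Group G] (ι : Type) [Fintype ι] (Gloc : ι → Type)
    [∀ v, Group (Gloc v)] (D : PTDatum p G ι Gloc)
    (A B : Rep.{0} (ZMod p) G) [FiniteDimensional (ZMod p) A] [FiniteDimensional (ZMod p) B]
    (P : DualPair D.χ A B), TrivOnLevel D.𝒯 A → TrivOnLevel D.𝒯 B →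
    ∀ (v : ι) (y : Gloc v → B.V), y ∈ cocycles₁ (Rep.res (D.r v) B) → IsLevel₁ (D.𝒯loc v) y →
      (∀ x : Gloc v → A.V, x ∈ cocycles₁ (Rep.res (D.r v) A) → IsLevel₁ (D.𝒯loc v) x →
        cupLoc D P v x y ∈ levCoboundaries₂ (D.𝒯loc v) (D.Jloc v)) →
      y ∈ coboundaries₁ (Rep.res (D.r v) B)

/-- **F-locLeft** (local Tate duality, left kernel) — from `StmtLocRight` for the flipped pair and
`StmtCupAnti`. -/
def StmtLocLeft : Prop :=
  ∀ (p : ℕ) [Fact p.Prime] (G : Type) [Group G] (ι : Type) [Fintype ι] (Gloc : ι → Type)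
    [∀ v, Group (Gloc v)] (D : PTDatum p G ι Gloc)
    (A B : Rep.{0} (ZMod p) G) [FiniteDimensional (ZMod p) A] [FiniteDimensional (ZMod p) B]
    (P : DualPair D.χ A B), TrivOnLevel D.𝒯 A → TrivOnLevel D.𝒯 B →
    ∀ (v : ι) (x : Gloc v → A.V), x ∈ cocycles₁ (Rep.res (D.r v) A) → IsLevel₁ (D.𝒯loc v) x →
      (∀ y : Gloc v → B.V, y ∈ cocycles₁ (Rep.res (D.r v) B) → IsLevel₁ (D.𝒯loc v) y →
        cupLoc D P v x y ∈ levCoboundaries₂ (D.𝒯loc v) (D.Jloc v)) →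
      x ∈ coboundaries₁ (Rep.res (D.r v) A)

/-- **F-fin** (finiteness of local level cohomology), from the local existence theorem.
(Generic versions of PT-F `StmtLeftKer`, `StmtH1Finite` for `(G_v, 𝒯loc v, J_v)`.) -/
def StmtLocFin : Prop :=
  ∀ (p : ℕ) [Fact p.Prime] (G : Type) [Group G] (ι : Type) [Fintype ι] (Gloc : ι → Type)
    [∀ v, Group (Gloc v)] (D : PTDatum p G ι Gloc), LocExist D →
    ∀ (A : Rep.{0} (ZMod p) G) [FiniteDimensional (ZMod p) A], TrivOnLevel D.𝒯 A →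
    ∀ v, Finite ↥(locH1 D A v)

/-- **F-glofin** (finiteness of global level cohomology) = PT-F `StmtH1Finite` with the standard
presentation. -/
def StmtGloFin : Prop :=
  ∀ (p : ℕ) [Fact p.Prime] (G : Type) [Group G] (ι : Type) [Fintype ι] (Gloc : ι → Type)
    [∀ v, Group (Gloc v)] (D : PTDatum p G ι Gloc)
    (A : Rep.{0} (ZMod p) G) [FiniteDimensional (ZMod p) A], TrivOnLevel D.𝒯 A →
    Finite ↥(levH1 D.𝒯 A)

/-- **F-rec** (the local invariant maps and RECIPROCITY).  There are injective additive maps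
`λ_v : H²_lev(G_v, J_v)[p] → 𝔽_p` (depending only on `D`) such that for all dual pairs and all
global level 1-cocycles `x` of `A`, `y` of `B`:  `Σ_v λ_v [res_v x ∪ res_v y] = 0`.
(The class `[res_v x ∪ res_v y]` is given by any level 2-cocycle `w v` equal to the cup product.)
Proof: NOTES/TW-F.md §rec (the global cup product has values in `E`, so it dies in `C`;
`λ_v := inv_glob ∘ π_*` on `v`-supported classes; `surv`, `StmtIn2a`, `levH2_pTorsion_cyclic`). -/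
def StmtRec : Prop :=
  ∀ (p : ℕ) [Fact p.Prime] (G : Type) [Group G] (ι : Type) [Fintype ι] (Gloc : ι → Type)
    [∀ v, Group (Gloc v)] (D : PTDatum p G ι Gloc),
    ∃ lam : ∀ v, ↥(pTors p (levH2 (D.𝒯loc v) (D.Jloc v))) →+ ZMod p,
      (∀ v, Function.Injective (lam v)) ∧
      ∀ (A B : Rep.{0} (ZMod p) G) (P : DualPair D.χ A B), TrivOnLevel D.𝒯 A →
        TrivOnLevel D.𝒯 B →
        ∀ (x : G → A.V) (y : G → B.V), x ∈ cocycles₁ A → y ∈ cocycles₁ B → IsLevel₁ D.𝒯 x →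
          IsLevel₁ D.𝒯 y →
          ∀ (w : ∀ v, ↥(levCocycles₂ (D.𝒯loc v) (D.Jloc v)))
            (_ : ∀ v, ((w v : Gloc v × Gloc v → (D.Jloc v).V)) =
              cupLoc D P v (resOne D v x) (resOne D v y))
            (hp : ∀ v, levH2π (D.𝒯loc v) (D.Jloc v) (w v) ∈ pTors p (levH2 (D.𝒯loc v) (D.Jloc v))),
            ∑ v, lam v ⟨levH2π (D.𝒯loc v) (D.Jloc v) (w v), hp v⟩ = 0

/-- **F-pair** (the local pairings on classes).  For injective `λ_v` there are bilinear maps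
`B_v : H¹_lev(G_v, A) × H¹_lev(G_v, B) → 𝔽_p` with `B_v([x],[y]) = λ_v [x ∪ y]` on level cocycles.
(`StmtCupBasic`; same technique as PT-F `stmtPairH1_of`.) -/
def StmtLocPair : Prop :=
  ∀ (p : ℕ) [Fact p.Prime] (G : Type) [Group G] (ι : Type) [Fintype ι] (Gloc : ι → Type)
    [∀ v, Group (Gloc v)] (D : PTDatum p G ι Gloc)
    (lam : ∀ v, ↥(pTors p (levH2 (D.𝒯loc v) (D.Jloc v))) →+ ZMod p)
    (A B : Rep.{0} (ZMod p) G) (P : DualPair D.χ A B), TrivOnLevel D.𝒯 A → TrivOnLevel D.𝒯 B →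
    ∀ v, ∃ Bv : ↥(locH1 D A v) →ₗ[ZMod p] ↥(locH1 D B v) →ₗ[ZMod p] ZMod p,
      ∀ (cx : cocycles₁ (Rep.res (D.r v) A)) (cy : cocycles₁ (Rep.res (D.r v) B))
        (hx : IsLevel₁ (D.𝒯loc v) (cx : Gloc v → A.V))
        (hy : IsLevel₁ (D.𝒯loc v) (cy : Gloc v → B.V))
        (w : ↥(levCocycles₂ (D.𝒯loc v) (D.Jloc v)))
        (_ : (w : Gloc v × Gloc v → (D.Jloc v).V) = cupLoc D P v cx cy)
        (hp : levH2π (D.𝒯loc v) (D.Jloc v) w ∈ pTors p (levH2 (D.𝒯loc v) (D.Jloc v))),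
        Bv ⟨(H1π _).hom cx, (mem_levH1_iff _ _ _).2 ⟨cx, hx, rfl⟩⟩
            ⟨(H1π _).hom cy, (mem_levH1_iff _ _ _).2 ⟨cy, hy, rfl⟩⟩ =
          lam v ⟨levH2π (D.𝒯loc v) (D.Jloc v) w, hp⟩

/-- **F-sha**: `dim Ш¹(A) = dim Ш²(B)` for a dual pair (`stmtPTF` for `B`, transported along
`A ≅ B.dualTwist χ`, `a ↦ β(a, ·)`; finiteness from `StmtGloFin`). -/
def StmtShaEq : Prop :=
  ∀ (p : ℕ) [Fact p.Prime] (G : Type) [Group G] (ι : Type) [Fintype ι] (Gloc : ι → Type)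
    [∀ v, Group (Gloc v)] (D : PTDatum p G ι Gloc)
    (A B : Rep.{0} (ZMod p) G) [FiniteDimensional (ZMod p) A] [FiniteDimensional (ZMod p) B]
    (_ : DualPair D.χ A B), TrivOnLevel D.𝒯 A → TrivOnLevel D.𝒯 B →
    finrank (ZMod p) ↥(D.shaOne A) = finrank (ZMod p) ↥(D.shaTwo B)

/-- **F-gw1** (first half of Greenberg–Wiles; needs NO Euler characteristic and NO `H²`):
`dim Sel_L(A) + h¹(B) ≤ dim Ш¹(A) + Σ_v dim L_v + dim Sel_{L^⊥}(B)`. -/
def StmtGW1 : Prop :=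
  ∀ (p : ℕ) [Fact p.Prime] (G : Type) [Group G] (ι : Type) [Fintype ι] (Gloc : ι → Type)
    [∀ v, Group (Gloc v)] (D : PTDatum p G ι Gloc), LocExist D →
    ∀ (A B : Rep.{0} (ZMod p) G) [FiniteDimensional (ZMod p) A] [FiniteDimensional (ZMod p) B]
      (P : DualPair D.χ A B), TrivOnLevel D.𝒯 A → TrivOnLevel D.𝒯 B →
    ∀ (L : ∀ v, Submodule (ZMod p) (H1 (Rep.res (D.r v) A)))
      (L' : ∀ v, Submodule (ZMod p) (H1 (Rep.res (D.r v) B))),
      (∀ v, L v ≤ locH1 D A v) → (∀ v, IsPerp D P v (L v) (L' v)) →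
      finrank (ZMod p) ↥(selLev D A L) + finrank (ZMod p) ↥(levH1 D.𝒯 B) ≤
        finrank (ZMod p) ↥(D.shaOne A) + (∑ v, finrank (ZMod p) ↥(L v)) +
          finrank (ZMod p) ↥(selLev D B L')

/-- **F-mid** (exactness in the middle of the nine-term sequence, the HARD inclusion):
a family of local level classes of `A` which is orthogonal to the image of `H¹_lev(G, B)` comes
from a global level class.  (PT-F `StmtLeftKer` + `StmtCMP` + `StmtConnSurj` + a snake chase in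
`0 → E → J → C`; NOTES/TW-F.md §mid.) -/
def StmtMid : Prop :=
  ∀ (p : ℕ) [Fact p.Prime] (G : Type) [Group G] (ι : Type) [Fintype ι] (Gloc : ι → Type)
    [∀ v, Group (Gloc v)] (D : PTDatum p G ι Gloc)
    (lam : ∀ v, ↥(pTors p (levH2 (D.𝒯loc v) (D.Jloc v))) →+ ZMod p), (∀ v, Function.Injective (lam v)) →
    ∀ (A B : Rep.{0} (ZMod p) G) [FiniteDimensional (ZMod p) A] [FiniteDimensional (ZMod p) B]
      (P : DualPair D.χ A B), TrivOnLevel D.𝒯 A → TrivOnLevel D.𝒯 B →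
    ∀ (x : ∀ v, cocycles₁ (Rep.res (D.r v) A)), (∀ v, IsLevel₁ (D.𝒯loc v) (x v : Gloc v → A.V)) →
      (∀ (y : G → B.V), y ∈ cocycles₁ B → IsLevel₁ D.𝒯 y →
        ∀ (w : ∀ v, ↥(levCocycles₂ (D.𝒯loc v) (D.Jloc v)))
          (_ : ∀ v, ((w v : Gloc v × Gloc v → (D.Jloc v).V)) =
            cupLoc D P v (x v) (resOne D v y))
          (hp : ∀ v, levH2π (D.𝒯loc v) (D.Jloc v) (w v) ∈
            pTors p (levH2 (D.𝒯loc v) (D.Jloc v))),
          ∑ v, lam v ⟨levH2π (D.𝒯loc v) (D.Jloc v) (w v), hp v⟩ = 0) →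
      ∃ z : G → A.V, z ∈ cocycles₁ A ∧ IsLevel₁ D.𝒯 z ∧
        ∀ v, resOne D v z - (x v : Gloc v → A.V) ∈ coboundaries₁ (Rep.res (D.r v) A)

/-- **F-h2** (end of the nine-term sequence — OPEN, see NOTES/TW-F.md §h2 before you start):
`Σ_v h⁰(G_v, A) ≤ dim im(H²_lev(G, B) → ∏_v H²_lev(G_v, B)) + h⁰(G, A)`.
`hyp` is the extra arithmetic input that turns out to be necessary (the statement is FALSE for a
bare `PTDatum`, e.g. with trivial local groups). -/
def StmtH2Rank (Hyp : ∀ (p : ℕ) (G : Type) [Group G] (ι : Type) (Gloc : ι → Type)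
    [∀ v, Group (Gloc v)], PTDatum p G ι Gloc → Prop) : Prop :=
  ∀ (p : ℕ) [Fact p.Prime] (G : Type) [Group G] (ι : Type) [Fintype ι] (Gloc : ι → Type)
    [∀ v, Group (Gloc v)] (D : PTDatum p G ι Gloc), Hyp p G ι Gloc D →
    ∀ (A B : Rep.{0} (ZMod p) G) [FiniteDimensional (ZMod p) A] [FiniteDimensional (ZMod p) B]
      (_ : DualPair D.χ A B), TrivOnLevel D.𝒯 A → TrivOnLevel D.𝒯 B →
      (∑ v, finrank (ZMod p) ↥((Rep.res (D.r v) A).ρ.invariants)) ≤
        finrank (ZMod p) ↥(LinearMap.range (D.locTwo B)) + finrank (ZMod p) ↥(A.ρ.invariants)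

/-- **F-gw** (THE GREENBERG–WILES INEQUALITY, route 1): with the Euler characteristic inequality
`(EC)` for `B` (TW-E) and the rank inequality `(H2)` (= conclusion of `StmtH2Rank`) as hypotheses,
`dim Sel_L(A) + h⁰(B) + e + Σ_v h⁰(G_v, A) ≤ dim Sel_{L^⊥}(B) + h⁰(A) + Σ_v dim L_v`. -/
def StmtGW : Prop :=
  ∀ (p : ℕ) [Fact p.Prime] (G : Type) [Group G] (ι : Type) [Fintype ι] (Gloc : ι → Type)
    [∀ v, Group (Gloc v)] (D : PTDatum p G ι Gloc), LocExist D →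
    ∀ (A B : Rep.{0} (ZMod p) G) [FiniteDimensional (ZMod p) A] [FiniteDimensional (ZMod p) B]
      (P : DualPair D.χ A B), TrivOnLevel D.𝒯 A → TrivOnLevel D.𝒯 B →
    ∀ (L : ∀ v, Submodule (ZMod p) (H1 (Rep.res (D.r v) A)))
      (L' : ∀ v, Submodule (ZMod p) (H1 (Rep.res (D.r v) B))),
      (∀ v, L v ≤ locH1 D A v) → (∀ v, IsPerp D P v (L v) (L' v)) →
    ∀ (e : ℕ), FiniteDimensional (ZMod p) (levH2 D.𝒯 B) →
      finrank (ZMod p) ↥(B.ρ.invariants) + finrank (ZMod p) (levH2 D.𝒯 B) + e ≤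
        finrank (ZMod p) ↥(levH1 D.𝒯 B) →
      (∑ v, finrank (ZMod p) ↥((Rep.res (D.r v) A).ρ.invariants)) ≤
        finrank (ZMod p) ↥(LinearMap.range (D.locTwo B)) + finrank (ZMod p) ↥(A.ρ.invariants) →
      finrank (ZMod p) ↥(selLev D A L) + finrank (ZMod p) ↥(B.ρ.invariants) + e +
          (∑ v, finrank (ZMod p) ↥((Rep.res (D.r v) A).ρ.invariants)) ≤
        finrank (ZMod p) ↥(selLev D B L') + finrank (ZMod p) ↥(A.ρ.invariants) +
          ∑ v, finrank (ZMod p) ↥(L v)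

/-- **F-master** (the Greenberg–Wiles EQUALITY without Euler characteristics, route 2; uses
`StmtMid`):  `dim Sel_L(A) + h¹(B) = dim Ш¹(A) + Σ_v dim L_v + dim Sel_{L^⊥}(B)`.
Equivalently (apply it to `(B, A, L^⊥)`):
`dim Sel_L(A) + dim Ш¹(B) + Σ_v dim L_v^⊥ = dim Sel_{L^⊥}(B) + h¹(A)`. -/
def StmtMaster : Prop :=
  ∀ (p : ℕ) [Fact p.Prime] (G : Type) [Group G] (ι : Type) [Fintype ι] (Gloc : ι → Type)
    [∀ v, Group (Gloc v)] (D : PTDatum p G ι Gloc), LocExist D →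
    ∀ (A B : Rep.{0} (ZMod p) G) [FiniteDimensional (ZMod p) A] [FiniteDimensional (ZMod p) B]
      (P : DualPair D.χ A B), TrivOnLevel D.𝒯 A → TrivOnLevel D.𝒯 B →
    ∀ (L : ∀ v, Submodule (ZMod p) (H1 (Rep.res (D.r v) A)))
      (L' : ∀ v, Submodule (ZMod p) (H1 (Rep.res (D.r v) B))),
      (∀ v, L v ≤ locH1 D A v) → (∀ v, IsPerp D P v (L v) (L' v)) →
      finrank (ZMod p) ↥(selLev D A L) + finrank (ZMod p) ↥(levH1 D.𝒯 B) =
        finrank (ZMod p) ↥(D.shaOne A) + (∑ v, finrank (ZMod p) ↥(L v)) +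
          finrank (ZMod p) ↥(selLev D B L')

end Fermat.Agent.TW.F

end
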