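/-
TW-F, block F-h2 (end of the nine-term sequence) — INTERFACE FILE 2 (helper68).
Mathematics: NOTES/TW-F.md §9 (helper63's proof (E1), simplified dévissage by PUSH-FORWARD).
No `H³`, no Euler characteristic, no local duality in degree 2 is used.

For a family `a = (a_v)`, `a_v ∈ A^{G_v}`, let `ψ_a : B → J`, `ψ_a(b)(v)(g) = β(a_v, g b) • ζ_v`
(a `G`-map with values in `J[p]`).  Then `Σ_v inv_v (a_v ∪ res_v z) = inv_glob [π ∘ ψ_a ∘ z]`, and
`π ∘ ψ_a = 0` iff `a` is diagonal (`a_v = a₀ ∈ A^G`).  So everything follows from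

  **(H2Hom)**  a `G`-map `ψ : B → J` with `π ∘ ψ ≠ 0` is detected by some `z ∈ Z²_lev(G, B)`:
               `π ∘ ψ ∘ z` is not a level coboundary of `C`.

and (H2Hom) for `B` follows from (H2Hom) for the permutation module `𝔽_p[G/U]` by pushing a class
forward along `𝔽_p[G/U] → B`, `gU ↦ g b` (`π ψ b ≠ 0`, `U` a level fixing `b`).
-/
import Fermat.Agent.TW.F.Plan

set_option autoImplicit false

noncomputable section

namespace Fermat.Agent.TW.F

open CategoryTheory groupCohomology Module Fermat.Agent.PT Fermat.Agent.PT.F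

variable {p : ℕ} {G : Type} [Group G] {ι : Type} {Gloc : ι → Type} [∀ v, Group (Gloc v)]

/-- the BIG-local-tower version of `p`-depth: every local level `V` has a sublevel `W ≤ V` with
`p ∣ [V : W]`.  (Proved for the concrete datum in TW/L/PDepth.lean.  It is TOO WEAK for
`StmtH2Perm` — remark of helper55 — and is kept only for reference; it follows from
`HasPDepth`.) -/
def HasPDepthBig (D : PTDatum p G ι Gloc) : Prop :=
  ∀ v, ∀ V ∈ (D.𝒯loc v).lev, ∃ W ∈ (D.𝒯loc v).lev, W ≤ V ∧ p ∣ (W.subgroupOf V).index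

/-- **(HasPDepth)** — NEW datum hypothesis (not a field of `PTDatum`), in its PULLED-BACK form
(the body is the one of `Fermat.Agent.TW.E.HasPDepthGlob`, TW/E/Plan.lean): below every GLOBAL
level `U` there is a normal GLOBAL level `U' ≤ U` whose LOCAL relative index at `v`,
`[r_v⁻¹ U : r_v⁻¹ U']`, is divisible by `p`, for every `v`.
Consequence (with `cm_loc`): the `v`-components of the classes of `H²_lev(G, J)[p]` are nonzero.
For the concrete datum: `Fermat.Agent.TW.E.StmtPDepthTower` (cyclotomic `ℤ_p`-extension). -/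
def HasPDepth (D : PTDatum p G ι Gloc) : Prop :=
  ∀ (v : ι), ∀ U ∈ D.𝒯.lev, ∃ U' ∈ D.𝒯.lev, U' ≤ U ∧ U'.Normal ∧
    p ∣ (U'.comap (D.r v)).relIndex (U.comap (D.r v))

/-- `ψ` is a `G`-map `B → J` (additive and equivariant) -/
def IsGMap (D : PTDatum p G ι Gloc) (B : Rep.{0} (ZMod p) G) (ψ : B.V →+ (PTJ D).V) : Prop :=
  ∀ (g : G) (b : B.V), ψ (B.ρ g b) = (PTJ D).ρ g (ψ b)

/-- the 2-cochain `π ∘ ψ ∘ z` of `C` -/
def pushC (D : PTDatum p G ι Gloc) {B : Rep.{0} (ZMod p) G} (ψ : B.V →+ (PTJ D).V)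
    (z : G × G → B.V) : G × G → D.C.V :=
  fun gg => D.π.hom (ψ (z gg))

/-- the permutation module `𝔽_p[G/U]` -/
abbrev permRep (p : ℕ) (U : Subgroup G) : Rep.{0} (ZMod p) G :=
  Rep.ofMulAction (ZMod p) G (G ⧸ U)

/-- **F-h2perm** (the permutation case, helper63's (E1) in pairing form): for a normal level `U` on
which `χ` is trivial, every `G`-map `Ψ : 𝔽_p[G/U] → J` with `π ∘ Ψ ≠ 0` is detected by a level
2-cocycle of `𝔽_p[G/U]`.
Proof sketch (NOTES/TW-F.md §9): untwist `𝔽_p[G/U] ≅ Hom_ℤ(ℤ[G/U], μ_p)`; `Ψ` = a function `m` on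
the "places" `r(G_v) \ G / U`, not constant because `π Ψ ≠ 0`; take two places `w₁, w₂` with
`m w₁ ≠ m w₂`, classes `Y₁, Y₂ ∈ H²_lev(G, Hom(ℤ[G/U], J))[p]` supported at `w₁, w₂` with nonzero
invariants (inverse Shapiro + `HasPDepth` + `cm_loc`); a combination `Y₁ - t Y₂` dies in
`H²_lev(G, Hom(ℤ[G/U], C))[p]` (≤ `p` elements: Shapiro for `C`), hence comes from
`Hom(ℤ[G/U], E)` (exactness, In1) and from `Hom(ℤ[G/U], μ_p)` (`E_div`); its pairing with `Ψ` has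
invariant `m w₁ - m w₂ ≠ 0` (`surv`). -/
def StmtH2Perm : Prop :=
  ∀ (p : ℕ) [Fact p.Prime] (G : Type) [Group G] (ι : Type) [Fintype ι] (Gloc : ι → Type)
    [∀ v, Group (Gloc v)] (D : PTDatum p G ι Gloc), HasPDepth D →
    ∀ (U : Subgroup G), U.Normal → U ∈ D.𝒯.lev → (∀ s ∈ U, D.χ s = 1) →
    ∀ Ψ : (permRep p U).V →+ (PTJ D).V, IsGMap D (permRep p U) Ψ →
      (∃ x, D.π.hom (Ψ x) ≠ 0) →
      ∃ z : G × G → (permRep p U).V, z ∈ levCocycles₂ D.𝒯 (permRep p U) ∧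
        pushC D Ψ z ∉ levCoboundaries₂ D.𝒯 D.C

/-- **(H2Hom)**: for every finite `B`, trivial on a level, every `G`-map `ψ : B → J` with
`π ∘ ψ ≠ 0` is detected by a level 2-cocycle of `B`. -/
def StmtH2Hom : Prop :=
  ∀ (p : ℕ) [Fact p.Prime] (G : Type) [Group G] (ι : Type) [Fintype ι] (Gloc : ι → Type)
    [∀ v, Group (Gloc v)] (D : PTDatum p G ι Gloc), HasPDepth D →
    ∀ (B : Rep.{0} (ZMod p) G) [FiniteDimensional (ZMod p) B], TrivOnLevel D.𝒯 B →
    ∀ ψ : B.V →+ (PTJ D).V, IsGMap D B ψ → (∃ b, D.π.hom (ψ b) ≠ 0) →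
      ∃ z : G × G → B.V, z ∈ levCocycles₂ D.𝒯 B ∧ pushC D ψ z ∉ levCoboundaries₂ D.𝒯 D.C

/-- **F-h2dev** (dévissage by push-forward): `stmtH2Hom_of : StmtH2Perm → StmtH2Hom`.
(`b` with `π ψ b ≠ 0`; `U` a normal level acting trivially on `B` and with `χ|_U = 1`;
`f : 𝔽_p[G/U] → B`, `gU ↦ g b`; apply `StmtH2Perm` to `Ψ := ψ ∘ f` and take `z := f ∘ z_Ω`.) -/
def StmtH2Dev : Prop := StmtH2Perm → StmtH2Hom

/-- **F-h2rank** (the rank inequality `(H2)` consumed by `StmtGW`), with `H²_lev(G, B)` finite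
dimensional (TW-E).  `stmtH2Rank_of : StmtH2Hom → StmtH2RankFD`:
`W := ⊕_v A^{G_v} → Hom(H²_lev(G,B), 𝔽_p)`, `a ↦ (z ↦ inv_glob [π ψ_a z])` (`exists_inv` for
`(G, 𝒯, C)`); it kills `ker loc₂` (`In2` for `M = ℤ`: `ψ_a z` is locally `a_v ∪ res_v z`), and its
kernel is contained in the diagonal `A^G` (`StmtH2Hom`; `π ψ_a = 0 ⇒ a` diagonal because
`ker π ∩ J[p] = 𝔽_p · i(ζ)`). -/
def StmtH2RankFD : Prop :=
  ∀ (p : ℕ) [Fact p.Prime] (G : Type) [Group G] (ι : Type) [Fintype ι] (Gloc : ι → Type)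
    [∀ v, Group (Gloc v)] (D : PTDatum p G ι Gloc), HasPDepth D →
    ∀ (A B : Rep.{0} (ZMod p) G) [FiniteDimensional (ZMod p) A] [FiniteDimensional (ZMod p) B]
      (_ : DualPair D.χ A B), TrivOnLevel D.𝒯 A → TrivOnLevel D.𝒯 B →
      FiniteDimensional (ZMod p) (levH2 D.𝒯 B) →
      (∑ v, finrank (ZMod p) ↥((Rep.res (D.r v) A).ρ.invariants)) ≤
        finrank (ZMod p) ↥(LinearMap.range (D.locTwo B)) + finrank (ZMod p) ↥(A.ρ.invariants)

/-- **THE GREENBERG–WILES INEQUALITY, final form for TW-asm** (route 1): from a datum with the two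
extra inputs `LocExist`, `HasPDepth` and the Euler characteristic inequality `(EC)` for `B`
(TW-E).  `stmtGWFinal_of : StmtGW → StmtH2RankFD → StmtGWFinal`. -/
def StmtGWFinal : Prop :=
  ∀ (p : ℕ) [Fact p.Prime] (G : Type) [Group G] (ι : Type) [Fintype ι] (Gloc : ι → Type)
    [∀ v, Group (Gloc v)] (D : PTDatum p G ι Gloc), LocExist D → HasPDepth D →
    ∀ (A B : Rep.{0} (ZMod p) G) [FiniteDimensional (ZMod p) A] [FiniteDimensional (ZMod p) B]
      (P : DualPair D.χ A B), TrivOnLevel D.𝒯 A → TrivOnLevel D.𝒯 B →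
    ∀ (L : ∀ v, Submodule (ZMod p) (H1 (Rep.res (D.r v) A)))
      (L' : ∀ v, Submodule (ZMod p) (H1 (Rep.res (D.r v) B))),
      (∀ v, L v ≤ locH1 D A v) → (∀ v, IsPerp D P v (L v) (L' v)) →
    ∀ (e : ℕ), FiniteDimensional (ZMod p) (levH2 D.𝒯 B) →
      finrank (ZMod p) ↥(B.ρ.invariants) + finrank (ZMod p) (levH2 D.𝒯 B) + e ≤
        finrank (ZMod p) ↥(levH1 D.𝒯 B) →
      finrank (ZMod p) ↥(selLev D A L) + finrank (ZMod p) ↥(B.ρ.invariants) + e +
          (∑ v, finrank (ZMod p) ↥((Rep.res (D.r v) A).ρ.invariants)) ≤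
        finrank (ZMod p) ↥(selLev D B L') + finrank (ZMod p) ↥(A.ρ.invariants) +
          ∑ v, finrank (ZMod p) ↥(L v)

theorem stmtGWFinal_of (hGW : StmtGW) (hH2 : StmtH2RankFD) : StmtGWFinal := by
  intro p _ G _ ι _ Gloc _ D hLE hPD A B _ _ P hA hB L L' hL hL' e hfin hEC
  exact hGW p G ι Gloc D hLE A B P hA hB L L' hL hL' e hfin hEC
    (hH2 p G ι Gloc D hPD A B P hA hB hfin)

end Fermat.Agent.TW.F

end
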