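/-
TW-F, piece F-gw1 (helper9), part 1: the abstract form of the first half of Greenberg–Wiles.

Pure linear algebra on top of `TW/F/GW.lean` (`gw_selmer_le`, `gwPiPair`, `gw_perp_pi`,
`gw_finrank_pi`): the global-to-local maps are given on ambient spaces `X → Y v`, the level
cohomology groups are subspaces `S ≤ X`, `T v ≤ Y v`, the local pairings live on `T v × T' v`.
-/
import Fermat.Agent.TW.F.GW

set_option autoImplicit false

namespace Fermat.Agent.TW.F

open Module

section Abs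

variable {k : Type*} [Field k] {ι : Type*} [Fintype ι]
  {X : Type*} [AddCommGroup X] [Module k X]
  {Y : ι → Type*} [∀ v, AddCommGroup (Y v)] [∀ v, Module k (Y v)]

/-- the restricted total localisation map `S → ∏_v T v` -/
noncomputable def gw1Loc (f : ∀ v, X →ₗ[k] Y v) (S : Submodule k X) (T : ∀ v, Submodule k (Y v))
    (hST : ∀ v, ∀ x ∈ S, f v x ∈ T v) : ↥S →ₗ[k] ∀ v, ↥(T v) :=
  LinearMap.pi fun v => (f v).restrict (hST v)

omit [Fintype ι] in
lemma gw1Loc_apply (f : ∀ v, X →ₗ[k] Y v) (S : Submodule k X) (T : ∀ v, Submodule k (Y v))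
    (hST : ∀ v, ∀ x ∈ S, f v x ∈ T v) (x : ↥S) (v : ι) :
    gw1Loc f S T hST x v = ⟨f v x, hST v x x.2⟩ := rfl

/-- a subspace of a subspace has the dimension of its image in the ambient space -/
lemma gw1_finrank_map_subtype (S : Submodule k X) (N : Submodule k ↥S) :
    finrank k ↥(N.map S.subtype) = finrank k ↥N :=
  (Submodule.equivMapOfInjective S.subtype (Submodule.injective_subtype S) N).finrank_eq.symm

omit [Fintype ι] in
/-- the Selmer group inside `S` as a subspace of the ambient space -/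
lemma gw1_finrank_sel (f : ∀ v, X →ₗ[k] Y v) (S : Submodule k X) (T : ∀ v, Submodule k (Y v))
    (hST : ∀ v, ∀ x ∈ S, f v x ∈ T v) (L : ∀ v, Submodule k (Y v)) :
    finrank k ↥((Submodule.pi Set.univ fun v => (L v).comap (T v).subtype).comap
        (gw1Loc f S T hST)) =
      finrank k ↥(S ⊓ ⨅ v, (L v).comap (f v)) := by
  have hmap : ((Submodule.pi Set.univ fun v => (L v).comap (T v).subtype).comap
      (gw1Loc f S T hST)).map S.subtype = S ⊓ ⨅ v, (L v).comap (f v) := by
    ext x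
    simp only [Submodule.mem_map, Submodule.mem_comap, Submodule.mem_pi, Submodule.mem_inf,
      Submodule.mem_iInf, Submodule.subtype_apply]
    constructor
    · rintro ⟨⟨x, hx⟩, h, rfl⟩
      exact ⟨hx, fun v => h v (Set.mem_univ v)⟩
    · rintro ⟨hx, h⟩
      exact ⟨⟨x, hx⟩, fun v _ => h v, rfl⟩
  rw [← gw1_finrank_map_subtype S, hmap]

omit [Fintype ι] in
/-- the kernel of localisation inside `S` as a subspace of the ambient space -/
lemma gw1_finrank_ker (f : ∀ v, X →ₗ[k] Y v) (S : Submodule k X) (T : ∀ v, Submodule k (Y v))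
    (hST : ∀ v, ∀ x ∈ S, f v x ∈ T v) :
    finrank k ↥(LinearMap.ker (gw1Loc f S T hST)) =
      finrank k ↥(S ⊓ LinearMap.ker (LinearMap.pi f)) := by
  have hmap : (LinearMap.ker (gw1Loc f S T hST)).map S.subtype =
      S ⊓ LinearMap.ker (LinearMap.pi f) := by
    ext x
    simp only [Submodule.mem_map, LinearMap.mem_ker, Submodule.mem_inf, Submodule.subtype_apply]
    constructor
    · rintro ⟨⟨x, hx⟩, h, rfl⟩
      refine ⟨hx, ?_⟩
      funext v
      have := congrFun h v
      rw [gw1Loc_apply] at this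
      exact congrArg Subtype.val this
    · rintro ⟨hx, h⟩
      refine ⟨⟨x, hx⟩, ?_, rfl⟩
      funext v
      rw [gw1Loc_apply]
      apply Subtype.ext
      exact congrFun h v
  rw [← gw1_finrank_map_subtype S, hmap]

variable {X' : Type*} [AddCommGroup X'] [Module k X']
  {Y' : ι → Type*} [∀ v, AddCommGroup (Y' v)] [∀ v, Module k (Y' v)]

/-- **F-gw1, abstract form**: `dim Sel_L + dim S' ≤ dim Ш + Σ_v dim L_v + dim Sel_{L'}`. -/
theorem gw1_abstract (f : ∀ v, X →ₗ[k] Y v) (f' : ∀ v, X' →ₗ[k] Y' v)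
    (S : Submodule k X) (S' : Submodule k X')
    (T : ∀ v, Submodule k (Y v)) (T' : ∀ v, Submodule k (Y' v))
    (hST : ∀ v, ∀ x ∈ S, f v x ∈ T v) (hST' : ∀ v, ∀ x ∈ S', f' v x ∈ T' v)
    [FiniteDimensional k ↥S] [FiniteDimensional k ↥S']
    [∀ v, FiniteDimensional k ↥(T v)] [∀ v, FiniteDimensional k ↥(T' v)]
    (Bv : ∀ v, ↥(T v) →ₗ[k] ↥(T' v) →ₗ[k] k)
    (hBl : ∀ v, ∀ x, (∀ y, Bv v x y = 0) → x = 0)
    (hBr : ∀ v, ∀ y, (∀ x, Bv v x y = 0) → y = 0)
    (hrec : ∀ (x : ↥S) (y : ↥S'),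
      ∑ v, Bv v ⟨f v x, hST v x x.2⟩ ⟨f' v y, hST' v y y.2⟩ = 0)
    (L : ∀ v, Submodule k (Y v)) (L' : ∀ v, Submodule k (Y' v)) (hL : ∀ v, L v ≤ T v)
    (hperp : ∀ v (y : ↥(T' v)), (y : Y' v) ∈ L' v ↔
      ∀ x : ↥(T v), (x : Y v) ∈ L v → Bv v x y = 0) :
    finrank k ↥(S ⊓ ⨅ v, (L v).comap (f v)) + finrank k ↥S' ≤
      finrank k ↥(S ⊓ LinearMap.ker (LinearMap.pi f)) + (∑ v, finrank k ↥(L v)) +
        finrank k ↥(S' ⊓ ⨅ v, (L' v).comap (f' v)) := by
  classical
  have hrec' : ∀ x y, gwPiPair Bv (gw1Loc f S T hST x) (gw1Loc f' S' T' hST' y) = 0 := by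
    intro x y
    rw [gw_piPair_apply]
    exact hrec x y
  have main := gw_selmer_le (gw1Loc f S T hST) (gw1Loc f' S' T' hST') (gwPiPair Bv)
    (gw_piPair_left Bv hBl) (gw_piPair_right Bv hBr) hrec'
    (Submodule.pi Set.univ fun v => (L v).comap (T v).subtype)
  have e1 := gw1_finrank_sel f S T hST L
  have e2 := gw1_finrank_ker f S T hST
  have e3 : finrank k ↥(Submodule.pi Set.univ fun v => (L v).comap (T v).subtype) =
      ∑ v, finrank k ↥(L v) := by
    rw [gw_finrank_pi]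
    refine Finset.sum_congr rfl fun v _ => ?_
    exact (Submodule.comapSubtypeEquivOfLe (hL v)).finrank_eq
  have e4 : gwPerp (gwPiPair Bv) (Submodule.pi Set.univ fun v => (L v).comap (T v).subtype) =
      Submodule.pi Set.univ fun v => (L' v).comap (T' v).subtype := by
    rw [gw_perp_pi]
    congr 1
    funext v
    ext y
    rw [gw_mem_perp, Submodule.mem_comap]
    exact (hperp v y).symm
  have e5 := gw1_finrank_sel f' S' T' hST' L'
  rw [e4, e5, e1, e2, e3] at main
  exact main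

end Abs

end Fermat.Agent.TW.F
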