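/-
TW-F, piece F-conn (helper30): the connecting cocycle of `g : M₁ ⟶ J` and the comparison of the
PT-F pairing `pairCoc` with the cup product `cupCoc`.

`g̃ : M₀ →+ J` an additive extension of `g` (`stmtExt`); `σ g̃ σ⁻¹ - g̃` vanishes on `M₁`, is killed
by `p`, hence equals `m ↦ β(x σ, ε m) ζ` for a unique `x σ ∈ A` (perfect duality).  `x` is a level
1-cocycle and `pairCoc Pr g c + x ∪ c = d u`, `u σ = g̃ (sec (c σ))`.
-/
import Fermat.Agent.TW.F.Plan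
import Fermat.Agent.PT.F.SeqExt
import Fermat.Agent.PT.F.PairBasic

set_option autoImplicit false

noncomputable section

namespace Fermat.Agent.TW.F

open CategoryTheory groupCohomology Module Fermat.Agent.PT Fermat.Agent.PT.F

section Kz

variable {p : ℕ} [Fact p.Prime] {V : Type} [AddCommGroup V]

/-- `a ↦ a.val • ζ`, additive because `p • ζ = 0` -/
def fconnKz (ζ : V) (hζ : p • ζ = 0) : ZMod p →+ V :=
  ZMod.lift p ⟨zmultiplesHom V ζ, by
    show ((p : ℕ) : ℤ) • ζ = 0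
    rw [natCast_zsmul]; exact hζ⟩

theorem fconnKz_natCast (ζ : V) (hζ : p • ζ = 0) (n : ℕ) :
    fconnKz ζ hζ (n : ZMod p) = n • ζ := by
  have := ZMod.lift_coe p (⟨zmultiplesHom V ζ, by
    show ((p : ℕ) : ℤ) • ζ = 0
    rw [natCast_zsmul]; exact hζ⟩ : {f : ℤ →+ V // f p = 0}) (n : ℤ)
  simp only [Int.cast_natCast] at this
  rw [fconnKz, this]
  simp

theorem fconnKz_apply (ζ : V) (hζ : p • ζ = 0) (a : ZMod p) :
    fconnKz ζ hζ a = a.val • ζ := by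
  have : NeZero p := ⟨(Fact.out : p.Prime).ne_zero⟩
  conv_lhs => rw [← ZMod.natCast_zmod_val a]
  exact fconnKz_natCast ζ hζ _

theorem fconnKz_mul (ζ : V) (hζ : p • ζ = 0) (a b : ZMod p) :
    fconnKz ζ hζ (a * b) = a.val • fconnKz ζ hζ b := by
  have : NeZero p := ⟨(Fact.out : p.Prime).ne_zero⟩
  have : a * b = ((a.val * b.val : ℕ) : ZMod p) := by
    push_cast
    rw [ZMod.natCast_zmod_val, ZMod.natCast_zmod_val]
  rw [this, fconnKz_natCast, fconnKz_apply, mul_smul]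

theorem fconnKz_injective (ζ : V) (hζ : p • ζ = 0) (hζ0 : ζ ≠ 0) :
    Function.Injective (fconnKz ζ hζ) := by
  have : NeZero p := ⟨(Fact.out : p.Prime).ne_zero⟩
  rw [injective_iff_map_eq_zero]
  intro a ha
  by_contra hne
  apply hζ0
  have h1 : fconnKz ζ hζ (a⁻¹ * a) = 0 := by rw [fconnKz_mul, ha, smul_zero]
  rw [inv_mul_cancel₀ hne] at h1
  have h2 := fconnKz_natCast ζ hζ 1
  rw [Nat.cast_one, one_smul] at h2
  rw [← h2, h1]

theorem fconnKz_surj (ζ : V) (hζ : p • ζ = 0) (x : V) (hx : ∃ n : ℕ, x = n • ζ) :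
    ∃ a : ZMod p, fconnKz ζ hζ a = x := by
  obtain ⟨n, rfl⟩ := hx
  exact ⟨n, fconnKz_natCast ζ hζ n⟩

end Kz

theorem fconn_self_inv {k : Type} [CommRing k] {G : Type} [Group G] (X : Rep.{0} k G) (σ : G)
    (x : X.V) : X.ρ σ (X.ρ σ⁻¹ x) = x := by
  have h : X.ρ σ * X.ρ σ⁻¹ = 1 := by rw [← map_mul, mul_inv_cancel, map_one]
  exact congrArg (fun f : Module.End k X.V => f x) h

theorem fconn_inv_self {k : Type} [CommRing k] {G : Type} [Group G] (X : Rep.{0} k G) (σ : G)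
    (x : X.V) : X.ρ σ⁻¹ (X.ρ σ x) = x := by
  have h : X.ρ σ⁻¹ * X.ρ σ = 1 := by rw [← map_mul, inv_mul_cancel, map_one]
  exact congrArg (fun f : Module.End k X.V => f x) h

/-- a perfect pairing of finite-dimensional spaces represents every linear form -/
theorem fconn_exists_rep {p : ℕ} [Fact p.Prime] {G : Type} [Group G] {χ : G →* (ZMod p)ˣ}
    {A B : Rep.{0} (ZMod p) G} [FiniteDimensional (ZMod p) A] [FiniteDimensional (ZMod p) B]
    (P : DualPair χ A B) (ℓ : B.V →ₗ[ZMod p] ZMod p) : ∃ a : A.V, P.β a = ℓ := by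
  have hinj : Function.Injective P.β := by
    rw [injective_iff_map_eq_zero]
    intro a ha
    exact P.left a fun b => by rw [ha]; rfl
  have hinj' : Function.Injective P.β.flip := by
    rw [injective_iff_map_eq_zero]
    intro b hb
    exact P.right b fun a => by
      have := congrArg (fun f : A.V →ₗ[ZMod p] ZMod p => f a) hb
      simpa using this
  have h1 : finrank (ZMod p) A.V ≤ finrank (ZMod p) (Module.Dual (ZMod p) B.V) :=
    LinearMap.finrank_le_finrank_of_injective hinj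
  have h2 : finrank (ZMod p) B.V ≤ finrank (ZMod p) (Module.Dual (ZMod p) A.V) :=
    LinearMap.finrank_le_finrank_of_injective hinj'
  rw [Subspace.dual_finrank_eq] at h1 h2
  have h3 : finrank (ZMod p) A.V = finrank (ZMod p) (Module.Dual (ZMod p) B.V) := by
    rw [Subspace.dual_finrank_eq]
    exact le_antisymm h1 h2
  exact (LinearMap.injective_iff_surjective_of_finrank_eq_finrank h3).1 hinj ℓ

/-- **F-conn**. -/
theorem stmtConnCmp : StmtConnCmp := by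
  intro p _ G _ 𝒯 χ A B _ _ P J ζ hK hdisc hdiv htors hζ0 Pr g
  have hp : p.Prime := Fact.out
  obtain ⟨hζp, hζχ⟩ := hK
  have kz_inj := fconnKz_injective ζ hζp hζ0
  have kz_ρ : ∀ (σ : G) (a : ZMod p),
      J.ρ σ (fconnKz ζ hζp a) = fconnKz ζ hζp ((χ σ : ZMod p) * a) := by
    intro σ a
    rw [fconnKz_mul, fconnKz_apply, map_nsmul, hζχ, smul_comm]
  have hpM : ∀ m : Pr.M₀.V, ∃ m₁ : Pr.M₁.V, homAdd Pr.inc m₁ = p • m := by
    intro m
    apply (Pr.exact (p • m)).1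
    rw [map_nsmul]
    exact ZModModule.char_nsmul_eq_zero p _
  obtain ⟨gt, hgt⟩ := stmtExt p hp Pr.M₀.V Pr.M₁.V J.V (homAdd Pr.inc) Pr.inc_injective hpM hdiv
    (homAdd g)
  have hgt' : ∀ m₁ : Pr.M₁.V, gt (Pr.inc.hom m₁) = g.hom m₁ := hgt
  -- the difference `σ g̃ σ⁻¹ - g̃`
  obtain ⟨Dm, Dm_apply⟩ : ∃ Dm : G → Pr.M₀.V → J.V,
      ∀ σ m, Dm σ m = J.ρ σ (gt (Pr.M₀.ρ σ⁻¹ m)) - gt m := ⟨_, fun _ _ => rfl⟩
  have Dadd : ∀ σ m m', Dm σ (m + m') = Dm σ m + Dm σ m' := by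
    intro σ m m'
    simp only [Dm_apply, map_add]
    abel
  have Dzero : ∀ σ, Dm σ 0 = 0 := by
    intro σ
    simp only [Dm_apply, map_zero, sub_zero]
  have Dnsmul : ∀ σ (n : ℕ) m, Dm σ (n • m) = n • Dm σ m := by
    intro σ n m
    induction n with
    | zero => rw [zero_smul, zero_smul, Dzero]
    | succ n ih => rw [succ_nsmul, succ_nsmul, Dadd, ih]
  have Dinc : ∀ σ (m₁ : Pr.M₁.V), Dm σ (Pr.inc.hom m₁) = 0 := by
    intro σ m₁
    have h3 : Pr.M₀.ρ σ⁻¹ (Pr.inc.hom m₁) = Pr.inc.hom (Pr.M₁.ρ σ⁻¹ m₁) :=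
      (Rep.hom_comm_apply Pr.inc _ _).symm
    rw [Dm_apply, h3, hgt', hgt', ← Rep.hom_comm_apply, fconn_self_inv, sub_self]
  have Dtors : ∀ σ m, p • Dm σ m = 0 := by
    intro σ m
    obtain ⟨m₁, hm₁⟩ := hpM m
    rw [← Dnsmul, ← hm₁]
    exact Dinc σ m₁
  -- values in `⟨ζ⟩`
  have Dkz : ∀ σ m, ∃ a : ZMod p, fconnKz ζ hζp a = Dm σ m := fun σ m =>
    fconnKz_surj ζ hζp _ (htors _ (Dtors σ m))
  choose φ hφ using Dkz
  have φadd : ∀ σ m m', φ σ (m + m') = φ σ m + φ σ m' := by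
    intro σ m m'
    apply kz_inj
    rw [map_add, hφ, hφ, hφ, Dadd]
  have φinc : ∀ σ m, Pr.ε m = 0 → φ σ m = 0 := by
    intro σ m hm
    obtain ⟨m₁, rfl⟩ := (Pr.exact m).1 hm
    apply kz_inj
    rw [hφ, Dinc, map_zero]
  have φε : ∀ σ m m', Pr.ε m = Pr.ε m' → φ σ m = φ σ m' := by
    intro σ m m' h
    have h1 := φinc σ (m - m') (by rw [map_sub, h, sub_self])
    have h2 := φadd σ (m - m') m'
    rw [sub_add_cancel, h1, zero_add] at h2
    exact h2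
  -- the linear forms on `B`
  have hℓ : ∀ σ, ∃ ℓ : B.V →ₗ[ZMod p] ZMod p, ∀ m, ℓ (Pr.ε m) = φ σ m := by
    intro σ
    refine ⟨AddMonoidHom.toZModLinearMap p
      (AddMonoidHom.mk' (fun b => φ σ (Pr.sec b)) (fun b b' => by
        rw [← φadd]
        exact φε σ _ _ (by simp only [map_add, Pr.ε_sec]))), fun m => ?_⟩
    exact φε σ _ _ (Pr.ε_sec _)
  choose ℓ hℓ using hℓ
  have hx : ∀ σ, ∃ a : A.V, P.β a = ℓ σ := fun σ => fconn_exists_rep P (ℓ σ)
  choose x hx using hx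
  have key : ∀ σ m, Dm σ m = fconnKz ζ hζp (P.β (x σ) (Pr.ε m)) := by
    intro σ m
    rw [hx, hℓ, hφ]
  -- `x` is a cocycle
  have xcoc : ∀ σ τ, x (σ * τ) = A.ρ σ (x τ) + x σ := by
    intro σ τ
    rw [← sub_eq_zero]
    apply P.left
    intro b
    obtain ⟨m, rfl⟩ := Pr.ε_surjective b
    apply kz_inj
    rw [map_zero, map_sub, LinearMap.sub_apply, map_sub, map_add, LinearMap.add_apply, map_add,
      ← key, ← key]
    have h1 : P.β (A.ρ σ (x τ)) (Pr.ε m) =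
        (χ σ : ZMod p) * P.β (x τ) (Pr.ε (Pr.M₀.ρ σ⁻¹ m)) := by
      rw [← P.equivariant, Pr.ε_ρ, fconn_self_inv]
    rw [h1, ← kz_ρ, ← key]
    simp only [Dm_apply, mul_inv_rev, map_mul, Module.End.mul_apply, map_sub]
    abel
  -- `x` vanishes on a level
  obtain ⟨U₁, hU₁, hU₁fix⟩ := hdisc.exists_level_of_finite
    (Set.finite_range (fun j => gt (Pr.basis₀ j)))
  have hfixgt : ∀ s ∈ U₁, ∀ m, J.ρ s (gt m) = gt m := by
    intro s hs m
    obtain ⟨h₀, -, huniq⟩ := Pr.basis₀_spec J.V (fun j => gt (Pr.basis₀ j))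
    have e1 : (actAdd J s).comp gt = h₀ := huniq _ (fun j => by
      rw [AddMonoidHom.comp_apply, actAdd_apply]
      exact hU₁fix _ ⟨j, rfl⟩ s hs)
    have e2 : gt = h₀ := huniq _ (fun _ => rfl)
    have := congrArg (fun f : Pr.M₀.V →+ J.V => f m) (e1.trans e2.symm)
    simpa using this
  have xU : ∀ s ∈ Pr.U₀ ⊓ U₁, x s = 0 := by
    intro s hs
    apply P.left
    intro b
    obtain ⟨m, rfl⟩ := Pr.ε_surjective b
    apply kz_inj
    rw [map_zero, ← key, Dm_apply, Pr.triv₀ s⁻¹ (Pr.U₀.inv_mem hs.1), hfixgt s hs.2, sub_self]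
  have xlev : IsLevel₁ 𝒯 x := ⟨Pr.U₀ ⊓ U₁, 𝒯.inf_mem _ _ Pr.U₀_mem hU₁, fun g s hs => by
    rw [xcoc, xU s hs, map_zero, zero_add]⟩
  refine ⟨x, (mem_cocycles₁_iff x).2 xcoc, xlev, fun c hc hcl => ?_⟩
  -- the comparison
  rw [mem_levCoboundaries₂_iff]
  refine ⟨fun σ => gt (Pr.sec (c σ)), hcl.comp (fun b => gt (Pr.sec b)), ?_⟩
  funext στ
  obtain ⟨σ, τ⟩ := στ
  have hε := pb_ε_d₁₂ Pr (fun σ => Pr.sec (c σ)) (pb_ε_sec_cocycle Pr c hc) (σ, τ)
  have h1 : pairCoc Pr g c (σ, τ) =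
      gt ((d₁₂ Pr.M₀).hom (fun σ => Pr.sec (c σ)) (σ, τ)) := by
    show g.hom (Pr.incInv _) = _
    rw [← hgt', Pr.inc_incInv hε]
  have h2 : cupCoc P J ζ x c (σ, τ) = Dm σ (Pr.M₀.ρ σ (Pr.sec (c τ))) := by
    rw [key, Pr.ε_ρ, Pr.ε_sec, fconnKz_apply]
    rfl
  rw [Pi.add_apply, h1, h2, Dm_apply, pb_d₁₂_apply, pb_d₁₂_apply,
    fconn_inv_self, map_add, map_sub]
  abel

end Fermat.Agent.TW.F

end
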