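/-
TW-F, piece F-cup (helper30): cochain calculus of the cup product
`cupCoc P J ζ x y (σ, τ) = β(x σ, σ • y τ).val • ζ`.
All identities are proved in `𝔽_p` and transported by the additive map `fconnKz : a ↦ a.val • ζ`.
-/
import Fermat.Agent.TW.F.ConnCmp

set_option autoImplicit false

noncomputable section

namespace Fermat.Agent.TW.F

open CategoryTheory groupCohomology Module Fermat.Agent.PT Fermat.Agent.PT.F

section

variable {p : ℕ} [Fact p.Prime] {G : Type} [Group G] {χ : G →* (ZMod p)ˣ}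
  {A B : Rep.{0} (ZMod p) G} (P : DualPair χ A B) (J : Rep.{0} ℤ G) (ζ : J.V)

theorem fcup_apply (hζp : p • ζ = 0) (x : G → A.V) (y : G → B.V) (σ τ : G) :
    cupCoc P J ζ x y (σ, τ) = fconnKz ζ hζp (P.β (x σ) (B.ρ σ (y τ))) :=
  (fconnKz_apply ζ hζp _).symm

theorem fcup_kz_ρ (hζp : p • ζ = 0) (hζχ : ∀ g : G, J.ρ g ζ = ((χ g : ZMod p).val) • ζ)
    (σ : G) (a : ZMod p) :
    J.ρ σ (fconnKz ζ hζp a) = fconnKz ζ hζp ((χ σ : ZMod p) * a) := by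
  rw [fconnKz_mul, fconnKz_apply, map_nsmul, hζχ, smul_comm]

/-- clause 1: the cup product of level cocycles is a level 2-cocycle -/
theorem fcup_cocycle {𝒯 : Tower G} (hK : IsKummer χ J ζ) (hB : TrivOnLevel 𝒯 B)
    (x : G → A.V) (y : G → B.V) (hx : x ∈ cocycles₁ A) (hy : y ∈ cocycles₁ B)
    (hxl : IsLevel₁ 𝒯 x) (hyl : IsLevel₁ 𝒯 y) : cupCoc P J ζ x y ∈ levCocycles₂ 𝒯 J := by
  obtain ⟨hζp, hζχ⟩ := hK
  have xc := (mem_cocycles₁_iff x).1 hx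
  have yc := (mem_cocycles₁_iff y).1 hy
  refine (mem_levCocycles₂_iff 𝒯 J _).2 ⟨(mem_cocycles₂_iff _).2 fun g h j => ?_, ?_⟩
  · rw [fcup_apply P J ζ hζp, fcup_apply P J ζ hζp, fcup_apply P J ζ hζp,
      fcup_apply P J ζ hζp, fcup_kz_ρ J ζ hζp hζχ, ← map_add, ← map_add]
    congr 1
    rw [xc g h, yc h j, ← P.equivariant g (x h) (B.ρ h (y j))]
    simp only [map_add, LinearMap.add_apply, map_mul, Module.End.mul_apply]
    ring
  · obtain ⟨U₁, hU₁, h₁⟩ := hxl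
    obtain ⟨U₂, hU₂, h₂⟩ := hyl
    obtain ⟨U₃, hU₃, h₃⟩ := hB
    refine ⟨U₁ ⊓ (U₂ ⊓ U₃), 𝒯.inf_mem _ _ hU₁ (𝒯.inf_mem _ _ hU₂ hU₃), fun g g' s s' hs hs' => ?_⟩
    show cupCoc P J ζ x y (g * s, g' * s') = cupCoc P J ζ x y (g, g')
    rw [fcup_apply P J ζ hζp, fcup_apply P J ζ hζp, h₁ g s hs.1, h₂ g' s' hs'.2.1, map_mul,
      h₃ s hs.2.2, mul_one]

/-- clause 2 -/
theorem fcup_add_left (hζp : p • ζ = 0) (x x' : G → A.V) (y : G → B.V) :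
    cupCoc P J ζ (x + x') y = cupCoc P J ζ x y + cupCoc P J ζ x' y := by
  funext στ
  obtain ⟨σ, τ⟩ := στ
  rw [Pi.add_apply, fcup_apply P J ζ hζp, fcup_apply P J ζ hζp, fcup_apply P J ζ hζp, ← map_add,
    Pi.add_apply, map_add, LinearMap.add_apply]

/-- clause 3 -/
theorem fcup_add_right (hζp : p • ζ = 0) (x : G → A.V) (y y' : G → B.V) :
    cupCoc P J ζ x (y + y') = cupCoc P J ζ x y + cupCoc P J ζ x y' := by
  funext στ
  obtain ⟨σ, τ⟩ := στ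
  rw [Pi.add_apply, fcup_apply P J ζ hζp, fcup_apply P J ζ hζp, fcup_apply P J ζ hζp, ← map_add,
    Pi.add_apply, map_add, map_add]

/-- clause 4: `coboundary ∪ cocycle` -/
theorem fcup_cob_left {𝒯 : Tower G} (hK : IsKummer χ J ζ)
    (x : G → A.V) (y : G → B.V) (hx : x ∈ coboundaries₁ A) (hy : y ∈ cocycles₁ B)
    (hyl : IsLevel₁ 𝒯 y) : cupCoc P J ζ x y ∈ levCoboundaries₂ 𝒯 J := by
  obtain ⟨hζp, hζχ⟩ := hK
  obtain ⟨a, rfl⟩ := hx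
  have yc := (mem_cocycles₁_iff y).1 hy
  rw [mem_levCoboundaries₂_iff]
  refine ⟨fun τ => fconnKz ζ hζp (P.β a (y τ)), hyl.comp (fun b => fconnKz ζ hζp (P.β a b)), ?_⟩
  funext στ
  obtain ⟨σ, τ⟩ := στ
  rw [pb_d₁₂_apply, fcup_apply P J ζ hζp, fcup_kz_ρ J ζ hζp hζχ, ← map_sub, ← map_add]
  congr 1
  rw [yc σ τ, ← P.equivariant σ a (y τ)]
  show _ = P.β (A.ρ σ a - a) (B.ρ σ (y τ))
  simp only [map_add, map_sub, LinearMap.sub_apply]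
  ring

/-- clause 5: `cocycle ∪ coboundary` -/
theorem fcup_cob_right {𝒯 : Tower G} (hK : IsKummer χ J ζ) (hB : TrivOnLevel 𝒯 B)
    (x : G → A.V) (y : G → B.V) (hx : x ∈ cocycles₁ A) (hxl : IsLevel₁ 𝒯 x)
    (hy : y ∈ coboundaries₁ B) : cupCoc P J ζ x y ∈ levCoboundaries₂ 𝒯 J := by
  obtain ⟨hζp, hζχ⟩ := hK
  obtain ⟨b, rfl⟩ := hy
  have xc := (mem_cocycles₁_iff x).1 hx
  rw [mem_levCoboundaries₂_iff]
  refine ⟨fun σ => fconnKz ζ hζp (- P.β (x σ) (B.ρ σ b)), ?_, ?_⟩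
  · obtain ⟨U₁, hU₁, h₁⟩ := hxl
    obtain ⟨U₃, hU₃, h₃⟩ := hB
    refine ⟨U₁ ⊓ U₃, 𝒯.inf_mem _ _ hU₁ hU₃, fun g s hs => ?_⟩
    show fconnKz ζ hζp (- P.β (x (g * s)) (B.ρ (g * s) b)) =
      fconnKz ζ hζp (- P.β (x g) (B.ρ g b))
    rw [h₁ g s hs.1, map_mul, h₃ s hs.2, mul_one]
  · funext στ
    obtain ⟨σ, τ⟩ := στ
    rw [pb_d₁₂_apply, fcup_apply P J ζ hζp, fcup_kz_ρ J ζ hζp hζχ, ← map_sub, ← map_add]
    congr 1
    rw [xc σ τ, mul_neg, ← P.equivariant σ (x τ) (B.ρ τ b)]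
    show _ = P.β (x σ) (B.ρ σ (B.ρ τ b - b))
    simp only [map_add, map_sub, LinearMap.add_apply, map_mul, Module.End.mul_apply]
    ring

/-- clause 6 -/
theorem fcup_tors (hζp : p • ζ = 0) (x : G → A.V) (y : G → B.V) :
    p • cupCoc P J ζ x y = 0 := by
  funext στ
  obtain ⟨σ, τ⟩ := στ
  rw [Pi.smul_apply, fcup_apply P J ζ hζp, ← map_nsmul]
  rw [ZModModule.char_nsmul_eq_zero p, map_zero]
  rfl

end

/-- **F-cup**. -/
theorem stmtCupBasic : StmtCupBasic := by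
  intro p _ G _ 𝒯 χ A B P J ζ hK hA hB
  refine ⟨fun x y hx hy hxl hyl => fcup_cocycle P J ζ hK hB x y hx hy hxl hyl,
    fun x x' y => ?_, fun x y y' => ?_,
    fun x y hx hy hyl => fcup_cob_left P J ζ hK x y hx hy hyl,
    fun x y hx hxl hy => fcup_cob_right P J ζ hK hB x y hx hxl hy,
    fun x y => fcup_tors P J ζ hK.1 x y⟩
  · rw [fcup_add_left P J ζ hK.1, sub_self]
    exact (levCoboundaries₂ 𝒯 J).zero_mem
  · rw [fcup_add_right P J ζ hK.1, sub_self]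
    exact (levCoboundaries₂ 𝒯 J).zero_mem

end Fermat.Agent.TW.F

end
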