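/-
TW-F, piece F-locRight (helper30): local Tate duality, right kernel.
`StmtRightKer` for `(G_v, 𝒯loc v, J_v)` with the standard presentation of `B|_{G_v}`, and the
comparison `StmtConnCmp` of the PT-F pairing with the cup product.
-/
import Fermat.Agent.TW.F.Plan
import Fermat.Agent.PT.F.HasInd

set_option autoImplicit false

noncomputable section

namespace Fermat.Agent.TW.F

open CategoryTheory groupCohomology Module Fermat.Agent.PT Fermat.Agent.PT.F

/-- the local data `(χ_v, J_v, ζ_v)` are of Kummer type -/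
theorem flr_isKummer {p : ℕ} [Fact p.Prime] {G : Type} [Group G] {ι : Type} {Gloc : ι → Type}
    [∀ v, Group (Gloc v)] (D : PTDatum p G ι Gloc) (v : ι) :
    IsKummer (D.χ.comp (D.r v)) (D.Jloc v) (zetaLoc D v) := by
  refine ⟨?_, fun d => ?_⟩
  · show p • (D.j v).hom D.ζ = 0
    rw [← map_nsmul, D.ζ_tors, map_zero]
  · show (D.Jloc v).ρ d ((D.j v).hom D.ζ) = _ • (D.j v).hom D.ζ
    have h1 : (D.j v).hom (D.E.ρ (D.r v d) D.ζ) = (D.Jloc v).ρ d ((D.j v).hom D.ζ) :=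
      Rep.hom_comm_apply (D.j v) d D.ζ
    rw [← h1, D.ζ_char, map_nsmul]
    rfl

theorem flr_zetaLoc_ne {p : ℕ} [Fact p.Prime] {G : Type} [Group G] {ι : Type} {Gloc : ι → Type}
    [∀ v, Group (Gloc v)] (D : PTDatum p G ι Gloc) (v : ι) : zetaLoc D v ≠ 0 := by
  intro h
  apply D.ζ_ne
  apply D.j_injective v
  rw [map_zero]
  exact h

/-- a normal local level on which a module trivial on a global level is trivial -/
theorem flr_exists_level {p : ℕ} [Fact p.Prime] {G : Type} [Group G] {ι : Type} {Gloc : ι → Type}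
    [∀ v, Group (Gloc v)] (D : PTDatum p G ι Gloc) (B : Rep.{0} (ZMod p) G)
    (hB : TrivOnLevel D.𝒯 B) (v : ι) :
    ∃ V ∈ (D.𝒯loc v).lev, V.Normal ∧ ∀ s ∈ V, ∀ b : B.V, (Rep.res (D.r v) B).ρ s b = b := by
  obtain ⟨U, hU, hUt⟩ := hB
  obtain ⟨V, hV, hVle, hVn⟩ := (D.𝒯loc v).exists_normal _ (D.comap_mem v U hU)
  refine ⟨V, hV, hVn, fun s hs b => ?_⟩
  have h1 : B.ρ (D.r v s) = 1 := hUt _ (hVle hs)
  show B.ρ (D.r v s) b = b
  rw [h1]
  rfl

/-- **F-locRight** from `StmtRightKer` and `StmtConnCmp`. -/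
theorem stmtLocRight_of (hRK : StmtRightKer) (hCC : StmtConnCmp) : StmtLocRight := by
  intro p _ G _ ι _ Gloc _ D A B _ _ P hA hB v y hy hyl hyx
  obtain ⟨V, hV, hVn, hVt⟩ := flr_exists_level D B hB v
  have := hVn
  have hfinB : Finite (Rep.res (D.r v) B).V := by
    change Finite B.V
    exact Module.finite_of_finite (ZMod p)
  have : FiniteDimensional (ZMod p) (Rep.res (D.r v) A) :=
    (inferInstance : FiniteDimensional (ZMod p) A)
  have : FiniteDimensional (ZMod p) (Rep.res (D.r v) B) :=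
    (inferInstance : FiniteDimensional (ZMod p) B)
  refine hRK p (Gloc v) (D.𝒯loc v) (D.Jloc v) (D.Jloc_discrete v) (fun U _ hU => D.cm_loc v U hU)
    (ZMod p) (Rep.res (D.r v) B) (stdPres (D.𝒯loc v) V hV (Rep.res (D.r v) B) hVt)
    (fun a => ZModModule.char_nsmul_eq_zero p a)
    (hasInd_stdPres (D.𝒯loc v) V hV (Rep.res (D.r v) B) hVt) y hy hyl (fun g => ?_)
  obtain ⟨x, hx, hxl, hcmp⟩ := hCC p (Gloc v) (D.𝒯loc v) (D.χ.comp (D.r v))
    (Rep.res (D.r v) A) (Rep.res (D.r v) B) (P.res (D.r v)) (D.Jloc v) (zetaLoc D v)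
    (flr_isKummer D v) (D.Jloc_discrete v) (D.J_div v) (D.J_tors v) (flr_zetaLoc_ne D v)
    (stdPres (D.𝒯loc v) V hV (Rep.res (D.r v) B) hVt) g
  have h1 := hcmp y hy hyl
  have h2 : cupCoc (P.res (D.r v)) (D.Jloc v) (zetaLoc D v) x y ∈
      levCoboundaries₂ (D.𝒯loc v) (D.Jloc v) := hyx x hx hxl
  have h3 := (levCoboundaries₂ (D.𝒯loc v) (D.Jloc v)).sub_mem h1 h2
  rwa [add_sub_cancel_right] at h3

end Fermat.Agent.TW.F

end
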