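/-
TW-F, piece F-pair (helper9): the local pairings on classes.

For additive maps `λ_v : H²_lev(G_v, J_v)[p] → 𝔽_p` there are bilinear maps
`B_v : H¹_lev(G_v, A) × H¹_lev(G_v, B) → 𝔽_p` with `B_v([x], [y]) = λ_v [x ∪ y]` on level
cocycles.  Generic over `(G, 𝒯, χ, A, B, P, J, ζ)` (`fpair_generic`), from `StmtCupBasic`;
same technique as PT-F `stmtPairH1_of`.
-/
import Fermat.Agent.TW.F.Cup
import Fermat.Agent.TW.F.LocRight
import Fermat.Agent.PT.F.PairH1

set_option autoImplicit false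

noncomputable section

namespace Fermat.Agent.TW.F

open CategoryTheory groupCohomology Module Fermat.Agent.PT Fermat.Agent.PT.F

/-- **F-pair, generic form**: the cup product induces a bilinear pairing on level classes,
composed with any additive map on `H²_lev(G, J)[p]`. -/
theorem fpair_generic (hC : StmtCupBasic) (p : ℕ) [Fact p.Prime] (G : Type) [Group G]
    (𝒯 : Tower G) (χ : G →* (ZMod p)ˣ) (A B : Rep.{0} (ZMod p) G) (P : DualPair χ A B)
    (J : Rep.{0} ℤ G) (ζ : J.V) (hK : IsKummer χ J ζ) (hA : TrivOnLevel 𝒯 A)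
    (hB : TrivOnLevel 𝒯 B) (lam : ↥(pTors p (levH2 𝒯 J)) →+ ZMod p) :
    ∃ Bv : ↥(levH1 𝒯 A) →ₗ[ZMod p] ↥(levH1 𝒯 B) →ₗ[ZMod p] ZMod p,
      ∀ (cx : cocycles₁ A) (cy : cocycles₁ B) (hx : IsLevel₁ 𝒯 (cx : G → A.V))
        (hy : IsLevel₁ 𝒯 (cy : G → B.V)) (w : ↥(levCocycles₂ 𝒯 J))
        (_ : (w : G × G → J.V) = cupCoc P J ζ cx cy)
        (hp : levH2π 𝒯 J w ∈ pTors p (levH2 𝒯 J)),
        Bv ⟨(H1π A).hom cx, (mem_levH1_iff _ _ _).2 ⟨cx, hx, rfl⟩⟩
            ⟨(H1π B).hom cy, (mem_levH1_iff _ _ _).2 ⟨cy, hy, rfl⟩⟩ =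
          lam ⟨levH2π 𝒯 J w, hp⟩ := by
  classical
  obtain ⟨h1, h2, h3, h4, h5, h6⟩ := hC p G 𝒯 χ A B P J ζ hK hA hB
  -- the class of the cup product, as an element of the `p`-torsion of `levH2`
  let cls : ∀ (x : G → A.V) (y : G → B.V), x ∈ cocycles₁ A → IsLevel₁ 𝒯 x → y ∈ cocycles₁ B →
      IsLevel₁ 𝒯 y → pTors p (levH2 𝒯 J) := fun x y hx hlx hy hly =>
    ⟨levH2π 𝒯 J ⟨cupCoc P J ζ x y, h1 x y hx hy hlx hly⟩, by
      rw [mem_pTors, ← map_nsmul]
      apply (levH2π_eq_zero_iff 𝒯 J _).2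
      show p • cupCoc P J ζ x y ∈ levCoboundaries₂ 𝒯 J
      rw [h6 x y]
      exact zero_mem _⟩
  have hcls_val : ∀ x y hx hlx hy hly,
      ((cls x y hx hlx hy hly : pTors p (levH2 𝒯 J)) : levH2 𝒯 J)
        = levH2π 𝒯 J ⟨cupCoc P J ζ x y, h1 x y hx hy hlx hly⟩ := fun _ _ _ _ _ _ => rfl
  have hcls_zero : ∀ x y hx hlx hy hly, cupCoc P J ζ x y ∈ levCoboundaries₂ 𝒯 J →
      cls x y hx hlx hy hly = 0 := by
    intro x y hx hlx hy hly h
    apply Subtype.ext
    rw [hcls_val x y hx hlx hy hly]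
    exact (levH2π_eq_zero_iff 𝒯 J ⟨cupCoc P J ζ x y, h1 x y hx hy hlx hly⟩).2 h
  -- additivity in `x`
  have hcls_addx : ∀ x x' y hx hlx hx' hlx' hy hly,
      cls (x + x') y ((cocycles₁ A).add_mem hx hx') (hlx.add hlx') hy hly
        = cls x y hx hlx hy hly + cls x' y hx' hlx' hy hly := by
    intro x x' y hx hlx hx' hlx' hy hly
    apply Subtype.ext
    rw [AddSubgroup.coe_add, hcls_val x y hx hlx hy hly, hcls_val x' y hx' hlx' hy hly,
      hcls_val (x + x') y ((cocycles₁ A).add_mem hx hx') (hlx.add hlx') hy hly, ← map_add,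
      ← sub_eq_zero, ← map_sub, levH2π_eq_zero_iff]
    exact h2 x x' y
  -- additivity in `y`
  have hcls_addy : ∀ x y y' hx hlx hy hly hy' hly',
      cls x (y + y') hx hlx ((cocycles₁ B).add_mem hy hy') (hly.add hly')
        = cls x y hx hlx hy hly + cls x y' hx hlx hy' hly' := by
    intro x y y' hx hlx hy hly hy' hly'
    apply Subtype.ext
    rw [AddSubgroup.coe_add, hcls_val x y hx hlx hy hly, hcls_val x y' hx hlx hy' hly',
      hcls_val x (y + y') hx hlx ((cocycles₁ B).add_mem hy hy') (hly.add hly'), ← map_add,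
      ← sub_eq_zero, ← map_sub, levH2π_eq_zero_iff]
    exact h3 x y y'
  -- independence of the representative of `x`
  have hcls_indepx : ∀ x x' y hx hlx hx' hlx' hy hly, x - x' ∈ coboundaries₁ A →
      cls x y hx hlx hy hly = cls x' y hx' hlx' hy hly := by
    intro x x' y hx hlx hx' hlx' hy hly hb
    have hbc : x - x' ∈ cocycles₁ A := coboundaries₁_le_cocycles₁ A hb
    have hbl : IsLevel₁ 𝒯 (x - x') := isLevel₁_sub hlx hlx'
    have e : x' + (x - x') = x := by abel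
    have h0 : cls (x - x') y hbc hbl hy hly = 0 :=
      hcls_zero _ _ hbc hbl hy hly (h4 _ _ hb hy hly)
    have := hcls_addx x' (x - x') y hx' hlx' hbc hbl hy hly
    rw [h0, add_zero] at this
    rw [← this]
    congr 1
    exact e.symm
  -- independence of the representative of `y`
  have hcls_indepy : ∀ x y y' hx hlx hy hly hy' hly', y - y' ∈ coboundaries₁ B →
      cls x y hx hlx hy hly = cls x y' hx hlx hy' hly' := by
    intro x y y' hx hlx hy hly hy' hly' hb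
    have hbc : y - y' ∈ cocycles₁ B := coboundaries₁_le_cocycles₁ B hb
    have hbl : IsLevel₁ 𝒯 (y - y') := isLevel₁_sub hly hly'
    have e : y' + (y - y') = y := by abel
    have h0 : cls x (y - y') hx hlx hbc hbl = 0 :=
      hcls_zero _ _ hx hlx hbc hbl (h5 _ _ hx hlx hb)
    have := hcls_addy x y' (y - y') hx hlx hy' hly' hbc hbl
    rw [h0, add_zero] at this
    rw [← this]
    congr 1
    exact e.symm
  -- representatives
  have hrepA : ∀ X : ↥(levH1 𝒯 A), ∃ c : cocycles₁ A, IsLevel₁ 𝒯 (c : G → A.V) ∧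
      (H1π A).hom c = X := fun X => (mem_levH1_iff 𝒯 A _).1 X.2
  choose repA hrepAl hrepAx using hrepA
  have hrepB : ∀ Y : ↥(levH1 𝒯 B), ∃ c : cocycles₁ B, IsLevel₁ 𝒯 (c : G → B.V) ∧
      (H1π B).hom c = Y := fun Y => (mem_levH1_iff 𝒯 B _).1 Y.2
  choose repB hrepBl hrepBx using hrepB
  have hrep_eq : ∀ (X : ↥(levH1 𝒯 A)) (Y : ↥(levH1 𝒯 B)) (cx : cocycles₁ A)
      (cy : cocycles₁ B) (hlx : IsLevel₁ 𝒯 (cx : G → A.V)) (hly : IsLevel₁ 𝒯 (cy : G → B.V)),
      (H1π A).hom cx = X → (H1π B).hom cy = Y →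
      cls (repA X) (repB Y) (repA X).2 (hrepAl X) (repB Y).2 (hrepBl Y)
        = cls cx cy cx.2 hlx cy.2 hly := by
    intro X Y cx cy hlx hly hX hY
    have hA' : (H1π A).hom (repA X) = (H1π A).hom cx := by rw [hrepAx, hX]
    have hB' : (H1π B).hom (repB Y) = (H1π B).hom cy := by rw [hrepBx, hY]
    exact (hcls_indepx _ _ _ (repA X).2 (hrepAl X) cx.2 hlx (repB Y).2 (hrepBl Y)
      ((H1π_eq_iff _ _).1 hA')).trans
      (hcls_indepy _ _ _ cx.2 hlx (repB Y).2 (hrepBl Y) cy.2 hly ((H1π_eq_iff _ _).1 hB'))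
  -- the pairing, additive in the second variable
  let F : ↥(levH1 𝒯 A) → (↥(levH1 𝒯 B) →+ ZMod p) := fun X =>
    AddMonoidHom.mk' (fun Y => lam (cls (repA X) (repB Y) (repA X).2 (hrepAl X) (repB Y).2
      (hrepBl Y))) (by
      intro Y Y'
      have hYY : (H1π B).hom (repB Y + repB Y') = ((Y + Y' : ↥(levH1 𝒯 B)) : H1 B) := by
        rw [map_add, hrepBx, hrepBx]
        rfl
      rw [hrep_eq X (Y + Y') (repA X) (repB Y + repB Y') (hrepAl X)
        ((hrepBl Y).add (hrepBl Y')) (hrepAx X) hYY, ← map_add]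
      congr 1
      exact hcls_addy _ _ _ (repA X).2 (hrepAl X) (repB Y).2 (hrepBl Y) (repB Y').2 (hrepBl Y'))
  -- additive in the first variable
  let F2 : ↥(levH1 𝒯 A) →+ (↥(levH1 𝒯 B) →ₗ[ZMod p] ZMod p) :=
    AddMonoidHom.mk' (fun X => (F X).toZModLinearMap p) (by
      intro X X'
      apply LinearMap.ext
      intro Y
      show lam (cls (repA (X + X')) (repB Y) (repA (X + X')).2 (hrepAl (X + X')) (repB Y).2
          (hrepBl Y))
        = lam (cls (repA X) (repB Y) (repA X).2 (hrepAl X) (repB Y).2 (hrepBl Y))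
          + lam (cls (repA X') (repB Y) (repA X').2 (hrepAl X') (repB Y).2 (hrepBl Y))
      have hXX : (H1π A).hom (repA X + repA X') = ((X + X' : ↥(levH1 𝒯 A)) : H1 A) := by
        rw [map_add, hrepAx, hrepAx]
        rfl
      rw [hrep_eq (X + X') Y (repA X + repA X') (repB Y) ((hrepAl X).add (hrepAl X'))
        (hrepBl Y) hXX (hrepBx Y), ← map_add]
      congr 1
      exact hcls_addx _ _ _ (repA X).2 (hrepAl X) (repA X').2 (hrepAl X') (repB Y).2 (hrepBl Y))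
  refine ⟨F2.toZModLinearMap p, ?_⟩
  intro cx cy hx hy w hw hp
  have e1 := hrep_eq ⟨(H1π A).hom cx, (mem_levH1_iff _ _ _).2 ⟨cx, hx, rfl⟩⟩
    ⟨(H1π B).hom cy, (mem_levH1_iff _ _ _).2 ⟨cy, hy, rfl⟩⟩ cx cy hx hy rfl rfl
  have e2 : cls cx cy cx.2 hx cy.2 hy = ⟨levH2π 𝒯 J w, hp⟩ := by
    apply Subtype.ext
    show levH2π 𝒯 J ⟨cupCoc P J ζ cx cy, _⟩ = levH2π 𝒯 J w
    exact congrArg _ (Subtype.ext hw.symm)
  exact congrArg lam (e1.trans e2)

/-- restriction to `G_v` of a module which is trivial on a level is trivial on a local level -/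
theorem fpair_trivOnLevel {p : ℕ} [Fact p.Prime] {G : Type} [Group G] {ι : Type}
    {Gloc : ι → Type} [∀ v, Group (Gloc v)] (D : PTDatum p G ι Gloc) (A : Rep.{0} (ZMod p) G)
    (hA : TrivOnLevel D.𝒯 A) (v : ι) : TrivOnLevel (D.𝒯loc v) (Rep.res (D.r v) A) := by
  obtain ⟨U, hU, hUt⟩ := hA
  exact ⟨_, D.comap_mem v U hU, fun s hs => hUt (D.r v s) hs⟩

/-- **F-pair** from `StmtCupBasic`. -/
theorem stmtLocPair_of (hC : StmtCupBasic) : StmtLocPair := by
  intro p _ G _ ι _ Gloc _ D lam A B P hA hB v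
  exact fpair_generic hC p (Gloc v) (D.𝒯loc v) (D.χ.comp (D.r v)) (Rep.res (D.r v) A)
    (Rep.res (D.r v) B) (P.res (D.r v)) (D.Jloc v) (zetaLoc D v) (flr_isKummer D v)
    (fpair_trivOnLevel D A hA v) (fpair_trivOnLevel D B hB v) (lam v)

/-- **F-pair**, unconditional. -/
theorem stmtLocPair : StmtLocPair := stmtLocPair_of stmtCupBasic

end Fermat.Agent.TW.F

end
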