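/-
TW-F, piece F-gw1 (helper9), part 2: the first half of Greenberg–Wiles,
`dim Sel_L(A) + h¹(B) ≤ dim Ш¹(A) + Σ_v dim L_v + dim Sel_{L^⊥}(B)`,
from reciprocity (F-rec), the local pairings (F-pair), local Tate duality (F-locRight/F-locLeft),
finiteness (F-fin, F-glofin) and the cochain calculus (F-cup).  Linear algebra: `gw1_abstract`.
-/
import Fermat.Agent.TW.F.GW1Abs
import Fermat.Agent.TW.F.LocPair
import Fermat.Agent.PT.F.Assembly

set_option autoImplicit false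

noncomputable section

namespace Fermat.Agent.TW.F

open CategoryTheory groupCohomology Module Fermat.Agent.PT Fermat.Agent.PT.F

section

variable {p : ℕ} [Fact p.Prime] {G : Type} [Group G] {ι : Type} {Gloc : ι → Type}
  [∀ v, Group (Gloc v)] (D : PTDatum p G ι Gloc)

/-- localisation maps level classes to level classes -/
theorem gw1_loc_mem (A : Rep.{0} (ZMod p) G) (v : ι) (x : H1 A) (hx : x ∈ levH1 D.𝒯 A) :
    (locRes D.r A v).hom x ∈ locH1 D A v := by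
  obtain ⟨c, hc, rfl⟩ := (mem_levH1_iff _ _ _).1 hx
  rw [Asm.locRes_H1π]
  refine (mem_levH1_iff _ _ _).2 ⟨mapCocycles₁ (D.r v) (𝟙 (Rep.res (D.r v) A)) c, ?_, rfl⟩
  exact IsLevel₁.precomp D.𝒯 (D.𝒯loc v) (D.r v) (D.comap_mem v) hc

/-- the local cup product of level cocycles is a level cocycle -/
theorem gw1_cup_mem (hC : StmtCupBasic) {A B : Rep.{0} (ZMod p) G} (P : DualPair D.χ A B)
    (hA : TrivOnLevel D.𝒯 A) (hB : TrivOnLevel D.𝒯 B) (v : ι)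
    (x : Gloc v → A.V) (y : Gloc v → B.V) (hx : x ∈ cocycles₁ (Rep.res (D.r v) A))
    (hy : y ∈ cocycles₁ (Rep.res (D.r v) B)) (hlx : IsLevel₁ (D.𝒯loc v) x)
    (hly : IsLevel₁ (D.𝒯loc v) y) :
    cupLoc D P v x y ∈ levCocycles₂ (D.𝒯loc v) (D.Jloc v) :=
  (hC p (Gloc v) (D.𝒯loc v) (D.χ.comp (D.r v)) (Rep.res (D.r v) A) (Rep.res (D.r v) B)
    (P.res (D.r v)) (D.Jloc v) (zetaLoc D v) (flr_isKummer D v) (fpair_trivOnLevel D A hA v)
    (fpair_trivOnLevel D B hB v)).1 x y hx hy hlx hly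

/-- the class of a local cup product is killed by `p` -/
theorem gw1_cup_tors (hC : StmtCupBasic) {A B : Rep.{0} (ZMod p) G} (P : DualPair D.χ A B)
    (hA : TrivOnLevel D.𝒯 A) (hB : TrivOnLevel D.𝒯 B) (v : ι)
    (w : ↥(levCocycles₂ (D.𝒯loc v) (D.Jloc v))) (x : Gloc v → A.V) (y : Gloc v → B.V)
    (hw : (w : Gloc v × Gloc v → (D.Jloc v).V) = cupLoc D P v x y) :
    levH2π (D.𝒯loc v) (D.Jloc v) w ∈ pTors p (levH2 (D.𝒯loc v) (D.Jloc v)) := by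
  have h6 := (hC p (Gloc v) (D.𝒯loc v) (D.χ.comp (D.r v)) (Rep.res (D.r v) A)
    (Rep.res (D.r v) B) (P.res (D.r v)) (D.Jloc v) (zetaLoc D v) (flr_isKummer D v)
    (fpair_trivOnLevel D A hA v) (fpair_trivOnLevel D B hB v)).2.2.2.2.2 x y
  rw [mem_pTors, ← map_nsmul]
  apply (levH2π_eq_zero_iff (D.𝒯loc v) (D.Jloc v) _).2
  show p • (w : Gloc v × Gloc v → (D.Jloc v).V) ∈ levCoboundaries₂ (D.𝒯loc v) (D.Jloc v)
  rw [hw]
  have h6' : p • cupLoc D P v x y = 0 := h6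
  rw [h6']
  exact zero_mem _

/-- the local pairing of two classes vanishes iff the cup product of representatives is a level
coboundary (injectivity of `λ_v`) -/
theorem gw1_key (hC : StmtCupBasic)
    (lam : ∀ v, ↥(pTors p (levH2 (D.𝒯loc v) (D.Jloc v))) →+ ZMod p)
    (hlam : ∀ v, Function.Injective (lam v))
    {A B : Rep.{0} (ZMod p) G} (P : DualPair D.χ A B)
    (hA : TrivOnLevel D.𝒯 A) (hB : TrivOnLevel D.𝒯 B) (v : ι)
    (Bv : ↥(locH1 D A v) →ₗ[ZMod p] ↥(locH1 D B v) →ₗ[ZMod p] ZMod p)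
    (hBv : ∀ (cx : cocycles₁ (Rep.res (D.r v) A)) (cy : cocycles₁ (Rep.res (D.r v) B))
        (hx : IsLevel₁ (D.𝒯loc v) (cx : Gloc v → A.V))
        (hy : IsLevel₁ (D.𝒯loc v) (cy : Gloc v → B.V))
        (w : ↥(levCocycles₂ (D.𝒯loc v) (D.Jloc v)))
        (_ : (w : Gloc v × Gloc v → (D.Jloc v).V) = cupLoc D P v cx cy)
        (hp : levH2π (D.𝒯loc v) (D.Jloc v) w ∈ pTors p (levH2 (D.𝒯loc v) (D.Jloc v))),
        Bv ⟨(H1π _).hom cx, (mem_levH1_iff _ _ _).2 ⟨cx, hx, rfl⟩⟩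
            ⟨(H1π _).hom cy, (mem_levH1_iff _ _ _).2 ⟨cy, hy, rfl⟩⟩ =
          lam v ⟨levH2π (D.𝒯loc v) (D.Jloc v) w, hp⟩)
    (cx : cocycles₁ (Rep.res (D.r v) A)) (cy : cocycles₁ (Rep.res (D.r v) B))
    (hx : IsLevel₁ (D.𝒯loc v) (cx : Gloc v → A.V))
    (hy : IsLevel₁ (D.𝒯loc v) (cy : Gloc v → B.V)) :
    Bv ⟨(H1π _).hom cx, (mem_levH1_iff _ _ _).2 ⟨cx, hx, rfl⟩⟩
        ⟨(H1π _).hom cy, (mem_levH1_iff _ _ _).2 ⟨cy, hy, rfl⟩⟩ = 0 ↔
      cupLoc D P v cx cy ∈ levCoboundaries₂ (D.𝒯loc v) (D.Jloc v) := by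
  have hw : cupLoc D P v cx cy ∈ levCocycles₂ (D.𝒯loc v) (D.Jloc v) :=
    gw1_cup_mem D hC P hA hB v cx cy cx.2 cy.2 hx hy
  have hp := gw1_cup_tors D hC P hA hB v ⟨_, hw⟩ cx cy rfl
  rw [hBv cx cy hx hy ⟨_, hw⟩ rfl hp]
  constructor
  · intro h
    have h0 : (⟨levH2π (D.𝒯loc v) (D.Jloc v) ⟨_, hw⟩, hp⟩ :
        ↥(pTors p (levH2 (D.𝒯loc v) (D.Jloc v)))) = 0 :=
      hlam v (by rw [h, map_zero])
    exact (levH2π_eq_zero_iff (D.𝒯loc v) (D.Jloc v) ⟨_, hw⟩).1 (congrArg Subtype.val h0)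
  · intro h
    have h0 : (⟨levH2π (D.𝒯loc v) (D.Jloc v) ⟨_, hw⟩, hp⟩ :
        ↥(pTors p (levH2 (D.𝒯loc v) (D.Jloc v)))) = 0 :=
      Subtype.ext ((levH2π_eq_zero_iff (D.𝒯loc v) (D.Jloc v) ⟨_, hw⟩).2 h)
    rw [h0, map_zero]

end

/-- **F-gw1** from its inputs. -/
theorem stmtGW1_of (hRec : StmtRec) (hPair : StmtLocPair) (hR : StmtLocRight)
    (hL : StmtLocLeft) (hFin : StmtLocFin) (hGF : StmtGloFin) (hC : StmtCupBasic) :
    StmtGW1 := by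
  intro p _ G _ ι _ Gloc _ D hLE A B _ _ P hA hB L L' hLle hPerp
  classical
  obtain ⟨lam, hlam, hrec⟩ := hRec p G ι Gloc D
  choose Bv hBv using hPair p G ι Gloc D lam A B P hA hB
  -- finiteness
  have : Finite ↥(levH1 D.𝒯 A) := hGF p G ι Gloc D A hA
  have : Finite ↥(levH1 D.𝒯 B) := hGF p G ι Gloc D B hB
  have : ∀ v, Finite ↥(locH1 D A v) := hFin p G ι Gloc D hLE A hA
  have : ∀ v, Finite ↥(locH1 D B v) := hFin p G ι Gloc D hLE B hB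
  have : FiniteDimensional (ZMod p) ↥(levH1 D.𝒯 A) := Module.Finite.of_finite
  have : FiniteDimensional (ZMod p) ↥(levH1 D.𝒯 B) := Module.Finite.of_finite
  have : ∀ v, FiniteDimensional (ZMod p) ↥(locH1 D A v) := fun v => Module.Finite.of_finite
  have : ∀ v, FiniteDimensional (ZMod p) ↥(locH1 D B v) := fun v => Module.Finite.of_finite
  -- the key equivalence
  have key := fun v => gw1_key D hC lam hlam P hA hB v (Bv v) (hBv v)
  -- representatives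
  have repA : ∀ v (x : ↥(locH1 D A v)), ∃ (cx : cocycles₁ (Rep.res (D.r v) A))
      (hx : IsLevel₁ (D.𝒯loc v) (cx : Gloc v → A.V)),
      x = ⟨(H1π _).hom cx, (mem_levH1_iff _ _ _).2 ⟨cx, hx, rfl⟩⟩ := by
    intro v x
    obtain ⟨c, hc, hcx⟩ := (mem_levH1_iff _ _ _).1 x.2
    exact ⟨c, hc, Subtype.ext hcx.symm⟩
  have repB : ∀ v (y : ↥(locH1 D B v)), ∃ (cy : cocycles₁ (Rep.res (D.r v) B))
      (hy : IsLevel₁ (D.𝒯loc v) (cy : Gloc v → B.V)),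
      y = ⟨(H1π _).hom cy, (mem_levH1_iff _ _ _).2 ⟨cy, hy, rfl⟩⟩ := by
    intro v y
    obtain ⟨c, hc, hcy⟩ := (mem_levH1_iff _ _ _).1 y.2
    exact ⟨c, hc, Subtype.ext hcy.symm⟩
  -- nondegeneracy
  have hBl : ∀ v, ∀ x, (∀ y, Bv v x y = 0) → x = 0 := by
    intro v x hx
    obtain ⟨cx, hlx, rfl⟩ := repA v x
    have h1 : (cx : Gloc v → A.V) ∈ coboundaries₁ (Rep.res (D.r v) A) := by
      refine hL p G ι Gloc D A B P hA hB v cx cx.2 hlx ?_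
      intro y hy hly
      exact (key v cx ⟨y, hy⟩ hlx hly).1 (hx _)
    exact Subtype.ext ((H1π_eq_zero_iff cx).2 h1)
  have hBr : ∀ v, ∀ y, (∀ x, Bv v x y = 0) → y = 0 := by
    intro v y hy
    obtain ⟨cy, hly, rfl⟩ := repB v y
    have h1 : (cy : Gloc v → B.V) ∈ coboundaries₁ (Rep.res (D.r v) B) := by
      refine hR p G ι Gloc D A B P hA hB v cy cy.2 hly ?_
      intro x hx hlx
      exact (key v ⟨x, hx⟩ cy hlx hly).1 (hy _)
    exact Subtype.ext ((H1π_eq_zero_iff cy).2 h1)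
  -- reciprocity
  have hrec' : ∀ (x : ↥(levH1 D.𝒯 A)) (y : ↥(levH1 D.𝒯 B)),
      ∑ v, Bv v ⟨(locRes D.r A v).hom x, gw1_loc_mem D A v x x.2⟩
        ⟨(locRes D.r B v).hom y, gw1_loc_mem D B v y y.2⟩ = 0 := by
    intro x y
    obtain ⟨cx, hlx, hcx⟩ := (mem_levH1_iff _ _ _).1 x.2
    obtain ⟨cy, hly, hcy⟩ := (mem_levH1_iff _ _ _).1 y.2
    have hlx' : ∀ v, IsLevel₁ (D.𝒯loc v)
        (mapCocycles₁ (D.r v) (𝟙 (Rep.res (D.r v) A)) cx : Gloc v → A.V) := fun v =>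
      IsLevel₁.precomp D.𝒯 (D.𝒯loc v) (D.r v) (D.comap_mem v) hlx
    have hly' : ∀ v, IsLevel₁ (D.𝒯loc v)
        (mapCocycles₁ (D.r v) (𝟙 (Rep.res (D.r v) B)) cy : Gloc v → B.V) := fun v =>
      IsLevel₁.precomp D.𝒯 (D.𝒯loc v) (D.r v) (D.comap_mem v) hly
    have hw : ∀ v, cupLoc D P v (resOne D v (cx : G → A.V)) (resOne D v (cy : G → B.V)) ∈
        levCocycles₂ (D.𝒯loc v) (D.Jloc v) := fun v =>
      gw1_cup_mem D hC P hA hB v _ _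
        (mapCocycles₁ (D.r v) (𝟙 (Rep.res (D.r v) A)) cx).2
        (mapCocycles₁ (D.r v) (𝟙 (Rep.res (D.r v) B)) cy).2 (hlx' v) (hly' v)
    have hp : ∀ v, levH2π (D.𝒯loc v) (D.Jloc v) ⟨_, hw v⟩ ∈
        pTors p (levH2 (D.𝒯loc v) (D.Jloc v)) := fun v =>
      gw1_cup_tors D hC P hA hB v ⟨_, hw v⟩ _ _ rfl
    have h0 := hrec A B P hA hB cx cy cx.2 cy.2 hlx hly (fun v => ⟨_, hw v⟩) (fun v => rfl) hp
    rw [← h0]
    refine Finset.sum_congr rfl fun v _ => ?_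
    have ex : (⟨(locRes D.r A v).hom x, gw1_loc_mem D A v x x.2⟩ : ↥(locH1 D A v)) =
        ⟨(H1π _).hom (mapCocycles₁ (D.r v) (𝟙 (Rep.res (D.r v) A)) cx),
          (mem_levH1_iff _ _ _).2 ⟨_, hlx' v, rfl⟩⟩ := by
      apply Subtype.ext
      show (locRes D.r A v).hom x = _
      rw [← hcx, Asm.locRes_H1π]
    have ey : (⟨(locRes D.r B v).hom y, gw1_loc_mem D B v y y.2⟩ : ↥(locH1 D B v)) =
        ⟨(H1π _).hom (mapCocycles₁ (D.r v) (𝟙 (Rep.res (D.r v) B)) cy),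
          (mem_levH1_iff _ _ _).2 ⟨_, hly' v, rfl⟩⟩ := by
      apply Subtype.ext
      show (locRes D.r B v).hom y = _
      rw [← hcy, Asm.locRes_H1π]
    rw [ex, ey]
    exact hBv v _ _ (hlx' v) (hly' v) ⟨_, hw v⟩ rfl (hp v)
  -- the annihilators
  have hperp : ∀ v (y : ↥(locH1 D B v)), (y : H1 (Rep.res (D.r v) B)) ∈ L' v ↔
      ∀ x : ↥(locH1 D A v), (x : H1 (Rep.res (D.r v) A)) ∈ L v → Bv v x y = 0 := by
    intro v y
    rw [hPerp v (y : H1 (Rep.res (D.r v) B))]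
    constructor
    · rintro ⟨-, h⟩ x hx
      obtain ⟨cx, hlx, rfl⟩ := repA v x
      obtain ⟨cy, hly, rfl⟩ := repB v y
      exact (key v cx cy hlx hly).2
        (h _ hx ((mem_levH1_iff _ _ _).2 ⟨cx, hlx, rfl⟩) cx cy hlx hly rfl rfl)
    · intro h
      refine ⟨y.2, fun x hx hxl cx cy hlx hly hcx hcy => ?_⟩
      have h1 := h ⟨x, hxl⟩ hx
      have ex : (⟨x, hxl⟩ : ↥(locH1 D A v)) =
          ⟨(H1π _).hom cx, (mem_levH1_iff _ _ _).2 ⟨cx, hlx, rfl⟩⟩ := Subtype.ext hcx.symm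
      have ey : y = ⟨(H1π _).hom cy, (mem_levH1_iff _ _ _).2 ⟨cy, hly, rfl⟩⟩ :=
        Subtype.ext hcy.symm
      rw [ex, ey] at h1
      exact (key v cx cy hlx hly).1 h1
  exact gw1_abstract (fun v => (locRes D.r A v).hom) (fun v => (locRes D.r B v).hom)
    (levH1 D.𝒯 A) (levH1 D.𝒯 B) (fun v => locH1 D A v) (fun v => locH1 D B v)
    (fun v x hx => gw1_loc_mem D A v x hx) (fun v y hy => gw1_loc_mem D B v y hy)
    Bv hBl hBr hrec' L L' hLle hperp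

end Fermat.Agent.TW.F

end
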