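/-
TW-F / F-gw (helper68): the final numeric assembly of the Greenberg–Wiles inequality,
`stmtGW_of : StmtGW1 → StmtShaEq → StmtGW`.

TECHNICAL NOTE for all TW-F pieces.  `levH2` is a quotient module; the codomain of `D.locTwo B` is
a product of such quotients, whose `AddCommMonoid` instance is `Pi.addCommMonoid` over
`Submodule.Quotient.addCommMonoid`.  Mathlib lemmas which want `[AddCommGroup V₂]` on the codomain
(`LinearMap.finrank_range_add_finrank_ker`, `quotKerEquivRange`, …) make the unifier compare
`Submodule.Quotient.addCommMonoid` with `(Submodule.Quotient.addCommGroup).toAddCommMonoid` under a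
binder and TIME OUT.  Use lemmas stated for `[AddCommMonoid Y] [Module k Y]` on the codomain, such as
`gwFinal_rank_nullity` below.
-/
import Fermat.Agent.TW.F.Plan

set_option autoImplicit false

noncomputable section

namespace Fermat.Agent.TW.F

open CategoryTheory groupCohomology Module Fermat.Agent.PT Fermat.Agent.PT.F

/-- rank–nullity with NO additive group structure required on the codomain -/
theorem gwFinal_rank_nullity {k : Type} [Field k] {X Y : Type} [AddCommGroup X] [Module k X]
    [AddCommMonoid Y] [Module k Y] [FiniteDimensional k X] (f : X →ₗ[k] Y) :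
    finrank k ↥(LinearMap.range f) + finrank k ↥(LinearMap.ker f) = finrank k X := by
  let _i : AddCommGroup Y := Module.addCommMonoidToAddCommGroup k
  exact LinearMap.finrank_range_add_finrank_ker f

/-- the arithmetic of the assembly -/
theorem gwFinal_arith (selA selB h1B s1A sumL h0A h0B e sumh0 h2B rk kr : ℕ)
    (hgw : selA + h1B ≤ s1A + sumL + selB) (hs : s1A = kr) (hrn : rk + kr = h2B)
    (hEC : h0B + h2B + e ≤ h1B) (hH2 : sumh0 ≤ rk + h0A) :
    selA + h0B + e + sumh0 ≤ selB + h0A + sumL := by
  omega

/-- **F-gw**: the Greenberg–Wiles inequality (route 1) from its first half `StmtGW1`, the equality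
`dim Ш¹(A) = dim Ш²(B)` and the two numeric hypotheses `(EC)`, `(H2)`. -/
theorem stmtGW_of (h1 : StmtGW1) (hsha : StmtShaEq) : StmtGW := by
  intro p _ G _ ι _ Gloc _ D hLE A B _ _ P hA hB L L' hL hL' e hfin hEC hH2
  have hgw := h1 p G ι Gloc D hLE A B P hA hB L L' hL hL'
  have hs := hsha p G ι Gloc D A B P hA hB
  have hrn : finrank (ZMod p) ↥(LinearMap.range (D.locTwo B)) +
      finrank (ZMod p) ↥(LinearMap.ker (D.locTwo B)) = finrank (ZMod p) (levH2 D.𝒯 B) :=
    gwFinal_rank_nullity (D.locTwo B)
  exact gwFinal_arith _ _ _ _ _ _ _ _ _ _ _ _ hgw hs hrn hEC hH2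

end Fermat.Agent.TW.F

end
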