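import Fermat.Agent.TW.F.Plan
import Fermat.Agent.PT.F.Final

/-!
# TW-F / F-glofin (helper9): finiteness of global level cohomology

`stmtGloFin : StmtGloFin` — PT-F `stmtH1Finite_of` with the standard presentation of `A`
(wiring as in PT/F/Final.lean).
-/

set_option autoImplicit false

noncomputable section

namespace Fermat.Agent.TW.F

open CategoryTheory groupCohomology Module Fermat.Agent.PT Fermat.Agent.PT.F

/-- **F-glofin**: `H¹_lev(G, A)` is finite for a finite `𝔽_p[G]`-module `A` trivial on a level. -/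
theorem stmtGloFin : StmtGloFin := by
  intro p _ G _ ι _ Gloc _ D A _ hA
  obtain ⟨U₀, hU₀, hn, htriv, -, -⟩ := exists_level_triv D A hA
  haveI := hn
  haveI : Finite A.V := Module.finite_of_finite (ZMod p)
  have hRK := stmtRightKer_of stmtTN' stmtInflInjFin
  have hLK := stmtLeftKer_of stmtTN' (stmtTNDualOfTN stmtTN') stmtInflInjFin
  have hPH1 := stmtPairH1_of stmtPairBasic stmtH2pCyclic
  exact stmtH1Finite_of hRK hLK stmtPairBasic hPH1 p G ι Gloc D A
    (stdPres D.𝒯 U₀ hU₀ A htriv) (hasInd_stdPres D.𝒯 U₀ hU₀ A htriv)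

end Fermat.Agent.TW.F

end
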