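import Fermat.Agent.TW.F.Plan
import Fermat.Agent.PT.F.Final

/-!
# TW-F / F-fin (helper9): finiteness of local level cohomology

`stmtLocFin : StmtLocFin`.  The PT-F proofs of `StmtLeftKer`, `StmtPairH1`, `StmtH1Finite` use the
datum only through `C_discrete`, `cm_glob`, `exist`; here they are redone for a general class
module `(G, 𝒯, C)` with `IsDiscrete`, `HasPFund`, `HasExist` (`ffin_leftKer`, `ffin_pairH1`,
`ffin_h1Finite`: the proofs of helper68 / helper48, made generic) and applied to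
`(G_v, 𝒯loc v, J_v)` with the standard presentation of `Res A`.
-/

set_option autoImplicit false

noncomputable section

namespace Fermat.Agent.TW.F

open CategoryTheory groupCohomology Module Fermat.Agent.PT Fermat.Agent.PT.F

/-- generic form of PT-F `StmtLeftKer` for a class module `(G, 𝒯, C)` with `HasExist` -/
theorem ffin_leftKer (hTN : StmtTN') (hD : StmtTNDual) (hInj : StmtInflInjFin)
    (p : ℕ) [Fact p.Prime] (G : Type) [Group G] (𝒯 : Tower G) (C : Rep.{0} ℤ G)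
    (hdisc : IsDiscrete 𝒯 C) (hcm : HasPFund 𝒯 C p) (hex : HasExist p 𝒯 C)
    (k : Type) [CommRing k] (A' : Rep.{0} k G) (P : Presentation 𝒯 A')
    (hp : ∀ a : A'.V, p • a = 0) (hInd : HasInd P.M₀) :
    ∃ U' ∈ 𝒯.lev, ∀ g : P.M₁ ⟶ C,
      (∀ c : G → A'.V, c ∈ cocycles₁ A' → (∀ σ s : G, s ∈ U' → c (σ * s) = c σ) →
        pairCoc P g c ∈ levCoboundaries₂ 𝒯 C) →
      ∃ g₀ : P.M₀ ⟶ C, P.inc ≫ g₀ = g := by
  obtain ⟨U₁, hU₁, U', hU', h1, h2, hn₁, hn', hex⟩ := hex P.U₀ P.U₀_mem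
  refine ⟨U', hU', fun g hg => ?_⟩
  have hle : U' ≤ P.U₀ := h2.trans h1
  have hfin := 𝒯.finiteIndex U' hU'
  have : Finite (G ⧸ U') := Subgroup.finite_quotient_of_finiteIndex
  have : Fintype (G ⧸ U') := Fintype.ofFinite _
  obtain ⟨u, hu⟩ := hcm U' hU'
  have hfree : Module.Free ℤ (finX P U').X₂.V := (finX_free_finite P hle).1
  have hfinite : Module.Finite ℤ (finX P U').X₂.V := (finX_free_finite P hle).2
  have hH1 : Subsingleton (H1 (finX P U').X₂) :=
    hInd G (MonoidHom.id G) U' hfin (fun s hs m => P.triv₀ s (hle hs) m)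
  have hmono : Mono (finX P U').f := (finX_shortExact P hle).mono_f
  obtain ⟨hfree₁, hfinite₁⟩ := free_finite_of_mono (finX P U').f
  -- the norm hypothesis
  have hHn : (U₁.map (QuotientGroup.mk' U')).Normal :=
    Subgroup.Normal.map hn₁ _ (QuotientGroup.mk'_surjective U')
  have : Fintype ↥(U₁.map (QuotientGroup.mk' U')) := Fintype.ofFinite _
  have hexist : ∀ h : (finX P U').X₁.V →ₗ[ℤ] (C.quotientToInvariants U').V,
      ∃ g₁ : (finX P U').X₁ ⟶ C.quotientToInvariants U',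
        ∀ m, normHom (finX P U').X₁ (C.quotientToInvariants U') h m = p • g₁.hom m := by
    refine stmtNormTrick p (G ⧸ U') (U₁.map (QuotientGroup.mk' U')) (finX P U').X₁
      (C.quotientToInvariants U') hfree₁ hfinite₁ ?_ ?_
    · rintro η ⟨s, hs, rfl⟩ m
      exact Subtype.ext (P.triv₁ s (h1 hs) _)
    · intro x
      obtain ⟨y, hy1, hy2⟩ := stmtExistBridge p G C U₁ U' h2 hfin hex x
      refine ⟨y, hy1, ?_⟩
      rw [← hy2, finsum_eq_sum_of_fintype]
  have key := (ext_duality hTN hD p (C.quotientToInvariants U') u hu (finX P U')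
    (finX_shortExact P hle)
    (fun (a : ((intRep A').quotientToInvariants U').V) => Subtype.ext (hp a.1)) hH1 hexist).2
    ((Rep.quotientToInvariantsFunctor ℤ U').map g) (fun x => by
      induction x using H1_induction_on with
      | h cb =>
        have hc : infl₁ (intRep A') U' cb.1 ∈ cocycles₁ A' :=
          (mem_cocycles₁_intRep_iff A' _).1 ((infl₁_mem_cocycles₁_iff _).2 cb.2)
        have hcU : ∀ σ s : G, s ∈ U' → infl₁ (intRep A') U' cb.1 (σ * s) =
            infl₁ (intRep A') U' cb.1 σ := (desc₁_infl₁ cb.1).1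
        have h3 := push_delta_eq_zero P hle hInj p hdisc
          hcm hp hU' hc hcU g
          ((Rep.quotientToInvariantsFunctor ℤ U').map g) (fun m => rfl) (hg _ hc hcU)
        have h4 : finCoc P hle hc hcU = cb := by
          apply Subtype.ext
          apply infl₁_injective (X := intRep A') (U := U')
          exact infl₁_descend₁ (infl₁ (intRep A') U' cb.1) (desc_c P hle hcU)
        rw [h4] at h3
        exact h3)
  obtain ⟨gb₀, hgb₀⟩ := key
  refine ⟨extHom (fun s hs m => P.triv₀ s (hle hs) m) gb₀, ?_⟩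
  apply rep_hom_ext'
  intro m
  have h5 := congrArg (fun φ => (φ.hom ⟨m, fun s => P.triv₁ s.1 (hle s.2) m⟩).1) hgb₀
  exact h5


/-- generic form of PT-F `StmtPairH1` for a class module `(G, 𝒯, C)` -/
theorem ffin_pairH1 (hB : StmtPairBasic) (hCyc : StmtH2pCyclic)
    (p : ℕ) [Fact p.Prime] (G : Type) [Group G] (𝒯 : Tower G) (C : Rep.{0} ℤ G)
    (hdisc : IsDiscrete 𝒯 C) (hcm' : HasPFund 𝒯 C p)
    (A' : Rep.{0} (ZMod p) G) (P : Presentation 𝒯 A') :
    ∃ Pg : (P.M₁ ⟶ C) →+ (↥(levH1 𝒯 A') →ₗ[ZMod p] ZMod p),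
      ∀ (g : P.M₁ ⟶ C) (c : cocycles₁ A') (hc : IsLevel₁ 𝒯 (c : G → A'.V)),
        Pg g ⟨(H1π A').hom c, (mem_levH1_iff 𝒯 A' _).2 ⟨c, hc, rfl⟩⟩ = 0 ↔
          pairCoc P g c ∈ levCoboundaries₂ 𝒯 C := by
  classical
  obtain ⟨h1, -, h3, h4, h5, -, h7⟩ := hB G 𝒯 (ZMod p) A' P C
  have hX : IsDiscrete 𝒯 C := hdisc
  have hcm : HasPFund 𝒯 C p := hcm'
  obtain ⟨inv, hinv⟩ := exists_inv hCyc p hX hcm
  have hpA : ∀ a : A'.V, p • a = 0 := by
    intro a
    rw [← Nat.cast_smul_eq_nsmul (ZMod p) p a, ZMod.natCast_self, zero_smul]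
  -- the pairing cocycle is a level cocycle
  have hcoc : ∀ (g : P.M₁ ⟶ C) (c : G → A'.V), c ∈ cocycles₁ A' → IsLevel₁ 𝒯 c →
      pairCoc P g c ∈ levCocycles₂ 𝒯 C := by
    intro g c hc hl
    refine h1 g (fun σ => P.sec (c σ)) (hl.comp P.sec) ?_
    have : (fun σ => P.ε (P.sec (c σ))) = c := funext fun σ => P.ε_sec (c σ)
    rw [this]
    exact hc
  -- the class of the pairing cocycle, as an element of the `p`-torsion of `levH2`
  let cls : ∀ (g : P.M₁ ⟶ C) (c : G → A'.V), c ∈ cocycles₁ A' → IsLevel₁ 𝒯 c →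
      pTors p (levH2 𝒯 C) := fun g c hc hl =>
    ⟨levH2π 𝒯 C ⟨pairCoc P g c, hcoc g c hc hl⟩, by
      rw [mem_pTors, ← map_nsmul]
      exact (levH2π_eq_zero_iff 𝒯 C _).2 (h7 p hpA g c hc hl)⟩
  have hcls_val : ∀ g c hc hl, ((cls g c hc hl : pTors p (levH2 𝒯 C)) : levH2 𝒯 C)
      = levH2π 𝒯 C ⟨pairCoc P g c, hcoc g c hc hl⟩ := fun _ _ _ _ => rfl
  have hcls_zero : ∀ g c hc hl, cls g c hc hl = 0 ↔ pairCoc P g c ∈ levCoboundaries₂ 𝒯 C := by
    intro g c hc hl
    rw [← levH2π_eq_zero_iff 𝒯 C ⟨pairCoc P g c, hcoc g c hc hl⟩, ← hcls_val g c hc hl]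
    exact ⟨fun h => by rw [h]; rfl, fun h => Subtype.ext h⟩
  -- difference of classes
  have hcls_eq : ∀ g c c' hc hl hc' hl',
      pairCoc P g c - pairCoc P g c' ∈ levCoboundaries₂ 𝒯 C →
      cls g c hc hl = cls g c' hc' hl' := by
    intro g c c' hc hl hc' hl' hd
    apply Subtype.ext
    rw [hcls_val g c hc hl, hcls_val g c' hc' hl', ← sub_eq_zero, ← map_sub,
      levH2π_eq_zero_iff]
    exact hd
  -- additivity in `c`
  have hcls_add : ∀ g c c' hc hl hc' hl',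
      cls g (c + c') ((cocycles₁ A').add_mem hc hc') (hl.add hl')
        = cls g c hc hl + cls g c' hc' hl' := by
    intro g c c' hc hl hc' hl'
    apply Subtype.ext
    rw [AddSubgroup.coe_add, hcls_val g c hc hl, hcls_val g c' hc' hl',
      hcls_val g (c + c') ((cocycles₁ A').add_mem hc hc') (hl.add hl'), ← map_add,
      ← sub_eq_zero, ← map_sub, levH2π_eq_zero_iff]
    exact h4 g c c' hc hc' hl hl'
  -- independence of the representative
  have hcls_indep : ∀ g c c' hc hl hc' hl',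
      c - c' ∈ coboundaries₁ A' → cls g c hc hl = cls g c' hc' hl' := by
    intro g c c' hc hl hc' hl' hb
    have hbc : c - c' ∈ cocycles₁ A' := coboundaries₁_le_cocycles₁ A' hb
    have hbl : IsLevel₁ 𝒯 (c - c') := isLevel₁_sub hl hl'
    have e : c' + (c - c') = c := by abel
    have h0 : cls g (c - c') hbc hbl = 0 := (hcls_zero g _ hbc hbl).2 (h5 g _ hb)
    have := hcls_add g c' (c - c') hc' hl' hbc hbl
    rw [h0, add_zero] at this
    rw [← this]
    congr 1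
    exact e.symm
  -- additivity in `g`
  have hcls_addg : ∀ g g' c hc hl,
      cls (g + g') c hc hl = cls g c hc hl + cls g' c hc hl := by
    intro g g' c hc hl
    apply Subtype.ext
    rw [AddSubgroup.coe_add, hcls_val g c hc hl, hcls_val g' c hc hl,
      hcls_val (g + g') c hc hl, ← map_add]
    exact congrArg _ (Subtype.ext (h3 g g' c))
  -- representatives
  have hrep : ∀ x : ↥(levH1 𝒯 A'), ∃ c : cocycles₁ A', IsLevel₁ 𝒯 (c : G → A'.V) ∧
      (H1π A').hom c = x := fun x => (mem_levH1_iff 𝒯 A' _).1 x.2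
  choose rep hrepl hrepx using hrep
  have hrep_eq : ∀ (x : ↥(levH1 𝒯 A')) (c : cocycles₁ A') (hl : IsLevel₁ 𝒯 (c : G → A'.V)),
      (H1π A').hom c = x → ∀ g, cls g (rep x) (rep x).2 (hrepl x) = cls g c c.2 hl := by
    intro x c hl hx g
    have : (H1π A').hom (rep x) = (H1π A').hom c := by rw [hrepx, hx]
    exact hcls_indep g _ _ (rep x).2 (hrepl x) c.2 hl ((H1π_eq_iff _ _).1 this)
  -- the pairing
  let F : (P.M₁ ⟶ C) → (↥(levH1 𝒯 A') →+ ZMod p) := fun g =>
    AddMonoidHom.mk' (fun x => inv (cls g (rep x) (rep x).2 (hrepl x))) (by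
      intro x y
      have hxy : (H1π A').hom (rep x + rep y) = ((x + y : ↥(levH1 𝒯 A')) : H1 A') := by
        rw [map_add, hrepx, hrepx]
        rfl
      rw [hrep_eq (x + y) (rep x + rep y) ((hrepl x).add (hrepl y)) hxy g, ← map_add]
      congr 1
      exact hcls_add g _ _ (rep x).2 (hrepl x) (rep y).2 (hrepl y))
  refine ⟨AddMonoidHom.mk' (fun g => (F g).toZModLinearMap p) ?_, ?_⟩
  · intro g g'
    apply LinearMap.ext
    intro x
    show inv (cls (g + g') (rep x) (rep x).2 (hrepl x))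
      = inv (cls g (rep x) (rep x).2 (hrepl x)) + inv (cls g' (rep x) (rep x).2 (hrepl x))
    exact (congrArg inv (hcls_addg g g' _ (rep x).2 (hrepl x))).trans (map_add inv _ _)
  · intro g c hc
    show inv (cls g (rep _) (rep _).2 (hrepl _)) = 0 ↔ _
    rw [hrep_eq _ c hc rfl g, ← hcls_zero g c c.2 hc]
    constructor
    · intro h
      exact hinv (by rw [h, map_zero])
    · intro h
      rw [h, map_zero]


/-- generic form of PT-F `StmtH1Finite` for a class module `(G, 𝒯, C)` with `HasExist` -/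
theorem ffin_h1Finite (hTN : StmtTN') (hD : StmtTNDual) (hInj : StmtInflInjFin)
    (hR : StmtRightKer) (hB : StmtPairBasic) (hCyc : StmtH2pCyclic)
    (p : ℕ) [Fact p.Prime] (G : Type) [Group G] (𝒯 : Tower G) (C : Rep.{0} ℤ G)
    (hdisc : IsDiscrete 𝒯 C) (hcm : HasPFund 𝒯 C p) (hex : HasExist p 𝒯 C)
    (A' : Rep.{0} (ZMod p) G) [FiniteDimensional (ZMod p) A'] (P : Presentation 𝒯 A')
    (hInd : HasInd P.M₀) : Finite ↥(levH1 𝒯 A') := by
  have hpA : ∀ a : A'.V, p • a = 0 := by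
    intro a
    rw [← Nat.cast_smul_eq_nsmul (ZMod p), ZMod.natCast_self, zero_smul]
  obtain ⟨U', hU', hLK⟩ := ffin_leftKer hTN hD hInj p G 𝒯 C hdisc hcm hex (ZMod p) A' P hpA hInd
  obtain ⟨Pg, hPg⟩ := ffin_pairH1 hB hCyc p G 𝒯 C hdisc hcm A' P
  have hB6 := (hB G 𝒯 (ZMod p) A' P C).2.2.2.2.2.1
  have _ : U'.FiniteIndex := 𝒯.finiteIndex U' hU'
  have _ : Finite A'.V := Module.finite_of_finite (ZMod p)
  have _ := f4c_invCocycles_finite A' U'
  -- the subspace `W` of classes of right-`U'`-invariant cocycles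
  have hlev : ∀ c : ↥(f4c_invCocycles A' U'), IsLevel₁ 𝒯 ((c : cocycles₁ A') : G → A'.V) :=
    fun c => ⟨U', hU', c.2⟩
  let W : Submodule (ZMod p) ↥(levH1 𝒯 A') :=
    ((f4c_invCocycles A' U').map (H1π A').hom).comap (levH1 𝒯 A').subtype
  have _ : Finite ↥W := by
    have hsurj : Function.Surjective (fun c : ↥(f4c_invCocycles A' U') =>
        (⟨⟨(H1π A').hom (c : cocycles₁ A'),
          (mem_levH1_iff 𝒯 A' _).2 ⟨c, hlev c, rfl⟩⟩,
          ⟨c, c.2, rfl⟩⟩ : ↥W)) := by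
      rintro ⟨⟨y, hy⟩, c, hc, hcy⟩
      refine ⟨⟨c, hc⟩, ?_⟩
      apply Subtype.ext
      apply Subtype.ext
      exact hcy
    exact Finite.of_surjective _ hsurj
  have hright : ∀ y : ↥(levH1 𝒯 A'), (∀ g, Pg g y = 0) → y = 0 := by
    rintro ⟨y, hy⟩ h
    obtain ⟨c, hc, rfl⟩ := (mem_levH1_iff 𝒯 A' _).1 hy
    have h1 : ∀ g : P.M₁ ⟶ C, pairCoc P g c ∈ levCoboundaries₂ 𝒯 C :=
      fun g => (hPg g c hc).1 (h g)
    have h2 := hR p G 𝒯 C hdisc hcm (ZMod p) A' P hpA hInd c c.2 hc h1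
    apply Subtype.ext
    exact (H1π_eq_zero_iff c).2 h2
  have hleft : ∀ g, (∀ y ∈ W, Pg g y = 0) → ∀ y, Pg g y = 0 := by
    intro g hg
    obtain ⟨g₀, rfl⟩ := hLK g (by
      intro c hc hinv
      let c' : ↥(f4c_invCocycles A' U') := ⟨⟨c, hc⟩, hinv⟩
      have h1 := hg ⟨(H1π A').hom (c' : cocycles₁ A'),
        (mem_levH1_iff 𝒯 A' _).2 ⟨c', hlev c', rfl⟩⟩ ⟨c', c'.2, rfl⟩
      exact (hPg g ⟨c, hc⟩ (hlev c')).1 h1)
    rintro ⟨y, hy⟩
    obtain ⟨c, hc, rfl⟩ := (mem_levH1_iff 𝒯 A' _).1 hy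
    exact (hPg (P.inc ≫ g₀) c hc).2 (hB6 g₀ c c.2 hc)
  have hW := f4c_linalg p W Pg hright hleft
  have : Finite ↥(⊤ : Submodule (ZMod p) ↥(levH1 𝒯 A')) := hW ▸ inferInstance
  exact Finite.of_equiv _ (Submodule.topEquiv (R := ZMod p) (M := ↥(levH1 𝒯 A'))).toEquiv


/-- **F-fin**: the local level cohomology `H¹_lev(G_v, A)` is finite. -/
theorem stmtLocFin : StmtLocFin := by
  intro p _ G _ ι _ Gloc _ D hLE A _ hA v
  obtain ⟨U, hU, hUA⟩ := hA
  obtain ⟨V₀, hV₀, hle, hn⟩ :=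
    (D.𝒯loc v).exists_normal (U.comap (D.r v)) (D.comap_mem v U hU)
  haveI := hn
  have htriv : ∀ s ∈ V₀, ∀ a : (Rep.res (D.r v) A).V, (Rep.res (D.r v) A).ρ s a = a := by
    intro s hs a
    have h1 : D.r v s ∈ U := hle hs
    show A.ρ (D.r v s) a = a
    rw [hUA _ h1]
    rfl
  haveI hfd : FiniteDimensional (ZMod p) (Rep.res (D.r v) A) :=
    (inferInstance : FiniteDimensional (ZMod p) A)
  haveI : Finite (Rep.res (D.r v) A).V := Module.finite_of_finite (ZMod p)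
  have hRK := stmtRightKer_of stmtTN' stmtInflInjFin
  exact ffin_h1Finite stmtTN' (stmtTNDualOfTN stmtTN') stmtInflInjFin hRK stmtPairBasic
    stmtH2pCyclic p (Gloc v) (D.𝒯loc v) (D.Jloc v) (D.Jloc_discrete v)
    (fun V _ hV => D.cm_loc v V hV) (hLE v) (Rep.res (D.r v) A)
    (stdPres (D.𝒯loc v) V₀ hV₀ (Rep.res (D.r v) A) htriv)
    (hasInd_stdPres (D.𝒯loc v) V₀ hV₀ (Rep.res (D.r v) A) htriv)

end Fermat.Agent.TW.F

end
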