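/-
TW-F, piece F-anti (helper30): anticommutativity of the cup product,
`x ∪ y + (y ∪_flip x) = d h`, `h σ = -β(x σ, y σ) ζ`.
-/
import Fermat.Agent.TW.F.Cup

set_option autoImplicit false

noncomputable section

namespace Fermat.Agent.TW.F

open CategoryTheory groupCohomology Module Fermat.Agent.PT Fermat.Agent.PT.F

/-- **F-anti**. -/
theorem stmtCupAnti : StmtCupAnti := by
  intro p _ G _ 𝒯 χ A B P J ζ hK x y hx hy hxl hyl
  obtain ⟨hζp, hζχ⟩ := hK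
  have xc := (mem_cocycles₁_iff x).1 hx
  have yc := (mem_cocycles₁_iff y).1 hy
  rw [mem_levCoboundaries₂_iff]
  refine ⟨fun σ => fconnKz ζ hζp (- P.β (x σ) (y σ)), ?_, ?_⟩
  · obtain ⟨U₁, hU₁, h₁⟩ := hxl
    obtain ⟨U₂, hU₂, h₂⟩ := hyl
    refine ⟨U₁ ⊓ U₂, 𝒯.inf_mem _ _ hU₁ hU₂, fun g s hs => ?_⟩
    show fconnKz ζ hζp (- P.β (x (g * s)) (y (g * s))) = fconnKz ζ hζp (- P.β (x g) (y g))
    rw [h₁ g s hs.1, h₂ g s hs.2]
  · funext στ
    obtain ⟨σ, τ⟩ := στ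
    rw [pb_d₁₂_apply, Pi.add_apply, fcup_apply P J ζ hζp, fcup_apply P.flip J ζ hζp,
      fcup_kz_ρ J ζ hζp hζχ, ← map_sub, ← map_add, ← map_add]
    congr 1
    rw [xc σ τ, yc σ τ, mul_neg, ← P.equivariant σ (x τ) (y τ)]
    show _ = P.β (x σ) (B.ρ σ (y τ)) + P.β (A.ρ σ (x τ)) (y σ)
    simp only [map_add, LinearMap.add_apply]
    ring

end Fermat.Agent.TW.F

end
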