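/-
TW-F, piece F-locLeft (helper30): local Tate duality, left kernel — from `StmtLocRight` for the
flipped pair and anticommutativity `StmtCupAnti`.
-/
import Fermat.Agent.TW.F.LocRight

set_option autoImplicit false

noncomputable section

namespace Fermat.Agent.TW.F

open CategoryTheory groupCohomology Module Fermat.Agent.PT Fermat.Agent.PT.F

/-- **F-locLeft** from `StmtLocRight` and `StmtCupAnti`. -/
theorem stmtLocLeft_of (hLR : StmtLocRight) (hAnti : StmtCupAnti) : StmtLocLeft := by
  intro p _ G _ ι _ Gloc _ D A B _ _ P hA hB v x hx hxl hxy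
  refine hLR p G ι Gloc D B A P.flip hB hA v x hx hxl (fun y hy hyl => ?_)
  have h1 := hAnti p (Gloc v) (D.𝒯loc v) (D.χ.comp (D.r v)) (Rep.res (D.r v) A)
    (Rep.res (D.r v) B) (P.res (D.r v)) (D.Jloc v) (zetaLoc D v) (flr_isKummer D v) x y hx hy
    hxl hyl
  have h2 : cupCoc (P.res (D.r v)) (D.Jloc v) (zetaLoc D v) x y ∈
      levCoboundaries₂ (D.𝒯loc v) (D.Jloc v) := hxy y hy hyl
  have h3 := (levCoboundaries₂ (D.𝒯loc v) (D.Jloc v)).sub_mem h1 h2
  rw [add_sub_cancel_left] at h3
  exact h3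

end Fermat.Agent.TW.F

end
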