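/-
TW-F, pieces F-locRight and F-locLeft, unconditional forms (helper30):
local Tate duality for `H¹` — both kernels of the local cup product pairing are trivial.
-/
import Fermat.Agent.TW.F.LocLeft
import Fermat.Agent.TW.F.CupAnti
import Fermat.Agent.PT.A.Final
import Fermat.Agent.PT.F.FinLevel
import Fermat.Agent.PT.F.InflInj

set_option autoImplicit false

namespace Fermat.Agent.TW.F

open Fermat.Agent.PT Fermat.Agent.PT.F

/-- **F-locRight**, unconditional. -/
theorem stmtLocRight : StmtLocRight :=
  stmtLocRight_of (stmtRightKer_of stmtTN' stmtInflInjFin) stmtConnCmp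

/-- **F-locLeft**, unconditional. -/
theorem stmtLocLeft : StmtLocLeft := stmtLocLeft_of stmtLocRight stmtCupAnti

end Fermat.Agent.TW.F
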