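/-
TW-F (helper68): semilocal Shapiro injectivity in degree 2 for `J`-valued cochains
(= PT-F `In2` for the trivial module `M = ℤ`), in the language of `levCocycles₂`/`levCoboundaries₂`.

`in2Z` : a level 2-cocycle `Z : G × G → J` with `p • Z = 0` all of whose local components
`dd ↦ (Z (r dd.1, r dd.2)) v 1` are level coboundaries of `J_v` (for the big local towers) is a
level coboundary of `J`.
Used by F-rec (reciprocity) and F-h2rank.
-/
import Fermat.Agent.TW.F.Plan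
import Fermat.Agent.PT.F.SeqIn
import Fermat.Agent.PT.F.SeqInIn2a
import Fermat.Agent.PT.F.SeqInIn2b

set_option autoImplicit false

noncomputable section

namespace Fermat.Agent.TW.F

open CategoryTheory groupCohomology Module Fermat.Agent.PT Fermat.Agent.PT.F

attribute [local instance 1100] Rep.hV2

variable {p : ℕ} {G : Type} [Group G] {ι : Type} {Gloc : ι → Type} [∀ v, Group (Gloc v)]

/-- the trivial `G`-module `ℤ` -/
abbrev in2Z_M (G : Type) [Group G] : Rep.{0} ℤ G := Rep.trivial ℤ G ℤ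

lemma in2Z_M_levTriv (𝒯 : Tower G) : IsLevTriv 𝒯 (in2Z_M G) :=
  ⟨⊤, 𝒯.top_mem, fun _ _ _ => rfl⟩

lemma in2Z_M_basis : ∃ (n : ℕ) (b : Fin n → (in2Z_M G).V),
    ∀ (Y : Type) [AddCommGroup Y] (f : Fin n → Y),
      ∃! h : (in2Z_M G).V →+ Y, ∀ j, h (b j) = f j := by
  refine ⟨1, fun _ => (1 : ℤ), fun Y _ f => ⟨zmultiplesHom Y (f 0), fun j => ?_, fun h hh => ?_⟩⟩
  · have : j = 0 := Subsingleton.elim _ _
    subst this
    show (zmultiplesHom Y (f 0)) (1 : ℤ) = f 0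
    simp
  · apply AddMonoidHom.ext_int
    show h (1 : ℤ) = (zmultiplesHom Y (f 0)) (1 : ℤ)
    rw [hh 0]
    simp

/-- `In2` holds for the trivial module `ℤ`. -/
theorem in2Z_in2 [Fact p.Prime] [Fintype ι] (D : PTDatum p G ι Gloc) : In2 D (in2Z_M G) :=
  SeqInW.in2_of D _ (stmtIn2a p G ι Gloc D _ (in2Z_M_levTriv D.𝒯)) (fun v z hz ht =>
    stmtIn2b p G ι Gloc D _ (in2Z_M_levTriv D.𝒯) in2Z_M_basis v z hz ht)

/-- **Semilocal Shapiro injectivity in degree 2** for `J`-valued cochains. -/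
theorem in2Z [Fact p.Prime] [Fintype ι] (D : PTDatum p G ι Gloc) (Z : G × G → (PTJ D).V)
    (hZ : Z ∈ levCocycles₂ D.𝒯 (PTJ D)) (hp : ∀ gg, p • Z gg = 0)
    (hloc : ∀ v, (fun dd : Gloc v × Gloc v => ev D v (Z (D.r v dd.1, D.r v dd.2))) ∈
      levCoboundaries₂ (D.𝒯loc v) (D.Jloc v)) :
    Z ∈ levCoboundaries₂ D.𝒯 (PTJ D) := by
  have hcoc := (mem_cocycles₂_def Z).1 hZ.1
  obtain ⟨t, ht, hty⟩ := in2Z_in2 D (fun gg => zmultiplesHom (PTJ D).V (Z gg))
    (hZ.2.comp _)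
    (fun σ τ ρ => by
      apply AddMonoidHom.ext_int
      show (PTJ D).ρ σ ((1 : ℤ) • Z (τ, ρ)) - (1 : ℤ) • Z (σ * τ, ρ) + (1 : ℤ) • Z (σ, τ * ρ)
        - (1 : ℤ) • Z (σ, τ) = 0
      rw [one_smul, one_smul, one_smul, one_smul]
      exact hcoc σ τ ρ)
    (fun gg => by
      apply AddMonoidHom.ext_int
      show p • ((1 : ℤ) • Z gg) = 0
      rw [one_smul, hp])
    (fun v => by
      obtain ⟨x, hx, hxZ⟩ := (mem_levCoboundaries₂_iff (D.𝒯loc v) (D.Jloc v) _).1 (hloc v)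
      refine ⟨fun d => zmultiplesHom (D.Jloc v).V (x d), hx.comp _, fun dd => ?_⟩
      apply AddMonoidHom.ext_int
      show ev D v ((1 : ℤ) • Z (D.r v dd.1, D.r v dd.2)) =
        (D.Jloc v).ρ dd.1 ((1 : ℤ) • x dd.2) - (1 : ℤ) • x (dd.1 * dd.2) + (1 : ℤ) • x dd.1
      rw [one_smul, one_smul, one_smul, one_smul]
      have := congrFun hxZ dd
      rw [d₁₂_hom_apply] at this
      exact this.symm)
  refine (mem_levCoboundaries₂_iff D.𝒯 (PTJ D) _).2 ⟨fun σ => t σ (1 : ℤ), ?_, ?_⟩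
  · exact ht.comp (fun h : (in2Z_M G).V →+ (PTJ D).V => h (1 : ℤ))
  · funext gg
    rw [d₁₂_hom_apply]
    have := congrArg (fun h : (in2Z_M G).V →+ (PTJ D).V => h (1 : ℤ)) (hty gg)
    simp only at this
    have h1 : (zmultiplesHom (PTJ D).V (Z gg)) (1 : ℤ) = Z gg := by simp
    rw [h1] at this
    rw [this]
    rfl

end Fermat.Agent.TW.F

end
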