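/-
TW-F, piece **F-rec** (helper68): the reciprocity law `Σ_v λ_v [res_v x ∪ res_v y] = 0`.

* `λ_v := c_v • inv_v`, where `inv_v : H²_lev(G_v, J_v)[p] ↪ 𝔽_p` (`exists_inv`) and the constant
  `c_v` is chosen such that `λ_v [res_v Z] = inv_glob [π ∘ Z]` for all `v`-SUPPORTED level
  2-cocycles `Z` of `J` with `p • Z = 0` (`frec_lam_exists`; `in2Z` shows that `[π ∘ Z]` depends only
  on `[res_v Z]`, and `surv` that `c_v ≠ 0`).
* the global cup product `x ∪ y` has values in `μ_p ⊆ E`; its image in `J` is the sum of the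
  `v`-supported cocycles `Z_v = cupCoc P J ζ_v^J x y`, where `ζ_v^J ∈ J` is the `v`-part of `i(ζ)`
  (`frecZ`); hence `Σ_v π ∘ Z_v = π ∘ i ∘ (…) = 0`.
-/
import Fermat.Agent.TW.F.Plan
import Fermat.Agent.TW.F.Cup
import Fermat.Agent.TW.F.In2Z
import Fermat.Agent.PT.F.H2pCyclic

set_option autoImplicit false

noncomputable section

namespace Fermat.Agent.TW.F

open CategoryTheory groupCohomology Module Fermat.Agent.PT Fermat.Agent.PT.F

attribute [local instance 1100] Rep.hV2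

variable {p : ℕ} {G : Type} [Group G] {ι : Type} {Gloc : ι → Type} [∀ v, Group (Gloc v)]

/-! ### The `v`-part of `i(ζ)` -/

lemma frecZ_mem (D : PTDatum p G ι Gloc) (v : ι) :
    hatFun D.Jloc D.E v (homAdd (D.j v)) D.ζ ∈ semilocalSub D.𝒯 D.r D.Jloc := by
  intro v'
  by_cases h : v = v'
  · subst h
    refine ⟨fun d g => ?_, ?_⟩
    · rw [hatFun_same, hatFun_same, map_mul]
      exact Rep.hom_comm_apply (D.j v) d (D.E.ρ g D.ζ)
    · obtain ⟨U, hU, hUM⟩ := D.E_discrete D.ζ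
      refine ⟨U, hU, fun g s hs => ?_⟩
      rw [hatFun_same, hatFun_same, map_mul]
      show (D.j v).hom (D.E.ρ g (D.E.ρ s D.ζ)) = (D.j v).hom (D.E.ρ g D.ζ)
      rw [hUM s hs]
  · refine ⟨fun d g => ?_, ?_⟩
    · rw [hatFun_ne _ _ _ _ _ h, hatFun_ne _ _ _ _ _ h, map_zero]
    · refine ⟨⊤, D.𝒯.top_mem, fun g s _ => ?_⟩
      rw [hatFun_ne _ _ _ _ _ h, hatFun_ne _ _ _ _ _ h]

/-- the `v`-part `ζ_v^J` of `i(ζ) ∈ J`: `v`-component `g ↦ j_v(g ζ)`, other components `0` -/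
def frecZ (D : PTDatum p G ι Gloc) (v : ι) : (PTJ D).V :=
  ⟨hatFun D.Jloc D.E v (homAdd (D.j v)) D.ζ, frecZ_mem D v⟩

lemma frecZ_same (D : PTDatum p G ι Gloc) (v : ι) (g : G) :
    (frecZ D v).1 v g = (D.j v).hom (D.E.ρ g D.ζ) :=
  hatFun_same D.Jloc D.E v (homAdd (D.j v)) D.ζ g

lemma frecZ_ne (D : PTDatum p G ι Gloc) (v : ι) {v' : ι} (h : v ≠ v') (g : G) :
    (frecZ D v).1 v' g = 0 :=
  hatFun_ne D.Jloc D.E v (homAdd (D.j v)) D.ζ h g

lemma frecZ_nsmul_apply (D : PTDatum p G ι Gloc) (v : ι) (n : ℕ) (v' : ι) (g : G) :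
    (n • frecZ D v).1 v' g = n • (frecZ D v).1 v' g := rfl

lemma frecZ_kummer (D : PTDatum p G ι Gloc) (v : ι) : IsKummer D.χ (PTJ D) (frecZ D v) := by
  refine ⟨?_, fun g => ?_⟩
  · apply Subtype.ext
    funext v' g
    show p • (frecZ D v).1 v' g = 0
    by_cases h : v = v'
    · subst h
      rw [frecZ_same, ← map_nsmul, ← map_nsmul, D.ζ_tors, map_zero, map_zero]
    · rw [frecZ_ne D v h, smul_zero]
  · apply Subtype.ext
    funext v' h
    show (frecZ D v).1 v' (h * g) = ((D.χ g : ZMod p).val) • (frecZ D v).1 v' h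
    by_cases hv : v = v'
    · subst hv
      rw [frecZ_same, frecZ_same, map_mul]
      show (D.j v).hom (D.E.ρ h (D.E.ρ g D.ζ)) = _
      rw [D.ζ_char g, map_nsmul, map_nsmul]
    · rw [frecZ_ne D v hv, frecZ_ne D v hv, smul_zero]

lemma frecZ_sum [Fintype ι] (D : PTDatum p G ι Gloc) :
    ∑ v, frecZ D v = D.i.hom D.ζ := by
  classical
  apply Subtype.ext
  funext v' g
  rw [D.i_apply]
  have h1 : ((∑ v, frecZ D v : (PTJ D).V)).1 v' g = ∑ v, (frecZ D v).1 v' g := by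
    have := AddSubmonoidClass.coe_finsetSum (S := semilocalSub D.𝒯 D.r D.Jloc)
      (fun v => frecZ D v) Finset.univ
    show ((∑ v, frecZ D v : ↥(semilocalSub D.𝒯 D.r D.Jloc)) : ∀ v, G → (D.Jloc v).V) v' g = _
    rw [this, Finset.sum_apply, Finset.sum_apply]
  rw [h1, Finset.sum_eq_single v' (fun v _ hv => frecZ_ne D v hv g)
    (fun h => absurd (Finset.mem_univ v') h), frecZ_same]

/-! ### `v`-supported cocycles -/

/-- `Z` is a `v`-supported level 2-cocycle of `J` killed by `p` -/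
def FrecSupp (D : PTDatum p G ι Gloc) (v : ι) (Z : G × G → (PTJ D).V) : Prop :=
  Z ∈ levCocycles₂ D.𝒯 (PTJ D) ∧ (∀ gg, p • Z gg = 0) ∧
    ∀ v' : ι, v' ≠ v → ∀ g g' h : G, (Z (g, g')).1 v' h = 0

/-- the local component at `v` of a 2-cochain of `J` -/
def frecLoc (D : PTDatum p G ι Gloc) (v : ι) (Z : G × G → (PTJ D).V) :
    Gloc v × Gloc v → (D.Jloc v).V :=
  fun dd => ev D v (Z (D.r v dd.1, D.r v dd.2))

/-- the image in `C` of a 2-cochain of `J` -/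
def frecPi (D : PTDatum p G ι Gloc) (Z : G × G → (PTJ D).V) : G × G → D.C.V :=
  fun gg => D.π.hom (Z gg)

lemma frecLoc_sub_nsmul (D : PTDatum p G ι Gloc) (v : ι) (Z Z₀ : G × G → (PTJ D).V) (n : ℕ) :
    frecLoc D v (Z - n • Z₀) = frecLoc D v Z - n • frecLoc D v Z₀ := by
  funext dd
  show ev D v (Z _ - n • Z₀ _) = ev D v (Z _) - n • ev D v (Z₀ _)
  rw [map_sub, map_nsmul]

lemma frecPi_sub_nsmul (D : PTDatum p G ι Gloc) (Z Z₀ : G × G → (PTJ D).V) (n : ℕ) :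
    frecPi D (Z - n • Z₀) = frecPi D Z - n • frecPi D Z₀ := by
  funext gg
  show D.π.hom (Z _ - n • Z₀ _) = D.π.hom (Z _) - n • D.π.hom (Z₀ _)
  rw [map_sub, map_nsmul]

lemma frecPi_mem_cocycles (D : PTDatum p G ι Gloc) {Z : G × G → (PTJ D).V}
    (hZ : Z ∈ levCocycles₂ D.𝒯 (PTJ D)) : frecPi D Z ∈ levCocycles₂ D.𝒯 D.C := by
  have hcoc := (mem_cocycles₂_def Z).1 hZ.1
  refine ⟨(mem_cocycles₂_def _).2 fun g h j => ?_, hZ.2.comp _⟩
  have := congrArg D.π.hom (hcoc g h j)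
  rw [map_zero, map_sub, map_add, map_sub, Rep.hom_comm_apply] at this
  exact this

lemma frecPi_mem_coboundaries (D : PTDatum p G ι Gloc) {Z : G × G → (PTJ D).V}
    (hZ : Z ∈ levCoboundaries₂ D.𝒯 (PTJ D)) : frecPi D Z ∈ levCoboundaries₂ D.𝒯 D.C := by
  obtain ⟨t, ht, htZ⟩ := (mem_levCoboundaries₂_iff D.𝒯 (PTJ D) _).1 hZ
  refine (mem_levCoboundaries₂_iff D.𝒯 D.C _).2 ⟨fun g => D.π.hom (t g), ht.comp _, ?_⟩
  funext gg
  rw [d₁₂_hom_apply]
  show _ = D.π.hom (Z gg)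
  rw [← htZ, d₁₂_hom_apply, map_add, map_sub, Rep.hom_comm_apply]

lemma FrecSupp.sub_nsmul {D : PTDatum p G ι Gloc} {v : ι} {Z Z₀ : G × G → (PTJ D).V}
    (hZ : FrecSupp D v Z) (hZ₀ : FrecSupp D v Z₀) (n : ℕ) : FrecSupp D v (Z - n • Z₀) := by
  refine ⟨(levCocycles₂ D.𝒯 (PTJ D)).sub_mem hZ.1 ((levCocycles₂ D.𝒯 (PTJ D)).smul_of_tower_mem
    n hZ₀.1), fun gg => ?_, fun v' hv' g g' h => ?_⟩
  · show p • (Z gg - n • Z₀ gg) = 0
    rw [smul_sub, smul_comm, hZ.2.1, hZ₀.2.1, smul_zero, sub_zero]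
  · show (Z (g, g')).1 v' h - n • (Z₀ (g, g')).1 v' h = 0
    rw [hZ.2.2 v' hv', hZ₀.2.2 v' hv', smul_zero, sub_zero]

/-- (K) if the local class of a `v`-supported cocycle vanishes then so does its image in `C`
(semilocal Shapiro injectivity `in2Z`). -/
theorem frec_K [Fact p.Prime] [Fintype ι] (D : PTDatum p G ι Gloc) (v : ι)
    {Z : G × G → (PTJ D).V} (hZ : FrecSupp D v Z)
    (hloc : frecLoc D v Z ∈ levCoboundaries₂ (D.𝒯loc v) (D.Jloc v)) :
    frecPi D Z ∈ levCoboundaries₂ D.𝒯 D.C := by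
  apply frecPi_mem_coboundaries
  refine in2Z D Z hZ.1 hZ.2.1 fun v' => ?_
  by_cases h : v' = v
  · subst h
    exact hloc
  · have : (fun dd : Gloc v' × Gloc v' => ev D v' (Z (D.r v' dd.1, D.r v' dd.2))) = 0 := by
      funext dd
      exact hZ.2.2 v' h _ _ 1
    rw [this]
    exact (levCoboundaries₂ (D.𝒯loc v') (D.Jloc v')).zero_mem

/-- (S) if the image in `C` of a `v`-supported cocycle is a coboundary then so is its local
component (the datum axiom `surv`). -/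
theorem frec_S (D : PTDatum p G ι Gloc) (v : ι)
    {Z : G × G → (PTJ D).V} (hZ : FrecSupp D v Z)
    (hpi : frecPi D Z ∈ levCoboundaries₂ D.𝒯 D.C) :
    frecLoc D v Z ∈ levCoboundaries₂ (D.𝒯loc v) (D.Jloc v) := by
  have hy_p : ∃ (k : ℕ) (t : G → (PTJ D).V), IsLevel₁ D.𝒯 t ∧
      (d₁₂ (PTJ D)).hom t = (p ^ k) • Z := by
    refine ⟨1, 0, ⟨⊤, D.𝒯.top_mem, fun _ _ _ => rfl⟩, ?_⟩
    rw [map_zero, pow_one]
    funext gg
    exact (hZ.2.1 gg).symm
  have hy_π : ∃ t : G → D.C.V, IsLevel₁ D.𝒯 t ∧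
      (d₁₂ D.C).hom t = fun gg => D.π.hom (Z gg) := by
    obtain ⟨t, ht, hdt⟩ := (mem_levCoboundaries₂_iff _ _ _).1 hpi
    exact ⟨t, ht, by rw [hdt]; rfl⟩
  obtain ⟨t, ht, hdt⟩ := D.surv v Z hZ.1.1 hZ.1.2 hZ.2.2 hy_p hy_π
  exact (mem_levCoboundaries₂_iff _ _ _).2 ⟨t, ht, hdt⟩

/-! ### The normalised local invariant maps -/

lemma frec_ptors_loc (D : PTDatum p G ι Gloc) (v : ι) {Z : G × G → (PTJ D).V}
    (hZ : FrecSupp D v Z) (w : ↥(levCocycles₂ (D.𝒯loc v) (D.Jloc v)))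
    (hw : (w : Gloc v × Gloc v → (D.Jloc v).V) = frecLoc D v Z) :
    levH2π (D.𝒯loc v) (D.Jloc v) w ∈ pTors p (levH2 (D.𝒯loc v) (D.Jloc v)) := by
  rw [mem_pTors, ← map_nsmul]
  have : p • w = 0 := by
    apply Subtype.ext
    show p • (w : Gloc v × Gloc v → (D.Jloc v).V) = 0
    rw [hw]
    funext dd
    show p • ev D v (Z _) = 0
    rw [← map_nsmul, hZ.2.1, map_zero]
  rw [this, map_zero]

lemma frec_ptors_glob (D : PTDatum p G ι Gloc) {Z : G × G → (PTJ D).V}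
    (hZ : ∀ gg, p • Z gg = 0) (c : ↥(levCocycles₂ D.𝒯 D.C))
    (hc : (c : G × G → D.C.V) = frecPi D Z) :
    levH2π D.𝒯 D.C c ∈ pTors p (levH2 D.𝒯 D.C) := by
  rw [mem_pTors, ← map_nsmul]
  have : p • c = 0 := by
    apply Subtype.ext
    show p • (c : G × G → D.C.V) = 0
    rw [hc]
    funext gg
    show p • D.π.hom (Z gg) = 0
    rw [← map_nsmul, hZ, map_zero]
  rw [this, map_zero]

/-- **The normalised local invariant map** `λ_v`: injective on `H²_lev(G_v, J_v)[p]`, and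
`λ_v [res_v Z] = inv_glob [π ∘ Z]` for every `v`-supported level 2-cocycle `Z` of `J` killed by
`p`. -/
theorem frec_lam_exists [Fact p.Prime] [Fintype ι] (D : PTDatum p G ι Gloc) (v : ι)
    (invG : ↥(pTors p (levH2 D.𝒯 D.C)) →+ ZMod p) (hinvG : Function.Injective invG) :
    ∃ lam : ↥(pTors p (levH2 (D.𝒯loc v) (D.Jloc v))) →+ ZMod p, Function.Injective lam ∧
      ∀ (Z : G × G → (PTJ D).V), FrecSupp D v Z →
        ∀ (w : ↥(levCocycles₂ (D.𝒯loc v) (D.Jloc v)))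
          (_ : (w : Gloc v × Gloc v → (D.Jloc v).V) = frecLoc D v Z)
          (hpw : levH2π (D.𝒯loc v) (D.Jloc v) w ∈ pTors p (levH2 (D.𝒯loc v) (D.Jloc v)))
          (c : ↥(levCocycles₂ D.𝒯 D.C)) (_ : (c : G × G → D.C.V) = frecPi D Z)
          (hpc : levH2π D.𝒯 D.C c ∈ pTors p (levH2 D.𝒯 D.C)),
          lam ⟨levH2π (D.𝒯loc v) (D.Jloc v) w, hpw⟩ = invG ⟨levH2π D.𝒯 D.C c, hpc⟩ := by
  classical
  obtain ⟨invv, hinvv⟩ := exists_inv (𝒯 := D.𝒯loc v) (X := D.Jloc v) stmtH2pCyclic p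
    (D.Jloc_discrete v) (fun V _ hV => D.cm_loc v V hV)
  by_cases hex : ∃ Z₀ : G × G → (PTJ D).V, FrecSupp D v Z₀ ∧
      frecLoc D v Z₀ ∈ levCocycles₂ (D.𝒯loc v) (D.Jloc v) ∧
      frecLoc D v Z₀ ∉ levCoboundaries₂ (D.𝒯loc v) (D.Jloc v)
  · obtain ⟨Z₀, hZ₀, hw₀, hne⟩ := hex
    have hpw₀ := frec_ptors_loc D v hZ₀ ⟨frecLoc D v Z₀, hw₀⟩ rfl
    have hpc₀ := frec_ptors_glob D hZ₀.2.1 ⟨frecPi D Z₀, frecPi_mem_cocycles D hZ₀.1⟩ rfl
    have ha0 : invv ⟨_, hpw₀⟩ ≠ 0 := by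
      intro h
      have h1 : (⟨_, hpw₀⟩ : ↥(pTors p (levH2 (D.𝒯loc v) (D.Jloc v)))) = 0 :=
        hinvv (by rw [h, map_zero])
      have h2 : levH2π (D.𝒯loc v) (D.Jloc v) ⟨frecLoc D v Z₀, hw₀⟩ = 0 :=
        congrArg Subtype.val h1
      exact hne ((levH2π_eq_zero_iff _ _ _).1 h2)
    have hb0 : invG ⟨_, hpc₀⟩ ≠ 0 := by
      intro h
      have h1 : (⟨_, hpc₀⟩ : ↥(pTors p (levH2 D.𝒯 D.C))) = 0 := hinvG (by rw [h, map_zero])
      have h2 : levH2π D.𝒯 D.C ⟨frecPi D Z₀, frecPi_mem_cocycles D hZ₀.1⟩ = 0 :=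
        congrArg Subtype.val h1
      exact hne (frec_S D v hZ₀ ((levH2π_eq_zero_iff _ _ _).1 h2))
    obtain ⟨a, ha⟩ : ∃ a : ZMod p, invv ⟨_, hpw₀⟩ = a := ⟨_, rfl⟩
    obtain ⟨b, hb⟩ : ∃ b : ZMod p, invG ⟨_, hpc₀⟩ = b := ⟨_, rfl⟩
    rw [ha] at ha0
    rw [hb] at hb0
    refine ⟨(AddMonoidHom.mulLeft (b * a⁻¹)).comp invv, ?_, ?_⟩
    · intro s t hst
      apply hinvv
      have : b * a⁻¹ * invv s = b * a⁻¹ * invv t := hst
      exact mul_left_cancel₀ (mul_ne_zero hb0 (inv_ne_zero ha0)) this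
    · intro Z hZ w hw hpw c hc hpc
      obtain ⟨n, hn⟩ : ∃ n : ZMod p, invv ⟨_, hpw⟩ * a⁻¹ = n := ⟨_, rfl⟩
      have hna : invv ⟨_, hpw⟩ = n * a := by
        rw [← hn, mul_assoc, inv_mul_cancel₀ ha0, mul_one]
      have hnval : ((n.val : ℕ) : ZMod p) = n := by
        rw [ZMod.natCast_val, ZMod.cast_id', id]
      -- `Z' = Z - n • Z₀`
      have hZ' := hZ.sub_nsmul hZ₀ n.val
      have hw' : ((w - n.val • ⟨frecLoc D v Z₀, hw₀⟩ : ↥(levCocycles₂ (D.𝒯loc v) (D.Jloc v))) :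
          Gloc v × Gloc v → (D.Jloc v).V) = frecLoc D v (Z - n.val • Z₀) := by
        rw [frecLoc_sub_nsmul, ← hw]
        rfl
      have hc' : ((c - n.val • ⟨frecPi D Z₀, frecPi_mem_cocycles D hZ₀.1⟩ :
          ↥(levCocycles₂ D.𝒯 D.C)) : G × G → D.C.V) = frecPi D (Z - n.val • Z₀) := by
        rw [frecPi_sub_nsmul, ← hc]
        rfl
      have h1 : levH2π (D.𝒯loc v) (D.Jloc v) (w - n.val • ⟨frecLoc D v Z₀, hw₀⟩) = 0 := by
        have h2 : (⟨_, hpw⟩ - n.val • ⟨_, hpw₀⟩ :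
            ↥(pTors p (levH2 (D.𝒯loc v) (D.Jloc v)))) = 0 := by
          apply hinvv
          rw [map_sub, map_nsmul, map_zero, ha, hna, nsmul_eq_mul, hnval, sub_self]
        have h3 := congrArg Subtype.val h2
        rw [map_sub, map_nsmul]
        exact h3
      have h4 : levH2π D.𝒯 D.C (c - n.val • ⟨frecPi D Z₀, frecPi_mem_cocycles D hZ₀.1⟩) = 0 := by
        rw [levH2π_eq_zero_iff, hc']
        apply frec_K D v hZ'
        rw [← hw', ← levH2π_eq_zero_iff]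
        exact h1
      have h5 : (⟨_, hpc⟩ : ↥(pTors p (levH2 D.𝒯 D.C))) = n.val • ⟨_, hpc₀⟩ := by
        apply Subtype.ext
        rw [map_sub, map_nsmul, sub_eq_zero] at h4
        exact h4
      show b * a⁻¹ * invv ⟨_, hpw⟩ = invG ⟨_, hpc⟩
      rw [h5, map_nsmul, hb, hna, nsmul_eq_mul, hnval]
      field_simp
  · push Not at hex
    refine ⟨invv, hinvv, ?_⟩
    intro Z hZ w hw hpw c hc hpc
    have hwcob : frecLoc D v Z ∈ levCoboundaries₂ (D.𝒯loc v) (D.Jloc v) := by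
      apply hex Z hZ
      rw [← hw]
      exact w.2
    have h1 : (⟨_, hpw⟩ : ↥(pTors p (levH2 (D.𝒯loc v) (D.Jloc v)))) = 0 := by
      apply Subtype.ext
      show levH2π _ _ w = 0
      rw [levH2π_eq_zero_iff, hw]
      exact hwcob
    have h2 : (⟨_, hpc⟩ : ↥(pTors p (levH2 D.𝒯 D.C))) = 0 := by
      apply Subtype.ext
      show levH2π _ _ c = 0
      rw [levH2π_eq_zero_iff, hc]
      exact frec_K D v hZ hwcob
    rw [h1, h2, map_zero, map_zero]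

/-! ### Reciprocity -/

/-- the local component of the `v`-supported global cup product is the local cup product -/
lemma frecLoc_cup (D : PTDatum p G ι Gloc) {A B : Rep.{0} (ZMod p) G} (P : DualPair D.χ A B)
    (v : ι) (x : G → A.V) (y : G → B.V) :
    frecLoc D v (cupCoc P (PTJ D) (frecZ D v) x y) =
      cupLoc D P v (resOne D v x) (resOne D v y) := by
  funext dd
  show ev D v ((P.β (x (D.r v dd.1)) (B.ρ (D.r v dd.1) (y (D.r v dd.2)))).val • frecZ D v) = _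
  rw [map_nsmul, ev_apply, frecZ_same, map_one]
  rfl

/-- **F-rec**: the reciprocity law for the local cup products. -/
theorem stmtRec : StmtRec := by
  intro p _ G _ ι _ Gloc _ D
  classical
  obtain ⟨invG, hinvG⟩ := exists_inv (𝒯 := D.𝒯) (X := D.C) stmtH2pCyclic p D.C_discrete
    (fun U _ hU => D.cm_glob U hU)
  choose lam hlam_inj hlam using fun v => frec_lam_exists D v invG hinvG
  refine ⟨lam, hlam_inj, ?_⟩
  intro A B P hA hB x y hx hy hlx hly w hw hp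
  -- the `v`-supported cup products
  have hcup : ∀ v, cupCoc P (PTJ D) (frecZ D v) x y ∈ levCocycles₂ D.𝒯 (PTJ D) := fun v =>
    (stmtCupBasic p G D.𝒯 D.χ A B P (PTJ D) (frecZ D v) (frecZ_kummer D v) hA hB).1
      x y hx hy hlx hly
  have hcup_p : ∀ v gg, p • cupCoc P (PTJ D) (frecZ D v) x y gg = 0 := fun v gg =>
    congrFun ((stmtCupBasic p G D.𝒯 D.χ A B P (PTJ D) (frecZ D v)
      (frecZ_kummer D v) hA hB).2.2.2.2.2 x y) gg
  have hsupp : ∀ v, FrecSupp D v (cupCoc P (PTJ D) (frecZ D v) x y) := fun v =>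
    ⟨hcup v, hcup_p v, fun v' hv' g g' h => by
      show (_ • frecZ D v).1 v' h = 0
      rw [frecZ_nsmul_apply, frecZ_ne D v (Ne.symm hv'), smul_zero]⟩
  -- their classes in `C`
  let c : ∀ v, ↥(levCocycles₂ D.𝒯 D.C) := fun v =>
    ⟨frecPi D (cupCoc P (PTJ D) (frecZ D v) x y), frecPi_mem_cocycles D (hcup v)⟩
  have hpc : ∀ v, levH2π D.𝒯 D.C (c v) ∈ pTors p (levH2 D.𝒯 D.C) := fun v =>
    frec_ptors_glob D (hcup_p v) (c v) rfl
  have hterm : ∀ v, lam v ⟨levH2π (D.𝒯loc v) (D.Jloc v) (w v), hp v⟩ =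
      invG ⟨levH2π D.𝒯 D.C (c v), hpc v⟩ := fun v =>
    hlam v _ (hsupp v) (w v) ((hw v).trans (frecLoc_cup D P v x y).symm) (hp v) (c v) rfl (hpc v)
  rw [Finset.sum_congr rfl (fun v _ => hterm v), ← map_sum]
  have hsum : ∑ v, (⟨levH2π D.𝒯 D.C (c v), hpc v⟩ : ↥(pTors p (levH2 D.𝒯 D.C))) = 0 := by
    apply Subtype.ext
    rw [AddSubmonoidClass.coe_finsetSum]
    show ∑ v, levH2π D.𝒯 D.C (c v) = 0
    rw [← map_sum]
    have : ∑ v, c v = 0 := by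
      apply Subtype.ext
      rw [AddSubmonoidClass.coe_finsetSum]
      funext gg
      rw [Finset.sum_apply]
      show ∑ v, D.π.hom ((P.β (x gg.1) (B.ρ gg.1 (y gg.2))).val • frecZ D v) = 0
      rw [← map_sum, ← Finset.smul_sum, frecZ_sum, ← map_nsmul]
      exact (D.exact _).2 ⟨_, rfl⟩
    rw [this, map_zero]
  rw [hsum, map_zero]

end Fermat.Agent.TW.F

end
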