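import Fermat.Agent.TW.F.Plan
import Fermat.Agent.PT.F.Final
import Fermat.Agent.TW.F.GloFin

/-!
# TW-F / F-sha (helper88): `dim Ш¹(A) = dim Ш²(B)` for a dual pair

* `fsha_map_mem` : a morphism of representations maps `Ш¹` into `Ш¹`;
* `fsha_equiv` : an equivariant linear equivalence `A ≃ A'` induces `Ш¹(A) ≃ Ш¹(A')`;
* `fsha_finrank_of_pairing` : a bilinear pairing with trivial kernels on both sides (one side
  finite-dimensional) has sides of equal dimension;
* `fsha_dualEquiv` : a dual pair gives an equivariant equivalence `A ≃ B^*(χ)`, `a ↦ β(a, ·)`;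
* `stmtShaEq_of : StmtGloFin → StmtShaEq` (with the abstract Poitou–Tate theorem `stmtPTF`);
* `stmtShaEq : StmtShaEq`, unconditional (with `stmtGloFin`).
-/

set_option autoImplicit false

noncomputable section

namespace Fermat.Agent.TW.F

open CategoryTheory groupCohomology Module Fermat.Agent.PT Fermat.Agent.PT.F

section Transport

variable {p : ℕ} [Fact p.Prime] {G : Type} [Group G] {ι : Type} {Gloc : ι → Type}
  [∀ v, Group (Gloc v)] (D : PTDatum p G ι Gloc)

/-- a morphism of representations maps `Ш¹` to `Ш¹` -/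
theorem fsha_map_mem {A A' : Rep.{0} (ZMod p) G} (φ : A ⟶ A') (x : H1 A) (hx : x ∈ D.shaOne A) :
    (map (MonoidHom.id G) φ 1).hom x ∈ D.shaOne A' := by
  obtain ⟨hlev, hloc⟩ := Submodule.mem_inf.1 hx
  obtain ⟨c, hc, rfl⟩ := (mem_levH1_iff _ _ _).1 hlev
  have key : (map (MonoidHom.id G) φ 1).hom ((H1π A).hom c)
      = (H1π A').hom ((mapCocycles₁ (MonoidHom.id G) φ).hom c) :=
    H1π_comp_map_apply _ _ _
  rw [key]
  refine Submodule.mem_inf.2
    ⟨(mem_levH1_iff _ _ _).2 ⟨(mapCocycles₁ (MonoidHom.id G) φ).hom c, ?_, rfl⟩, ?_⟩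
  · obtain ⟨U, hU, h⟩ := hc
    refine ⟨U, hU, fun g s hs => ?_⟩
    show φ.hom (c (g * s)) = φ.hom (c g)
    rw [h g s hs]
  · rw [LinearMap.mem_ker, Asm.locTotal_eq_zero_iff]
    rw [LinearMap.mem_ker, Asm.locTotal_eq_zero_iff] at hloc
    intro v
    obtain ⟨a, ha⟩ := hloc v
    refine ⟨φ.hom a, ?_⟩
    funext d
    have h1 := congrFun ha d
    simp only [d₀₁_hom_apply] at h1 ⊢
    show _ = φ.hom (c (D.r v d))
    have h2 : (c : G → A.V) (D.r v d) = A.ρ (D.r v d) a - a := h1.symm
    rw [h2, map_sub, Rep.hom_comm_apply]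
    rfl

/-- the morphism of representations defined by an equivariant linear map -/
def fshaHom {A A' : Rep.{0} (ZMod p) G} (f : A.V →ₗ[ZMod p] A'.V)
    (hf : ∀ (g : G) (a : A.V), f (A.ρ g a) = A'.ρ g (f a)) : A ⟶ A' :=
  Rep.ofHom (LinearMap.intertwiningMap_of_isIntertwiningMap (ρ := A.ρ) (σ := A'.ρ) (f := f) hf)

theorem fshaHom_apply {A A' : Rep.{0} (ZMod p) G} (f : A.V →ₗ[ZMod p] A'.V)
    (hf : ∀ (g : G) (a : A.V), f (A.ρ g a) = A'.ρ g (f a)) (a : A.V) :
    (fshaHom f hf).hom a = f a := rfl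

/-- transport of `Ш¹` along an equivariant linear equivalence -/
theorem fsha_equiv {A A' : Rep.{0} (ZMod p) G} (e : A.V ≃ₗ[ZMod p] A'.V)
    (he : ∀ (g : G) (a : A.V), e (A.ρ g a) = A'.ρ g (e a)) :
    Nonempty (↥(D.shaOne A) ≃ₗ[ZMod p] ↥(D.shaOne A')) := by
  have he' : ∀ (g : G) (b : A'.V), e.symm (A'.ρ g b) = A.ρ g (e.symm b) := by
    intro g b
    apply e.injective
    rw [he, e.apply_symm_apply, e.apply_symm_apply]
  let φ : A ⟶ A' := fshaHom e.toLinearMap he
  let ψ : A' ⟶ A := fshaHom e.symm.toLinearMap he'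
  have hφψ : φ ≫ ψ = 𝟙 A := by
    apply Rep.hom_ext
    ext a
    exact e.symm_apply_apply a
  have hψφ : ψ ≫ φ = 𝟙 A' := by
    apply Rep.hom_ext
    ext a
    exact e.apply_symm_apply a
  let f : H1 A →ₗ[ZMod p] H1 A' := (map (MonoidHom.id G) φ 1).hom
  let g : H1 A' →ₗ[ZMod p] H1 A := (map (MonoidHom.id G) ψ 1).hom
  have hgf : ∀ x, g (f x) = x := by
    intro x
    have h := map_id_comp φ ψ 1
    rw [hφψ, map_id] at h
    have h2 := congrArg (fun m => m.hom x) h
    simpa using h2.symm
  have hfg : ∀ y, f (g y) = y := by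
    intro y
    have h := map_id_comp ψ φ 1
    rw [hψφ, map_id] at h
    have h2 := congrArg (fun m => m.hom y) h
    simpa using h2.symm
  refine ⟨
    { toFun := fun x => ⟨f x.1, fsha_map_mem D φ x.1 x.2⟩
      map_add' := fun x y => Subtype.ext (by simp)
      map_smul' := fun c x => Subtype.ext (by simp)
      invFun := fun y => ⟨g y.1, fsha_map_mem D ψ y.1 y.2⟩
      left_inv := fun x => Subtype.ext (hgf x.1)
      right_inv := fun y => Subtype.ext (hfg y.1) }⟩

end Transport

section Pairing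

/-- a bilinear pairing with trivial kernels on both sides, one side finite-dimensional:
equal dimensions -/
theorem fsha_finrank_of_pairing {k X Y : Type*} [Field k] [AddCommGroup X] [Module k X]
    [AddCommGroup Y] [Module k Y] [Module.Finite k X]
    (B : X →ₗ[k] Y →ₗ[k] k) (hl : ∀ x, (∀ y, B x y = 0) → x = 0)
    (hr : ∀ y, (∀ x, B x y = 0) → y = 0) : finrank k X = finrank k Y := by
  have hinjr : Function.Injective B.flip := by
    rw [← LinearMap.ker_eq_bot, LinearMap.ker_eq_bot']
    intro y hy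
    exact hr y fun x => by
      have := congrArg (fun f => f x) hy
      simpa using this
  have hinjl : Function.Injective B := by
    rw [← LinearMap.ker_eq_bot, LinearMap.ker_eq_bot']
    intro x hx
    exact hl x fun y => by
      have := congrArg (fun f => f y) hx
      simpa using this
  have : Module.Finite k Y := Module.Finite.of_injective B.flip hinjr
  have h1 : finrank k Y ≤ finrank k X := by
    have := LinearMap.finrank_le_finrank_of_injective hinjr
    rwa [Subspace.dual_finrank_eq] at this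
  have h2 : finrank k X ≤ finrank k Y := by
    have := LinearMap.finrank_le_finrank_of_injective hinjl
    rwa [Subspace.dual_finrank_eq] at this
  exact le_antisymm h2 h1

end Pairing

section Main

variable {p : ℕ} [Fact p.Prime] {G : Type} [Group G]

/-- the equivariant linear equivalence `A ≃ B^*(χ)`, `a ↦ β(a, ·)` of a dual pair -/
theorem fsha_dualEquiv {χ : G →* (ZMod p)ˣ} {A B : Rep.{0} (ZMod p) G}
    [FiniteDimensional (ZMod p) A] [FiniteDimensional (ZMod p) B] (P : DualPair χ A B) :
    ∃ e : A.V ≃ₗ[ZMod p] (B.dualTwist χ).V,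
      ∀ (g : G) (a : A.V), e (A.ρ g a) = (B.dualTwist χ).ρ g (e a) := by
  have hdim : finrank (ZMod p) A.V = finrank (ZMod p) B.V :=
    fsha_finrank_of_pairing P.β P.left P.right
  have hinj : Function.Injective P.β := by
    rw [← LinearMap.ker_eq_bot, LinearMap.ker_eq_bot']
    intro x hx
    exact P.left x fun y => by
      have := congrArg (fun f => f y) hx
      simpa using this
  have hdim' : finrank (ZMod p) A.V = finrank (ZMod p) (Module.Dual (ZMod p) B.V) := by
    rw [Subspace.dual_finrank_eq, hdim]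
  refine ⟨LinearMap.linearEquivOfInjective P.β hinj hdim', fun g a => ?_⟩
  rw [Rep.dualTwist_ρ_apply]
  apply LinearMap.ext
  intro b
  simp only [LinearMap.linearEquivOfInjective_apply, LinearMap.smul_apply, LinearMap.coe_comp,
    Function.comp_apply, smul_eq_mul]
  have h := P.equivariant g a (B.ρ g⁻¹ b)
  rw [← Module.End.mul_apply, ← map_mul, mul_inv_cancel, map_one, Module.End.one_apply] at h
  exact h

/-- **F-sha**: `dim Ш¹(A) = dim Ш²(B)` for a dual pair. -/
theorem stmtShaEq_of (hGF : StmtGloFin) : StmtShaEq := by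
  intro p _ G _ ι _ Gloc _ D A B _ _ P hA hB
  obtain ⟨Bil, hl, hr⟩ := stmtPTF p G ι Gloc D B hB
  obtain ⟨e, he⟩ := fsha_dualEquiv P
  obtain ⟨E⟩ := fsha_equiv D e he
  have : Finite ↥(levH1 D.𝒯 A) := hGF p G ι Gloc D A hA
  have : Finite ↥(D.shaOne A) :=
    Finite.of_injective (Submodule.inclusion (inf_le_left : D.shaOne A ≤ levH1 D.𝒯 A))
      (Submodule.inclusion_injective _)
  have : Module.Finite (ZMod p) ↥(D.shaOne A) := Module.Finite.of_finite
  have : Module.Finite (ZMod p) ↥(D.shaOne (B.dualTwist D.χ)) := Module.Finite.equiv E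
  rw [E.finrank_eq]
  exact fsha_finrank_of_pairing Bil hl hr

/-- **F-sha**, unconditional. -/
theorem stmtShaEq : StmtShaEq := stmtShaEq_of stmtGloFin

end Main

end Fermat.Agent.TW.F
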