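/-
TW-F, piece F-gw1 (helper9), unconditional wiring:
`stmtGW1 : StmtGW1` (first half of Greenberg–Wiles) and, with F-sha, the Greenberg–Wiles
inequality `stmtGW_all : StmtGW` (route 1; its hypotheses (EC), (H2) are part of the statement).
-/
import Fermat.Agent.TW.F.GW1
import Fermat.Agent.TW.F.LocFinal
import Fermat.Agent.TW.F.LocFin
import Fermat.Agent.TW.F.GloFin
import Fermat.Agent.TW.F.Rec
import Fermat.Agent.TW.F.ShaEq
import Fermat.Agent.TW.F.GWFinal

set_option autoImplicit false

namespace Fermat.Agent.TW.F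

/-- **F-gw1** from reciprocity alone (all other inputs are landed). -/
theorem stmtGW1_of_rec (hRec : StmtRec) : StmtGW1 :=
  stmtGW1_of hRec stmtLocPair stmtLocRight stmtLocLeft stmtLocFin stmtGloFin stmtCupBasic

/-- **F-gw1**, unconditional. -/
theorem stmtGW1 : StmtGW1 := stmtGW1_of_rec stmtRec

/-- **F-gw**, unconditional (the inputs (EC) and (H2) are hypotheses inside `StmtGW`). -/
theorem stmtGW_all : StmtGW := stmtGW_of stmtGW1 stmtShaEq

end Fermat.Agent.TW.F
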