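import Fermat.Agent.TW.F.PlanH2

/-!
# TW-F / F-h2dev (helper86): dévissage of (H2Hom) to permutation modules by push-forward

`stmtH2Hom_of : StmtH2Perm → StmtH2Hom` (= `StmtH2Dev`).

`b ∈ B` with `π ψ b ≠ 0`; `U` a normal level acting trivially on `B` and with `χ|_U = 1`;
`f : 𝔽_p[G/U] → B`, `gU ↦ g b` (a `G`-map); `StmtH2Perm` for `Ψ := ψ ∘ f` gives `z_Ω`, and
`z := f ∘ z_Ω` works since `π ∘ ψ ∘ z = π ∘ Ψ ∘ z_Ω` on the nose.
-/

set_option autoImplicit false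

noncomputable section

namespace Fermat.Agent.TW.F

open CategoryTheory groupCohomology Module Fermat.Agent.PT Fermat.Agent.PT.F

variable {p : ℕ} {G : Type} [Group G]

/-- the orbit map `G/U → B`, `gU ↦ g b`, for `b` fixed by `U` -/
def h2devOrb (B : Rep.{0} (ZMod p) G) (U : Subgroup G) (b : B.V)
    (hb : ∀ s ∈ U, B.ρ s b = b) : G ⧸ U → B.V :=
  Quotient.lift (fun g : G => B.ρ g b) (by
    intro g g' h
    have h1 : g⁻¹ * g' ∈ U := QuotientGroup.leftRel_apply.1 h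
    have h2 := hb _ h1
    show B.ρ g b = B.ρ g' b
    have e : g' = g * (g⁻¹ * g') := by group
    rw [e, map_mul]
    show B.ρ g b = B.ρ g (B.ρ (g⁻¹ * g') b)
    rw [h2])

lemma h2devOrb_mk (B : Rep.{0} (ZMod p) G) (U : Subgroup G) (b : B.V)
    (hb : ∀ s ∈ U, B.ρ s b = b) (g : G) :
    h2devOrb B U b hb (g : G ⧸ U) = B.ρ g b := rfl

/-- the `G`-map `f : 𝔽_p[G/U] → B`, `gU ↦ g b` -/
def h2devF (B : Rep.{0} (ZMod p) G) (U : Subgroup G) (b : B.V)
    (hb : ∀ s ∈ U, B.ρ s b = b) : MonoidAlgebra (ZMod p) (G ⧸ U) →ₗ[ZMod p] B.V :=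
  Finsupp.linearCombination (ZMod p) (h2devOrb B U b hb) ∘ₗ
    (MonoidAlgebra.coeffLinearEquiv (ZMod p)).toLinearMap

lemma h2devF_single (B : Rep.{0} (ZMod p) G) (U : Subgroup G) (b : B.V)
    (hb : ∀ s ∈ U, B.ρ s b = b) (x : G ⧸ U) (c : ZMod p) :
    h2devF B U b hb (MonoidAlgebra.single x c) = c • h2devOrb B U b hb x := by
  show Finsupp.linearCombination (ZMod p) (h2devOrb B U b hb) (MonoidAlgebra.single x c).coeff = _
  rw [MonoidAlgebra.coeff_single, Finsupp.linearCombination_single]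

lemma h2devOrb_smul (B : Rep.{0} (ZMod p) G) (U : Subgroup G) (b : B.V)
    (hb : ∀ s ∈ U, B.ρ s b = b) (g : G) (q : G ⧸ U) :
    h2devOrb B U b hb (g • q) = B.ρ g (h2devOrb B U b hb q) := by
  induction q using QuotientGroup.induction_on with
  | H a =>
    show h2devOrb B U b hb ((g * a : G) : G ⧸ U) = B.ρ g (h2devOrb B U b hb (a : G ⧸ U))
    rw [h2devOrb_mk, h2devOrb_mk, map_mul]
    rfl

lemma h2devF_equiv (B : Rep.{0} (ZMod p) G) (U : Subgroup G) (b : B.V)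
    (hb : ∀ s ∈ U, B.ρ s b = b) (g : G) (x : MonoidAlgebra (ZMod p) (G ⧸ U)) :
    h2devF B U b hb (Representation.ofMulAction (ZMod p) G (G ⧸ U) g x) =
      B.ρ g (h2devF B U b hb x) := by
  induction x using MonoidAlgebra.induction_linear with
  | zero => simp
  | add x y hx hy => simp only [map_add, hx, hy]
  | single q c =>
    rw [Representation.ofMulAction_single, h2devF_single, h2devF_single, map_smul,
      h2devOrb_smul]

/-- **F-h2dev** -/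
theorem stmtH2Hom_of (hPerm : StmtH2Perm) : StmtH2Hom := by
  intro p _ G _ ι _ Gloc _ D hPD B _ hB ψ hψ hne
  obtain ⟨b, hb⟩ := hne
  obtain ⟨U₀, hU₀, hU₀B⟩ := hB
  obtain ⟨U₁, hU₁, hU₁χ⟩ := D.χ_level
  obtain ⟨U, hU, hUle, hUn⟩ := D.𝒯.exists_normal (U₀ ⊓ U₁) (D.𝒯.inf_mem _ _ hU₀ hU₁)
  have hbU : ∀ s ∈ U, B.ρ s b = b := fun s hs => by
    rw [hU₀B s (hUle hs).1]
    rfl
  have hχU : ∀ s ∈ U, D.χ s = 1 := fun s hs => hU₁χ s (hUle hs).2
  let Ψ : (permRep p U).V →+ (PTJ D).V := ψ.comp (h2devF B U b hbU).toAddMonoidHom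
  have hΨ : IsGMap D (permRep p U) Ψ := by
    intro g x
    show ψ (h2devF B U b hbU ((permRep p U).ρ g x)) = (PTJ D).ρ g (ψ (h2devF B U b hbU x))
    rw [← hψ g (h2devF B U b hbU x)]
    congr 1
    exact h2devF_equiv B U b hbU g x
  have hΨne : ∃ x, D.π.hom (Ψ x) ≠ 0 := by
    refine ⟨MonoidAlgebra.single ((1 : G) : G ⧸ U) 1, ?_⟩
    show D.π.hom (ψ (h2devF B U b hbU (MonoidAlgebra.single ((1 : G) : G ⧸ U) 1))) ≠ 0
    rw [h2devF_single, one_smul, h2devOrb_mk, map_one]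
    exact hb
  obtain ⟨zΩ, hzΩ, hzΩn⟩ := hPerm p G ι Gloc D hPD U hUn hU hχU Ψ hΨ hΨne
  refine ⟨fun gg => h2devF B U b hbU (zΩ gg), ?_, hzΩn⟩
  rw [mem_levCocycles₂_iff] at hzΩ ⊢
  refine ⟨?_, hzΩ.2.comp (h2devF B U b hbU)⟩
  have hc := (mem_cocycles₂_iff _).1 hzΩ.1
  rw [mem_cocycles₂_iff]
  intro g h j
  have := congrArg (h2devF B U b hbU) (hc g h j)
  simp only [map_add] at this
  rw [this]
  congr 1
  exact h2devF_equiv B U b hbU g (zΩ (h, j))

/-- **F-h2dev**, in the form of the interface -/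
theorem stmtH2Dev : StmtH2Dev := stmtH2Hom_of

end Fermat.Agent.TW.F

end
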