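/-
TW-F, final wiring (helper68): the Greenberg–Wiles inequality `StmtGWFinal` from the ONE remaining
input `StmtH2Perm` (block F-h2perm).

  StmtGW      : `stmtGW_all`      (GW1Final.lean; unconditional)
  StmtH2Hom   : `stmtH2Hom_of`    (H2Dev.lean;   from `StmtH2Perm`)
  StmtH2RankFD: `stmtH2Rank_of`   (H2Rank.lean;  from `StmtH2Hom`)
  StmtGWFinal : `stmtGWFinal_of`  (PlanH2.lean;  from `StmtGW` and `StmtH2RankFD`)
-/
import Fermat.Agent.TW.F.GW1Final
import Fermat.Agent.TW.F.H2Dev
import Fermat.Agent.TW.F.H2Rank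

set_option autoImplicit false

namespace Fermat.Agent.TW.F

/-- **TW-F, final form**: the Greenberg–Wiles inequality from the permutation case of F-h2. -/
theorem stmtGWFinal_of_h2perm (h : StmtH2Perm) : StmtGWFinal :=
  stmtGWFinal_of stmtGW_all (stmtH2Rank_of (stmtH2Hom_of h))

end Fermat.Agent.TW.F
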