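/-
TW-Core / C-perp (helper30): the exact annihilator of a local condition is a subspace.

`stmtPerpExists : Core.StmtPerpExists`: for a dual pair `P : DualPair χ A B` and a local condition
`L ⊆ H¹(G_v, A)`, the set of level classes `y` of `B` with `x ∪ y = 0` (as a level class) for all
level `x ∈ L` is a `ZMod p`-submodule (`IsPerp`).  From `stmtCupBasic`: the cup product is additive
in the second variable on the nose, and `cocycle ∪ coboundary` is a level coboundary.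

Generic form: `fperp_generic` over `(G, 𝒯, χ, A, B, P, J, ζ)`.
-/
import Fermat.Agent.TW.Core.Plan
import Fermat.Agent.TW.F.Cup
import Fermat.Agent.TW.F.LocPair

set_option autoImplicit false

noncomputable section

namespace Fermat.Agent.TW.F

open CategoryTheory groupCohomology Module Fermat.Agent.PT Fermat.Agent.PT.F

/-- **C-perp, generic form.** -/
theorem fperp_generic (p : ℕ) [Fact p.Prime] (G : Type) [Group G]
    (𝒯 : Tower G) (χ : G →* (ZMod p)ˣ) (A B : Rep.{0} (ZMod p) G) (P : DualPair χ A B)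
    (J : Rep.{0} ℤ G) (ζ : J.V) (hK : IsKummer χ J ζ) (hA : TrivOnLevel 𝒯 A)
    (hB : TrivOnLevel 𝒯 B) (L : Submodule (ZMod p) (H1 A)) :
    ∃ L' : Submodule (ZMod p) (H1 B), ∀ y, y ∈ L' ↔
      y ∈ levH1 𝒯 B ∧ ∀ x ∈ L, x ∈ levH1 𝒯 A →
        ∀ (cx : cocycles₁ A) (cy : cocycles₁ B),
          IsLevel₁ 𝒯 (cx : G → A.V) → IsLevel₁ 𝒯 (cy : G → B.V) →
          (H1π A).hom cx = x → (H1π B).hom cy = y →
          cupCoc P J ζ cx cy ∈ levCoboundaries₂ 𝒯 J := by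
  classical
  obtain ⟨-, -, h3, -, h5, -⟩ := stmtCupBasic p G 𝒯 χ A B P J ζ hK hA hB
  -- the orthogonality relation
  let Orth : H1 A → H1 B → Prop := fun x y =>
    ∀ (cx : cocycles₁ A) (cy : cocycles₁ B),
      IsLevel₁ 𝒯 (cx : G → A.V) → IsLevel₁ 𝒯 (cy : G → B.V) →
      (H1π A).hom cx = x → (H1π B).hom cy = y →
      cupCoc P J ζ cx cy ∈ levCoboundaries₂ 𝒯 J
  -- zero
  have hzero : ∀ x, Orth x 0 := by
    intro x cx cy hlx _ _ hy
    have hcob : (cy : G → B.V) ∈ coboundaries₁ B := (H1π_eq_zero_iff cy).1 hy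
    exact h5 cx cy cx.2 hlx hcob
  -- additivity
  have hadd : ∀ x y₁ y₂, y₁ ∈ levH1 𝒯 B → Orth x y₁ → Orth x y₂ → Orth x (y₁ + y₂) := by
    intro x y₁ y₂ hy₁ h₁ h₂ cx cy hlx hly hx hy
    obtain ⟨c₁, hl₁, hc₁⟩ := (mem_levH1_iff 𝒯 B y₁).1 hy₁
    have hl₂ : IsLevel₁ 𝒯 ((cy - c₁ : cocycles₁ B) : G → B.V) :=
      pb_isLevel₁_sub (cy : G → B.V) (c₁ : G → B.V) hly hl₁
    have hc₂ : (H1π B).hom (cy - c₁) = y₂ := by
      rw [map_sub, hy, hc₁, add_sub_cancel_left]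
    have e₁ := h₁ cx c₁ hlx hl₁ hx hc₁
    have e₂ := h₂ cx (cy - c₁) hlx hl₂ hx hc₂
    have e₃ := h3 (cx : G → A.V) (c₁ : G → B.V) ((cy - c₁ : cocycles₁ B) : G → B.V)
    have hsum : (c₁ : G → B.V) + ((cy - c₁ : cocycles₁ B) : G → B.V) = (cy : G → B.V) := by
      funext g
      show c₁.1 g + (cy.1 - c₁.1) g = cy.1 g
      rw [Pi.sub_apply, add_sub_cancel]
    rw [hsum] at e₃
    have := (levCoboundaries₂ 𝒯 J).add_mem e₃ ((levCoboundaries₂ 𝒯 J).add_mem e₁ e₂)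
    simpa using this
  -- the submodule
  let S : AddSubmonoid (H1 B) :=
    { carrier := {y | y ∈ levH1 𝒯 B ∧ ∀ x ∈ L, x ∈ levH1 𝒯 A → Orth x y}
      zero_mem' := ⟨(levH1 𝒯 B).zero_mem, fun x _ _ => hzero x⟩
      add_mem' := fun {y₁ y₂} h₁ h₂ => ⟨(levH1 𝒯 B).add_mem h₁.1 h₂.1,
        fun x hx hxl => hadd x y₁ y₂ h₁.1 (h₁.2 x hx hxl) (h₂.2 x hx hxl)⟩ }
  refine ⟨{ carrier := S.carrier
            zero_mem' := S.zero_mem
            add_mem' := fun h₁ h₂ => S.add_mem h₁ h₂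
            smul_mem' := fun a y hy => ?_ }, fun y => Iff.rfl⟩
  have ha : a • y = a.val • y := by
    rw [← Nat.cast_smul_eq_nsmul (ZMod p), ZMod.natCast_zmod_val]
  show a • y ∈ S
  rw [ha]
  exact S.nsmul_mem hy _

/-- **C-perp**: the exact annihilator of a local condition exists. -/
theorem stmtPerpExists : Core.StmtPerpExists := by
  intro p _ G _ ι _ Gloc _ D A B P hA hB v L
  exact fperp_generic p (Gloc v) (D.𝒯loc v) (D.χ.comp (D.r v)) (Rep.res (D.r v) A)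
    (Rep.res (D.r v) B) (P.res (D.r v)) (D.Jloc v) (zetaLoc D v) (flr_isKummer D v)
    (fpair_trivOnLevel D A hA v) (fpair_trivOnLevel D B hB v) L

end Fermat.Agent.TW.F

end
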