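/-
TW-F, block F-h2perm (the PERMUTATION CASE of F-h2) — INTERFACE FILE (block owner helper55).
Target: `StmtH2Perm` of TW/F/PlanH2.lean.   Mathematics + piece table: NOTES/TW-F-h2perm.md.
Definitions and statements only.  A piece `X` is DONE when `theorem stmtX : StmtX`
(or `stmtX_of : … → StmtX`) is landed in its own file `Fermat/Agent/TW/F/H2p<X>.lean`,
namespace `Fermat.Agent.TW.F`, sorry-free, lemma names prefixed `h2p<x>_`.

Notation.  `U` a NORMAL level with `χ|_U = 1`, `Ω = G ⧸ U`, `M = ℤ[Ω] = h2pM U`,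
`N_Ω = h2pN U = Σ_ω e_ω ∈ M^G`.  Cochains are FUNCTIONS with values in `Hom_ℤ(M, Y) = (M.V →+ Y.V)`
(`conjAdd`, `dOne`, `dTwo` as in PT/F and TW/E).  A PLACE of `U` over `v` is a double coset
`r_v(G_v) g₀ U`; a place function is `m : ι → G → ℕ`, constant on places.

Route (the chase of helper63's (E1), made explicit):
  Ψ ↔ place function m (not constant mod p)                                   [h2p-untw]
  for every place w a level 2-cocycle Y_w of Hom(M, J), p-torsion, supported at w,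
     with π ∘ Y_w(N_Ω) NOT a level coboundary of C      [h2p-supp = seedmod + seedpair + proj + transl]
  two p-torsion classes of H²_lev(G, Hom(M, C)) are linearly dependent mod p
                                                         [h2p-dep = cycU + shinj]
  a p-torsion class of Hom(M, J) dying in Hom(M, C) comes from a cocycle of Hom(M, E)[p]  [h2p-chase]
  multiplication by a place function P_m on Hom(M, J); weighted trace T_m = ev_N ∘ P_m : Hom(M, J) → J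
     (G-maps), T_m Y_w = m(w) • Y_w(N_Ω)                                      [h2p-mul, h2p-wtr]
  assembly                                                                    [h2p-asm]
-/
import Fermat.Agent.TW.F.PlanH2
import Fermat.Agent.TW.E.Plan
import Fermat.Agent.PT.F.SeqInPlan

set_option autoImplicit false

noncomputable section

namespace Fermat.Agent.TW.F

open CategoryTheory groupCohomology Module Fermat.Agent.PT Fermat.Agent.PT.F Fermat.Agent.TW.E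

variable {p : ℕ} {G : Type} [Group G] {ι : Type} {Gloc : ι → Type} [∀ v, Group (Gloc v)]

/-! ### Definitions -/

/-- the permutation lattice `ℤ[G/U]` -/
abbrev h2pM (U : Subgroup G) : Rep.{0} ℤ G := permZ G (G ⧸ U)

/-- the basis vector `e_ω` of `ℤ[G/U]` -/
abbrev h2pE (U : Subgroup G) (ω : G ⧸ U) : (h2pM U).V := MonoidAlgebra.single ω (1 : ℤ)

/-- the norm element `N_Ω = Σ_ω e_ω` of `ℤ[G/U]` (`U` of finite index) -/
def h2pN (U : Subgroup G) : (h2pM U).V := ∑ᶠ ω : G ⧸ U, h2pE U ω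

/-- `m` is a place function for `U`: left-invariant under `r_v(G_v)`, right-invariant under
`U`. -/
def IsPlaceFn (D : PTDatum p G ι Gloc) (U : Subgroup G) (m : ι → G → ℕ) : Prop :=
  (∀ (v : ι) (d : Gloc v) (g : G), m v (D.r v d * g) = m v g) ∧
  (∀ (v : ι) (g u : G), u ∈ U → m v (g * u) = m v g)

/-- `T` is the weighted trace `T_m : Hom_ℤ(ℤ[G/U], J) → J`,
`(T_m F)(v)(g) = Σ_ω m_v(g ω) • F(e_ω)(v)(g)`. -/
def IsWtr (D : PTDatum p G ι Gloc) (U : Subgroup G) (m : ι → G → ℕ)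
    (T : ((h2pM U).V →+ (PTJ D).V) →+ (PTJ D).V) : Prop :=
  ∀ (F : (h2pM U).V →+ (PTJ D).V) (v : ι) (g : G),
    (T F).1 v g = ∑ᶠ ω : G ⧸ U, (m v (g * ω.out)) • (F (h2pE U ω)).1 v g

/-- `F : ℤ[G/U] → J` is supported at the place `r_v(G_v) g₀ U`: the component
`F(e_ω)(v')(g)` vanishes unless `v' = v` and `g ω ∈ r_v(G_v) g₀ U`. -/
def IsSuppAt (D : PTDatum p G ι Gloc) (U : Subgroup G) (v : ι) (g₀ : G)
    (F : (h2pM U).V →+ (PTJ D).V) : Prop :=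
  ∀ (ω : G ⧸ U) (v' : ι) (g : G), (F (h2pE U ω)).1 v' g ≠ 0 →
    v' = v ∧ ∃ d : Gloc v, ∃ u ∈ U, g * ω.out = D.r v d * g₀ * u

/-- `F : ℤ[G/U] → J` is supported at `v`: all components at `v' ≠ v` vanish. -/
def IsSuppV (D : PTDatum p G ι Gloc) (U : Subgroup G) (v : ι)
    (F : (h2pM U).V →+ (PTJ D).V) : Prop :=
  ∀ (m : (h2pM U).V) (v' : ι) (g : G), v' ≠ v → (F m).1 v' g = 0

/-- `Y` is a level 2-cocycle of `Hom_ℤ(M, X)` whose class is killed by `p`. -/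
def IsPTorsCoc (𝒯 : Tower G) (p : ℕ) (M X : Rep.{0} ℤ G) (Y : G × G → (M.V →+ X.V)) : Prop :=
  IsLevel₂ 𝒯 Y ∧ (∀ s, dTwo M X Y s = 0) ∧
    ∃ t : G → (M.V →+ X.V), IsLevel₁ 𝒯 t ∧ ∀ s, p • Y s = dOne M X t s

/-- `w : N × N → X` is right-invariant (in both variables) under `U ∩ N` for some level `U`. -/
def IsLevelOn₂ (𝒯 : Tower G) (N : Subgroup G) {X : Type} (w : N × N → X) : Prop :=
  ∃ U ∈ 𝒯.lev, ∀ g g' s s' : N, (s : G) ∈ U → (s' : G) ∈ U → w (g * s, g' * s') = w (g, g')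

/-! ### The pieces -/

/-- **h2p-mul** (pure algebra on the semilocal module, ~200 lines).  Multiplication by a place
function: for a normal level `U` and a place function `m` there is an additive endomorphism `P_m`
of `Hom_ℤ(ℤ[G/U], J)`, `(P_m F)(e_ω)(v)(g) = m_v(g ω) • F(e_ω)(v)(g)`, `G`-equivariant for the
conjugation action.  (Define on the basis `e_ω`; membership in `semilocalSub`:
`m_v(r(d) g ω) = m_v(g ω)`; level: `U` is normal, so `g ↦ m_v(g ω)` is right-`U`-invariant.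
Equivariance: `out (σ⁻¹ ω) ∈ σ⁻¹ · out ω · U`.) -/
def StmtH2pMul : Prop :=
  ∀ (p : ℕ) [Fact p.Prime] (G : Type) [Group G] (ι : Type) [Fintype ι] (Gloc : ι → Type)
    [∀ v, Group (Gloc v)] (D : PTDatum p G ι Gloc) (U : Subgroup G), U.Normal → U ∈ D.𝒯.lev →
    ∀ m : ι → G → ℕ, IsPlaceFn D U m →
      ∃ P : ((h2pM U).V →+ (PTJ D).V) →+ ((h2pM U).V →+ (PTJ D).V),
        (∀ (F : (h2pM U).V →+ (PTJ D).V) (ω : G ⧸ U) (v : ι) (g : G),
          (P F (h2pE U ω)).1 v g = (m v (g * ω.out)) • (F (h2pE U ω)).1 v g) ∧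
        ∀ (σ : G) (F : (h2pM U).V →+ (PTJ D).V),
          P (conjAdd (h2pM U) (PTJ D) σ F) = conjAdd (h2pM U) (PTJ D) σ (P F)

/-- **h2p-wtr** (~80 lines from h2p-mul: `T_m F := (P_m F)(N_Ω)`; `stmtH2pWtr_of : StmtH2pMul →
StmtH2pWtr`).  For a normal level `U` and a place function `m` the weighted trace exists and is
`G`-equivariant for the conjugation action. -/
def StmtH2pWtr : Prop :=
  ∀ (p : ℕ) [Fact p.Prime] (G : Type) [Group G] (ι : Type) [Fintype ι] (Gloc : ι → Type)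
    [∀ v, Group (Gloc v)] (D : PTDatum p G ι Gloc) (U : Subgroup G), U.Normal → U ∈ D.𝒯.lev →
    ∀ m : ι → G → ℕ, IsPlaceFn D U m →
      ∃ T : ((h2pM U).V →+ (PTJ D).V) →+ (PTJ D).V, IsWtr D U m T ∧
        ∀ (σ : G) (F : (h2pM U).V →+ (PTJ D).V),
          T (conjAdd (h2pM U) (PTJ D) σ F) = (PTJ D).ρ σ (T F)

/-- **h2p-untw** (untwisting `𝔽_p[G/U] ≅ Hom_ℤ(ℤ[G/U], μ_p)`, ~350 lines).  Every `G`-map
`Ψ : 𝔽_p[G/U] → J` has a place function `m` (`Ψ(e_U)(v)(g) = (m_v(g) χ(g)).val • ζ_v`, `J_tors`)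
such that: (1) if `π ∘ Ψ ≠ 0` then `m` is not constant mod `p`; (2) for every level 2-cocycle `y`
of `Hom_ℤ(M, E)` killed by `p` ON THE NOSE there is a level 2-cocycle `z` of `𝔽_p[G/U]` with
`Ψ ∘ z = T_m ∘ (i ∘ y)`.  (`y(s)(e_ω) = n_ω(s) • ζ` by `ζ_gen`; `z(s) := Σ_ω χ(ω)⁻¹ n_ω(s) e_ω`.) -/
def StmtH2pUntw : Prop :=
  ∀ (p : ℕ) [Fact p.Prime] (G : Type) [Group G] (ι : Type) [Fintype ι] (Gloc : ι → Type)
    [∀ v, Group (Gloc v)] (D : PTDatum p G ι Gloc) (U : Subgroup G), U.Normal → U ∈ D.𝒯.lev →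
    (∀ s ∈ U, D.χ s = 1) →
    ∀ Ψ : (permRep p U).V →+ (PTJ D).V, IsGMap D (permRep p U) Ψ →
      ∃ m : ι → G → ℕ, IsPlaceFn D U m ∧
        ((∃ x, D.π.hom (Ψ x) ≠ 0) →
          ∃ (v₁ : ι) (g₁ : G) (v₂ : ι) (g₂ : G), ¬ (m v₁ g₁ ≡ m v₂ g₂ [MOD p])) ∧
        ∀ T : ((h2pM U).V →+ (PTJ D).V) →+ (PTJ D).V, IsWtr D U m T →
          ∀ y : G × G → ((h2pM U).V →+ D.E.V), IsLevel₂ D.𝒯 y →
            (∀ s, dTwo (h2pM U) D.E y s = 0) → (∀ s, p • y s = 0) →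
            ∃ z : G × G → (permRep p U).V, z ∈ levCocycles₂ D.𝒯 (permRep p U) ∧
              ∀ s, Ψ (z s) = T ((homAdd D.i).comp (y s))

/-- **h2p-seedmod** (~350 lines; `HasPDepth`).  The module and the 1-cocycle of the seed: a finite
`G`-module `A'` killed by `p`, trivial on a normal level, and a level 1-cocycle `ĉ` of
`Hom_ℤ(M, A')` whose trace `c := ĉ(·)(N_Ω)` is NOT a coboundary on `G_v`.
Construction: `U'' ≤ U` normal level with `p ∣ [r_v⁻¹U : r_v⁻¹U'']` (`HasPDepth`), `Ω'' = G/U''`,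
`A' := ker(𝔽_p[Ω × Ω''] → 𝔽_p[Ω])` (as a `ℤ`-representation; e.g. `Subrepresentation` or a
categorical kernel as in PT/F/StdPres.lean), `ĉ(σ)(e_ω) := e_{(ω, σ̄)} - e_{(ω, 1̄)}`.
Then `c(σ) = σ X₀ - X₀`, `X₀ = Σ_ω e_{(ω, 1̄)}`; if `c(r d) = r(d) F - F` on `G_v` with `F ∈ A'`, then
`F - X₀` is `r(G_v)`-invariant, so `ω'' ↦ (F - X₀)(1̄, ω'')` is invariant under the image `H` of
`r_v⁻¹ U` in the GROUP `G/U''` (`U` normal: `r_v⁻¹ U` fixes `1̄ ∈ Ω`), acting freely by left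
translation; hence `-1 = Σ_{ω''} (F - X₀)(1̄, ω'')` is divisible by `|H| = [r_v⁻¹U : r_v⁻¹U'']`,
which is `0` in `𝔽_p`: contradiction. -/
def StmtH2pSeedMod : Prop :=
  ∀ (p : ℕ) [Fact p.Prime] (G : Type) [Group G] (ι : Type) [Fintype ι] (Gloc : ι → Type)
    [∀ v, Group (Gloc v)] (D : PTDatum p G ι Gloc), HasPDepth D →
    ∀ (U : Subgroup G), U.Normal → U ∈ D.𝒯.lev → ∀ v : ι,
      ∃ (A' : Rep.{0} ℤ G) (_ : Finite A'.V) (ch : G → ((h2pM U).V →+ A'.V)),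
        (∀ a : A'.V, p • a = 0) ∧
        (∃ U₀ ∈ D.𝒯.lev, U₀.Normal ∧ ∀ s ∈ U₀, ∀ a : A'.V, A'.ρ s a = a) ∧
        IsLevel₁ D.𝒯 ch ∧ (∀ s, dOne (h2pM U) A' ch s = 0) ∧
        (fun d : Gloc v => ch (D.r v d) (h2pN U)) ∉ coboundaries₁ (Rep.res (D.r v) A')

/-- **h2p-seedpair** (~350 lines; PT-F `stdPres`, `hasInd_stdPres`, `stmtLocNondeg`,
`stmtPairBasic`, `hat`).  From a module and a cocycle as in h2p-seedmod: a level 2-cocycle `Y` of
`Hom_ℤ(M, J)`, of `p`-torsion class, supported at `v`, with `π ∘ Y(N_Ω)` not a level coboundary.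
Proof: `P := stdPres` of `A'`; `c := ĉ(·)(N_Ω)` is a level 1-cocycle of `A'`, not a coboundary on
`G_v`, so `stmtLocNondeg` gives `g_v : res M₁ ⟶ J_v` with `pairCoc P (ĝ_v ≫ π) c` not a level
coboundary (`ĝ_v := hat D P.M₁ _ v g_v`).  `C̃(σ) ∈ Hom_ℤ(M, M₀)`, `C̃(σ)(e_ω) := sec(ĉ(σ)(e_ω))`
(a level lift of `ĉ`: `C̃ = Φ ∘ ĉ`); `dOne C̃` has values in `Hom(M, inc M₁)`;
`Y(s) := ĝ_v ∘ inc⁻¹ ∘ (dOne C̃ s)` (additive since `inc⁻¹` is additive on `ker ε`);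
`dTwo Y = 0` (`chl_dTwo_dOne`); `p • Y = dOne (ĝ_v ∘ inc⁻¹ ∘ (p • C̃))`; supported at `v`
(`hat_apply_ne`); `Y(·)(N_Ω) = pairLift P ĝ_v c̃`, `c̃(σ) := C̃(σ)(N_Ω)` a level lift of `c`, and
`pairLift P g c̃ - pairCoc P g c` is a level coboundary (PairBasic, clause 2). -/
def StmtH2pSeedPair : Prop :=
  ∀ (p : ℕ) [Fact p.Prime] (G : Type) [Group G] (ι : Type) [Fintype ι] (Gloc : ι → Type)
    [∀ v, Group (Gloc v)] (D : PTDatum p G ι Gloc)
    (U : Subgroup G), U.Normal → U ∈ D.𝒯.lev → ∀ v : ι,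
    ∀ (A' : Rep.{0} ℤ G), Finite A'.V → ∀ (ch : G → ((h2pM U).V →+ A'.V)),
      (∀ a : A'.V, p • a = 0) →
      (∃ U₀ ∈ D.𝒯.lev, U₀.Normal ∧ ∀ s ∈ U₀, ∀ a : A'.V, A'.ρ s a = a) →
      IsLevel₁ D.𝒯 ch → (∀ s, dOne (h2pM U) A' ch s = 0) →
      (fun d : Gloc v => ch (D.r v d) (h2pN U)) ∉ coboundaries₁ (Rep.res (D.r v) A') →
      ∃ Y : G × G → ((h2pM U).V →+ (PTJ D).V), IsPTorsCoc D.𝒯 p (h2pM U) (PTJ D) Y ∧
        (∀ s, IsSuppV D U v (Y s)) ∧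
        (fun s => D.π.hom (Y s (h2pN U))) ∉ levCoboundaries₂ D.𝒯 D.C

/-- **h2p-seed** (= seedmod + seedpair, glue).  For every `v` there is a level 2-cocycle `Y` of
`Hom_ℤ(M, J)`, of `p`-torsion class, supported at `v`, such that `π ∘ Y(N_Ω)` is NOT a level
coboundary of `C`. -/
def StmtH2pSeed : Prop :=
  ∀ (p : ℕ) [Fact p.Prime] (G : Type) [Group G] (ι : Type) [Fintype ι] (Gloc : ι → Type)
    [∀ v, Group (Gloc v)] (D : PTDatum p G ι Gloc), HasPDepth D →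
    ∀ (U : Subgroup G), U.Normal → U ∈ D.𝒯.lev → ∀ v : ι,
      ∃ Y : G × G → ((h2pM U).V →+ (PTJ D).V), IsPTorsCoc D.𝒯 p (h2pM U) (PTJ D) Y ∧
        (∀ s, IsSuppV D U v (Y s)) ∧
        (fun s => D.π.hom (Y s (h2pN U))) ∉ levCoboundaries₂ D.𝒯 D.C

/-- **h2p-proj** (~200 lines from h2p-mul with `m :=` the indicator function of the place).
`stmtH2pProj_of : StmtH2pMul → StmtH2pProj`.  The projection `P_w` of `Hom_ℤ(M, J)` onto the part
supported at the place `w = r_v(G_v) g₀ U`,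
`(P_w F)(e_ω)(v')(g) := [v' = v ∧ g ω ∈ w] · F(e_ω)(v')(g)`, is an additive `G`-map (conjugation
action), and for `F` supported at `v`:  `F = Σ_{w over v} P_w F` (finitely many places).  Hence:
a `p`-torsion level 2-cocycle `Y` supported at `v` with `π ∘ Y(N_Ω)` not a level coboundary has,
for SOME `g₀`, the same property for `P_{(v, g₀)} ∘ Y`, which is supported at `(v, g₀)`. -/
def StmtH2pProj : Prop :=
  ∀ (p : ℕ) [Fact p.Prime] (G : Type) [Group G] (ι : Type) [Fintype ι] (Gloc : ι → Type)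
    [∀ v, Group (Gloc v)] (D : PTDatum p G ι Gloc) (U : Subgroup G), U.Normal → U ∈ D.𝒯.lev →
    ∀ (v : ι) (Y : G × G → ((h2pM U).V →+ (PTJ D).V)), IsPTorsCoc D.𝒯 p (h2pM U) (PTJ D) Y →
      (∀ s, IsSuppV D U v (Y s)) →
      (fun s => D.π.hom (Y s (h2pN U))) ∉ levCoboundaries₂ D.𝒯 D.C →
      ∃ (g₀ : G) (Y' : G × G → ((h2pM U).V →+ (PTJ D).V)),
        IsPTorsCoc D.𝒯 p (h2pM U) (PTJ D) Y' ∧ (∀ s, IsSuppAt D U v g₀ (Y' s)) ∧
        (fun s => D.π.hom (Y' s (h2pN U))) ∉ levCoboundaries₂ D.𝒯 D.C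

/-- **h2p-transl** (~200 lines, pure algebra).  Right translation `R_γ : e_{hU} ↦ e_{hγU}` is a
`G`-automorphism of `M` fixing `N_Ω` (`U` normal); `Y ↦ Y ∘ R_γ` preserves level cocycles,
coboundaries and `Y(N_Ω)`, and moves the support from `(v, g₀)` to `(v, g₀ γ⁻¹)`.  Hence the
conclusion of `StmtH2pProj` holds for EVERY `g₀`. -/
def StmtH2pTransl : Prop :=
  ∀ (p : ℕ) [Fact p.Prime] (G : Type) [Group G] (ι : Type) [Fintype ι] (Gloc : ι → Type)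
    [∀ v, Group (Gloc v)] (D : PTDatum p G ι Gloc) (U : Subgroup G), U.Normal → U ∈ D.𝒯.lev →
    ∀ (v : ι) (g₀ g₁ : G) (Y : G × G → ((h2pM U).V →+ (PTJ D).V)),
      IsPTorsCoc D.𝒯 p (h2pM U) (PTJ D) Y → (∀ s, IsSuppAt D U v g₀ (Y s)) →
      ∃ Y' : G × G → ((h2pM U).V →+ (PTJ D).V),
        IsPTorsCoc D.𝒯 p (h2pM U) (PTJ D) Y' ∧ (∀ s, IsSuppAt D U v g₁ (Y' s)) ∧
        ∀ s, Y' s (h2pN U) = Y s (h2pN U)

/-- **h2p-supp** (= seed + proj + transl): for EVERY place `(v, g₀)` of `U` there is a level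
2-cocycle of `Hom_ℤ(M, J)`, of `p`-torsion class, supported at `(v, g₀)`, whose trace
`π ∘ Y(N_Ω)` is not a level coboundary of `C`. -/
def StmtH2pSupp : Prop :=
  ∀ (p : ℕ) [Fact p.Prime] (G : Type) [Group G] (ι : Type) [Fintype ι] (Gloc : ι → Type)
    [∀ v, Group (Gloc v)] (D : PTDatum p G ι Gloc), HasPDepth D →
    ∀ (U : Subgroup G), U.Normal → U ∈ D.𝒯.lev → ∀ (v : ι) (g₀ : G),
      ∃ Y : G × G → ((h2pM U).V →+ (PTJ D).V), IsPTorsCoc D.𝒯 p (h2pM U) (PTJ D) Y ∧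
        (∀ s, IsSuppAt D U v g₀ (Y s)) ∧
        (fun s => D.π.hom (Y s (h2pN U))) ∉ levCoboundaries₂ D.𝒯 D.C

/-- **h2p-cycU** (~350 lines).  Cyclicity of `H²_lev(U, C)[p]` for a normal level `U`, on cochain
FUNCTIONS `U × U → C`: two level 2-cocycles of `p`-torsion class are linearly dependent mod `p` up
to a level coboundary.
Sketch: all data are right-invariant under a normal level `U' ≤ U` and have values in `C^{U'}`
(as in `levH2_pTorsion_cyclic`, PT/F/Level.lean); descend to the subgroup `K = U/U'` of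
`Γ = G/U'`; `cm_glob U'` gives `u` with `IsPFundClass p (C^{U'}) u`, a property of the
`p`-subgroups of `Γ`, hence of those of `K` (transport as in `InflInj.h1Kill_of_pgroups`);
`stmtSylow` for `K` + cyclicity of `H²(Q, C^{U'})` (`h2_card`, `h2_gen`), `Q` a Sylow subgroup
of `K` (as PT/F/H2pCyclic.lean).  If `[w₁] = 0` take `(a, b) = (1, 0)`; else `[w₂] = n [w₁]`,
`(a, b) = ((p - 1) n, 1)`. -/
def StmtH2pCycU : Prop :=
  ∀ (p : ℕ) [Fact p.Prime] (G : Type) [Group G] (ι : Type) [Fintype ι] (Gloc : ι → Type)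
    [∀ v, Group (Gloc v)] (D : PTDatum p G ι Gloc) (U : Subgroup G), U.Normal → U ∈ D.𝒯.lev →
    ∀ w₁ w₂ : U × U → D.C.V,
      w₁ ∈ cocycles₂ (Rep.res U.subtype D.C) → w₂ ∈ cocycles₂ (Rep.res U.subtype D.C) →
      IsLevelOn₂ D.𝒯 U w₁ → IsLevelOn₂ D.𝒯 U w₂ →
      (∃ ψ : U → D.C.V, IsLevelOn D.𝒯 U ψ ∧ p • w₁ = (d₁₂ (Rep.res U.subtype D.C)).hom ψ) →
      (∃ ψ : U → D.C.V, IsLevelOn D.𝒯 U ψ ∧ p • w₂ = (d₁₂ (Rep.res U.subtype D.C)).hom ψ) →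
      ∃ a b : ℕ, ¬ (p ∣ a ∧ p ∣ b) ∧ ∃ ψ : U → D.C.V, IsLevelOn D.𝒯 U ψ ∧
        a • w₁ + b • w₂ = (d₁₂ (Rep.res U.subtype D.C)).hom ψ

/-- **h2p-shinj** (Shapiro injectivity in degree 2 for `Hom_ℤ(ℤ[G/U], C)`, ~250 lines; tool:
`Fermat.Agent.PT.F.ShapiroHtpy.shapiro₂` with `H := U`, `r := U.subtype`).  A level 2-cocycle `W`
of `Hom_ℤ(ℤ[G/U], C)` whose restriction to `U`, evaluated at `e_{1·U}`, is the coboundary of a
level cochain `ψ : U → C`, is a level coboundary.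
Dictionary: `Φ(g₀, g₁, g₂) := g₀ • W(g₀⁻¹ g₁, g₁⁻¹ g₂)(e_{g₀⁻¹ U})`, `Ψ(d₀, d₁) := d₀ • ψ(d₀⁻¹ d₁)`;
`Φ = dΘ`; `t(σ)(e_{xU}) := x • Θ(x⁻¹, x⁻¹ σ)` (well defined: `Θ` is left-`U`-equivariant).
(The values of a level cocycle are fixed by its level: `σ W(τ,ρ) σ⁻¹ = W(τ,ρ)` for `σ` in a
normal level of `W`, because `W(1, τ) = W(1, 1)`.) -/
def StmtH2pShInj : Prop :=
  ∀ (p : ℕ) [Fact p.Prime] (G : Type) [Group G] (ι : Type) [Fintype ι] (Gloc : ι → Type)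
    [∀ v, Group (Gloc v)] (D : PTDatum p G ι Gloc) (U : Subgroup G), U.Normal → U ∈ D.𝒯.lev →
    ∀ W : G × G → ((h2pM U).V →+ D.C.V), IsLevel₂ D.𝒯 W → (∀ s, dTwo (h2pM U) D.C W s = 0) →
      (∃ ψ : U → D.C.V, IsLevelOn D.𝒯 U ψ ∧ ∀ s t : U,
        W ((s : G), (t : G)) (h2pE U ((1 : G) : G ⧸ U)) =
          (d₁₂ (Rep.res U.subtype D.C)).hom ψ (s, t)) →
      ∃ t : G → ((h2pM U).V →+ D.C.V), IsLevel₁ D.𝒯 t ∧ ∀ s, W s = dOne (h2pM U) D.C t s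

/-- **h2p-dep** (= cycU + shinj, glue ~100 lines; `stmtH2pDep_of : StmtH2pCycU → StmtH2pShInj →
StmtH2pDep`): `H²_lev(G, Hom_ℤ(ℤ[G/U], C))[p]` has at most `p` elements, in the form: two level
2-cocycles of `p`-torsion class are linearly dependent mod `p` up to a level coboundary.
(`w_i(s, t) := W_i(s, t)(e_{1·U})` on `U`: level 2-cocycles of `p`-torsion class of `(U, C)`
because `U` fixes `e_{1·U}`; cycU gives `a, b, ψ`; shinj for `a W₁ + b W₂`.) -/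
def StmtH2pDep : Prop :=
  ∀ (p : ℕ) [Fact p.Prime] (G : Type) [Group G] (ι : Type) [Fintype ι] (Gloc : ι → Type)
    [∀ v, Group (Gloc v)] (D : PTDatum p G ι Gloc) (U : Subgroup G), U.Normal → U ∈ D.𝒯.lev →
    ∀ W₁ W₂ : G × G → ((h2pM U).V →+ D.C.V),
      IsPTorsCoc D.𝒯 p (h2pM U) D.C W₁ → IsPTorsCoc D.𝒯 p (h2pM U) D.C W₂ →
      ∃ a b : ℕ, ¬ (p ∣ a ∧ p ∣ b) ∧ ∃ t : G → ((h2pM U).V →+ D.C.V), IsLevel₁ D.𝒯 t ∧
        ∀ s, a • W₁ s + b • W₂ s = dOne (h2pM U) D.C t s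

/-- **h2p-chase** (OWNER helper68, TW/F/H2pExact.lean `h2pex_main`; tools: TW/E/ChaseLift.lean,
`stmtIn1Perm`, `E_div`).  A level 2-cocycle `Y` of `Hom_ℤ(M, J)` of `p`-torsion class whose image
in `Hom_ℤ(M, C)` is a level coboundary is, up to a multiple `n` prime to `p` and a level
coboundary, `i ∘ W` for a level 2-cocycle `W` of `Hom_ℤ(M, E)` killed by `p` ON THE NOSE.
Proof: lift `t` to `t̃` (`chl_exists_lift_pi`); `Y - d t̃ = i ∘ W₀` (`exact`);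
`T := t₁ - p t̃` has `d T = i (p W₀)`, so `π T` is a level 1-cocycle of `Hom(M, C)`: `In1` gives
`n π T = d⁰ t_C`; lift `t_C` to `t_J`; `n T - d⁰ t_J = i ∘ s`, `d s = p (n W₀)`; `E_div`:
`s = p s'` (level: finitely many values); `W := n W₀ - d s'`. -/
def StmtH2pChase : Prop :=
  ∀ (p : ℕ) [Fact p.Prime] (G : Type) [Group G] (ι : Type) [Fintype ι] (Gloc : ι → Type)
    [∀ v, Group (Gloc v)] (D : PTDatum p G ι Gloc)
    (Ω : Type) [Fintype Ω] [MulAction G Ω], IsLevSet D.𝒯 Ω →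
    ∀ Y : G × G → ((permZ G Ω).V →+ (PTJ D).V), IsLevel₂ D.𝒯 Y →
      (∀ s, dTwo (permZ G Ω) (PTJ D) Y s = 0) →
      (∃ t₁ : G → ((permZ G Ω).V →+ (PTJ D).V), IsLevel₁ D.𝒯 t₁ ∧
        ∀ s, p • Y s = dOne (permZ G Ω) (PTJ D) t₁ s) →
      (∃ t : G → ((permZ G Ω).V →+ D.C.V), IsLevel₁ D.𝒯 t ∧
        ∀ s, (homAdd D.π).comp (Y s) = dOne (permZ G Ω) D.C t s) →
      ∃ n : ℕ, ¬ p ∣ n ∧ ∃ W : G × G → ((permZ G Ω).V →+ D.E.V), IsLevel₂ D.𝒯 W ∧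
        (∀ s, dTwo (permZ G Ω) D.E W s = 0) ∧ (∀ s, p • W s = 0) ∧
        ∃ u : G → ((permZ G Ω).V →+ (PTJ D).V), IsLevel₁ D.𝒯 u ∧
          ∀ s, n • Y s = (homAdd D.i).comp (W s) + dOne (permZ G Ω) (PTJ D) u s

/-- **h2p-asm** (assembly, ~400 lines, OWNER helper55): `stmtH2Perm_of`.
Given `Ψ` with `π Ψ ≠ 0`: `m` and places `w₁ = (v₁, g₁)`, `w₂ = (v₂, g₂)` with
`m w₁ ≢ m w₂ mod p` (untw); `Y₁, Y₂` supported at `w₁, w₂` (supp); `W_i := π ∘ Y_i`;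
`a W₁ + b W₂ = d t` (dep); evaluating at `N_Ω` (a `G`-map) and using that both
`π Y_i(N_Ω)` are non-coboundaries of `p`-torsion class gives `p ∤ a`, `p ∤ b`;
`Y := a Y₁ + b Y₂`, chase: `n Y = i W + d u`; `z` from untw (with `y := W`):
`π Ψ z = π T_m(i W) = n (a m(w₁) π Y₁(N) + b m(w₂) π Y₂(N)) - d(π T_m u)
       ~ n a (m(w₁) - m(w₂)) · π Y₁(N)`, not a level coboundary. -/
def StmtH2pAsm : Prop :=
  StmtH2pWtr → StmtH2pUntw → StmtH2pSupp → StmtH2pDep → StmtH2pChase → StmtH2Perm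

end Fermat.Agent.TW.F

end
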