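/-
TW-F, block F-h2perm, the CHASE piece (helper68): exactness at `H²(J)` + `In1` + Kummer lift.

`h2pex_main`: let `M = ℤ[Ω]` (`Ω` a finite level set) and `Y` a level 2-cocycle of `Hom_ℤ(M, J)`
with `p • Y = d t₁` (i.e. `p [Y] = 0`) whose image in `Hom_ℤ(M, C)` is a level coboundary.  Then,
up to a multiple `n` prime to `p` and a level coboundary, `Y` is the image of a level 2-cocycle
`W` of `Hom_ℤ(M, E)` which is POINTWISE killed by `p` (i.e. `W` has values in `Hom_ℤ(M, μ_p)`).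

Proof.  Lift `t` (`π Y = d t`) to a level `t̃`; `Y - d t̃ = i ∘ W₀`, `W₀` a level 2-cocycle of
`Hom(M, E)`.  `i (p W₀) = d T`, `T := t₁ - p t̃`, so `π T` is a level 1-cocycle of `Hom(M, C)`:
(In1, `stmtIn1Perm`) `n π T = d⁰ t_C`; lift `t_C` to `t_J`; `n T - d⁰ t_J = i ∘ s`, `s` level,
`d s = n p W₀`.  `E_div`: `s = p s'`, `s'` level.  `W := n W₀ - d s'`, `u := n t̃ + i ∘ s'`.
-/
import Fermat.Agent.TW.E.ChaseLift
import Fermat.Agent.TW.E.In1Perm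

set_option autoImplicit false
set_option linter.unusedSectionVars false

noncomputable section

namespace Fermat.Agent.TW.F

open CategoryTheory groupCohomology Module Fermat.Agent.PT Fermat.Agent.PT.F Fermat.Agent.TW.E
open Fermat.Agent.PT.F.ExactH2

attribute [local instance 1100] Rep.hV2

variable {p : ℕ} {G : Type} [Group G] {ι : Type} {Gloc : ι → Type} [∀ v, Group (Gloc v)]

/-- `π ∘ i ∘ h = 0` -/
lemma h2pex_pi_i (D : PTDatum p G ι Gloc) {M : Type} [AddCommGroup M] (h : M →+ D.E.V) :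
    (homAdd D.π).comp ((homAdd D.i).comp h) = 0 := by
  rw [← AddMonoidHom.comp_assoc, pi_comp_i, AddMonoidHom.zero_comp]

/-- additive maps `ℤ[Ω] → E` are divisible by `p` -/
lemma h2pex_div (D : PTDatum p G ι Gloc) (Ω : Type) [MulAction G Ω]
    (c : (permZ G Ω).V →+ D.E.V) : ∃ c' : (permZ G Ω).V →+ D.E.V, p • c' = c := by
  choose x hx using fun ω : Ω => D.E_div (c (MonoidAlgebra.single ω 1))
  refine ⟨chl_lift (G := G) Ω x, chl_ext Ω _ _ fun ω => ?_⟩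
  rw [AddMonoidHom.nsmul_apply, chl_lift_single, one_zsmul, hx]

/-- **F-h2perm, the chase.** -/
theorem h2pex_main [Fact p.Prime] [Fintype ι] (D : PTDatum p G ι Gloc)
    (Ω : Type) [Fintype Ω] [MulAction G Ω] (hΩ : IsLevSet D.𝒯 Ω)
    (Y : G × G → ((permZ G Ω).V →+ (PTJ D).V)) (hYlev : IsLevel₂ D.𝒯 Y)
    (hYcoc : ∀ s, dTwo (permZ G Ω) (PTJ D) Y s = 0)
    (hp : ∃ t₁ : G → ((permZ G Ω).V →+ (PTJ D).V), IsLevel₁ D.𝒯 t₁ ∧
      ∀ s, p • Y s = dOne (permZ G Ω) (PTJ D) t₁ s)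
    (hπ : ∃ t : G → ((permZ G Ω).V →+ D.C.V), IsLevel₁ D.𝒯 t ∧
      ∀ s, (homAdd D.π).comp (Y s) = dOne (permZ G Ω) D.C t s) :
    ∃ n : ℕ, ¬ p ∣ n ∧ ∃ W : G × G → ((permZ G Ω).V →+ D.E.V), IsLevel₂ D.𝒯 W ∧
      (∀ s, dTwo (permZ G Ω) D.E W s = 0) ∧ (∀ s, p • W s = 0) ∧
      ∃ u : G → ((permZ G Ω).V →+ (PTJ D).V), IsLevel₁ D.𝒯 u ∧
        ∀ s, n • Y s = (homAdd D.i).comp (W s) + dOne (permZ G Ω) (PTJ D) u s := by
  obtain ⟨t₁, ht₁lev, ht₁⟩ := hp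
  obtain ⟨t, htlev, ht⟩ := hπ
  have hJ : IsDiscrete D.𝒯 (PTJ D) := ptj_isDiscrete D
  -- Step 1: lift `t`, define `W₀`
  obtain ⟨tt, httlev, htt⟩ := chl_exists_lift_pi D Ω t htlev
  have httd : IsLevel₂ D.𝒯 (dOne (permZ G Ω) (PTJ D) tt) := chl_isLevel₂_dOne hΩ hJ tt httlev
  have hvlev : IsLevel₂ D.𝒯 (fun x => Y x - dOne (permZ G Ω) (PTJ D) tt x) :=
    chl_isLevel₂_sub hYlev httd
  have hπtt : (fun σ => (homAdd D.π).comp (tt σ)) = t := funext htt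
  have hπv : ∀ x, (homAdd D.π).comp (Y x - dOne (permZ G Ω) (PTJ D) tt x) = 0 := by
    intro x
    rw [AddMonoidHom.comp_sub, comp_dOne, hπtt, ht x, sub_self]
  obtain ⟨W₀, hW₀lev, hW₀⟩ := chl_exists_lift_i₂ D _ hvlev hπv
  have hW₀coc : ∀ x, dTwo (permZ G Ω) D.E W₀ x = 0 := by
    intro x
    apply i_comp_injective (D := D)
    rw [chl_comp_dTwo, AddMonoidHom.comp_zero, funext hW₀, chl_dTwo_sub, hYcoc, chl_dTwo_dOne,
      sub_zero]
  -- Step 2: the 1-cochain `T = t₁ - p t̃`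
  have hTlev : IsLevel₁ D.𝒯 (fun σ => t₁ σ - p • tt σ) :=
    chl_isLevel₁_sub ht₁lev (chl_isLevel₁_nsmul p httlev)
  have hT : ∀ x, dOne (permZ G Ω) (PTJ D) (fun σ => t₁ σ - p • tt σ) x =
      (homAdd D.i).comp (p • W₀ x) := by
    intro x
    rw [dOne_sub, dOne_nsmul, ← ht₁ x, chl_comp_nsmul, hW₀ x, smul_sub]
  have hπT : ∀ x, dOne (permZ G Ω) D.C
      (fun σ => (homAdd D.π).comp (t₁ σ - p • tt σ)) x = 0 := by
    intro x
    rw [← comp_dOne, hT x, h2pex_pi_i]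
  obtain ⟨n, hn, tC, htC⟩ := stmtIn1Perm p G ι Gloc D Ω hΩ
    (fun σ => (homAdd D.π).comp (t₁ σ - p • tt σ))
    (hTlev.comp (fun h => (homAdd D.π).comp h)) hπT
  obtain ⟨tJ, htJ⟩ := chl_exists_lift_pi₀ D Ω tC
  have hv₁lev : IsLevel₁ D.𝒯
      (fun σ => n • (t₁ σ - p • tt σ) - dZero (permZ G Ω) (PTJ D) tJ σ) :=
    chl_isLevel₁_sub (chl_isLevel₁_nsmul n hTlev) (chl_isLevel₁_dZero hΩ hJ tJ)
  have hπv₁ : ∀ σ, (homAdd D.π).comp
      (n • (t₁ σ - p • tt σ) - dZero (permZ G Ω) (PTJ D) tJ σ) = 0 := by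
    intro σ
    rw [AddMonoidHom.comp_sub, chl_comp_nsmul, comp_dZero, htJ, htC σ, sub_self]
  obtain ⟨s, hslev, hs⟩ := chl_exists_lift_i₁ D _ hv₁lev hπv₁
  have hds : ∀ x, dOne (permZ G Ω) D.E s x = n • (p • W₀ x) := by
    intro x
    apply i_comp_injective (D := D)
    rw [comp_dOne, funext hs, dOne_sub, dOne_nsmul, hT x, dOne_dZero, sub_zero, chl_comp_nsmul,
      chl_comp_nsmul, chl_comp_nsmul]
  -- Step 3: `s = p s'`
  choose Dv hDv using h2pex_div D Ω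
  have hs'lev : IsLevel₁ D.𝒯 (fun σ => Dv (s σ)) := hslev.comp Dv
  have hds'lev : IsLevel₂ D.𝒯 (dOne (permZ G Ω) D.E (fun σ => Dv (s σ))) :=
    chl_isLevel₂_dOne hΩ D.E_discrete _ hs'lev
  have hpds' : ∀ x, p • dOne (permZ G Ω) D.E (fun σ => Dv (s σ)) x =
      dOne (permZ G Ω) D.E s x := by
    intro x
    rw [← dOne_nsmul]
    congr 1
    funext σ
    exact hDv (s σ)
  -- Step 4: the result
  refine ⟨n, hn, fun x => n • W₀ x - dOne (permZ G Ω) D.E (fun σ => Dv (s σ)) x,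
    chl_isLevel₂_sub (chl_isLevel₂_nsmul n hW₀lev) hds'lev, fun x => ?_, fun x => ?_,
    fun σ => n • tt σ + (homAdd D.i).comp (Dv (s σ)),
    chl_isLevel₁_add (chl_isLevel₁_nsmul n httlev)
      (hs'lev.comp (fun h => (homAdd D.i).comp h)), fun x => ?_⟩
  · rw [chl_dTwo_sub, chl_dTwo_nsmul, hW₀coc, chl_dTwo_dOne, smul_zero, sub_zero]
  · rw [smul_sub, hpds' x, hds x, smul_comm, sub_self]
  · rw [AddMonoidHom.comp_sub, chl_comp_nsmul, hW₀ x, comp_dOne, chl_dOne_add, dOne_nsmul,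
      smul_sub]
    abel

end Fermat.Agent.TW.F

end
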