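/-
TW-F, block F-h2perm, pieces **h2p-chase** and **h2p-asm** (helper68).

* `stmtH2pChase : StmtH2pChase` (= `h2pex_main`, TW/F/H2pExact.lean).
* `stmtH2pAsm : StmtH2pAsm`, i.e.
  `StmtH2pWtr → StmtH2pUntw → StmtH2pSupp → StmtH2pDep → StmtH2pChase → StmtH2Perm`.

Assembly (NOTES/TW-F-h2perm.md): `Ψ ↔ m`, places `w₁, w₂` with `m w₁ ≢ m w₂`; `Y₁, Y₂` supported at
`w₁, w₂`, `P_i := π ∘ Y_i(N_Ω)` not level coboundaries; `a π Y₁ + b π Y₂ = d t`, hence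
`a P₁ + b P₂ ∈ B²` and `p ∤ a`; chase for `Y := a Y₁ + b Y₂`: `n Y = i W + d u`; `z` from `W`;
`π Ψ z = n (a m₁ P₁ + b m₂ P₂) - d(π T u) ≡ n a (m₁ - m₂) P₁ mod B²`, not a level coboundary.
-/
import Fermat.Agent.TW.F.PlanH2Perm
import Fermat.Agent.TW.F.H2pExact

set_option autoImplicit false
set_option linter.unusedSectionVars false
set_option linter.style.haveILetI false

noncomputable section

namespace Fermat.Agent.TW.F

open CategoryTheory groupCohomology Module Fermat.Agent.PT Fermat.Agent.PT.F Fermat.Agent.TW.E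
open Fermat.Agent.PT.F.ExactH2

attribute [local instance 1100] Rep.hV2

variable {p : ℕ} {G : Type} [Group G] {ι : Type} {Gloc : ι → Type} [∀ v, Group (Gloc v)]

/-- **h2p-chase.** -/
theorem stmtH2pChase : StmtH2pChase := by
  intro p _ G _ ι _ Gloc _ D Ω _ _ hΩ Y hY hcoc hp hπ
  exact h2pex_main D Ω hΩ Y hY hcoc hp hπ

/-! ### Small lemmas -/

/-- the norm element is `G`-invariant -/
lemma h2pa_N_inv (U : Subgroup G) [Finite (G ⧸ U)] (g : G) :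
    (h2pM U).ρ g (h2pN U) = h2pN U := by
  classical
  let _ : Fintype (G ⧸ U) := Fintype.ofFinite _
  unfold h2pN
  rw [finsum_eq_sum_of_fintype, map_sum]
  have h1 : ∀ ω : G ⧸ U, (h2pM U).ρ g (h2pE U ω) = h2pE U (g • ω) := fun ω =>
    chl_ρ_single (G ⧸ U) g ω 1
  simp only [h1]
  exact Equiv.sum_comp (MulAction.toPerm g) (fun ω : G ⧸ U => h2pE U ω)

/-- evaluation of `dOne` at an invariant element is the ordinary coboundary -/
lemma h2pa_dOne_eval (M X : Rep.{0} ℤ G) (t : G → (M.V →+ X.V)) (N : M.V)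
    (hN : ∀ g, M.ρ g N = N) (s : G × G) :
    dOne M X t s N = (d₁₂ X).hom (fun σ => t σ N) s := by
  obtain ⟨σ, τ⟩ := s
  rw [d₁₂_hom_apply, dOne_apply, hN]

/-- a `G`-map `T : Hom(M, J) → J` sends `dOne` to the ordinary coboundary -/
lemma h2pa_T_dOne (M X : Rep.{0} ℤ G) (T : (M.V →+ X.V) →+ X.V)
    (hT : ∀ (σ : G) (F : M.V →+ X.V), T (conjAdd M X σ F) = X.ρ σ (T F))
    (u : G → (M.V →+ X.V)) (s : G × G) :
    T (dOne M X u s) = (d₁₂ X).hom (fun σ => T (u σ)) s := by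
  obtain ⟨σ, τ⟩ := s
  rw [d₁₂_hom_apply]
  show T (conjAdd M X σ (u τ) - u (σ * τ) + u σ) = _
  rw [map_add, map_sub, hT]

/-- Bezout: a cochain `P` with `p • P` and `k • P` level coboundaries, `p ∤ k`, is a level
coboundary -/
lemma h2pa_bezout [Fact p.Prime] {𝒯 : Tower G} {X : Rep.{0} ℤ G} (P : G × G → X.V) (k : ℤ)
    (hk : ¬ (p : ℤ) ∣ k) (h1 : p • P ∈ levCoboundaries₂ 𝒯 X)
    (h2 : k • P ∈ levCoboundaries₂ 𝒯 X) : P ∈ levCoboundaries₂ 𝒯 X := by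
  have hp : Prime (p : ℤ) := Nat.prime_iff_prime_int.1 Fact.out
  have hc : IsCoprime (p : ℤ) k := (Prime.coprime_iff_not_dvd hp).2 hk
  obtain ⟨x, y, hxy⟩ := hc
  have h3 : P = x • ((p : ℤ) • P) + y • (k • P) := by
    rw [smul_smul, smul_smul, ← add_smul, hxy, one_smul]
  rw [h3]
  refine (levCoboundaries₂ 𝒯 X).add_mem (zsmul_mem ?_ x) (zsmul_mem h2 y)
  rwa [natCast_zsmul]

/-- the components of `F(N_Ω)` -/
lemma h2pa_eval_N (D : PTDatum p G ι Gloc) (U : Subgroup G) [Fintype (G ⧸ U)]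
    (F : (h2pM U).V →+ (PTJ D).V) (v : ι) (g : G) :
    (F (h2pN U)).1 v g = ∑ ω : G ⧸ U, (F (h2pE U ω)).1 v g := by
  unfold h2pN
  rw [finsum_eq_sum_of_fintype, map_sum]
  have := AddSubmonoidClass.coe_finsetSum (S := semilocalSub D.𝒯 D.r D.Jloc)
    (fun ω : G ⧸ U => F (h2pE U ω)) Finset.univ
  show ((∑ ω, F (h2pE U ω) : ↥(semilocalSub D.𝒯 D.r D.Jloc)) :
    ∀ v, G → (D.Jloc v).V) v g = _
  rw [this, Finset.sum_apply, Finset.sum_apply]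

/-- on a map supported at the place `(v, g₀)` the weighted trace is `m v g₀ • F(N_Ω)` -/
lemma h2pa_wtr_supp (D : PTDatum p G ι Gloc) (U : Subgroup G) [Finite (G ⧸ U)]
    (m : ι → G → ℕ) (hm : IsPlaceFn D U m) (T : ((h2pM U).V →+ (PTJ D).V) →+ (PTJ D).V)
    (hT : IsWtr D U m T) (v : ι) (g₀ : G) (F : (h2pM U).V →+ (PTJ D).V)
    (hF : IsSuppAt D U v g₀ F) : T F = m v g₀ • F (h2pN U) := by
  classical
  let _ : Fintype (G ⧸ U) := Fintype.ofFinite _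
  apply Subtype.ext
  funext v' g
  rw [hT F v' g, finsum_eq_sum_of_fintype]
  show _ = m v g₀ • (F (h2pN U)).1 v' g
  rw [h2pa_eval_N, Finset.smul_sum]
  refine Finset.sum_congr rfl fun ω _ => ?_
  by_cases hx : (F (h2pE U ω)).1 v' g = 0
  · rw [hx, smul_zero, smul_zero]
  · obtain ⟨rfl, d, u, hu, heq⟩ := hF ω v' g hx
    rw [heq, hm.2 _ _ _ hu, hm.1]

/-- `π ∘ Y` is a `p`-torsion cocycle if `Y` is -/
lemma h2pa_pi_ptors (D : PTDatum p G ι Gloc) (M : Rep.{0} ℤ G)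
    {Y : G × G → (M.V →+ (PTJ D).V)} (hY : IsPTorsCoc D.𝒯 p M (PTJ D) Y) :
    IsPTorsCoc D.𝒯 p M D.C (fun s => (homAdd D.π).comp (Y s)) := by
  obtain ⟨hlev, hcoc, t, htlev, ht⟩ := hY
  refine ⟨hlev.comp (fun h => (homAdd D.π).comp h), fun s => ?_,
    fun σ => (homAdd D.π).comp (t σ), htlev.comp (fun h => (homAdd D.π).comp h), fun s => ?_⟩
  · rw [← chl_comp_dTwo, hcoc, AddMonoidHom.comp_zero]
  · rw [← chl_comp_nsmul, ht s, comp_dOne]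

/-- linear combinations of `p`-torsion cocycles -/
lemma h2pa_lin_ptors {𝒯 : Tower G} (M X : Rep.{0} ℤ G) {Y₁ Y₂ : G × G → (M.V →+ X.V)}
    (a b : ℕ) (h₁ : IsPTorsCoc 𝒯 p M X Y₁) (h₂ : IsPTorsCoc 𝒯 p M X Y₂) :
    IsPTorsCoc 𝒯 p M X (fun s => a • Y₁ s + b • Y₂ s) := by
  obtain ⟨hlev₁, hcoc₁, t₁, ht₁lev, ht₁⟩ := h₁
  obtain ⟨hlev₂, hcoc₂, t₂, ht₂lev, ht₂⟩ := h₂
  refine ⟨chl_isLevel₂_add (chl_isLevel₂_nsmul a hlev₁) (chl_isLevel₂_nsmul b hlev₂),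
    fun s => ?_, fun σ => a • t₁ σ + b • t₂ σ,
    chl_isLevel₁_add (chl_isLevel₁_nsmul a ht₁lev) (chl_isLevel₁_nsmul b ht₂lev), fun s => ?_⟩
  · rw [chl_dTwo_add, chl_dTwo_nsmul, chl_dTwo_nsmul, hcoc₁, hcoc₂, smul_zero, smul_zero,
      add_zero]
  · rw [chl_dOne_add, dOne_nsmul, dOne_nsmul, ← ht₁ s, ← ht₂ s, smul_add, smul_comm p a,
      smul_comm p b]

/-- `G ⧸ U` is a level set for a normal level `U` -/
lemma h2pa_isLevSet {𝒯 : Tower G} (U : Subgroup G) (hUn : U.Normal) (hU : U ∈ 𝒯.lev) :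
    IsLevSet 𝒯 (G ⧸ U) := by
  refine ⟨U, hU, fun s hs ω => ?_⟩
  induction ω using QuotientGroup.induction_on with
  | H g =>
    show ((s * g : G) : G ⧸ U) = (g : G ⧸ U)
    rw [QuotientGroup.eq]
    have : (s * g)⁻¹ * g = g⁻¹ * s⁻¹ * g := by group
    rw [this]
    have h := hUn.conj_mem s⁻¹ (U.inv_mem hs) g⁻¹
    simpa using h

/-- `π` commutes with the coboundary -/
lemma h2pa_pi_d₁₂ (D : PTDatum p G ι Gloc) (x : G → (PTJ D).V) (s : G × G) :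
    D.π.hom ((d₁₂ (PTJ D)).hom x s) = (d₁₂ D.C).hom (fun σ => D.π.hom (x σ)) s := by
  rw [d₁₂_hom_apply, d₁₂_hom_apply, map_add, map_sub, Rep.hom_comm_apply]

/-- the trace of a `p`-torsion cocycle of `Hom(M, J)` is killed by `p` in `H²_lev(G, C)` -/
lemma h2pa_p_trace (D : PTDatum p G ι Gloc) (U : Subgroup G) [Finite (G ⧸ U)]
    {Y : G × G → ((h2pM U).V →+ (PTJ D).V)} (hY : IsPTorsCoc D.𝒯 p (h2pM U) (PTJ D) Y) :
    p • (fun s => D.π.hom (Y s (h2pN U))) ∈ levCoboundaries₂ D.𝒯 D.C := by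
  obtain ⟨-, -, t, htlev, ht⟩ := hY
  refine (mem_levCoboundaries₂_iff _ _ _).2 ⟨fun σ => D.π.hom (t σ (h2pN U)),
    htlev.comp (fun h => D.π.hom (h (h2pN U))), ?_⟩
  funext s
  show _ = p • D.π.hom (Y s (h2pN U))
  rw [← map_nsmul, ← AddMonoidHom.nsmul_apply, ht s, h2pa_dOne_eval _ _ _ _ (h2pa_N_inv U),
    h2pa_pi_d₁₂]

/-- **h2p-asm.** -/
theorem stmtH2pAsm : StmtH2pAsm := by
  intro hWtr hUntw hSupp hDep hChase p _ G _ ι _ Gloc _ D hPD U hUn hU hχ Ψ hΨ hne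
  classical
  haveI : U.FiniteIndex := D.𝒯.finiteIndex U hU
  haveI : Finite (G ⧸ U) := Subgroup.finite_quotient_of_finiteIndex
  letI : Fintype (G ⧸ U) := Fintype.ofFinite _
  have hp : p.Prime := Fact.out
  have hpZ : Prime (p : ℤ) := Nat.prime_iff_prime_int.1 hp
  have hN : ∀ g, (h2pM U).ρ g (h2pN U) = h2pN U := h2pa_N_inv U
  -- untwisting
  obtain ⟨m, hm, hnc, hz⟩ := hUntw p G ι Gloc D U hUn hU hχ Ψ hΨ
  obtain ⟨v₁, g₁, v₂, g₂, hm12⟩ := hnc hne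
  obtain ⟨T, hT, hTeq⟩ := hWtr p G ι Gloc D U hUn hU m hm
  -- the classes at the two places
  obtain ⟨Y₁, hY₁, hS₁, hN₁⟩ := hSupp p G ι Gloc D hPD U hUn hU v₁ g₁
  obtain ⟨Y₂, hY₂, hS₂, hN₂⟩ := hSupp p G ι Gloc D hPD U hUn hU v₂ g₂
  have hpP₁ := h2pa_p_trace D U hY₁
  have hpP₂ := h2pa_p_trace D U hY₂
  -- linear dependence in `Hom(M, C)`
  obtain ⟨a, b, hab, t, htlev, ht⟩ := hDep p G ι Gloc D U hUn hU _ _
    (h2pa_pi_ptors D _ hY₁) (h2pa_pi_ptors D _ hY₂)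
  have habP : a • (fun s => D.π.hom (Y₁ s (h2pN U))) + b • (fun s => D.π.hom (Y₂ s (h2pN U))) ∈
      levCoboundaries₂ D.𝒯 D.C := by
    refine (mem_levCoboundaries₂_iff _ _ _).2 ⟨fun σ => t σ (h2pN U),
      htlev.comp (fun h => h (h2pN U)), ?_⟩
    funext s
    rw [← h2pa_dOne_eval _ _ _ _ hN, ← ht s]
    rfl
  -- `p ∤ a`
  have hpa : ¬ p ∣ a := by
    intro hdiv
    obtain ⟨a', rfl⟩ := hdiv
    have hb : ¬ p ∣ b := fun h => hab ⟨Dvd.intro a' rfl, h⟩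
    have h1 : (p * a') • (fun s => D.π.hom (Y₁ s (h2pN U))) ∈ levCoboundaries₂ D.𝒯 D.C := by
      rw [mul_comm, mul_smul]
      exact nsmul_mem hpP₁ a'
    have h2 : b • (fun s => D.π.hom (Y₂ s (h2pN U))) ∈ levCoboundaries₂ D.𝒯 D.C := by
      have := (levCoboundaries₂ D.𝒯 D.C).sub_mem habP h1
      rwa [add_sub_cancel_left] at this
    have h3 : ((b : ℤ)) • (fun s => D.π.hom (Y₂ s (h2pN U))) ∈ levCoboundaries₂ D.𝒯 D.C := by
      rwa [natCast_zsmul]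
    exact hN₂ (h2pa_bezout _ (b : ℤ) (fun h => hb (Int.natCast_dvd_natCast.1 h)) hpP₂ h3)
  -- the chase
  have hY := h2pa_lin_ptors (h2pM U) (PTJ D) a b hY₁ hY₂
  have hπY : ∃ t : G → ((h2pM U).V →+ D.C.V), IsLevel₁ D.𝒯 t ∧
      ∀ s, (homAdd D.π).comp (a • Y₁ s + b • Y₂ s) = dOne (h2pM U) D.C t s :=
    ⟨t, htlev, fun s => by
      rw [AddMonoidHom.comp_add, chl_comp_nsmul, chl_comp_nsmul]
      exact ht s⟩
  obtain ⟨n, hn, W, hWlev, hWcoc, hWp, u, hulev, hu⟩ :=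
    hChase p G ι Gloc D (G ⧸ U) (h2pa_isLevSet U hUn hU) _ hY.1 hY.2.1 hY.2.2 hπY
  obtain ⟨z, hzcoc, hzΨ⟩ := hz T hT W hWlev hWcoc hWp
  refine ⟨z, hzcoc, fun hcob => ?_⟩
  -- the formula for `π Ψ z`
  have hTY : ∀ s, T (a • Y₁ s + b • Y₂ s) =
      (a * m v₁ g₁) • Y₁ s (h2pN U) + (b * m v₂ g₂) • Y₂ s (h2pN U) := by
    intro s
    rw [map_add, map_nsmul, map_nsmul, h2pa_wtr_supp D U m hm T hT v₁ g₁ _ (hS₁ s),
      h2pa_wtr_supp D U m hm T hT v₂ g₂ _ (hS₂ s), mul_smul, mul_smul]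
  have hpush : pushC D Ψ z = n • ((a * m v₁ g₁) • (fun s => D.π.hom (Y₁ s (h2pN U))) +
      (b * m v₂ g₂) • (fun s => D.π.hom (Y₂ s (h2pN U)))) -
      (d₁₂ D.C).hom (fun σ => D.π.hom (T (u σ))) := by
    funext s
    show D.π.hom (Ψ (z s)) = _
    rw [hzΨ s]
    have h1 : (homAdd D.i).comp (W s) =
        n • (a • Y₁ s + b • Y₂ s) - dOne (h2pM U) (PTJ D) u s :=
      eq_sub_of_add_eq (hu s).symm
    rw [h1, map_sub, map_nsmul, hTY s, h2pa_T_dOne _ _ T hTeq u s, map_sub, map_nsmul, map_add,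
      map_nsmul, map_nsmul, h2pa_pi_d₁₂]
    rfl
  have h2 : n • ((a * m v₁ g₁) • (fun s => D.π.hom (Y₁ s (h2pN U))) +
      (b * m v₂ g₂) • (fun s => D.π.hom (Y₂ s (h2pN U)))) ∈ levCoboundaries₂ D.𝒯 D.C := by
    have h : n • ((a * m v₁ g₁) • (fun s => D.π.hom (Y₁ s (h2pN U))) +
        (b * m v₂ g₂) • (fun s => D.π.hom (Y₂ s (h2pN U)))) =
        pushC D Ψ z + (d₁₂ D.C).hom (fun σ => D.π.hom (T (u σ))) := by
      rw [hpush, sub_add_cancel]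
    rw [h]
    exact (levCoboundaries₂ D.𝒯 D.C).add_mem hcob
      ((mem_levCoboundaries₂_iff _ _ _).2 ⟨_, hulev.comp (fun h => D.π.hom (T h)), rfl⟩)
  have h3 : ((n : ℤ) * a * ((m v₁ g₁ : ℤ) - m v₂ g₂)) • (fun s => D.π.hom (Y₁ s (h2pN U))) ∈
      levCoboundaries₂ D.𝒯 D.C := by
    have e : ((n : ℤ) * a * ((m v₁ g₁ : ℤ) - m v₂ g₂)) • (fun s => D.π.hom (Y₁ s (h2pN U))) =
        n • ((a * m v₁ g₁) • (fun s => D.π.hom (Y₁ s (h2pN U))) +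
          (b * m v₂ g₂) • (fun s => D.π.hom (Y₂ s (h2pN U)))) -
        (n * m v₂ g₂) • (a • (fun s => D.π.hom (Y₁ s (h2pN U))) +
          b • (fun s => D.π.hom (Y₂ s (h2pN U)))) := by
      module
    rw [e]
    exact (levCoboundaries₂ D.𝒯 D.C).sub_mem h2 (nsmul_mem habP _)
  have hk : ¬ (p : ℤ) ∣ (n : ℤ) * a * ((m v₁ g₁ : ℤ) - m v₂ g₂) := by
    intro h
    rcases hpZ.dvd_mul.1 h with h | h
    · rcases hpZ.dvd_mul.1 h with h | h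
      · exact hn (Int.natCast_dvd_natCast.1 h)
      · exact hpa (Int.natCast_dvd_natCast.1 h)
    · apply hm12
      rw [Nat.modEq_iff_dvd]
      have e : ((m v₂ g₂ : ℤ) - m v₁ g₁) = -((m v₁ g₁ : ℤ) - m v₂ g₂) := by ring
      rw [e]
      exact (dvd_neg).2 h
  exact hN₁ (h2pa_bezout _ _ hk hpP₁ h3)

end Fermat.Agent.TW.F

end
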