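/-
TW-F, block F-h2perm, piece **h2p-seedpair** (helper55): `stmtH2pSeedPair : StmtH2pSeedPair`.

From a finite `G`-module `A'` killed by `p` and a level 1-cocycle `ĉ` of `Hom_ℤ(M, A')`
(`M = ℤ[G/U]`) whose trace `c = ĉ(·)(N_Ω)` is not a coboundary on `G_v`, the PT-F pairing with the
standard presentation of `A'` produces a level 2-cocycle `Y` of `Hom_ℤ(M, J)`, of `p`-torsion
class, supported at `v`, with `π ∘ Y(N_Ω)` not a level coboundary of `C`.
-/
import Fermat.Agent.TW.F.PlanH2Perm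
import Fermat.Agent.TW.E.ChaseLift
import Fermat.Agent.PT.F.LocNondeg
import Fermat.Agent.PT.F.HasInd
import Fermat.Agent.PT.F.FinLevel
import Fermat.Agent.PT.F.PairBasic
import Fermat.Agent.PT.F.InflInj
import Fermat.Agent.PT.F.SeqIn
import Fermat.Agent.PT.A.Final

set_option autoImplicit false
set_option linter.unusedSectionVars false
set_option linter.style.haveILetI false

noncomputable section

namespace Fermat.Agent.TW.F

open CategoryTheory groupCohomology Module Fermat.Agent.PT Fermat.Agent.PT.F Fermat.Agent.TW.E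
open Fermat.Agent.PT.F.ExactH2 Fermat.Agent.PT.F.SeqInW

attribute [local instance 1100] Rep.hV2

section Gen

variable {G : Type} [Group G] {𝒯 : Tower G} {A' : Rep.{0} ℤ G} (P : Presentation 𝒯 A')
  (M X : Rep.{0} ℤ G) (g : P.M₁ ⟶ X)

/-- `g ∘ inc⁻¹ ∘ f` for an additive map `f : M → M₀` with values in `ker ε` -/
def h2psp_push (f : M.V →+ P.M₀.V) (hf : ∀ m, P.ε (f m) = 0) : M.V →+ X.V :=
  AddMonoidHom.mk' (fun m => g.hom (P.incInv (f m))) (fun a b => by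
    show g.hom (P.incInv (f (a + b))) = g.hom (P.incInv (f a)) + g.hom (P.incInv (f b))
    rw [map_add, pb_incInv_add P (hf a) (hf b), map_add])

@[simp] lemma h2psp_push_apply (f : M.V →+ P.M₀.V) (hf : ∀ m, P.ε (f m) = 0) (m : M.V) :
    h2psp_push P M X g f hf m = g.hom (P.incInv (f m)) := rfl

lemma h2psp_push_congr {f f' : M.V →+ P.M₀.V} (hf : ∀ m, P.ε (f m) = 0)
    (hf' : ∀ m, P.ε (f' m) = 0) (h : f = f') :
    h2psp_push P M X g f hf = h2psp_push P M X g f' hf' := by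
  subst h; rfl

/-- `ε ∘ conj` -/
lemma h2psp_ε_conj (σ : G) (f : M.V →+ P.M₀.V) (hf : ∀ m, P.ε (f m) = 0) (m : M.V) :
    P.ε (conjAdd M P.M₀ σ f m) = 0 := by
  rw [conjAdd_apply, P.ε_ρ, hf, map_zero]

lemma h2psp_push_conj (σ : G) (f : M.V →+ P.M₀.V) (hf : ∀ m, P.ε (f m) = 0) :
    h2psp_push P M X g (conjAdd M P.M₀ σ f) (h2psp_ε_conj P M σ f hf) =
      conjAdd M X σ (h2psp_push P M X g f hf) := by
  ext m
  rw [h2psp_push_apply, conjAdd_apply, conjAdd_apply, h2psp_push_apply,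
    pb_incInv_ρ P σ (hf _), Rep.hom_comm_apply]

lemma h2psp_push_add (f f' : M.V →+ P.M₀.V) (hf : ∀ m, P.ε (f m) = 0)
    (hf' : ∀ m, P.ε (f' m) = 0) :
    h2psp_push P M X g (f + f') (fun m => by
      rw [AddMonoidHom.add_apply, map_add, hf, hf', add_zero]) =
      h2psp_push P M X g f hf + h2psp_push P M X g f' hf' := by
  ext m
  rw [h2psp_push_apply, AddMonoidHom.add_apply, AddMonoidHom.add_apply, h2psp_push_apply,
    h2psp_push_apply, pb_incInv_add P (hf m) (hf' m), map_add]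

lemma h2psp_push_sub (f f' : M.V →+ P.M₀.V) (hf : ∀ m, P.ε (f m) = 0)
    (hf' : ∀ m, P.ε (f' m) = 0) :
    h2psp_push P M X g (f - f') (fun m => by
      rw [AddMonoidHom.sub_apply, map_sub, hf, hf', sub_zero]) =
      h2psp_push P M X g f hf - h2psp_push P M X g f' hf' := by
  ext m
  rw [h2psp_push_apply, AddMonoidHom.sub_apply, AddMonoidHom.sub_apply, h2psp_push_apply,
    h2psp_push_apply, pb_incInv_sub P (hf m) (hf' m), map_sub]

lemma h2psp_push_nsmul (n : ℕ) (f : M.V →+ P.M₀.V) (hf : ∀ m, P.ε (f m) = 0) :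
    h2psp_push P M X g (n • f) (fun m => by
      rw [AddMonoidHom.nsmul_apply, map_nsmul, hf, smul_zero]) =
      n • h2psp_push P M X g f hf := by
  ext m
  rw [h2psp_push_apply, AddMonoidHom.nsmul_apply, AddMonoidHom.nsmul_apply, h2psp_push_apply,
    pb_incInv_nsmul P n (hf m), map_nsmul]

lemma h2psp_push_zero :
    h2psp_push P M X g (0 : M.V →+ P.M₀.V) (fun m => by
      rw [AddMonoidHom.zero_apply, map_zero]) = 0 := by
  ext m
  rw [h2psp_push_apply, AddMonoidHom.zero_apply, AddMonoidHom.zero_apply, pb_incInv_zero,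
    map_zero]

/-- `g ∘ inc⁻¹` on three terms of `ker ε` -/
lemma h2psp_K3 {a b c : P.M₀.V} (ha : P.ε a = 0) (hb : P.ε b = 0) (hc : P.ε c = 0) :
    g.hom (P.incInv a) - g.hom (P.incInv b) + g.hom (P.incInv c) =
      g.hom (P.incInv (a - b + c)) := by
  rw [pb_incInv_add P (by rw [map_sub, ha, hb, sub_zero]) hc, pb_incInv_sub P ha hb, map_add,
    map_sub]

/-- `g ∘ inc⁻¹` on four terms of `ker ε` -/
lemma h2psp_K4 {a b c d : P.M₀.V} (ha : P.ε a = 0) (hb : P.ε b = 0) (hc : P.ε c = 0)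
    (hd : P.ε d = 0) :
    g.hom (P.incInv a) - g.hom (P.incInv b) + g.hom (P.incInv c) - g.hom (P.incInv d) =
      g.hom (P.incInv (a - b + c - d)) := by
  rw [pb_incInv_sub P (by rw [map_add, map_sub, ha, hb, hc, sub_zero, add_zero]) hd,
    pb_incInv_add P (by rw [map_sub, ha, hb, sub_zero]) hc, pb_incInv_sub P ha hb, map_sub,
    map_add, map_sub]

lemma h2psp_Kρ (σ : G) {a : P.M₀.V} (ha : P.ε a = 0) :
    X.ρ σ (g.hom (P.incInv a)) = g.hom (P.incInv (P.M₀.ρ σ a)) := by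
  rw [pb_incInv_ρ P σ ha, Rep.hom_comm_apply]

end Gen

section Norm

variable {G : Type} [Group G] (U : Subgroup G)

/-- the norm element as a finite sum -/
lemma h2psp_N_eq [Fintype (G ⧸ U)] : h2pN U = ∑ ω : G ⧸ U, h2pE U ω := by
  unfold h2pN
  exact finsum_eq_sum_of_fintype _

/-- the norm element is `G`-invariant -/
lemma h2psp_ρ_N [Finite (G ⧸ U)] (σ : G) : (h2pM U).ρ σ (h2pN U) = h2pN U := by
  haveI : Fintype (G ⧸ U) := Fintype.ofFinite _
  rw [h2psp_N_eq, map_sum]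
  have h1 : ∀ ω : G ⧸ U, (h2pM U).ρ σ (h2pE U ω) = h2pE U (σ • ω) := fun ω =>
    chl_ρ_single (G ⧸ U) σ ω 1
  simp only [h1]
  exact Fintype.sum_equiv (MulAction.toPerm σ) _ _ (fun ω => rfl)

/-- a normal subgroup acts trivially on `G ⧸ U` -/
lemma h2psp_smul_eq [hU : U.Normal] (s : G) (hs : s ∈ U) (ω : G ⧸ U) : s • ω = ω := by
  induction ω using QuotientGroup.induction_on with
  | H g =>
    show ((s * g : G) : G ⧸ U) = (g : G ⧸ U)
    rw [QuotientGroup.eq]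
    have h1 : (s * g)⁻¹ * g = g⁻¹ * s⁻¹ * g := by group
    rw [h1]
    have := hU.conj_mem s⁻¹ (U.inv_mem hs) g⁻¹
    simpa using this

lemma h2psp_isLevSet (𝒯 : Tower G) [U.Normal] (hU : U ∈ 𝒯.lev) : IsLevSet 𝒯 (G ⧸ U) :=
  ⟨U, hU, fun s hs ω => h2psp_smul_eq U s hs ω⟩

end Norm

/-- local nondegeneracy, unconditional -/
theorem h2psp_locNondeg : StmtLocNondeg :=
  stmtLocNondeg_of (stmtRightKer_of stmtTN' stmtInflInjFin) stmtPairBasic

/-- **h2p-seedpair**. -/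
theorem stmtH2pSeedPair : StmtH2pSeedPair := by
  intro p _ G _ ι _ Gloc _ D U hUn hU v A' hfin ch hp hU₀ hlev hcoc hnc
  obtain ⟨U₀, hU₀m, hU₀n, htriv⟩ := hU₀
  haveI := hU₀n
  haveI := hUn
  haveI := hfin
  haveI : U.FiniteIndex := D.𝒯.finiteIndex U hU
  haveI : Finite (G ⧸ U) := Subgroup.finite_quotient_of_finiteIndex
  have hΩ : IsLevSet D.𝒯 (G ⧸ U) := h2psp_isLevSet U D.𝒯 hU
  let P : Presentation D.𝒯 A' := stdPres D.𝒯 U₀ hU₀m A' htriv
  have hInd : HasInd P.M₀ := hasInd_stdPres D.𝒯 U₀ hU₀m A' htriv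
  have hM₁ : IsLevTriv D.𝒯 P.M₁ := isLevTriv_M₁ P
  have hM₀d : IsDiscrete D.𝒯 P.M₀ := fun x => ⟨P.U₀, P.U₀_mem, fun s hs => P.triv₀ s hs x⟩
  have hN : ∀ σ : G, (h2pM U).ρ σ (h2pN U) = h2pN U := h2psp_ρ_N U
  -- the trace
  set c : G → A'.V := fun σ => ch σ (h2pN U) with hcdef
  have hc : c ∈ cocycles₁ A' := by
    rw [mem_cocycles₁_iff]
    intro σ τ
    have h1 : dOne (h2pM U) A' ch (σ, τ) (h2pN U) = 0 := by
      rw [hcoc (σ, τ)]; rfl
    rw [dOne_apply, hN, sub_add_eq_add_sub, sub_eq_zero] at h1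
    exact h1.symm
  have hclev : IsLevel₁ D.𝒯 c := hlev.comp (fun f : (h2pM U).V →+ A'.V => f (h2pN U))
  -- local nondegeneracy
  have hex : ∃ gv : Rep.res (D.r v) P.M₁ ⟶ D.Jloc v,
      pairCoc P (hat D P.M₁ hM₁ v gv ≫ D.π) c ∉ levCoboundaries₂ D.𝒯 D.C := by
    by_contra hcon
    push Not at hcon
    exact hnc (h2psp_locNondeg p G ι Gloc D ℤ A' P hp hInd hM₁ v c hc hclev hcon)
  obtain ⟨gv, hgv⟩ := hex
  set gh : P.M₁ ⟶ PTJ D := hat D P.M₁ hM₁ v gv with hgh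
  -- the lift of `ĉ`
  let Φ : ((h2pM U).V →+ A'.V) → ((h2pM U).V →+ P.M₀.V) := fun f =>
    chl_lift (G := G) (G ⧸ U) (fun ω => P.sec (f (h2pE U ω)))
  set Ct : G → ((h2pM U).V →+ P.M₀.V) := fun σ => Φ (ch σ) with hCt
  have hCtlev : IsLevel₁ D.𝒯 Ct := hlev.comp Φ
  have hεΦ : ∀ f : (h2pM U).V →+ A'.V, P.ε.comp (Φ f) = f := fun f => by
    apply chl_ext
    intro ω
    rw [AddMonoidHom.comp_apply]
    show P.ε (chl_lift (G := G) (G ⧸ U) (fun ω => P.sec (f (h2pE U ω)))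
      (MonoidAlgebra.single ω 1)) = _
    rw [chl_lift_single, one_smul, P.ε_sec]
  have hεCt : ∀ σ m, P.ε (Ct σ m) = ch σ m := fun σ m =>
    congrArg (fun f : (h2pM U).V →+ A'.V => f m) (hεΦ (ch σ))
  -- `d Ct` has values in `ker ε`
  have hεd : ∀ s m, P.ε (dOne (h2pM U) P.M₀ Ct s m) = 0 := by
    rintro ⟨σ, τ⟩ m
    have h1 : dOne (h2pM U) A' ch (σ, τ) m = 0 := by
      rw [hcoc (σ, τ)]; rfl
    rw [dOne_apply] at h1
    rw [dOne_apply, map_add, map_sub, P.ε_ρ, hεCt, hεCt, hεCt]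
    exact h1
  have hεp : ∀ σ m, P.ε ((p • Ct σ) m) = 0 := fun σ m => by
    rw [AddMonoidHom.nsmul_apply, map_nsmul, hεCt]
    exact hp _
  have hdlev : IsLevel₂ D.𝒯 (dOne (h2pM U) P.M₀ Ct) :=
    chl_isLevel₂_dOne hΩ hM₀d Ct hCtlev
  -- the cocycle
  refine ⟨fun s => h2psp_push P (h2pM U) (PTJ D) gh (dOne (h2pM U) P.M₀ Ct s) (hεd s),
    ⟨?_, ?_, ?_⟩, ?_, ?_⟩
  · -- level
    obtain ⟨V, hV, hVd⟩ := hdlev
    exact ⟨V, hV, fun g g' s s' hs hs' =>
      h2psp_push_congr P (h2pM U) (PTJ D) gh _ _ (hVd g g' s s' hs hs')⟩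
  · -- cocycle
    rintro ⟨σ, τ, ρ⟩
    refine AddMonoidHom.ext fun m => ?_
    have h0 : dTwo (h2pM U) P.M₀ (dOne (h2pM U) P.M₀ Ct) (σ, τ, ρ) m = 0 := by
      rw [chl_dTwo_dOne]; rfl
    rw [chl_dTwo_apply] at h0
    rw [chl_dTwo_apply, h2psp_push_apply, h2psp_push_apply, h2psp_push_apply, h2psp_push_apply,
      h2psp_Kρ P (PTJ D) gh σ (hεd _ _),
      h2psp_K4 P (PTJ D) gh (by rw [P.ε_ρ, hεd, map_zero]) (hεd _ _) (hεd _ _) (hεd _ _), h0,
      pb_incInv_zero, map_zero]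
    rfl
  · -- `p`-torsion class
    refine ⟨fun σ => h2psp_push P (h2pM U) (PTJ D) gh (p • Ct σ) (hεp σ), ?_, ?_⟩
    · obtain ⟨V, hV, hVd⟩ := hCtlev
      exact ⟨V, hV, fun g s hs =>
        h2psp_push_congr P (h2pM U) (PTJ D) gh _ _ (by rw [hVd g s hs])⟩
    · rintro ⟨σ, τ⟩
      refine AddMonoidHom.ext fun m => ?_
      show p • gh.hom (P.incInv (dOne (h2pM U) P.M₀ Ct (σ, τ) m)) =
        (PTJ D).ρ σ (gh.hom (P.incInv ((p • Ct τ) ((h2pM U).ρ σ⁻¹ m)))) -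
          gh.hom (P.incInv ((p • Ct (σ * τ)) m)) + gh.hom (P.incInv ((p • Ct σ) m))
      rw [h2psp_Kρ P (PTJ D) gh σ (hεp _ _),
        h2psp_K3 P (PTJ D) gh (by rw [P.ε_ρ, hεp, map_zero]) (hεp _ _) (hεp _ _),
        ← map_nsmul, ← pb_incInv_nsmul P p (hεd _ _)]
      congr 2
      rw [dOne_apply]
      simp only [AddMonoidHom.nsmul_apply, map_nsmul, smul_add, smul_sub]
  · -- supported at `v`
    intro s m v' g hv'
    exact hat_apply_ne D P.M₁ hM₁ v gv _ (Ne.symm hv') g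
  · -- the trace is the pairing cocycle of a lift of `c`
    intro hcob
    apply hgv
    obtain ⟨-, h2, -, -, -, -, -⟩ := stmtPairBasic G D.𝒯 ℤ A' P D.C
    set ct : G → P.M₀.V := fun σ => Ct σ (h2pN U) with hct
    have hctlev : IsLevel₁ D.𝒯 ct :=
      hCtlev.comp (fun f : (h2pM U).V →+ P.M₀.V => f (h2pN U))
    have hseclev : IsLevel₁ D.𝒯 (fun σ => P.sec (c σ)) := hclev.comp P.sec
    have hεct : ∀ σ, P.ε (ct σ) = c σ := fun σ => hεCt σ (h2pN U)
    have hcoc' : (fun σ => P.ε (ct σ)) ∈ cocycles₁ A' := by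
      have : (fun σ => P.ε (ct σ)) = c := funext hεct
      rw [this]; exact hc
    have hdiff := h2 (gh ≫ D.π) ct (fun σ => P.sec (c σ)) hctlev hseclev hcoc'
      (fun σ => by rw [hεct, P.ε_sec])
    have hYN : (fun s => D.π.hom (h2psp_push P (h2pM U) (PTJ D) gh
        (dOne (h2pM U) P.M₀ Ct s) (hεd s) (h2pN U))) = pairLift P (gh ≫ D.π) ct := by
      funext s
      obtain ⟨σ, τ⟩ := s
      rw [h2psp_push_apply]
      unfold pairLift
      have h1 : dOne (h2pM U) P.M₀ Ct (σ, τ) (h2pN U) = (d₁₂ P.M₀).hom ct (σ, τ) := by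
        rw [dOne_apply, hN, pb_d₁₂_apply]
      rw [h1]
      rfl
    rw [hYN] at hcob
    have h3 : pairCoc P (gh ≫ D.π) c =
        pairLift P (gh ≫ D.π) ct -
          (pairLift P (gh ≫ D.π) ct - pairLift P (gh ≫ D.π) (fun σ => P.sec (c σ))) := by
      rw [sub_sub_cancel]; rfl
    rw [h3]
    exact Submodule.sub_mem _ hcob hdiff

end Fermat.Agent.TW.F

end
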