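/-
TW-F, block F-h2perm, piece h2p-mul (helper88): multiplication by a place function on
`Hom_ℤ(ℤ[G/U], J)`.

For a normal level `U` and a place function `m` the additive endomorphism `P_m` of
`Hom_ℤ(ℤ[G/U], J)`, `(P_m F)(e_ω)(v)(g) = m_v(g ω) • F(e_ω)(v)(g)`, is equivariant for the
conjugation action.

`stmtH2pMul : StmtH2pMul`.
-/
import Fermat.Agent.TW.F.PlanH2Perm
import Fermat.Agent.TW.E.ChaseLift

set_option autoImplicit false

noncomputable section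

namespace Fermat.Agent.TW.F

open CategoryTheory groupCohomology Module Fermat.Agent.PT Fermat.Agent.PT.F Fermat.Agent.TW.E

attribute [local instance 1100] Rep.hV2

variable {p : ℕ} {G : Type} [Group G] {ι : Type} {Gloc : ι → Type} [∀ v, Group (Gloc v)]
  (D : PTDatum p G ι Gloc) (U : Subgroup G)

/-- a place function only depends on the class of the right factor in `G/U` -/
lemma h2pmul_congr {m : ι → G → ℕ} (hm : IsPlaceFn D U m) (v : ι) (g h h' : G)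
    (hh : (h : G ⧸ U) = (h' : G ⧸ U)) : m v (g * h) = m v (g * h') := by
  have h1 : h⁻¹ * h' ∈ U := QuotientGroup.eq.1 hh
  have h2 : g * h' = g * h * (h⁻¹ * h') := by group
  rw [h2, hm.2 v _ _ h1]

/-- the key identity for equivariance -/
lemma h2pmul_out {m : ι → G → ℕ} (hm : IsPlaceFn D U m) (v : ι) (g σ : G) (ω : G ⧸ U) :
    m v (g * σ * (σ⁻¹ • ω).out) = m v (g * ω.out) := by
  have h1 : ((σ * (σ⁻¹ • ω).out : G) : G ⧸ U) = ((ω.out : G) : G ⧸ U) := by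
    have e1 : ((σ * (σ⁻¹ • ω).out : G) : G ⧸ U) = σ • (((σ⁻¹ • ω).out : G) : G ⧸ U) := rfl
    rw [e1, QuotientGroup.out_eq', QuotientGroup.out_eq', smul_inv_smul]
  rw [mul_assoc]
  exact h2pmul_congr D U hm v g _ _ h1

/-- the function underlying `x ↦ (g ↦ m_v(g h) • x_v(g))` -/
def h2pmulFun (m : ι → G → ℕ) (h : G) (x : (PTJ D).V) : ∀ v, G → (D.Jloc v).V :=
  fun v g => m v (g * h) • x.1 v g

lemma h2pmulFun_mem (hUn : U.Normal) (hU : U ∈ D.𝒯.lev) {m : ι → G → ℕ}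
    (hm : IsPlaceFn D U m) (h : G) (x : (PTJ D).V) :
    h2pmulFun D m h x ∈ semilocalSub D.𝒯 D.r D.Jloc := by
  intro v
  refine ⟨fun d g => ?_, ?_⟩
  · show m v (D.r v d * g * h) • x.1 v (D.r v d * g) = (D.Jloc v).ρ d (m v (g * h) • x.1 v g)
    rw [mul_assoc, hm.1, (x.2 v).1 d g, map_nsmul]
  · obtain ⟨U', hU', hx⟩ := (x.2 v).2
    refine ⟨U ⊓ U', D.𝒯.inf_mem _ _ hU hU', fun g s hs => ?_⟩
    show m v (g * s * h) • x.1 v (g * s) = m v (g * h) • x.1 v g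
    rw [hx g s hs.2]
    have e : g * s * h = g * h * (h⁻¹ * s * h) := by group
    have hc : h⁻¹ * s * h ∈ U := by simpa using hUn.conj_mem s hs.1 h⁻¹
    rw [e, hm.2 v _ _ hc]

/-- multiplication by `g ↦ m_v(g h)` on `J` -/
def h2pmulJ (hUn : U.Normal) (hU : U ∈ D.𝒯.lev) {m : ι → G → ℕ} (hm : IsPlaceFn D U m)
    (h : G) : (PTJ D).V →+ (PTJ D).V where
  toFun x := ⟨h2pmulFun D m h x, h2pmulFun_mem D U hUn hU hm h x⟩
  map_zero' := by
    apply Subtype.ext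
    funext v g
    show m v (g * h) • (0 : (D.Jloc v).V) = 0
    rw [smul_zero]
  map_add' x y := by
    apply Subtype.ext
    funext v g
    show m v (g * h) • (x.1 v g + y.1 v g) = m v (g * h) • x.1 v g + m v (g * h) • y.1 v g
    rw [smul_add]

lemma h2pmulJ_apply (hUn : U.Normal) (hU : U ∈ D.𝒯.lev) {m : ι → G → ℕ} (hm : IsPlaceFn D U m)
    (h : G) (x : (PTJ D).V) (v : ι) (g : G) :
    (h2pmulJ D U hUn hU hm h x).1 v g = m v (g * h) • x.1 v g := rfl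

/-- `P_m` -/
def h2pmulP (hUn : U.Normal) (hU : U ∈ D.𝒯.lev) {m : ι → G → ℕ} (hm : IsPlaceFn D U m) :
    ((h2pM U).V →+ (PTJ D).V) →+ ((h2pM U).V →+ (PTJ D).V) where
  toFun F := chl_lift (G := G) (G ⧸ U) (fun ω => h2pmulJ D U hUn hU hm ω.out (F (h2pE U ω)))
  map_zero' := by
    apply chl_ext
    intro ω
    rw [chl_lift_single, one_smul, AddMonoidHom.zero_apply, map_zero]
  map_add' F F' := by
    apply chl_ext
    intro ω
    rw [AddMonoidHom.add_apply, chl_lift_single, chl_lift_single, chl_lift_single, one_smul,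
      one_smul, one_smul, AddMonoidHom.add_apply, map_add]

lemma h2pmulP_single (hUn : U.Normal) (hU : U ∈ D.𝒯.lev) {m : ι → G → ℕ}
    (hm : IsPlaceFn D U m) (F : (h2pM U).V →+ (PTJ D).V) (ω : G ⧸ U) :
    h2pmulP D U hUn hU hm F (h2pE U ω) = h2pmulJ D U hUn hU hm ω.out (F (h2pE U ω)) := by
  show chl_lift (G := G) (G ⧸ U) _ (MonoidAlgebra.single ω (1 : ℤ)) = _
  rw [chl_lift_single, one_smul]

lemma h2pmulP_conj (hUn : U.Normal) (hU : U ∈ D.𝒯.lev) {m : ι → G → ℕ}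
    (hm : IsPlaceFn D U m) (σ : G) (F : (h2pM U).V →+ (PTJ D).V) :
    h2pmulP D U hUn hU hm (conjAdd (h2pM U) (PTJ D) σ F) =
      conjAdd (h2pM U) (PTJ D) σ (h2pmulP D U hUn hU hm F) := by
  apply chl_ext
  intro ω
  have e1 : (h2pM U).ρ σ⁻¹ (MonoidAlgebra.single ω (1 : ℤ)) =
      MonoidAlgebra.single (σ⁻¹ • ω) (1 : ℤ) := chl_ρ_single (G ⧸ U) σ⁻¹ ω 1
  have h1 := h2pmulP_single D U hUn hU hm (conjAdd (h2pM U) (PTJ D) σ F) ω
  have h2 := h2pmulP_single D U hUn hU hm F (σ⁻¹ • ω)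
  rw [conjAdd_apply, e1]
  show h2pmulP D U hUn hU hm (conjAdd (h2pM U) (PTJ D) σ F) (h2pE U ω) =
    (PTJ D).ρ σ (h2pmulP D U hUn hU hm F (h2pE U (σ⁻¹ • ω)))
  rw [h1, h2, conjAdd_apply]
  show h2pmulJ D U hUn hU hm ω.out ((PTJ D).ρ σ (F ((h2pM U).ρ σ⁻¹ (MonoidAlgebra.single ω 1)))) = _
  rw [e1]
  apply Subtype.ext
  funext v g
  show m v (g * ω.out) • (F (h2pE U (σ⁻¹ • ω))).1 v (g * σ) =
    m v (g * σ * (σ⁻¹ • ω).out) • (F (h2pE U (σ⁻¹ • ω))).1 v (g * σ)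
  rw [h2pmul_out D U hm]

/-- **h2p-mul** -/
theorem stmtH2pMul : StmtH2pMul := by
  intro p _ G _ ι _ Gloc _ D U hUn hU m hm
  refine ⟨h2pmulP D U hUn hU hm, fun F ω v g => ?_, fun σ F => h2pmulP_conj D U hUn hU hm σ F⟩
  rw [h2pmulP_single]
  rfl

end Fermat.Agent.TW.F

end
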