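/-
TW-F, block F-h2perm, piece h2p-wtr (helper88): the weighted trace
`T_m = ev_N ∘ P_m : Hom_ℤ(ℤ[G/U], J) → J`, `(T_m F)(v)(g) = Σ_ω m_v(g ω) • F(e_ω)(v)(g)`,
is a `G`-map for the conjugation action.

`stmtH2pWtr_of : StmtH2pMul → StmtH2pWtr`, `stmtH2pWtr : StmtH2pWtr`.
-/
import Fermat.Agent.TW.F.H2pMul

set_option autoImplicit false

noncomputable section

namespace Fermat.Agent.TW.F

open CategoryTheory groupCohomology Module Fermat.Agent.PT Fermat.Agent.PT.F Fermat.Agent.TW.E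

attribute [local instance 1100] Rep.hV2

variable {p : ℕ} {G : Type} [Group G] {ι : Type} {Gloc : ι → Type} [∀ v, Group (Gloc v)]

/-- the norm element is `G`-invariant -/
lemma h2pwtr_N_inv (U : Subgroup G) [Finite (G ⧸ U)] (g : G) :
    (h2pM U).ρ g (h2pN U) = h2pN U := by
  classical
  let _ : Fintype (G ⧸ U) := Fintype.ofFinite _
  unfold h2pN
  rw [finsum_eq_sum_of_fintype, map_sum]
  have h1 : ∀ ω : G ⧸ U, (h2pM U).ρ g (h2pE U ω) = h2pE U (g • ω) := fun ω =>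
    chl_ρ_single (G ⧸ U) g ω 1
  simp only [h1]
  exact Equiv.sum_comp (MulAction.toPerm g) (fun ω : G ⧸ U => h2pE U ω)

/-- the components of `F(N_Ω)` -/
lemma h2pwtr_eval_N (D : PTDatum p G ι Gloc) (U : Subgroup G) [Fintype (G ⧸ U)]
    (F : (h2pM U).V →+ (PTJ D).V) (v : ι) (g : G) :
    (F (h2pN U)).1 v g = ∑ ω : G ⧸ U, (F (h2pE U ω)).1 v g := by
  unfold h2pN
  rw [finsum_eq_sum_of_fintype, map_sum]
  have := AddSubmonoidClass.coe_finsetSum (S := semilocalSub D.𝒯 D.r D.Jloc)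
    (fun ω : G ⧸ U => F (h2pE U ω)) Finset.univ
  show ((∑ ω, F (h2pE U ω) : ↥(semilocalSub D.𝒯 D.r D.Jloc)) :
    ∀ v, G → (D.Jloc v).V) v g = _
  rw [this, Finset.sum_apply, Finset.sum_apply]

/-- evaluation at an element of `M`, as an additive map on `Hom_ℤ(M, J)` -/
def h2pwtrEval (M X : Rep.{0} ℤ G) (N : M.V) : (M.V →+ X.V) →+ X.V where
  toFun F := F N
  map_zero' := rfl
  map_add' _ _ := rfl

/-- **h2p-wtr** from **h2p-mul** -/
theorem stmtH2pWtr_of (hMul : StmtH2pMul) : StmtH2pWtr := by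
  intro p _ G _ ι _ Gloc _ D U hUn hU m hm
  obtain ⟨P, hP1, hP2⟩ := hMul p G ι Gloc D U hUn hU m hm
  have hfi : U.FiniteIndex := D.𝒯.finiteIndex U hU
  have hfin : Finite (G ⧸ U) := Subgroup.finite_quotient_of_finiteIndex
  classical
  let _ : Fintype (G ⧸ U) := Fintype.ofFinite _
  refine ⟨(h2pwtrEval (h2pM U) (PTJ D) (h2pN U)).comp P, fun F v g => ?_, fun σ F => ?_⟩
  · show (P F (h2pN U)).1 v g = _
    rw [h2pwtr_eval_N, finsum_eq_sum_of_fintype]
    exact Finset.sum_congr rfl fun ω _ => hP1 F ω v g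
  · show P (conjAdd (h2pM U) (PTJ D) σ F) (h2pN U) = (PTJ D).ρ σ (P F (h2pN U))
    rw [hP2, conjAdd_apply, h2pwtr_N_inv]

/-- **h2p-wtr** -/
theorem stmtH2pWtr : StmtH2pWtr := stmtH2pWtr_of stmtH2pMul

end Fermat.Agent.TW.F

end
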