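/-
TW-F, block F-h2perm — GLUE (helper55).

* `stmtH2pSeed_of  : StmtH2pSeedMod → StmtH2pSeed`                      (with `stmtH2pSeedPair`)
* `stmtH2pSupp_of  : StmtH2pSeed → StmtH2pProj → StmtH2pTransl → StmtH2pSupp`
* `stmtH2pDep_of   : StmtH2pCycU → StmtH2pShInj → StmtH2pDep`
* `stmtH2Perm_of   : StmtH2pSeedMod → StmtH2pProj → StmtH2pTransl → StmtH2pCycU → StmtH2pShInj →
                     StmtH2pUntw → StmtH2Perm`       (with `stmtH2pAsm`, `stmtH2pWtr`, `stmtH2pChase`)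
-/
import Fermat.Agent.TW.F.PlanH2Perm
import Fermat.Agent.TW.F.H2pSeedPair
import Fermat.Agent.TW.F.H2pAsm
import Fermat.Agent.TW.F.H2pWtr

set_option autoImplicit false
set_option linter.unusedSectionVars false
set_option linter.style.haveILetI false

noncomputable section

namespace Fermat.Agent.TW.F

open CategoryTheory groupCohomology Module Fermat.Agent.PT Fermat.Agent.PT.F Fermat.Agent.TW.E
open Fermat.Agent.PT.F.ExactH2

attribute [local instance 1100] Rep.hV2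

/-- **h2p-seed** from seedmod (and seedpair). -/
theorem stmtH2pSeed_of (hMod : StmtH2pSeedMod) : StmtH2pSeed := by
  intro p _ G _ ι _ Gloc _ D hPD U hUn hU v
  obtain ⟨A', hfin, ch, hp, hU₀, hlev, hcoc, hnc⟩ := hMod p G ι Gloc D hPD U hUn hU v
  exact stmtH2pSeedPair p G ι Gloc D U hUn hU v A' hfin ch hp hU₀ hlev hcoc hnc

/-- **h2p-supp** from seed, proj and transl. -/
theorem stmtH2pSupp_of (hSeed : StmtH2pSeed) (hProj : StmtH2pProj) (hTr : StmtH2pTransl) :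
    StmtH2pSupp := by
  intro p _ G _ ι _ Gloc _ D hPD U hUn hU v g₀
  obtain ⟨Y, hY, hYs, hYn⟩ := hSeed p G ι Gloc D hPD U hUn hU v
  obtain ⟨g₁, Y', hY', hYs', hYn'⟩ := hProj p G ι Gloc D U hUn hU v Y hY hYs hYn
  obtain ⟨Y'', hY'', hYs'', hYN⟩ := hTr p G ι Gloc D U hUn hU v g₁ g₀ Y' hY' hYs'
  refine ⟨Y'', hY'', hYs'', ?_⟩
  have : (fun s => D.π.hom (Y'' s (h2pN U))) = fun s => D.π.hom (Y' s (h2pN U)) := by
    funext s
    rw [hYN s]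
  rw [this]
  exact hYn'

section Dep

variable {p : ℕ} {G : Type} [Group G] {ι : Type} {Gloc : ι → Type} [∀ v, Group (Gloc v)]

/-- `U` fixes `e_{1·U}` -/
lemma h2pg_ρ_e1 (U : Subgroup G) [U.Normal] (s : G) (hs : s ∈ U) :
    (h2pM U).ρ s (h2pE U ((1 : G) : G ⧸ U)) = h2pE U ((1 : G) : G ⧸ U) := by
  have h1 : (h2pM U).ρ s (h2pE U ((1 : G) : G ⧸ U)) = h2pE U (s • ((1 : G) : G ⧸ U)) :=
    chl_ρ_single (G ⧸ U) s _ 1
  rw [h1, h2psp_smul_eq U s hs]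

/-- restriction to `U` and evaluation at `e_{1·U}` of a 2-cochain of `Hom_ℤ(ℤ[G/U], C)` -/
def h2pg_res (U : Subgroup G) (C : Rep.{0} ℤ G) (W : G × G → ((h2pM U).V →+ C.V)) :
    U × U → C.V :=
  fun st => W ((st.1 : G), (st.2 : G)) (h2pE U ((1 : G) : G ⧸ U))

lemma h2pg_res_cocycle (U : Subgroup G) [U.Normal] (C : Rep.{0} ℤ G)
    (W : G × G → ((h2pM U).V →+ C.V)) (hW : ∀ s, dTwo (h2pM U) C W s = 0) :
    h2pg_res U C W ∈ cocycles₂ (Rep.res U.subtype C) := by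
  rw [mem_cocycles₂_iff]
  intro a b c
  have h0 : dTwo (h2pM U) C W ((a : G), (b : G), (c : G)) (h2pE U ((1 : G) : G ⧸ U)) = 0 := by
    rw [hW]; rfl
  rw [chl_dTwo_apply, h2pg_ρ_e1 U _ (U.inv_mem a.2)] at h0
  show W (((a * b : U) : G), (c : G)) _ + W ((a : G), (b : G)) _ =
    C.ρ (a : G) (W ((b : G), (c : G)) _) + W ((a : G), ((b * c : U) : G)) _
  rw [Subgroup.coe_mul, Subgroup.coe_mul]
  rw [sub_eq_zero] at h0
  rw [← h0]
  abel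

lemma h2pg_res_level (𝒯 : Tower G) (U : Subgroup G) (C : Rep.{0} ℤ G)
    (W : G × G → ((h2pM U).V →+ C.V)) (hW : IsLevel₂ 𝒯 W) : IsLevelOn₂ 𝒯 U (h2pg_res U C W) := by
  obtain ⟨V, hV, h⟩ := hW
  refine ⟨V, hV, fun g g' s s' hs hs' => ?_⟩
  show W (((g * s : U) : G), ((g' * s' : U) : G)) _ = W ((g : G), (g' : G)) _
  rw [Subgroup.coe_mul, Subgroup.coe_mul, h _ _ _ _ hs hs']

lemma h2pg_res_ptors (𝒯 : Tower G) (U : Subgroup G) [U.Normal] (C : Rep.{0} ℤ G) (p : ℕ)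
    (W : G × G → ((h2pM U).V →+ C.V)) (t : G → ((h2pM U).V →+ C.V)) (ht : IsLevel₁ 𝒯 t)
    (h : ∀ s, p • W s = dOne (h2pM U) C t s) :
    ∃ ψ : U → C.V, IsLevelOn 𝒯 U ψ ∧
      p • h2pg_res U C W = (d₁₂ (Rep.res U.subtype C)).hom ψ := by
  refine ⟨fun s => t (s : G) (h2pE U ((1 : G) : G ⧸ U)), ?_, ?_⟩
  · obtain ⟨V, hV, hVt⟩ := ht
    refine ⟨V, hV, fun s u hu => ?_⟩
    show t ((s * u : U) : G) _ = t (s : G) _
    rw [Subgroup.coe_mul, hVt _ _ hu]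
  · funext st
    obtain ⟨a, b⟩ := st
    have h1 : (p • W ((a : G), (b : G))) (h2pE U ((1 : G) : G ⧸ U)) =
        dOne (h2pM U) C t ((a : G), (b : G)) (h2pE U ((1 : G) : G ⧸ U)) := by
      rw [h]
    rw [dOne_apply, h2pg_ρ_e1 U _ (U.inv_mem a.2)] at h1
    show p • W ((a : G), (b : G)) _ = C.ρ (a : G) (t (b : G) _) - t ((a * b : U) : G) _ + t (a : G) _
    rw [Subgroup.coe_mul]
    exact h1

end Dep

/-- **h2p-dep** from cycU and shinj. -/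
theorem stmtH2pDep_of (hCyc : StmtH2pCycU) (hSh : StmtH2pShInj) : StmtH2pDep := by
  intro p _ G _ ι _ Gloc _ D U hUn hU W₁ W₂ hW₁ hW₂
  haveI := hUn
  obtain ⟨hl₁, hc₁, t₁, ht₁, hp₁⟩ := hW₁
  obtain ⟨hl₂, hc₂, t₂, ht₂, hp₂⟩ := hW₂
  obtain ⟨a, b, hab, ψ, hψ, hψd⟩ := hCyc p G ι Gloc D U hUn hU
    (h2pg_res U D.C W₁) (h2pg_res U D.C W₂)
    (h2pg_res_cocycle U D.C W₁ hc₁) (h2pg_res_cocycle U D.C W₂ hc₂)
    (h2pg_res_level D.𝒯 U D.C W₁ hl₁) (h2pg_res_level D.𝒯 U D.C W₂ hl₂)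
    (h2pg_res_ptors D.𝒯 U D.C p W₁ t₁ ht₁ hp₁) (h2pg_res_ptors D.𝒯 U D.C p W₂ t₂ ht₂ hp₂)
  refine ⟨a, b, hab, ?_⟩
  have hlev : IsLevel₂ D.𝒯 (fun s => a • W₁ s + b • W₂ s) :=
    chl_isLevel₂_add (chl_isLevel₂_nsmul a hl₁) (chl_isLevel₂_nsmul b hl₂)
  have hcoc : ∀ s, dTwo (h2pM U) D.C (fun s => a • W₁ s + b • W₂ s) s = 0 := by
    intro s
    rw [chl_dTwo_add (h2pM U) D.C (fun s => a • W₁ s) (fun s => b • W₂ s), chl_dTwo_nsmul,
      chl_dTwo_nsmul, hc₁, hc₂, smul_zero, smul_zero, add_zero]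
  obtain ⟨t, ht, htd⟩ := hSh p G ι Gloc D U hUn hU (fun s => a • W₁ s + b • W₂ s) hlev hcoc
    ⟨ψ, hψ, fun s t => by
      have := congrFun hψd (s, t)
      rw [← this]
      rfl⟩
  exact ⟨t, ht, htd⟩

/-- **F-h2perm from the open pieces.** -/
theorem stmtH2Perm_of (hMod : StmtH2pSeedMod) (hProj : StmtH2pProj) (hTr : StmtH2pTransl)
    (hCyc : StmtH2pCycU) (hSh : StmtH2pShInj) (hUntw : StmtH2pUntw) : StmtH2Perm :=
  stmtH2pAsm stmtH2pWtr hUntw (stmtH2pSupp_of (stmtH2pSeed_of hMod) hProj hTr)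
    (stmtH2pDep_of hCyc hSh) stmtH2pChase

end Fermat.Agent.TW.F

end
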