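/-
TW-F, block F-h2perm, piece h2p-proj (helper88): projection onto the part supported at a place.

For a place `w` of `U` over `v` (an orbit of `G_v` on `G/U`) let `m_w` be the indicator function
of `w` (a place function) and `P_w := P_{m_w}` (h2p-mul).  For `F` supported at `v`,
`F = Σ_w P_w F` (finitely many places).  Hence a `p`-torsion level 2-cocycle `Y` supported at `v`
with `π ∘ Y(N_Ω)` not a level coboundary has, for some place `w`, the same property for
`P_w ∘ Y`, which is supported at `w`.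

`stmtH2pProj_of : StmtH2pMul → StmtH2pProj`, `stmtH2pProj : StmtH2pProj`.
-/
import Fermat.Agent.TW.F.H2pMul

set_option autoImplicit false

noncomputable section

namespace Fermat.Agent.TW.F

open CategoryTheory groupCohomology Module Fermat.Agent.PT Fermat.Agent.PT.F Fermat.Agent.TW.E

open scoped Classical

attribute [local instance 1100] Rep.hV2

variable {p : ℕ} {G : Type} [Group G] {ι : Type} {Gloc : ι → Type} [∀ v, Group (Gloc v)]
  (D : PTDatum p G ι Gloc) (U : Subgroup G) (v : ι)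

/-- "same place over `v`": the orbit relation of `G_v` on `G/U` -/
def h2pprSetoid : Setoid (G ⧸ U) where
  r ω ω' := ∃ d : Gloc v, ω' = (D.r v d) • ω
  iseqv :=
    ⟨fun ω => ⟨1, by rw [map_one, one_smul]⟩,
      fun {ω ω'} h => by
        obtain ⟨d, h⟩ := h
        exact ⟨d⁻¹, by rw [h, map_inv, inv_smul_smul]⟩,
      fun {ω ω' ω''} h h' => by
        obtain ⟨d, h⟩ := h
        obtain ⟨d', h'⟩ := h'
        exact ⟨d' * d, by rw [h', h, map_mul, mul_smul]⟩⟩

/-- the places of `U` over `v` -/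
abbrev h2pprQ : Type := Quotient (h2pprSetoid D U v)

/-- the place of `g U` -/
def h2pprCls (g : G) : h2pprQ D U v := Quotient.mk (h2pprSetoid D U v) (g : G ⧸ U)

lemma h2pprCls_left (d : Gloc v) (g : G) :
    h2pprCls D U v (D.r v d * g) = h2pprCls D U v g := by
  apply Quotient.sound
  refine ⟨d⁻¹, ?_⟩
  show ((g : G) : G ⧸ U) = (D.r v d⁻¹) • (((D.r v d * g : G)) : G ⧸ U)
  rw [map_inv]
  show _ = (((D.r v d)⁻¹ * (D.r v d * g) : G) : G ⧸ U)
  rw [inv_mul_cancel_left]

lemma h2pprCls_right (g u : G) (hu : u ∈ U) :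
    h2pprCls D U v (g * u) = h2pprCls D U v g := by
  unfold h2pprCls
  rw [QuotientGroup.mk_mul_of_mem g hu]

lemma h2pprCls_eq {g g₀ : G} (h : h2pprCls D U v g = h2pprCls D U v g₀) :
    ∃ d : Gloc v, ∃ u ∈ U, g = D.r v d * g₀ * u := by
  obtain ⟨d, hd⟩ := Quotient.exact h.symm
  have h1 : ((g : G) : G ⧸ U) = ((D.r v d * g₀ : G) : G ⧸ U) := hd
  have h2 : (D.r v d * g₀)⁻¹ * g ∈ U := QuotientGroup.eq.1 h1.symm
  exact ⟨d, _, h2, by group⟩

/-- a representative of a place -/
def h2pprRep (c : h2pprQ D U v) : G := (Quotient.out c).out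

lemma h2pprCls_rep (c : h2pprQ D U v) : h2pprCls D U v (h2pprRep D U v c) = c := by
  unfold h2pprCls h2pprRep
  rw [QuotientGroup.out_eq']
  exact Quotient.out_eq c

/-- the indicator function of a place -/
def h2pprInd (c : h2pprQ D U v) : ι → G → ℕ :=
  fun v' g => if v' = v ∧ h2pprCls D U v g = c then 1 else 0

lemma h2pprInd_isPlaceFn (c : h2pprQ D U v) : IsPlaceFn D U (h2pprInd D U v c) := by
  refine ⟨fun v' d g => ?_, fun v' g u hu => ?_⟩
  · by_cases hv : v' = v
    · subst hv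
      unfold h2pprInd
      rw [h2pprCls_left]
    · unfold h2pprInd
      rw [if_neg (fun h => hv h.1), if_neg (fun h => hv h.1)]
  · unfold h2pprInd
    rw [h2pprCls_right D U v g u hu]

lemma h2pprInd_ne_zero {c : h2pprQ D U v} {v' : ι} {g : G}
    (h : h2pprInd D U v c v' g ≠ 0) : v' = v ∧ h2pprCls D U v g = c := by
  unfold h2pprInd at h
  by_contra hc
  rw [if_neg hc] at h
  exact h rfl

lemma h2pprInd_sum [Fintype (h2pprQ D U v)] (g : G) :
    ∑ c : h2pprQ D U v, h2pprInd D U v c v g = 1 := by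
  unfold h2pprInd
  simp only [true_and]
  rw [Finset.sum_ite_eq Finset.univ (h2pprCls D U v g) (fun _ => (1 : ℕ))]
  simp

/-- push-forward of a `p`-torsion level cocycle along an additive conjugation-equivariant map -/
lemma h2ppr_push {M X : Rep.{0} ℤ G} {𝒯 : Tower G}
    (P : (M.V →+ X.V) →+ (M.V →+ X.V))
    (hP : ∀ (σ : G) (F : M.V →+ X.V), P (conjAdd M X σ F) = conjAdd M X σ (P F))
    {Y : G × G → (M.V →+ X.V)} (hY : IsPTorsCoc 𝒯 p M X Y) :
    IsPTorsCoc 𝒯 p M X (fun s => P (Y s)) := by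
  obtain ⟨hlev, hcoc, t, ht, htY⟩ := hY
  refine ⟨hlev.comp P, fun s => ?_, fun σ => P (t σ), ht.comp P, fun s => ?_⟩
  · have h1 := congrArg P (hcoc s)
    rw [map_zero] at h1
    rw [← h1]
    show conjAdd M X s.1 (P (Y (s.2.1, s.2.2))) - P (Y (s.1 * s.2.1, s.2.2))
        + P (Y (s.1, s.2.1 * s.2.2)) - P (Y (s.1, s.2.1)) =
      P (conjAdd M X s.1 (Y (s.2.1, s.2.2)) - Y (s.1 * s.2.1, s.2.2)
        + Y (s.1, s.2.1 * s.2.2) - Y (s.1, s.2.1))
    rw [map_sub, map_add, map_sub, hP]
  · have h1 := congrArg P (htY s)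
    rw [map_nsmul] at h1
    rw [h1]
    show P (conjAdd M X s.1 (t s.2) - t (s.1 * s.2) + t s.1) =
      conjAdd M X s.1 (P (t s.2)) - P (t (s.1 * s.2)) + P (t s.1)
    rw [map_add, map_sub, hP]

/-- **h2p-proj** from **h2p-mul** -/
theorem stmtH2pProj_of (hMul : StmtH2pMul) : StmtH2pProj := by
  intro p _ G _ ι _ Gloc _ D U hUn hU v Y hY hsupp hnc
  have hfi : U.FiniteIndex := D.𝒯.finiteIndex U hU
  have hfin : Finite (G ⧸ U) := Subgroup.finite_quotient_of_finiteIndex
  let _ : Fintype (G ⧸ U) := Fintype.ofFinite _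
  have hfinQ : Finite (h2pprQ D U v) := Quotient.finite _
  let _ : Fintype (h2pprQ D U v) := Fintype.ofFinite _
  choose P hP1 hP2 using fun c : h2pprQ D U v =>
    hMul p G ι Gloc D U hUn hU (h2pprInd D U v c) (h2pprInd_isPlaceFn D U v c)
  by_contra hcon
  push Not at hcon
  -- every projected cocycle has trivial trace
  have hall : ∀ c : h2pprQ D U v,
      (fun s => D.π.hom (P c (Y s) (h2pN U))) ∈ levCoboundaries₂ D.𝒯 D.C := by
    intro c
    refine hcon (h2pprRep D U v c) (fun s => P c (Y s)) (h2ppr_push (P c) (hP2 c) hY) ?_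
    intro s ω v' g hne
    rw [hP1 c (Y s) ω v' g] at hne
    have h0 : h2pprInd D U v c v' (g * ω.out) ≠ 0 := by
      intro h0
      rw [h0, zero_smul] at hne
      exact hne rfl
    obtain ⟨hv, hcls⟩ := h2pprInd_ne_zero D U v h0
    refine ⟨hv, ?_⟩
    rw [← h2pprCls_rep D U v c] at hcls
    exact h2pprCls_eq D U v hcls
  -- the decomposition `F = Σ_c P_c F` for `F` supported at `v`
  have hdec : ∀ s, Y s = ∑ c : h2pprQ D U v, P c (Y s) := by
    intro s
    apply chl_ext
    intro ω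
    rw [AddMonoidHom.finsetSum_apply]
    apply Subtype.ext
    funext v' g
    have h1 := AddSubmonoidClass.coe_finsetSum (S := semilocalSub D.𝒯 D.r D.Jloc)
      (fun c : h2pprQ D U v => P c (Y s) (h2pE U ω)) Finset.univ
    show (Y s (h2pE U ω)).1 v' g =
      ((∑ c, P c (Y s) (h2pE U ω) : ↥(semilocalSub D.𝒯 D.r D.Jloc)) :
        ∀ v, G → (D.Jloc v).V) v' g
    rw [h1, Finset.sum_apply, Finset.sum_apply]
    simp only [hP1]
    by_cases hv : v' = v
    · subst hv
      rw [← Finset.sum_smul, h2pprInd_sum, one_smul]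
    · rw [hsupp s (h2pE U ω) v' g hv]
      simp
  apply hnc
  have hsum : (fun s => D.π.hom (Y s (h2pN U))) =
      ∑ c : h2pprQ D U v, (fun s => D.π.hom (P c (Y s) (h2pN U))) := by
    funext s
    rw [Finset.sum_apply]
    conv_lhs => rw [hdec s]
    rw [AddMonoidHom.finsetSum_apply, map_sum]
  rw [hsum]
  exact Submodule.sum_mem _ fun c _ => hall c

/-- **h2p-proj** -/
theorem stmtH2pProj : StmtH2pProj := stmtH2pProj_of stmtH2pMul

end Fermat.Agent.TW.F

end
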