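/-
TW-F, block F-h2perm, piece **h2p-seedmod** (helper63): the module and the 1-cocycle of the seed.
`A' = {f : Ω × Ω'' → 𝔽_p | Σ_{ω''} f(ω, ω'') = 0 ∀ ω}` (`Ω = G/U`, `Ω'' = G/U''`, `U'' ≤ U` the
normal level of `HasPDepth`), `ĉ(σ)(m)(ω, ω'') = m(ω) ([ω'' = σ̄] - [ω'' = 1̄])`.
Its trace `c(σ) = ĉ(σ)(N_Ω)` is not a coboundary on `G_v`: if `c(r d) = r(d) F - F`, then
`Z := F - [ω'' = 1̄]` is `r(G_v)`-invariant, so `ω'' ↦ Z(1̄, ω'')` is invariant under the group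
`r_v⁻¹ U`, whose orbits on `Ω''` have `[r_v⁻¹U : r_v⁻¹U'']` elements; hence
`-1 = Σ_{ω''} Z(1̄, ω'') = 0` in `𝔽_p`.
-/
import Fermat.Agent.TW.F.PlanH2Perm

set_option autoImplicit false
set_option linter.style.haveILetI false
set_option linter.unusedSectionVars false
set_option linter.unusedVariables false

noncomputable section

namespace Fermat.Agent.TW.F

open CategoryTheory groupCohomology Module Fermat.Agent.PT Fermat.Agent.PT.F Fermat.Agent.TW.E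

/-! ### Sums of invariant functions -/

/-- the sum of an invariant `𝔽_p`-valued function over a finite set vanishes if the index of every
stabiliser is divisible by `p` -/
theorem h2psm_sum_eq_zero {H Q : Type} [Group H] [MulAction H Q] [Fintype Q] (p : ℕ)
    (ψ : Q → ZMod p) (hinv : ∀ (h : H) (x : Q), ψ (h • x) = ψ x)
    (hidx : ∀ x : Q, p ∣ (MulAction.stabilizer H x).index) : ∑ x, ψ x = 0 := by
  classical
  letI : Fintype (MulAction.orbitRel.Quotient H Q) := Fintype.ofFinite _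
  letI : ∀ ω : MulAction.orbitRel.Quotient H Q, Fintype ω.orbit := fun ω => Fintype.ofFinite _
  rw [← Equiv.sum_comp (MulAction.selfEquivSigmaOrbits' H Q).symm ψ, Fintype.sum_sigma]
  refine Finset.sum_eq_zero (fun ω _ => ?_)
  have hω : ω.orbit = MulAction.orbit H ω.out :=
    MulAction.orbitRel.Quotient.orbit_eq_orbit_out ω Quotient.out_eq'
  have h1 : ∀ y : ω.orbit, ψ ((MulAction.selfEquivSigmaOrbits' H Q).symm ⟨ω, y⟩) = ψ ω.out := by
    intro y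
    have hy : (y : Q) ∈ MulAction.orbit H ω.out := hω ▸ y.2
    obtain ⟨h, hh⟩ := hy
    have : (MulAction.selfEquivSigmaOrbits' H Q).symm ⟨ω, y⟩ = (y : Q) := rfl
    rw [this, ← hh]
    exact hinv h _
  rw [Finset.sum_congr rfl (fun y _ => h1 y), Finset.sum_const, Finset.card_univ]
  have hc : Fintype.card ω.orbit = (MulAction.stabilizer H ω.out).index := by
    rw [← Nat.card_eq_fintype_card, Subgroup.index]
    exact (Nat.card_congr (Equiv.setCongr hω)).trans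
      (Nat.card_congr (MulAction.orbitEquivQuotientStabilizer H ω.out))
  rw [hc]
  obtain ⟨m, hm⟩ := hidx ω.out
  rw [hm, mul_smul, nsmul_eq_mul]
  simp

/-! ### The quotient by a normal subgroup as a `G`-set -/

section Quot

variable {G : Type} [Group G]

/-- `g • x = x` on `G ⧸ N`, `N` normal, iff `g ∈ N` -/
theorem h2psm_smul_eq_iff (N : Subgroup G) [N.Normal] (g : G) (x : G ⧸ N) :
    g • x = x ↔ g ∈ N := by
  induction x using QuotientGroup.induction_on with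
  | H a =>
    rw [MulAction.Quotient.smul_mk, smul_eq_mul, QuotientGroup.eq]
    have h1 : (g * a)⁻¹ * a = a⁻¹ * g⁻¹ * a⁻¹⁻¹ := by group
    rw [h1]
    constructor
    · intro h
      have h2 := Subgroup.Normal.conj_mem (inferInstance : N.Normal) _ h a
      have h3 : a * (a⁻¹ * g⁻¹ * a⁻¹⁻¹) * a⁻¹ = g⁻¹ := by group
      rw [h3] at h2
      exact (Subgroup.inv_mem_iff N).1 h2
    · intro h
      exact Subgroup.Normal.conj_mem inferInstance _ (N.inv_mem h) a⁻¹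

/-- the elements of `N` act trivially on `G ⧸ N` -/
theorem h2psm_smul_eq (N : Subgroup G) [N.Normal] (g : G) (hg : g ∈ N) (x : G ⧸ N) :
    g • x = x := (h2psm_smul_eq_iff N g x).2 hg

end Quot

/-! ### The module `A'` -/

section Module

variable {G : Type} [Group G] (p : ℕ) (U U₂ : Subgroup G)

/-- functions on `Ω × Ω''` -/
abbrev h2psmFun : Type := (G ⧸ U) × (G ⧸ U₂) → ZMod p

/-- the action of `G` on the functions on `Ω × Ω''` -/
def h2psmAct (σ : G) : h2psmFun p U U₂ →ₗ[ℤ] h2psmFun p U U₂ where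
  toFun f := fun x => f (σ⁻¹ • x)
  map_add' _ _ := rfl
  map_smul' _ _ := rfl

@[simp] lemma h2psmAct_apply (σ : G) (f : h2psmFun p U U₂) (x : (G ⧸ U) × (G ⧸ U₂)) :
    h2psmAct p U U₂ σ f x = f (σ⁻¹ • x) := rfl

variable [Finite (G ⧸ U₂)]

/-- the submodule `A'`: the sums over the fibres of `Ω × Ω'' → Ω` vanish -/
def h2psmSub : Submodule ℤ (h2psmFun p U U₂) where
  carrier := {f | ∀ ω : G ⧸ U, ∑ᶠ ω₂ : G ⧸ U₂, f (ω, ω₂) = 0}
  add_mem' := by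
    intro f g hf hg ω
    have h1 := hf ω
    have h2 := hg ω
    simp only [Pi.add_apply]
    rw [finsum_add_distrib (Set.toFinite _) (Set.toFinite _), h1, h2, add_zero]
  zero_mem' := by
    intro ω
    simp
  smul_mem' := by
    intro n f hf ω
    have h1 := hf ω
    simp only [Pi.smul_apply]
    rw [← smul_finsum' n (Set.toFinite _), h1, smul_zero]

lemma h2psm_mem_sub (f : h2psmFun p U U₂) :
    f ∈ h2psmSub p U U₂ ↔ ∀ ω : G ⧸ U, ∑ᶠ ω₂ : G ⧸ U₂, f (ω, ω₂) = 0 := Iff.rfl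

/-- `A'` is stable under `G` -/
lemma h2psm_act_mem (σ : G) (f : h2psmFun p U U₂) (hf : f ∈ h2psmSub p U U₂) :
    h2psmAct p U U₂ σ f ∈ h2psmSub p U U₂ := by
  intro ω
  have h1 := hf (σ⁻¹ • ω)
  rw [← h1]
  exact finsum_comp_equiv (MulAction.toPerm σ⁻¹ : (G ⧸ U₂) ≃ (G ⧸ U₂))
    (f := fun ω₂ => f (σ⁻¹ • ω, ω₂))

/-- the representation of `G` on `A'` -/
def h2psmRho : Representation ℤ G ↥(h2psmSub p U U₂) where
  toFun σ := (h2psmAct p U U₂ σ).restrict (h2psm_act_mem p U U₂ σ)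
  map_one' := by
    ext f x
    simp [h2psmAct]
  map_mul' σ τ := by
    ext f x
    simp [h2psmAct, mul_smul]

/-- the module `A'` -/
abbrev h2psmRep : Rep.{0} ℤ G := Rep.of (h2psmRho p U U₂)

lemma h2psmRep_ρ_apply (σ : G) (f : ↥(h2psmSub p U U₂)) (x : (G ⧸ U) × (G ⧸ U₂)) :
    (((h2psmRep p U U₂).ρ σ f : ↥(h2psmSub p U U₂)) : h2psmFun p U U₂) x =
      (f : h2psmFun p U U₂) (σ⁻¹ • x) := rfl

/-- the value `[ω₂ = σ̄] - [ω₂ = 1̄]` -/
def h2psmInd (σ : G) (ω₂ : G ⧸ U₂) : ZMod p :=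
  open Classical in
  (if ω₂ = (σ : G ⧸ U₂) then 1 else 0) - (if ω₂ = ((1 : G) : G ⧸ U₂) then 1 else 0)

omit [Finite (G ⧸ U₂)] in
lemma h2psm_finsum_single (a : G ⧸ U₂) :
    (∑ᶠ ω₂ : G ⧸ U₂, (open Classical in if ω₂ = a then (1 : ZMod p) else 0)) = 1 := by
  classical
  rw [finsum_eq_single _ a (fun x hx => if_neg hx), if_pos rfl]

lemma h2psm_finsum_ind (σ : G) : ∑ᶠ ω₂ : G ⧸ U₂, h2psmInd p U₂ σ ω₂ = 0 := by
  classical
  unfold h2psmInd
  rw [finsum_sub_distrib (Set.toFinite _) (Set.toFinite _), h2psm_finsum_single,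
    h2psm_finsum_single, sub_self]

omit [Finite (G ⧸ U₂)] in
/-- `ĉ` is constant on the cosets of `U₂` -/
lemma h2psmInd_mul (σ s : G) (hs : s ∈ U₂) (ω₂ : G ⧸ U₂) :
    h2psmInd p U₂ (σ * s) ω₂ = h2psmInd p U₂ σ ω₂ := by
  unfold h2psmInd
  rw [QuotientGroup.mk_mul_of_mem σ hs]

omit [Finite (G ⧸ U₂)] in
/-- the cocycle relation for the indicator -/
lemma h2psmInd_cocycle (σ τ : G) (ω₂ : G ⧸ U₂) :
    h2psmInd p U₂ τ (σ⁻¹ • ω₂) - h2psmInd p U₂ (σ * τ) ω₂ + h2psmInd p U₂ σ ω₂ = 0 := by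
  classical
  unfold h2psmInd
  have h1 : (σ⁻¹ • ω₂ = (τ : G ⧸ U₂)) ↔ ω₂ = ((σ * τ : G) : G ⧸ U₂) := by
    rw [inv_smul_eq_iff, MulAction.Quotient.smul_mk, smul_eq_mul]
  have h2 : (σ⁻¹ • ω₂ = ((1 : G) : G ⧸ U₂)) ↔ ω₂ = (σ : G ⧸ U₂) := by
    rw [inv_smul_eq_iff, MulAction.Quotient.smul_mk, smul_eq_mul, mul_one]
  simp only [h1, h2]
  ring

/-- the cocycle `ĉ`, `ĉ(σ)(m)(ω, ω₂) = m(ω) ([ω₂ = σ̄] - [ω₂ = 1̄])` -/
def h2psmCh (σ : G) : (h2pM U).V →+ ↥(h2psmSub p U U₂) where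
  toFun m := ⟨fun x => ((MonoidAlgebra.coeff (m : MonoidAlgebra ℤ (G ⧸ U)) x.1 : ℤ) : ZMod p) * h2psmInd p U₂ σ x.2, by
    intro ω
    show ∑ᶠ ω₂ : G ⧸ U₂, ((MonoidAlgebra.coeff (m : MonoidAlgebra ℤ (G ⧸ U)) ω : ℤ) : ZMod p) * h2psmInd p U₂ σ ω₂ = 0
    rw [← mul_finsum' _ _ (Set.toFinite _), h2psm_finsum_ind, mul_zero]⟩
  map_zero' := by
    apply Subtype.ext
    funext x
    show ((MonoidAlgebra.coeff (0 : MonoidAlgebra ℤ (G ⧸ U)) x.1 : ℤ) : ZMod p) * h2psmInd p U₂ σ x.2 = 0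
    simp
  map_add' m m' := by
    apply Subtype.ext
    funext x
    show ((MonoidAlgebra.coeff (m + m' : MonoidAlgebra ℤ (G ⧸ U)) x.1 : ℤ) : ZMod p) * h2psmInd p U₂ σ x.2 =
      ((MonoidAlgebra.coeff (m : MonoidAlgebra ℤ (G ⧸ U)) x.1 : ℤ) : ZMod p) * h2psmInd p U₂ σ x.2 +
        ((MonoidAlgebra.coeff (m' : MonoidAlgebra ℤ (G ⧸ U)) x.1 : ℤ) : ZMod p) * h2psmInd p U₂ σ x.2
    rw [MonoidAlgebra.coeff_add, Finsupp.add_apply, Int.cast_add, add_mul]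

lemma h2psmCh_apply (σ : G) (m : (h2pM U).V) (x : (G ⧸ U) × (G ⧸ U₂)) :
    ((h2psmCh p U U₂ σ m : ↥(h2psmSub p U U₂)) : h2psmFun p U U₂) x =
      ((MonoidAlgebra.coeff (m : MonoidAlgebra ℤ (G ⧸ U)) x.1 : ℤ) : ZMod p) * h2psmInd p U₂ σ x.2 := rfl

/-- `A'` is killed by `p` -/
lemma h2psm_p_smul (a : ↥(h2psmSub p U U₂)) : p • a = 0 := by
  apply Subtype.ext
  funext x
  show p • ((a : h2psmFun p U U₂) x) = 0
  rw [nsmul_eq_mul, ZMod.natCast_self, zero_mul]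

/-- `ĉ` is constant on the cosets of `U₂` -/
lemma h2psmCh_mul (σ s : G) (hs : s ∈ U₂) : h2psmCh p U U₂ (σ * s) = h2psmCh p U U₂ σ := by
  refine AddMonoidHom.ext (fun m => ?_)
  apply Subtype.ext
  funext x
  rw [h2psmCh_apply, h2psmCh_apply, h2psmInd_mul p U₂ σ s hs]

/-- `ĉ` is a cocycle -/
lemma h2psmCh_cocycle (s : G × G) :
    dOne (h2pM U) (h2psmRep p U U₂) (h2psmCh p U U₂) s = 0 := by
  obtain ⟨σ, τ⟩ := s
  refine AddMonoidHom.ext (fun m => ?_)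
  apply Subtype.ext
  funext x
  show ((h2psmRep p U U₂).ρ σ (h2psmCh p U U₂ τ ((h2pM U).ρ σ⁻¹ m)) : h2psmFun p U U₂) x -
      ((h2psmCh p U U₂ (σ * τ) m : ↥(h2psmSub p U U₂)) : h2psmFun p U U₂) x +
      ((h2psmCh p U U₂ σ m : ↥(h2psmSub p U U₂)) : h2psmFun p U U₂) x = 0
  rw [h2psmRep_ρ_apply, h2psmCh_apply, h2psmCh_apply, h2psmCh_apply]
  have h1 : MonoidAlgebra.coeff ((h2pM U).ρ σ⁻¹ m : MonoidAlgebra ℤ (G ⧸ U)) (σ⁻¹ • x).1 =
      MonoidAlgebra.coeff (m : MonoidAlgebra ℤ (G ⧸ U)) x.1 := by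
    show MonoidAlgebra.coeff (Representation.ofMulAction ℤ G (G ⧸ U) σ⁻¹ m) (σ⁻¹ • x.1) = _
    rw [Representation.coeff_ofMulAction, inv_inv, smul_inv_smul]
  rw [h1]
  have h2 := h2psmInd_cocycle p U₂ σ τ x.2
  have h3 : (σ⁻¹ • x).2 = σ⁻¹ • x.2 := rfl
  rw [h3]
  linear_combination ((MonoidAlgebra.coeff (m : MonoidAlgebra ℤ (G ⧸ U)) x.1 : ℤ) : ZMod p) * h2

/-- a normal subgroup `U₂ ≤ U` acts trivially on `A'` -/
lemma h2psm_triv [U.Normal] [U₂.Normal] (hle : U₂ ≤ U) (s : G) (hs : s ∈ U₂)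
    (a : ↥(h2psmSub p U U₂)) : (h2psmRep p U U₂).ρ s a = a := by
  apply Subtype.ext
  funext x
  rw [h2psmRep_ρ_apply]
  have h1 : s⁻¹ • x = x := by
    apply Prod.ext
    · exact h2psm_smul_eq U s⁻¹ (U.inv_mem (hle hs)) x.1
    · exact h2psm_smul_eq U₂ s⁻¹ (U₂.inv_mem hs) x.2
  rw [h1]

/-- `A'` is finite -/
lemma h2psm_finite [Fact p.Prime] [Finite (G ⧸ U)] : Finite ↥(h2psmSub p U U₂) := by
  haveI : NeZero p := ⟨(Fact.out : p.Prime).ne_zero⟩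
  haveI : Finite (h2psmFun p U U₂) := Pi.finite
  exact Subtype.finite

end Module

/-! ### The trace of `ĉ` is not a local coboundary -/

section Main

variable {G : Type} [Group G] (p : ℕ) [Fact p.Prime] (U U₂ : Subgroup G)

/-- the coefficients of `N_Ω` are `1` -/
lemma h2psm_coeff_N [Finite (G ⧸ U)] (ω : G ⧸ U) :
    MonoidAlgebra.coeff (h2pN U : MonoidAlgebra ℤ (G ⧸ U)) ω = 1 := by
  classical
  letI : Fintype (G ⧸ U) := Fintype.ofFinite _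
  unfold h2pN
  rw [finsum_eq_sum_of_fintype, MonoidAlgebra.coeff_sum, Finsupp.finsetSum_apply]
  simp [MonoidAlgebra.coeff_single, Finsupp.single_apply]

variable [U.Normal] [U₂.Normal] [Finite (G ⧸ U)] [Finite (G ⧸ U₂)]

/-- **the trace of `ĉ` is not a coboundary on `Γ`** if `p ∣ [r⁻¹U : r⁻¹U₂]` -/
theorem h2psm_not_cob {Γ : Type} [Group Γ] (r : Γ →* G)
    (hp : p ∣ (U₂.comap r).relIndex (U.comap r)) :
    (fun d : Γ => h2psmCh p U U₂ (r d) (h2pN U)) ∉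
      coboundaries₁ (Rep.res r (h2psmRep p U U₂)) := by
  classical
  rintro ⟨F, hF⟩
  letI : Fintype (G ⧸ U₂) := Fintype.ofFinite _
  -- the coboundary relation, pointwise
  have hF1 : ∀ (d : Γ) (x : (G ⧸ U) × (G ⧸ U₂)),
      (F : h2psmFun p U U₂) ((r d)⁻¹ • x) - (F : h2psmFun p U U₂) x =
        h2psmInd p U₂ (r d) x.2 := by
    intro d x
    have h1 := congrFun hF d
    have h2 : (h2psmRep p U U₂).ρ (r d) F - F = h2psmCh p U U₂ (r d) (h2pN U) := h1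
    have h3 := congrFun (congrArg (fun a : ↥(h2psmSub p U U₂) => (a : h2psmFun p U U₂)) h2) x
    have h4 : ((h2psmRep p U U₂).ρ (r d) F : h2psmFun p U U₂) x - (F : h2psmFun p U U₂) x =
        ((h2psmCh p U U₂ (r d) (h2pN U) : ↥(h2psmSub p U U₂)) : h2psmFun p U U₂) x := h3
    rw [h2psmRep_ρ_apply, h2psmCh_apply, h2psm_coeff_N, Int.cast_one, one_mul] at h4
    exact h4
  -- the invariant function
  let Z : (G ⧸ U) × (G ⧸ U₂) → ZMod p := fun x =>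
    (F : h2psmFun p U U₂) x - (if x.2 = ((1 : G) : G ⧸ U₂) then 1 else 0)
  have hZ : ∀ (d : Γ) (x : (G ⧸ U) × (G ⧸ U₂)), Z ((r d)⁻¹ • x) = Z x := by
    intro d x
    have h1 := hF1 d x
    have h2 : ((r d)⁻¹ • x).2 = ((1 : G) : G ⧸ U₂) ↔ x.2 = ((r d : G) : G ⧸ U₂) := by
      show (r d)⁻¹ • x.2 = _ ↔ _
      rw [inv_smul_eq_iff, MulAction.Quotient.smul_mk, smul_eq_mul, mul_one]
    show (F : h2psmFun p U U₂) ((r d)⁻¹ • x) - (if ((r d)⁻¹ • x).2 = ((1 : G) : G ⧸ U₂) then 1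
      else 0) = (F : h2psmFun p U U₂) x - (if x.2 = ((1 : G) : G ⧸ U₂) then 1 else 0)
    unfold h2psmInd at h1
    simp only [h2]
    linear_combination h1
  let ψ : G ⧸ U₂ → ZMod p := fun ω₂ => Z (((1 : G) : G ⧸ U), ω₂)
  letI : MulAction ↥(U.comap r) (G ⧸ U₂) :=
    MulAction.compHom (G ⧸ U₂) (r.comp (U.comap r).subtype)
  have hsmul : ∀ (h : ↥(U.comap r)) (ω₂ : G ⧸ U₂), h • ω₂ = r (h : Γ) • ω₂ := fun _ _ => rfl
  have hinv : ∀ (h : ↥(U.comap r)) (ω₂ : G ⧸ U₂), ψ (h • ω₂) = ψ ω₂ := by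
    intro h ω₂
    have h1 := hZ ((h : Γ)⁻¹) (((1 : G) : G ⧸ U), ω₂)
    rw [map_inv, inv_inv] at h1
    have h2 : r (h : Γ) • ((((1 : G) : G ⧸ U), ω₂) : (G ⧸ U) × (G ⧸ U₂)) =
        (((1 : G) : G ⧸ U), r (h : Γ) • ω₂) := by
      apply Prod.ext
      · exact h2psm_smul_eq U (r (h : Γ)) (Subgroup.mem_comap.1 h.2) _
      · rfl
    rw [h2] at h1
    rw [hsmul]
    exact h1
  have hidx : ∀ ω₂ : G ⧸ U₂, p ∣ (MulAction.stabilizer ↥(U.comap r) ω₂).index := by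
    intro ω₂
    have h1 : MulAction.stabilizer ↥(U.comap r) ω₂ = (U₂.comap r).subgroupOf (U.comap r) := by
      ext h
      rw [MulAction.mem_stabilizer_iff, Subgroup.mem_subgroupOf, Subgroup.mem_comap, hsmul,
        h2psm_smul_eq_iff]
    rw [h1]
    exact hp
  have hsum := h2psm_sum_eq_zero p ψ hinv hidx
  have hsum2 : ∑ ω₂ : G ⧸ U₂, ψ ω₂ = -1 := by
    have h1 : ∑ ω₂ : G ⧸ U₂, (F : h2psmFun p U U₂) (((1 : G) : G ⧸ U), ω₂) = 0 := by
      rw [← finsum_eq_sum_of_fintype]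
      exact F.2 _
    show ∑ ω₂ : G ⧸ U₂, ((F : h2psmFun p U U₂) (((1 : G) : G ⧸ U), ω₂) -
      (if ω₂ = ((1 : G) : G ⧸ U₂) then 1 else 0)) = -1
    rw [Finset.sum_sub_distrib, h1, Finset.sum_ite_eq' Finset.univ, if_pos (Finset.mem_univ _),
      zero_sub]
  rw [hsum] at hsum2
  have h1 : (1 : ZMod p) = 0 := by linear_combination hsum2
  exact one_ne_zero h1

end Main

/-! ### The piece -/

/-- **h2p-seedmod.** -/
theorem stmtH2pSeedMod : StmtH2pSeedMod := by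
  intro p _ G _ ι _ Gloc _ D hPD U hUn hU v
  obtain ⟨U₂, hU₂, hle, hU₂n, hp⟩ := hPD v U hU
  haveI := hUn
  haveI := hU₂n
  haveI : U.FiniteIndex := D.𝒯.finiteIndex U hU
  haveI : U₂.FiniteIndex := D.𝒯.finiteIndex U₂ hU₂
  haveI : Finite (G ⧸ U) := Subgroup.finite_quotient_of_finiteIndex
  haveI : Finite (G ⧸ U₂) := Subgroup.finite_quotient_of_finiteIndex
  refine ⟨h2psmRep p U U₂, h2psm_finite p U U₂, h2psmCh p U U₂, h2psm_p_smul p U U₂,
    ⟨U₂, hU₂, hU₂n, fun s hs a => h2psm_triv p U U₂ hle s hs a⟩,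
    ⟨U₂, hU₂, fun g s hs => h2psmCh_mul p U U₂ g s hs⟩, h2psmCh_cocycle p U U₂,
    h2psm_not_cob p U U₂ (D.r v) hp⟩

end Fermat.Agent.TW.F

end
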