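/-
TW-F / block F-h2perm, piece h2p-shinj (helper30): Shapiro injectivity in degree 2 for
`Hom_ℤ(ℤ[G/U], C)`.

A level 2-cocycle `W` of `Hom_ℤ(ℤ[G/U], C)` whose restriction to `U`, evaluated at `e_{1·U}`, is
the coboundary of a level cochain `ψ : U → C`, is a level coboundary.

Tool: `PT.F.ShapiroHtpy.shapiro₂` with `H := U`, `r := U.subtype`, for a normal level `N ≤ U`
below the levels of `W` and `ψ`.  Dictionary: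
`Φ(g₀, g₁, g₂) := g₀ • W(g₀⁻¹ g₁, g₁⁻¹ g₂)(e_{g₀⁻¹ U})`, `Ψ(d₀, d₁) := d₀ • ψ(d₀⁻¹ d₁)`,
`Φ = dΘ`, `t(σ)(e_{xU}) := x • Θ(x⁻¹, x⁻¹ σ)`.

  `stmtH2pShInj : StmtH2pShInj`, generic form `h2psh_generic` (any tower, any module `C`).
-/
import Fermat.Agent.TW.F.PlanH2Perm
import Fermat.Agent.PT.F.ShapiroHtpy

set_option autoImplicit false

noncomputable section

namespace Fermat.Agent.TW.F

open CategoryTheory groupCohomology Module Fermat.Agent.PT Fermat.Agent.PT.F Fermat.Agent.TW.E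

attribute [local instance 1100] Rep.hV2

section Tools

variable {G : Type} [Group G] (U : Subgroup G)

/-- the action on the basis of `ℤ[G/U]` -/
lemma h2psh_ρ_single (σ x : G) :
    (h2pM U).ρ σ (h2pE U (x : G ⧸ U)) = h2pE U ((σ * x : G) : G ⧸ U) :=
  Representation.ofMulAction_single σ (x : G ⧸ U) 1

/-- the additive map `ℤ[G/U] → A` with prescribed values on the basis -/
def h2pshLift {A : Type} [AddCommGroup A] (t : G ⧸ U → A) : (h2pM U).V →+ A :=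
  (Finsupp.liftAddHom (fun ω : G ⧸ U => zmultiplesHom A (t ω))).comp
    (MonoidAlgebra.coeffAddEquiv (R := ℤ) (M := G ⧸ U)).toAddMonoidHom

lemma h2pshLift_single {A : Type} [AddCommGroup A] (t : G ⧸ U → A) (ω : G ⧸ U) :
    h2pshLift U t (h2pE U ω) = t ω := by
  simp [h2pshLift, MonoidAlgebra.coeffAddEquiv]

/-- additive maps out of `ℤ[G/U]` agree if they agree on the basis -/
lemma h2psh_ext {A : Type} [AddCommGroup A] (f f' : (h2pM U).V →+ A)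
    (h : ∀ x : G, f (h2pE U (x : G ⧸ U)) = f' (h2pE U (x : G ⧸ U))) : f = f' := by
  apply MonoidAlgebra.addMonoidHom_ext
  intro ω z
  obtain ⟨x, rfl⟩ := QuotientGroup.mk_surjective ω
  have h1 : (MonoidAlgebra.single (x : G ⧸ U) z : MonoidAlgebra ℤ (G ⧸ U)) =
      z • MonoidAlgebra.single (x : G ⧸ U) 1 := by
    rw [MonoidAlgebra.smul_single, smul_eq_mul, mul_one]
  rw [h1, map_zsmul, map_zsmul]
  exact congrArg _ (h x)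

lemma h2psh_conjAdd_one (C : Rep.{0} ℤ G) (F : (h2pM U).V →+ C.V) :
    conjAdd (h2pM U) C 1 F = F := by
  apply AddMonoidHom.ext
  intro m
  rw [conjAdd_apply, inv_one, map_one, map_one, Module.End.one_apply, Module.End.one_apply]

lemma h2psh_dTwo_apply (M C : Rep.{0} ℤ G) (W : G × G → (M.V →+ C.V)) (σ τ ρ : G) :
    dTwo M C W (σ, τ, ρ) =
      conjAdd M C σ (W (τ, ρ)) - W (σ * τ, ρ) + W (σ, τ * ρ) - W (σ, τ) := rfl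

lemma h2psh_dOne_apply (M C : Rep.{0} ℤ G) (t : G → (M.V →+ C.V)) (σ τ : G) :
    dOne M C t (σ, τ) = conjAdd M C σ (t τ) - t (σ * τ) + t σ := rfl

end Tools

section Main

variable {G : Type} [Group G]

/-- **h2p-shinj, generic form.** -/
theorem h2psh_generic (𝒯 : Tower G) (C : Rep.{0} ℤ G) (U : Subgroup G) (_hUn : U.Normal)
    (hU : U ∈ 𝒯.lev) (W : G × G → ((h2pM U).V →+ C.V)) (hW : IsLevel₂ 𝒯 W)
    (hcoc : ∀ s, dTwo (h2pM U) C W s = 0) (ψ : U → C.V) (hψ : IsLevelOn 𝒯 U ψ)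
    (hWψ : ∀ s t : U, W ((s : G), (t : G)) (h2pE U ((1 : G) : G ⧸ U)) =
      (d₁₂ (Rep.res U.subtype C)).hom ψ (s, t)) :
    ∃ t : G → ((h2pM U).V →+ C.V), IsLevel₁ 𝒯 t ∧ ∀ s, W s = dOne (h2pM U) C t s := by
  classical
  -- a common normal level `N ≤ U`
  obtain ⟨V₁, hV₁, hWV⟩ := hW
  obtain ⟨V₂, hV₂, hψV⟩ := hψ
  obtain ⟨N, hN, hNle, hNn⟩ := 𝒯.exists_normal (U ⊓ (V₁ ⊓ V₂))
    (𝒯.inf_mem _ _ hU (𝒯.inf_mem _ _ hV₁ hV₂))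
  have := hNn
  have hNU : ∀ s, s ∈ N → s ∈ U := fun s hs => (hNle hs).1
  have hWN : ∀ g g' s s' : G, s ∈ N → s' ∈ N → W (g * s, g' * s') = W (g, g') :=
    fun g g' s s' hs hs' => hWV g g' s s' (hNle hs).2.1 (hNle hs').2.1
  have hψN : ∀ s u : U, (u : G) ∈ N → ψ (s * u) = ψ s :=
    fun s u hu => hψV s u (hNle hu).2.2
  -- cocycle identity, pointwise
  have hcoc' : ∀ σ τ ρ : G,
      conjAdd (h2pM U) C σ (W (τ, ρ)) = W (σ * τ, ρ) - W (σ, τ * ρ) + W (σ, τ) := by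
    intro σ τ ρ
    have h := hcoc (σ, τ, ρ)
    rw [h2psh_dTwo_apply] at h
    rw [← sub_eq_zero, ← h]
    abel
  -- (a) `W(1, τ) = W(1, 1)`
  have hW1 : ∀ τ : G, W (1, τ) = W (1, 1) := by
    intro τ
    have h := hcoc' 1 1 τ
    rw [h2psh_conjAdd_one, one_mul, one_mul] at h
    have h' : W (1, τ) - W (1, 1) = 0 := by
      nth_rewrite 1 [h]
      abel
    exact sub_eq_zero.1 h'
  -- first variable: left multiplication by `N`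
  have hWl : ∀ (σ τ ρ : G), σ ∈ N → W (σ * τ, ρ) = W (τ, ρ) := by
    intro σ τ ρ hσ
    have h1 : σ * τ = τ * (τ⁻¹ * σ * τ) := by group
    have h2 : τ⁻¹ * σ * τ ∈ N := by
      have := hNn.conj_mem σ hσ τ⁻¹
      rwa [inv_inv] at this
    have h3 := hWN τ ρ (τ⁻¹ * σ * τ) 1 h2 N.one_mem
    rw [mul_one] at h3
    rw [h1, h3]
  have hWs : ∀ (σ τ : G), σ ∈ N → W (σ, τ) = W (1, 1) := by
    intro σ τ hσ
    have := hWl σ 1 τ hσ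
    rw [mul_one] at this
    rw [this, hW1]
  -- (b) the values of `W` are `N`-invariant
  have hWinv : ∀ (σ τ ρ : G), σ ∈ N → conjAdd (h2pM U) C σ (W (τ, ρ)) = W (τ, ρ) := by
    intro σ τ ρ hσ
    rw [hcoc' σ τ ρ, hWl σ τ ρ hσ, hWs σ (τ * ρ) hσ, hWs σ τ hσ]
    abel
  -- `dψ`, pointwise
  have hdψ : ∀ s t : U, W ((s : G), (t : G)) (h2pE U ((1 : G) : G ⧸ U)) =
      C.ρ (s : G) (ψ t) - ψ (s * t) + ψ s := fun s t => hWψ s t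
  -- (c) `w • ψ(w⁻¹ c) = ψ c` for `w ∈ N`
  have hψ1 : W (1, 1) (h2pE U ((1 : G) : G ⧸ U)) = ψ 1 := by
    have h := hdψ 1 1
    rw [mul_one] at h
    have e : (((1 : U) : G)) = 1 := rfl
    rw [e, map_one, Module.End.one_apply] at h
    rw [h]
    abel
  have hψc : ∀ (w c : U), (w : G) ∈ N → C.ρ (w : G) (ψ (w⁻¹ * c)) = ψ c := by
    intro w c hw
    have h := hdψ w (w⁻¹ * c)
    rw [mul_inv_cancel_left] at h
    have e1 : W ((w : G), ((w⁻¹ * c : U) : G)) = W (1, 1) := hWs _ _ hw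
    have e2 : ψ w = ψ 1 := by
      have := hψN 1 w hw
      rwa [one_mul] at this
    rw [e1, hψ1, e2] at h
    have h' : C.ρ (w : G) (ψ (w⁻¹ * c)) - ψ c = 0 := by
      have : ψ 1 - ψ 1 = 0 := sub_self _
      nth_rewrite 1 [h] at this
      rw [← this]
      abel
    exact sub_eq_zero.1 h'
  -- the homogeneous cochains
  let Φ : G → G → G → C.V := fun g₀ g₁ g₂ =>
    C.ρ g₀ (W (g₀⁻¹ * g₁, g₁⁻¹ * g₂) (h2pE U ((g₀⁻¹ : G) : G ⧸ U)))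
  let Ψ : U → U → C.V := fun d₀ d₁ => C.ρ (d₀ : G) (ψ (d₀⁻¹ * d₁))
  let act : U → C.V →+ C.V := fun d => (C.ρ (d : G)).toAddMonoidHom
  have hcoset : ∀ (g : G) (d : U), (((g * (d : G) : G)) : G ⧸ U) = (g : G ⧸ U) := by
    intro g d
    exact (QuotientGroup.mk_mul_of_mem g d.2)
  obtain ⟨Θ, hΘ1, hΘ2, hΘ3⟩ := ShapiroHtpy.shapiro₂ U.subtype act N Φ Ψ
    (by
      intro d g₀ g₁ g₂
      show C.ρ ((d : G) * g₀) (W (((d : G) * g₀)⁻¹ * ((d : G) * g₁),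
        ((d : G) * g₁)⁻¹ * ((d : G) * g₂)) (h2pE U ((((d : G) * g₀)⁻¹ : G) : G ⧸ U))) =
        C.ρ (d : G) (C.ρ g₀ (W (g₀⁻¹ * g₁, g₁⁻¹ * g₂) (h2pE U ((g₀⁻¹ : G) : G ⧸ U))))
      have e1 : ((d : G) * g₀)⁻¹ * ((d : G) * g₁) = g₀⁻¹ * g₁ := by group
      have e2 : ((d : G) * g₁)⁻¹ * ((d : G) * g₂) = g₁⁻¹ * g₂ := by group
      have e3 : ((((d : G) * g₀)⁻¹ : G) : G ⧸ U) = ((g₀⁻¹ : G) : G ⧸ U) := by
        rw [mul_inv_rev]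
        exact hcoset g₀⁻¹ d⁻¹
      rw [e1, e2, e3, map_mul, Module.End.mul_apply])
    (by
      intro g₀ g₁ g₂ g₃
      have h := DFunLike.congr_fun (hcoc' (g₀⁻¹ * g₁) (g₁⁻¹ * g₂) (g₂⁻¹ * g₃))
        (h2pE U ((g₀⁻¹ : G) : G ⧸ U))
      rw [conjAdd_apply, h2psh_ρ_single] at h
      have e1 : (g₀⁻¹ * g₁)⁻¹ * g₀⁻¹ = g₁⁻¹ := by group
      have e2 : g₀⁻¹ * g₁ * (g₁⁻¹ * g₂) = g₀⁻¹ * g₂ := by group
      have e3 : g₁⁻¹ * g₂ * (g₂⁻¹ * g₃) = g₁⁻¹ * g₃ := by group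
      rw [e1, e2, e3] at h
      have h' := congrArg (C.ρ g₀) h
      rw [← Module.End.mul_apply, ← map_mul, mul_inv_cancel_left] at h'
      simp only [AddMonoidHom.add_apply, AddMonoidHom.sub_apply, map_add, map_sub] at h'
      show C.ρ g₁ (W (g₁⁻¹ * g₂, g₂⁻¹ * g₃) (h2pE U ((g₁⁻¹ : G) : G ⧸ U))) -
        C.ρ g₀ (W (g₀⁻¹ * g₂, g₂⁻¹ * g₃) (h2pE U ((g₀⁻¹ : G) : G ⧸ U))) +
        C.ρ g₀ (W (g₀⁻¹ * g₁, g₁⁻¹ * g₃) (h2pE U ((g₀⁻¹ : G) : G ⧸ U))) -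
        C.ρ g₀ (W (g₀⁻¹ * g₁, g₁⁻¹ * g₂) (h2pE U ((g₀⁻¹ : G) : G ⧸ U))) = 0
      rw [h']
      abel)
    (by
      intro g₀ g₁ g₂ u₀ u₁ u₂ hu₀ hu₁ hu₂
      show C.ρ (g₀ * u₀) (W ((g₀ * u₀)⁻¹ * (g₁ * u₁), (g₁ * u₁)⁻¹ * (g₂ * u₂))
        (h2pE U (((g₀ * u₀)⁻¹ : G) : G ⧸ U))) =
        C.ρ g₀ (W (g₀⁻¹ * g₁, g₁⁻¹ * g₂) (h2pE U ((g₀⁻¹ : G) : G ⧸ U)))
      -- the arguments of `W`
      have e1 : (g₀ * u₀)⁻¹ * (g₁ * u₁) = u₀⁻¹ * (g₀⁻¹ * g₁ * u₁) := by group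
      have e2 : (g₁ * u₁)⁻¹ * (g₂ * u₂) = u₁⁻¹ * (g₁⁻¹ * g₂ * u₂) := by group
      have hWeq : W ((g₀ * u₀)⁻¹ * (g₁ * u₁), (g₁ * u₁)⁻¹ * (g₂ * u₂)) =
          W (g₀⁻¹ * g₁, g₁⁻¹ * g₂) := by
        have s2 : (g₁ * u₁)⁻¹ * (g₂ * u₂) =
            g₁⁻¹ * g₂ * ((g₁⁻¹ * g₂)⁻¹ * u₁⁻¹ * (g₁⁻¹ * g₂) * u₂) := by group
        have m2 : (g₁⁻¹ * g₂)⁻¹ * u₁⁻¹ * (g₁⁻¹ * g₂) * u₂ ∈ N := by
          apply N.mul_mem _ hu₂
          have := hNn.conj_mem u₁⁻¹ (N.inv_mem hu₁) (g₁⁻¹ * g₂)⁻¹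
          rwa [inv_inv] at this
        rw [e1, hWl _ _ _ (N.inv_mem hu₀), s2]
        exact hWN _ _ _ _ hu₁ m2
      rw [hWeq, map_mul, Module.End.mul_apply]
      congr 1
      have h := DFunLike.congr_fun (hWinv u₀ (g₀⁻¹ * g₁) (g₁⁻¹ * g₂) hu₀)
        (h2pE U ((g₀⁻¹ : G) : G ⧸ U))
      rw [conjAdd_apply, h2psh_ρ_single] at h
      rw [mul_inv_rev]
      exact h)
    (by
      intro d d₀ d₁
      show C.ρ ((d * d₀ : U) : G) (ψ ((d * d₀)⁻¹ * (d * d₁))) =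
        C.ρ (d : G) (C.ρ (d₀ : G) (ψ (d₀⁻¹ * d₁)))
      have e : (d * d₀)⁻¹ * (d * d₁) = d₀⁻¹ * d₁ := by group
      rw [e, Subgroup.coe_mul, map_mul, Module.End.mul_apply])
    (by
      intro d₀ d₁ w₀ w₁ hw₀ hw₁
      show C.ρ ((d₀ * w₀ : U) : G) (ψ ((d₀ * w₀)⁻¹ * (d₁ * w₁))) =
        C.ρ (d₀ : G) (ψ (d₀⁻¹ * d₁))
      have e : (d₀ * w₀)⁻¹ * (d₁ * w₁) = w₀⁻¹ * (d₀⁻¹ * d₁) * w₁ := by group
      rw [e, hψN _ w₁ hw₁, Subgroup.coe_mul, map_mul, Module.End.mul_apply,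
        hψc w₀ (d₀⁻¹ * d₁) hw₀])
    (by
      intro d₀ d₁ d₂
      show C.ρ (d₀ : G) (W ((d₀ : G)⁻¹ * (d₁ : G), (d₁ : G)⁻¹ * (d₂ : G))
        (h2pE U (((d₀ : G)⁻¹ : G) : G ⧸ U))) =
        C.ρ (d₁ : G) (ψ (d₁⁻¹ * d₂)) - C.ρ (d₀ : G) (ψ (d₀⁻¹ * d₂)) +
          C.ρ (d₀ : G) (ψ (d₀⁻¹ * d₁))
      have e0 : ((((d₀ : G)⁻¹ : G)) : G ⧸ U) = ((1 : G) : G ⧸ U) := by
        have := hcoset 1 d₀⁻¹
        rwa [one_mul] at this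
      have h := hdψ (d₀⁻¹ * d₁) (d₁⁻¹ * d₂)
      have e1 : ((d₀⁻¹ * d₁ : U) : G) = (d₀ : G)⁻¹ * (d₁ : G) := rfl
      have e2 : ((d₁⁻¹ * d₂ : U) : G) = (d₁ : G)⁻¹ * (d₂ : G) := rfl
      have e3 : d₀⁻¹ * d₁ * (d₁⁻¹ * d₂) = d₀⁻¹ * d₂ := by group
      rw [e1, e2, e3] at h
      rw [e0, h, map_add, map_sub, ← Module.End.mul_apply, ← map_mul, mul_inv_cancel_left])
  -- the cochain `t`
  let t : G → ((h2pM U).V →+ C.V) := fun σ =>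
    h2pshLift U (fun ω => C.ρ ω.out (Θ ω.out⁻¹ (ω.out⁻¹ * σ)))
  have ht : ∀ (σ x : G), t σ (h2pE U (x : G ⧸ U)) = C.ρ x (Θ x⁻¹ (x⁻¹ * σ)) := by
    intro σ x
    show h2pshLift U _ (h2pE U (x : G ⧸ U)) = _
    rw [h2pshLift_single]
    obtain ⟨u, hu⟩ := QuotientGroup.mk_out_eq_mul U x
    rw [hu]
    have h1 := hΘ1 u⁻¹ x⁻¹ (x⁻¹ * σ)
    have e1 : (x * (u : G))⁻¹ = U.subtype u⁻¹ * x⁻¹ := by
      rw [mul_inv_rev]
      rfl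
    have e2 : (x * (u : G))⁻¹ * σ = U.subtype u⁻¹ * (x⁻¹ * σ) := by
      rw [e1, mul_assoc]
    rw [e2, e1, h1]
    show C.ρ (x * (u : G)) (C.ρ ((u⁻¹ : U) : G) (Θ x⁻¹ (x⁻¹ * σ))) = _
    rw [← Module.End.mul_apply, ← map_mul]
    congr 2
    rw [Subgroup.coe_inv, mul_assoc, mul_inv_cancel, mul_one]
  refine ⟨t, ⟨N, hN, fun g s hs => ?_⟩, fun s => ?_⟩
  · apply h2psh_ext
    intro x
    rw [ht, ht]
    congr 1
    have := hΘ2 x⁻¹ (x⁻¹ * g) 1 s N.one_mem hs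
    rw [mul_one, mul_assoc] at this
    exact this
  · obtain ⟨σ, τ⟩ := s
    apply h2psh_ext
    intro x
    rw [h2psh_dOne_apply]
    simp only [AddMonoidHom.add_apply, AddMonoidHom.sub_apply]
    rw [conjAdd_apply, h2psh_ρ_single, ht, ht, ht]
    have h3 := hΘ3 x⁻¹ (x⁻¹ * σ) (x⁻¹ * σ * τ)
    have hΦ : Φ x⁻¹ (x⁻¹ * σ) (x⁻¹ * σ * τ) =
        C.ρ x⁻¹ (W (σ, τ) (h2pE U (x : G ⧸ U))) := by
      show C.ρ x⁻¹ (W (x⁻¹⁻¹ * (x⁻¹ * σ), (x⁻¹ * σ)⁻¹ * (x⁻¹ * σ * τ))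
        (h2pE U ((x⁻¹⁻¹ : G) : G ⧸ U))) = _
      have e1 : x⁻¹⁻¹ * (x⁻¹ * σ) = σ := by group
      have e2 : (x⁻¹ * σ)⁻¹ * (x⁻¹ * σ * τ) = τ := by group
      rw [e1, e2, inv_inv]
    rw [hΦ] at h3
    have h4 := congrArg (C.ρ x) h3
    rw [← Module.End.mul_apply, ← map_mul, mul_inv_cancel, map_one, Module.End.one_apply] at h4
    rw [h4, map_add, map_sub]
    have e1 : (σ⁻¹ * x)⁻¹ = x⁻¹ * σ := by group
    have e2 : x⁻¹ * σ * τ = x⁻¹ * (σ * τ) := by group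
    rw [← Module.End.mul_apply, ← map_mul, mul_inv_cancel_left, e1, e2]

/-- **h2p-shinj**. -/
theorem stmtH2pShInj : StmtH2pShInj := by
  intro p _ G _ ι _ Gloc _ D U hUn hU W hW hcoc hψ
  obtain ⟨ψ, hψl, hψW⟩ := hψ
  exact h2psh_generic D.𝒯 D.C U hUn hU W hW hcoc ψ hψl hψW

end Main

end Fermat.Agent.TW.F

end
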