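/-
TW-F, block F-h2perm, piece **h2p-transl** (helper35).
Right translation `R_γ : e_{hU} ↦ e_{hγU}` on `ℤ[G/U]` (`U` normal) is a `G`-endomorphism fixing the
norm element; `Y ↦ Y ∘ R_γ` preserves level cocycles of `p`-torsion class and the value at the norm
element, and moves the support from the place `(v, g₀)` to the place `(v, g₀ γ⁻¹)`.
-/
import Fermat.Agent.TW.F.PlanH2Perm

set_option autoImplicit false

noncomputable section

namespace Fermat.Agent.TW.F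

open CategoryTheory groupCohomology Module Fermat.Agent.PT Fermat.Agent.PT.F Fermat.Agent.TW.E

section Transl

variable {G : Type} [Group G]

/-- right translation by `γ` on `G ⧸ U` (`U` normal). -/
def h2ptr_tr (U : Subgroup G) [U.Normal] (γ : G) (ω : G ⧸ U) : G ⧸ U :=
  ω * (γ : G ⧸ U)

lemma h2ptr_tr_smul (U : Subgroup G) [U.Normal] (γ g : G) (ω : G ⧸ U) :
    h2ptr_tr U γ (g • ω) = g • h2ptr_tr U γ ω := by
  induction ω using QuotientGroup.induction_on with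
  | H h =>
    change ((g • (h : G ⧸ U)) * (γ : G ⧸ U)) = g • ((h : G ⧸ U) * (γ : G ⧸ U))
    rw [MulAction.Quotient.smul_mk, ← QuotientGroup.mk_mul, ← QuotientGroup.mk_mul,
      MulAction.Quotient.smul_mk, smul_eq_mul, smul_eq_mul, mul_assoc]

lemma h2ptr_tr_bij (U : Subgroup G) [U.Normal] (γ : G) : Function.Bijective (h2ptr_tr U γ) :=
  (Equiv.mulRight (γ : G ⧸ U)).bijective

/-- a representative of `ω γ` is `out ω * γ` up to `U`. -/
lemma h2ptr_tr_out (U : Subgroup G) [U.Normal] (γ : G) (ω : G ⧸ U) :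
    ∃ u ∈ U, (h2ptr_tr U γ ω).out = ω.out * γ * u := by
  refine ⟨(ω.out * γ)⁻¹ * (h2ptr_tr U γ ω).out, ?_, by group⟩
  rw [← QuotientGroup.eq]
  rw [QuotientGroup.out_eq', QuotientGroup.mk_mul, QuotientGroup.out_eq']
  rfl

/-- the right translation `R_γ` on `ℤ[G/U]`. -/
def h2ptr_R (U : Subgroup G) [U.Normal] (γ : G) : (h2pM U).V →+ (h2pM U).V :=
  (MonoidAlgebra.mapDomainLinearMap ℤ ℤ (h2ptr_tr U γ)).toAddMonoidHom

lemma h2ptr_R_single (U : Subgroup G) [U.Normal] (γ : G) (ω : G ⧸ U) (r : ℤ) :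
    h2ptr_R U γ (MonoidAlgebra.single ω r) = MonoidAlgebra.single (h2ptr_tr U γ ω) r :=
  MonoidAlgebra.mapDomainLinearMap_single _ _ _

lemma h2ptr_R_E (U : Subgroup G) [U.Normal] (γ : G) (ω : G ⧸ U) :
    h2ptr_R U γ (h2pE U ω) = h2pE U (h2ptr_tr U γ ω) :=
  h2ptr_R_single U γ ω 1

lemma h2ptr_ρ_single (U : Subgroup G) (g : G) (ω : G ⧸ U) (r : ℤ) :
    (h2pM U).ρ g (MonoidAlgebra.single ω r) = MonoidAlgebra.single (g • ω) r :=
  Representation.ofMulAction_single g ω r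

/-- `R_γ` commutes with the action of `G`. -/
lemma h2ptr_R_comm (U : Subgroup G) [U.Normal] (γ g : G) (x : (h2pM U).V) :
    h2ptr_R U γ ((h2pM U).ρ g x) = (h2pM U).ρ g (h2ptr_R U γ x) := by
  have h : (h2ptr_R U γ).comp (actAdd (h2pM U) g) = (actAdd (h2pM U) g).comp (h2ptr_R U γ) := by
    refine MonoidAlgebra.addMonoidHom_ext fun ω r => ?_
    change h2ptr_R U γ ((h2pM U).ρ g (MonoidAlgebra.single ω r)) =
      (h2pM U).ρ g (h2ptr_R U γ (MonoidAlgebra.single ω r))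
    rw [h2ptr_ρ_single, h2ptr_R_single, h2ptr_R_single, h2ptr_ρ_single, h2ptr_tr_smul]
  exact DFunLike.congr_fun h x

/-- `R_γ` fixes the norm element. -/
lemma h2ptr_R_N (U : Subgroup G) [U.Normal] [Finite (G ⧸ U)] (γ : G) :
    h2ptr_R U γ (h2pN U) = h2pN U := by
  unfold h2pN
  rw [AddMonoidHom.map_finsum _ (Set.toFinite _)]
  have h : (fun ω : G ⧸ U => h2ptr_R U γ (h2pE U ω)) =
      fun ω => h2pE U (Equiv.mulRight (γ : G ⧸ U) ω) := funext fun ω => h2ptr_R_E U γ ω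
  rw [h]
  exact finsum_comp_equiv (Equiv.mulRight (γ : G ⧸ U)) (f := fun ω => h2pE U ω)

end Transl

section Comp

variable {G : Type} [Group G]

lemma h2ptr_conj_comp (U : Subgroup G) [U.Normal] (γ : G) (X : Rep.{0} ℤ G) (σ : G)
    (F : (h2pM U).V →+ X.V) :
    conjAdd (h2pM U) X σ (F.comp (h2ptr_R U γ)) =
      (conjAdd (h2pM U) X σ F).comp (h2ptr_R U γ) := by
  refine AddMonoidHom.ext fun m => ?_
  change X.ρ σ (F (h2ptr_R U γ ((h2pM U).ρ σ⁻¹ m))) =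
    X.ρ σ (F ((h2pM U).ρ σ⁻¹ (h2ptr_R U γ m)))
  rw [h2ptr_R_comm]

lemma h2ptr_dTwo_comp (U : Subgroup G) [U.Normal] (γ : G) (X : Rep.{0} ℤ G)
    (Y : G × G → ((h2pM U).V →+ X.V)) (s : G × G × G) :
    dTwo (h2pM U) X (fun s => (Y s).comp (h2ptr_R U γ)) s =
      (dTwo (h2pM U) X Y s).comp (h2ptr_R U γ) := by
  unfold dTwo
  simp only [AddMonoidHom.sub_comp, AddMonoidHom.add_comp]
  rw [h2ptr_conj_comp]

lemma h2ptr_dOne_comp (U : Subgroup G) [U.Normal] (γ : G) (X : Rep.{0} ℤ G)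
    (t : G → ((h2pM U).V →+ X.V)) (s : G × G) :
    dOne (h2pM U) X (fun σ => (t σ).comp (h2ptr_R U γ)) s =
      (dOne (h2pM U) X t s).comp (h2ptr_R U γ) := by
  unfold dOne
  simp only [AddMonoidHom.sub_comp, AddMonoidHom.add_comp]
  rw [h2ptr_conj_comp]

end Comp

/-- **h2p-transl**. -/
theorem stmtH2pTransl : StmtH2pTransl := by
  intro p _ G _ ι _ Gloc _ D U hUn hU v g₀ g₁ Y hY hsupp
  have : U.Normal := hUn
  have : U.FiniteIndex := D.𝒯.finiteIndex U hU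
  have : Finite (G ⧸ U) := Subgroup.finite_quotient_of_finiteIndex
  obtain ⟨hlev, hcoc, t, htlev, ht⟩ := hY
  set γ : G := g₁⁻¹ * g₀ with hγ
  refine ⟨fun s => (Y s).comp (h2ptr_R U γ), ⟨?_, ?_, fun σ => (t σ).comp (h2ptr_R U γ), ?_, ?_⟩,
    ?_, ?_⟩
  · obtain ⟨V, hV, h⟩ := hlev
    exact ⟨V, hV, fun g g' s s' hs hs' => by
      change (Y (g * s, g' * s')).comp _ = (Y (g, g')).comp _
      rw [h g g' s s' hs hs']⟩
  · intro s
    rw [h2ptr_dTwo_comp, hcoc s, AddMonoidHom.zero_comp]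
  · obtain ⟨V, hV, h⟩ := htlev
    exact ⟨V, hV, fun g s hs => by
      change (t (g * s)).comp _ = (t g).comp _
      rw [h g s hs]⟩
  · intro s
    rw [h2ptr_dOne_comp, ← ht s]
    ext m
    simp
  · intro s ω v' g hne
    have hne' : (Y s (h2pE U (h2ptr_tr U γ ω))).1 v' g ≠ 0 := by
      rw [← h2ptr_R_E]
      exact hne
    obtain ⟨hv, d, u, hu, hgu⟩ := hsupp s (h2ptr_tr U γ ω) v' g hne'
    obtain ⟨u₂, hu₂, hout⟩ := h2ptr_tr_out U γ ω
    refine ⟨hv, d, γ * (u * u₂⁻¹) * γ⁻¹, hUn.conj_mem _ (U.mul_mem hu (U.inv_mem hu₂)) γ, ?_⟩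
    rw [hout] at hgu
    have : g * ω.out = D.r v d * g₀ * u * u₂⁻¹ * γ⁻¹ := by
      rw [← hgu]
      group
    rw [this, hγ]
    group
  · intro s
    change Y s (h2ptr_R U γ (h2pN U)) = Y s (h2pN U)
    rw [h2ptr_R_N]

end Fermat.Agent.TW.F

end
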