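/-
TW-F, piece F-h2rank (helper88): the rank inequality `(H2)` from `(H2Hom)`.

`stmtH2Rank_of : StmtH2Hom → StmtH2RankFD`.

For a family `a = (a_v)`, `a_v ∈ A^{G_v}`, the `G`-map `ψ_a : B → J`,
`ψ_a(b)(v)(g) = β(a_v, g b) • ζ_v`; `T a z := inv_glob [π ∘ ψ_a ∘ z]` for `z ∈ Z²_lev(G, B)`
(`exists_inv` for `(G, 𝒯, C)`).  `T a` kills the cocycles whose class is in `ker loc₂`
(`in2Z`: `ψ_a ∘ z` is locally `d` of a level cochain), and `T a = 0` implies `π ∘ ψ_a = 0`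
(`StmtH2Hom`), i.e. `a` is diagonal, `a_v = a₀ ∈ A^G` (`ker π ∩ J[p] = 𝔽_p · i(ζ)`).
Linear algebra (`h2rk_dim`) finishes.
-/
import Fermat.Agent.TW.F.PlanH2
import Fermat.Agent.TW.F.In2Z
import Fermat.Agent.TW.F.Cup
import Fermat.Agent.TW.F.LocRight
import Fermat.Agent.TW.F.GWFinal
import Fermat.Agent.PT.F.Assembly
import Fermat.Agent.PT.F.H2pCyclic

set_option autoImplicit false

noncomputable section

namespace Fermat.Agent.TW.F

open CategoryTheory groupCohomology Module Fermat.Agent.PT Fermat.Agent.PT.F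

/-- abstract dimension count: a pairing `T : W × Z → k` which factors through `Z ↠ V`, kills
`K ≤ V` on the right and has left kernel inside `L ≤ W`. -/
theorem h2rk_dim {k : Type} [Field k] {W V Z : Type} [AddCommGroup W] [Module k W]
    [AddCommGroup V] [Module k V] [AddCommGroup Z] [Module k Z]
    [FiniteDimensional k W] [FiniteDimensional k V]
    (q : Z →ₗ[k] V) (hq : Function.Surjective q) (K : Submodule k V) (L : Submodule k W)
    (T : W →ₗ[k] Z →ₗ[k] k)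
    (h1 : ∀ a z, q z ∈ K → T a z = 0)
    (h2 : ∀ a, (∀ z, T a z = 0) → a ∈ L) :
    finrank k W + finrank k ↥K ≤ finrank k ↥L + finrank k V := by
  obtain ⟨s, hs⟩ := LinearMap.exists_rightInverse_of_surjective q (LinearMap.range_eq_top.2 hq)
  have hs' : ∀ v, q (s v) = v := fun v => LinearMap.congr_fun hs v
  let T' : W →ₗ[k] Module.Dual k V :=
    { toFun := fun a => (T a).comp s
      map_add' := fun a b => by rw [map_add, LinearMap.add_comp]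
      map_smul' := fun c a => by rw [map_smul, LinearMap.smul_comp]; rfl }
  have hT' : ∀ a v, T' a v = T a (s v) := fun a v => rfl
  have hfac : ∀ a z, T a z = T' a (q z) := by
    intro a z
    rw [hT']
    have h0 : T a (s (q z) - z) = 0 := by
      apply h1
      rw [map_sub, hs', sub_self]
      exact K.zero_mem
    rw [map_sub, sub_eq_zero] at h0
    exact h0.symm
  have hrange : LinearMap.range T' ≤ K.dualAnnihilator := by
    rintro _ ⟨a, rfl⟩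
    rw [Submodule.mem_dualAnnihilator]
    intro v hv
    rw [hT']
    apply h1
    rw [hs']
    exact hv
  have hker : LinearMap.ker T' ≤ L := by
    intro a ha
    apply h2
    intro z
    rw [hfac, LinearMap.mem_ker.1 ha]
    rfl
  have e1 := LinearMap.finrank_range_add_finrank_ker T'
  have e2 := Submodule.finrank_mono hrange
  have e3 := Submodule.finrank_mono hker
  have e4 := Subspace.finrank_add_finrank_dualAnnihilator_eq K
  omega

section Psi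

variable {p : ℕ} [Fact p.Prime] {G : Type} [Group G] {ι : Type} {Gloc : ι → Type}
  [∀ v, Group (Gloc v)] (D : PTDatum p G ι Gloc) {A B : Rep.{0} (ZMod p) G}
  (P : DualPair D.χ A B)

/-- the local `p`-torsion embedding `𝔽_p → J_v`, `n ↦ n • ζ_v` -/
def h2rkKz (v : ι) : ZMod p →+ (D.Jloc v).V :=
  fconnKz (zetaLoc D v) (flr_isKummer D v).1

lemma h2rkKz_injective (v : ι) : Function.Injective (h2rkKz D v) :=
  fconnKz_injective _ _ (flr_zetaLoc_ne D v)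

lemma h2rkKz_ρ (v : ι) (d : Gloc v) (c : ZMod p) :
    (D.Jloc v).ρ d (h2rkKz D v c) = h2rkKz D v ((D.χ (D.r v d) : ZMod p) * c) :=
  fcup_kz_ρ (χ := D.χ.comp (D.r v)) (D.Jloc v) (zetaLoc D v) (flr_isKummer D v).1
    (flr_isKummer D v).2 d c

lemma h2rkKz_tors (v : ι) (c : ZMod p) : p • h2rkKz D v c = 0 := by
  rw [← map_nsmul]
  have : p • c = 0 := by
    rw [nsmul_eq_mul, ZMod.natCast_self, zero_mul]
  rw [this, map_zero]

/-- the family of functions underlying `ψ_a(b)` -/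
def h2rkFun (a : ι → A.V) (b : B.V) : ∀ v, G → (D.Jloc v).V :=
  fun v g => h2rkKz D v (P.β (a v) (B.ρ g b))

lemma h2rkFun_mem (hB : TrivOnLevel D.𝒯 B) (a : ι → A.V)
    (ha : ∀ v (d : Gloc v), A.ρ (D.r v d) (a v) = a v) (b : B.V) :
    h2rkFun D P a b ∈ semilocalSub D.𝒯 D.r D.Jloc := by
  intro v
  refine ⟨fun d g => ?_, ?_⟩
  · show h2rkKz D v (P.β (a v) (B.ρ (D.r v d * g) b)) =
      (D.Jloc v).ρ d (h2rkKz D v (P.β (a v) (B.ρ g b)))
    rw [h2rkKz_ρ]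
    congr 1
    rw [map_mul]
    show P.β (a v) (B.ρ (D.r v d) (B.ρ g b)) = _
    conv_lhs => rw [← ha v d]
    exact P.equivariant _ _ _
  · obtain ⟨U, hU, hUt⟩ := hB
    refine ⟨U, hU, fun g s hs => ?_⟩
    show h2rkKz D v (P.β (a v) (B.ρ (g * s) b)) = h2rkKz D v (P.β (a v) (B.ρ g b))
    rw [map_mul, hUt s hs]
    rfl

/-- `ψ_a : B → J`, `ψ_a(b)(v)(g) = β(a_v, g b) • ζ_v` -/
def h2rkPsi (hB : TrivOnLevel D.𝒯 B) (a : ι → A.V)
    (ha : ∀ v (d : Gloc v), A.ρ (D.r v d) (a v) = a v) : B.V →+ (PTJ D).V where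
  toFun b := ⟨h2rkFun D P a b, h2rkFun_mem D P hB a ha b⟩
  map_zero' := by
    apply Subtype.ext
    funext v g
    show h2rkKz D v (P.β (a v) (B.ρ g 0)) = 0
    rw [map_zero, map_zero, map_zero]
  map_add' b b' := by
    apply Subtype.ext
    funext v g
    show h2rkKz D v (P.β (a v) (B.ρ g (b + b'))) =
      h2rkKz D v (P.β (a v) (B.ρ g b)) + h2rkKz D v (P.β (a v) (B.ρ g b'))
    rw [map_add, map_add, map_add]

lemma h2rkPsi_apply (hB : TrivOnLevel D.𝒯 B) (a : ι → A.V)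
    (ha : ∀ v (d : Gloc v), A.ρ (D.r v d) (a v) = a v) (b : B.V) (v : ι) (g : G) :
    (h2rkPsi D P hB a ha b).1 v g = h2rkKz D v (P.β (a v) (B.ρ g b)) := rfl

lemma h2rkPsi_isGMap (hB : TrivOnLevel D.𝒯 B) (a : ι → A.V)
    (ha : ∀ v (d : Gloc v), A.ρ (D.r v d) (a v) = a v) :
    IsGMap D B (h2rkPsi D P hB a ha) := by
  intro g b
  apply Subtype.ext
  funext v h
  show h2rkKz D v (P.β (a v) (B.ρ h (B.ρ g b))) = h2rkKz D v (P.β (a v) (B.ρ (h * g) b))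
  rw [map_mul]
  rfl

lemma h2rkPsi_tors (hB : TrivOnLevel D.𝒯 B) (a : ι → A.V)
    (ha : ∀ v (d : Gloc v), A.ρ (D.r v d) (a v) = a v) (b : B.V) :
    p • h2rkPsi D P hB a ha b = 0 := by
  apply Subtype.ext
  funext v g
  show p • h2rkKz D v (P.β (a v) (B.ρ g b)) = 0
  exact h2rkKz_tors D v _

end Psi

section Push

variable {p : ℕ} [Fact p.Prime] {G : Type} [Group G] {ι : Type} {Gloc : ι → Type}
  [∀ v, Group (Gloc v)] (D : PTDatum p G ι Gloc) {B : Rep.{0} (ZMod p) G}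

/-- `ψ ∘ z` is a level 2-cocycle of `J` -/
lemma h2rk_comp_mem {ψ : B.V →+ (PTJ D).V} (hψ : IsGMap D B ψ) {z : G × G → B.V}
    (hz : z ∈ levCocycles₂ D.𝒯 B) :
    (fun gg => ψ (z gg)) ∈ levCocycles₂ D.𝒯 (PTJ D) := by
  rw [mem_levCocycles₂_iff] at hz ⊢
  refine ⟨?_, hz.2.comp ψ⟩
  have hc := (mem_cocycles₂_iff _).1 hz.1
  rw [mem_cocycles₂_iff]
  intro g h j
  have := congrArg ψ (hc g h j)
  simp only [map_add] at this
  rw [this, hψ]

/-- `π ∘ ψ ∘ z` is a level 2-cocycle of `C` -/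
lemma h2rk_pushC_mem {ψ : B.V →+ (PTJ D).V} (hψ : IsGMap D B ψ) {z : G × G → B.V}
    (hz : z ∈ levCocycles₂ D.𝒯 B) : pushC D ψ z ∈ levCocycles₂ D.𝒯 D.C := by
  have h1 := h2rk_comp_mem D hψ hz
  rw [mem_levCocycles₂_iff] at h1 ⊢
  refine ⟨?_, h1.2.comp D.π.hom⟩
  have hc := (mem_cocycles₂_iff _).1 h1.1
  rw [mem_cocycles₂_iff]
  intro g h j
  have := congrArg D.π.hom (hc g h j)
  simp only [map_add] at this
  show D.π.hom (ψ (z (g * h, j))) + D.π.hom (ψ (z (g, h))) =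
    D.C.ρ g (D.π.hom (ψ (z (h, j)))) + D.π.hom (ψ (z (g, h * j)))
  rw [this, Rep.hom_comm_apply]

/-- `ψ ∘ (d t) = d (ψ ∘ t)` -/
lemma h2rk_comp_cob {ψ : B.V →+ (PTJ D).V} (hψ : IsGMap D B ψ) {z : G × G → B.V}
    (hz : z ∈ levCoboundaries₂ D.𝒯 B) :
    (fun gg => ψ (z gg)) ∈ levCoboundaries₂ D.𝒯 (PTJ D) := by
  obtain ⟨t, ht, rfl⟩ := (mem_levCoboundaries₂_iff D.𝒯 B _).1 hz
  refine (mem_levCoboundaries₂_iff D.𝒯 (PTJ D) _).2 ⟨fun σ => ψ (t σ), ht.comp ψ, ?_⟩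
  funext στ
  simp only [d₁₂_hom_apply, map_add, map_sub]
  rw [hψ]

lemma h2rk_pushC_cob {ψ : B.V →+ (PTJ D).V} (hψ : IsGMap D B ψ) {z : G × G → B.V}
    (hz : z ∈ levCoboundaries₂ D.𝒯 B) : pushC D ψ z ∈ levCoboundaries₂ D.𝒯 D.C :=
  Asm.push_levCob D.π (h2rk_comp_cob D hψ hz)

lemma h2rk_pushC_tors {ψ : B.V →+ (PTJ D).V} (hψ : ∀ b, p • ψ b = 0) (z : G × G → B.V)
    (gg : G × G) : p • pushC D ψ z gg = 0 := by
  show p • D.π.hom (ψ (z gg)) = 0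
  rw [← map_nsmul, hψ, map_zero]

/-- the class of `π ∘ ψ ∘ z` in `H²_lev(G, C)[p]` -/
def h2rkCls {ψ : B.V →+ (PTJ D).V} (hψ : IsGMap D B ψ) (hψp : ∀ b, p • ψ b = 0) :
    ↥(levCocycles₂ D.𝒯 B) →+ ↥(pTors p (levH2 D.𝒯 D.C)) where
  toFun z := ⟨levH2π D.𝒯 D.C ⟨pushC D ψ z.1, h2rk_pushC_mem D hψ z.2⟩, by
    rw [mem_pTors, ← map_nsmul]
    have : p • (⟨pushC D ψ z.1, h2rk_pushC_mem D hψ z.2⟩ : ↥(levCocycles₂ D.𝒯 D.C)) = 0 := by
      apply Subtype.ext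
      funext gg
      exact h2rk_pushC_tors D hψp z.1 gg
    rw [this, map_zero]⟩
  map_zero' := by
    apply Subtype.ext
    show levH2π D.𝒯 D.C ⟨pushC D ψ (0 : ↥(levCocycles₂ D.𝒯 B)).1, _⟩ = 0
    rw [levH2π_eq_zero_iff]
    exact h2rk_pushC_cob D hψ (Submodule.zero_mem _)
  map_add' z z' := by
    apply Subtype.ext
    show levH2π D.𝒯 D.C ⟨pushC D ψ (z + z').1, _⟩ =
      levH2π D.𝒯 D.C ⟨pushC D ψ z.1, _⟩ + levH2π D.𝒯 D.C ⟨pushC D ψ z'.1, _⟩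
    rw [← map_add]
    congr 1
    apply Subtype.ext
    funext gg
    show D.π.hom (ψ (z.1 gg + z'.1 gg)) = D.π.hom (ψ (z.1 gg)) + D.π.hom (ψ (z'.1 gg))
    rw [map_add, map_add]

lemma h2rkCls_val {ψ : B.V →+ (PTJ D).V} (hψ : IsGMap D B ψ) (hψp : ∀ b, p • ψ b = 0)
    (z : ↥(levCocycles₂ D.𝒯 B)) :
    ((h2rkCls D hψ hψp z : ↥(pTors p (levH2 D.𝒯 D.C))) : levH2 D.𝒯 D.C) =
      levH2π D.𝒯 D.C ⟨pushC D ψ z.1, h2rk_pushC_mem D hψ z.2⟩ := rfl

lemma h2rkCls_eq_zero_iff {ψ : B.V →+ (PTJ D).V} (hψ : IsGMap D B ψ) (hψp : ∀ b, p • ψ b = 0)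
    (z : ↥(levCocycles₂ D.𝒯 B)) :
    h2rkCls D hψ hψp z = 0 ↔ pushC D ψ z.1 ∈ levCoboundaries₂ D.𝒯 D.C := by
  rw [← levH2π_eq_zero_iff D.𝒯 D.C ⟨pushC D ψ z.1, h2rk_pushC_mem D hψ z.2⟩, ← h2rkCls_val D hψ hψp]
  exact ⟨fun h => by rw [h]; rfl, fun h => Subtype.ext h⟩

/-- additivity of the class in `ψ` -/
lemma h2rkCls_add {ψ ψ' ψ'' : B.V →+ (PTJ D).V} (hψ : IsGMap D B ψ) (hψp : ∀ b, p • ψ b = 0)
    (hψ' : IsGMap D B ψ') (hψp' : ∀ b, p • ψ' b = 0)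
    (hψ'' : IsGMap D B ψ'') (hψp'' : ∀ b, p • ψ'' b = 0)
    (h : ∀ b, ψ'' b = ψ b + ψ' b) (z : ↥(levCocycles₂ D.𝒯 B)) :
    h2rkCls D hψ'' hψp'' z = h2rkCls D hψ hψp z + h2rkCls D hψ' hψp' z := by
  apply Subtype.ext
  show levH2π D.𝒯 D.C ⟨pushC D ψ'' z.1, _⟩ =
    levH2π D.𝒯 D.C ⟨pushC D ψ z.1, _⟩ + levH2π D.𝒯 D.C ⟨pushC D ψ' z.1, _⟩
  rw [← map_add]
  congr 1
  apply Subtype.ext
  funext gg
  show D.π.hom (ψ'' (z.1 gg)) = D.π.hom (ψ (z.1 gg)) + D.π.hom (ψ' (z.1 gg))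
  rw [h, map_add]

end Push

section Main

variable {p : ℕ} [Fact p.Prime] {G : Type} [Group G] {ι : Type} {Gloc : ι → Type}
  [∀ v, Group (Gloc v)] (D : PTDatum p G ι Gloc) {A B : Rep.{0} (ZMod p) G}
  (P : DualPair D.χ A B) (hB : TrivOnLevel D.𝒯 B)

/-- `ψ_a` for a family of local invariants -/
def h2rkPsiW (a : ∀ v, ↥((Rep.res (D.r v) A).ρ.invariants)) : B.V →+ (PTJ D).V :=
  h2rkPsi D P hB (fun v => (a v).1) (fun v d => (a v).2 d)

lemma h2rkPsiW_apply (a : ∀ v, ↥((Rep.res (D.r v) A).ρ.invariants)) (b : B.V) (v : ι) (g : G) :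
    (h2rkPsiW D P hB a b).1 v g = h2rkKz D v (P.β (a v).1 (B.ρ g b)) := rfl

lemma h2rkPsiW_isGMap (a : ∀ v, ↥((Rep.res (D.r v) A).ρ.invariants)) :
    IsGMap D B (h2rkPsiW D P hB a) :=
  h2rkPsi_isGMap D P hB _ _

lemma h2rkPsiW_tors (a : ∀ v, ↥((Rep.res (D.r v) A).ρ.invariants)) (b : B.V) :
    p • h2rkPsiW D P hB a b = 0 :=
  h2rkPsi_tors D P hB _ _ b

lemma h2rkPsiW_add (a a' : ∀ v, ↥((Rep.res (D.r v) A).ρ.invariants)) (b : B.V) :
    h2rkPsiW D P hB (a + a') b = h2rkPsiW D P hB a b + h2rkPsiW D P hB a' b := by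
  apply Subtype.ext
  funext v g
  show h2rkKz D v (P.β ((a v).1 + (a' v).1) (B.ρ g b)) =
    h2rkKz D v (P.β (a v).1 (B.ρ g b)) + h2rkKz D v (P.β (a' v).1 (B.ρ g b))
  rw [map_add, LinearMap.add_apply, map_add]

/-- the pairing `T a z = inv_glob [π ∘ ψ_a ∘ z]` -/
def h2rkT (inv : ↥(pTors p (levH2 D.𝒯 D.C)) →+ ZMod p) :
    (∀ v, ↥((Rep.res (D.r v) A).ρ.invariants)) →ₗ[ZMod p]
      ↥(levCocycles₂ D.𝒯 B) →ₗ[ZMod p] ZMod p :=
  AddMonoidHom.toZModLinearMap p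
    (AddMonoidHom.mk' (fun a => AddMonoidHom.toZModLinearMap p
        (inv.comp (h2rkCls D (h2rkPsiW_isGMap D P hB a) (h2rkPsiW_tors D P hB a))))
      (fun a a' => by
        apply LinearMap.ext
        intro z
        show inv (h2rkCls D (h2rkPsiW_isGMap D P hB (a + a')) (h2rkPsiW_tors D P hB (a + a')) z) =
          inv (h2rkCls D (h2rkPsiW_isGMap D P hB a) (h2rkPsiW_tors D P hB a) z) +
          inv (h2rkCls D (h2rkPsiW_isGMap D P hB a') (h2rkPsiW_tors D P hB a') z)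
        rw [← map_add]
        congr 1
        exact h2rkCls_add D _ _ _ _ _ _ (h2rkPsiW_add D P hB a a') z))

lemma h2rkT_apply (inv : ↥(pTors p (levH2 D.𝒯 D.C)) →+ ZMod p)
    (a : ∀ v, ↥((Rep.res (D.r v) A).ρ.invariants)) (z : ↥(levCocycles₂ D.𝒯 B)) :
    h2rkT D P hB inv a z =
      inv (h2rkCls D (h2rkPsiW_isGMap D P hB a) (h2rkPsiW_tors D P hB a) z) := rfl

/-- the local components of `ψ_a ∘ z` are level coboundaries when those of `z` are -/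
lemma h2rk_local (a : ∀ v, ↥((Rep.res (D.r v) A).ρ.invariants)) (z : G × G → B.V) (v : ι)
    (hz : resTwo D v z ∈ levCoboundaries₂ (D.𝒯loc v) (Rep.res (D.r v) B)) :
    (fun dd : Gloc v × Gloc v => ev D v (h2rkPsiW D P hB a (z (D.r v dd.1, D.r v dd.2)))) ∈
      levCoboundaries₂ (D.𝒯loc v) (D.Jloc v) := by
  obtain ⟨t, ht, htz⟩ := (mem_levCoboundaries₂_iff _ _ _).1 hz
  refine (mem_levCoboundaries₂_iff _ _ _).2
    ⟨fun d => h2rkKz D v (P.β (a v).1 (t d)), ht.comp (fun x => h2rkKz D v (P.β (a v).1 x)), ?_⟩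
  funext dd
  rw [d₁₂_hom_apply]
  have h1 := congrFun htz dd
  rw [d₁₂_hom_apply] at h1
  have h2 : z (D.r v dd.1, D.r v dd.2) =
      B.ρ (D.r v dd.1) (t dd.2) - t (dd.1 * dd.2) + t dd.1 := h1.symm
  show (D.Jloc v).ρ dd.1 (h2rkKz D v (P.β (a v).1 (t dd.2))) -
      h2rkKz D v (P.β (a v).1 (t (dd.1 * dd.2))) + h2rkKz D v (P.β (a v).1 (t dd.1)) =
    h2rkKz D v (P.β (a v).1 (B.ρ 1 (z (D.r v dd.1, D.r v dd.2))))
  rw [map_one, h2, h2rkKz_ρ]
  have h3 : P.β (a v).1 (B.ρ (D.r v dd.1) (t dd.2)) =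
      (D.χ (D.r v dd.1) : ZMod p) * P.β (a v).1 (t dd.2) := by
    have h4 : A.ρ (D.r v dd.1) (a v).1 = (a v).1 := (a v).2 dd.1
    conv_lhs => rw [← h4]
    exact P.equivariant _ _ _
  show _ = h2rkKz D v (P.β (a v).1 (B.ρ (D.r v dd.1) (t dd.2) - t (dd.1 * dd.2) + t dd.1))
  rw [map_add, map_sub, map_add, map_sub, h3]

/-- `T a` kills the cocycles whose class is in `ker loc₂` -/
lemma h2rkT_ker [Fintype ι] (inv : ↥(pTors p (levH2 D.𝒯 D.C)) →+ ZMod p)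
    (a : ∀ v, ↥((Rep.res (D.r v) A).ρ.invariants)) (z : ↥(levCocycles₂ D.𝒯 B))
    (hz : D.locTwo B (levH2π D.𝒯 B z) = 0) : h2rkT D P hB inv a z = 0 := by
  have h0 : h2rkCls D (h2rkPsiW_isGMap D P hB a) (h2rkPsiW_tors D P hB a) z = 0 := by
    rw [h2rkCls_eq_zero_iff]
    have hloc := (Asm.locTwo_eq_zero_iff D B z).1 hz
    have hY := in2Z D (fun gg => h2rkPsiW D P hB a (z.1 gg))
      (h2rk_comp_mem D (h2rkPsiW_isGMap D P hB a) z.2)
      (fun gg => h2rkPsiW_tors D P hB a _)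
      (fun v => h2rk_local D P hB a z.1 v (hloc v))
    exact Asm.push_levCob D.π hY
  rw [h2rkT_apply, h0, map_zero]

/-- `π ∘ ψ_a = 0` forces `β(a_v, g b) = χ(g) n_b` with `n_b` independent of `v` -/
lemma h2rk_pi_zero (a : ∀ v, ↥((Rep.res (D.r v) A).ρ.invariants))
    (h : ∀ b, D.π.hom (h2rkPsiW D P hB a b) = 0) (b : B.V) :
    ∃ c : ZMod p, ∀ (v : ι) (g : G), P.β (a v).1 (B.ρ g b) = c * (D.χ g : ZMod p) := by
  obtain ⟨e, he⟩ := (D.exact _).1 (h b)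
  have hpe : p • e = 0 := by
    apply D.i_injective
    rw [map_nsmul, he, map_zero]
    exact h2rkPsiW_tors D P hB a b
  obtain ⟨n, rfl⟩ := D.ζ_gen e hpe
  refine ⟨(n : ZMod p), fun v g => ?_⟩
  apply h2rkKz_injective D v
  rw [← h2rkPsiW_apply D P hB a b v g, ← he, D.i_apply, map_nsmul, D.ζ_char, map_nsmul, map_nsmul]
  have hval : ((n : ZMod p) * (D.χ g : ZMod p)) =
      ((n * ((D.χ g : ZMod p).val) : ℕ) : ZMod p) := by
    have : NeZero p := ⟨(Fact.out : p.Prime).ne_zero⟩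
    push_cast
    rw [ZMod.natCast_zmod_val]
  rw [hval]
  show _ = fconnKz (zetaLoc D v) _ _
  rw [fconnKz_natCast, mul_smul]
  rfl

/-- `π ∘ ψ_a = 0` implies that `a` is diagonal -/
lemma h2rk_diag (a : ∀ v, ↥((Rep.res (D.r v) A).ρ.invariants))
    (h : ∀ b, D.π.hom (h2rkPsiW D P hB a b) = 0) :
    (∀ v v', (a v).1 = (a v').1) ∧ ∀ (v : ι) (g : G), A.ρ g (a v).1 = (a v).1 := by
  have key : ∀ (b : B.V) (v : ι) (g : G), P.β (a v).1 (B.ρ g b) =
      P.β (a v).1 b * (D.χ g : ZMod p) := by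
    intro b v g
    obtain ⟨c, hc⟩ := h2rk_pi_zero D P hB a h b
    have h1 := hc v 1
    rw [map_one, map_one, Units.val_one, mul_one] at h1
    rw [hc v g, ← h1]
    rfl
  have key2 : ∀ (b : B.V) (v v' : ι), P.β (a v).1 b = P.β (a v').1 b := by
    intro b v v'
    obtain ⟨c, hc⟩ := h2rk_pi_zero D P hB a h b
    have h1 := hc v 1
    have h2 := hc v' 1
    rw [map_one, map_one, Units.val_one, mul_one] at h1 h2
    have e1 : P.β (a v).1 b = c := h1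
    have e2 : P.β (a v').1 b = c := h2
    rw [e1, e2]
  refine ⟨fun v v' => ?_, fun v g => ?_⟩
  · rw [← sub_eq_zero]
    apply P.left
    intro b
    rw [map_sub, LinearMap.sub_apply, key2 b v v', sub_self]
  · rw [← sub_eq_zero]
    apply P.left
    intro b
    have hb : b = B.ρ g (B.ρ g⁻¹ b) := by
      rw [← Module.End.mul_apply, ← map_mul, mul_inv_cancel, map_one]
      rfl
    obtain ⟨b', rfl⟩ : ∃ b', b = B.ρ g b' := ⟨B.ρ g⁻¹ b, hb⟩
    rw [map_sub, LinearMap.sub_apply, sub_eq_zero, P.equivariant, key, mul_comm]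

/-- the diagonal map `A^G → ⊕_v A^{G_v}` -/
def h2rkDiag : ↥(A.ρ.invariants) →ₗ[ZMod p] (∀ v, ↥((Rep.res (D.r v) A).ρ.invariants)) :=
  LinearMap.pi fun v =>
    { toFun := fun x => ⟨x.1, fun d => x.2 (D.r v d)⟩
      map_add' := fun _ _ => rfl
      map_smul' := fun _ _ => rfl }

lemma h2rkDiag_apply (x : ↥(A.ρ.invariants)) (v : ι) :
    ((h2rkDiag D (A := A) x v : ↥((Rep.res (D.r v) A).ρ.invariants)) : A.V) = x.1 := rfl

end Main

/-- **F-h2rank**: the rank inequality `(H2)` from `(H2Hom)`. -/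
theorem stmtH2Rank_of (hH : StmtH2Hom) : StmtH2RankFD := by
  intro p _ G _ ι _ Gloc _ D hPD A B _ _ P _hA hB hfin
  have := hfin
  obtain ⟨inv, hinv⟩ := exists_inv (𝒯 := D.𝒯) (X := D.C) stmtH2pCyclic p D.C_discrete
    (fun U _ hU => D.cm_glob U hU)
  have hdim := h2rk_dim (k := ZMod p) (levH2π D.𝒯 B) (Submodule.mkQ_surjective _)
    (LinearMap.ker (D.locTwo B)) (LinearMap.range (h2rkDiag D (A := A))) (h2rkT D P hB inv)
    (fun a z hz => h2rkT_ker D P hB inv a z (LinearMap.mem_ker.1 hz))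
    (fun a ha => by
      have hπ : ∀ b, D.π.hom (h2rkPsiW D P hB a b) = 0 := by
        by_contra hne
        push Not at hne
        obtain ⟨z, hz, hzn⟩ := hH p G ι Gloc D hPD B hB (h2rkPsiW D P hB a)
          (h2rkPsiW_isGMap D P hB a) hne
        apply hzn
        have h1 := ha ⟨z, hz⟩
        rw [h2rkT_apply] at h1
        have h2 := hinv (h1.trans (map_zero inv).symm)
        exact (h2rkCls_eq_zero_iff D _ _ ⟨z, hz⟩).1 h2
      obtain ⟨hd1, hd2⟩ := h2rk_diag D P hB a hπ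
      by_cases hι : Nonempty ι
      · obtain ⟨v₀⟩ := hι
        refine ⟨⟨(a v₀).1, fun g => hd2 v₀ g⟩, ?_⟩
        funext v
        apply Subtype.ext
        exact hd1 v₀ v
      · have hE : IsEmpty ι := not_nonempty_iff.1 hι
        have h0 : a = 0 := by
          funext v
          exact hE.elim v
        rw [h0]
        exact Submodule.zero_mem _)
  have e1 : finrank (ZMod p) (∀ v, ↥((Rep.res (D.r v) A).ρ.invariants)) =
      ∑ v, finrank (ZMod p) ↥((Rep.res (D.r v) A).ρ.invariants) :=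
    Module.finrank_pi_fintype (ZMod p)
  have e2 := LinearMap.finrank_range_le (h2rkDiag D (A := A))
  have e3 := gwFinal_rank_nullity (D.locTwo B)
  omega

end Fermat.Agent.TW.F

end
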