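/-
TW-F, block F-h2perm, piece **h2p-untw** (helper68): untwisting `𝔽_p[G/U] ≅ Hom_ℤ(ℤ[G/U], μ_p)`.

`U` a normal level with `χ|_U = 1`, `χ_Ω : G ⧸ U →* 𝔽_pˣ` the induced character.
* `κ : 𝔽_p[G/U] →+ Hom_ℤ(ℤ[G/U], E)`, `κ(x)(e_ω) = (x_ω χ_Ω(ω)) • ζ`: additive, injective,
  equivariant, onto the maps killed by `p`.
* For a `G`-map `Ψ : 𝔽_p[G/U] → J`:  `Ψ(e_1)(v)(g) = n_v(g) • ζ_v`, `m̄_v(g) := χ(g)⁻¹ n_v(g)`,
  `m := val ∘ m̄` is a place function, `Ψ = T_m ∘ i ∘ κ` for every weighted trace `T_m`, and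
  `m` constant mod `p` implies `π ∘ Ψ = 0`.
-/
import Fermat.Agent.TW.F.PlanH2Perm
import Fermat.Agent.TW.F.H2Rank
import Fermat.Agent.TW.E.ChaseLift

set_option autoImplicit false
set_option linter.unusedSectionVars false
set_option linter.style.haveILetI false

noncomputable section

namespace Fermat.Agent.TW.F

open CategoryTheory groupCohomology Module Fermat.Agent.PT Fermat.Agent.PT.F Fermat.Agent.TW.E
open Fermat.Agent.PT.F.ExactH2

attribute [local instance 1100] Rep.hV2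

variable {p : ℕ} [Fact p.Prime] {G : Type} [Group G] {ι : Type} {Gloc : ι → Type}
  [∀ v, Group (Gloc v)] (D : PTDatum p G ι Gloc)

/-! ### `μ_p ⊆ E` -/

/-- `𝔽_p → E`, `a ↦ a • ζ` -/
def h2puKE : ZMod p →+ D.E.V := fconnKz D.ζ D.ζ_tors

lemma h2puKE_injective : Function.Injective (h2puKE D) :=
  fconnKz_injective _ _ D.ζ_ne

lemma h2puKE_ρ (g : G) (a : ZMod p) :
    D.E.ρ g (h2puKE D a) = h2puKE D ((D.χ g : ZMod p) * a) :=
  fcup_kz_ρ (χ := D.χ) D.E D.ζ D.ζ_tors D.ζ_char g a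

lemma h2puKE_surj (e : D.E.V) (he : p • e = 0) : ∃ a : ZMod p, h2puKE D a = e :=
  fconnKz_surj _ _ e (D.ζ_gen e he)

lemma h2pu_j_KE (v : ι) (a : ZMod p) : (D.j v).hom (h2puKE D a) = h2rkKz D v a := by
  show (D.j v).hom (fconnKz D.ζ D.ζ_tors a) = fconnKz (zetaLoc D v) _ a
  rw [fconnKz_apply, fconnKz_apply, map_nsmul]
  rfl

lemma h2pu_i_KE (a : ZMod p) (v : ι) (g : G) :
    (D.i.hom (h2puKE D a)).1 v g = h2rkKz D v ((D.χ g : ZMod p) * a) := by
  rw [D.i_apply, h2puKE_ρ, h2pu_j_KE]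

lemma h2puKz_val_smul (v : ι) (a b : ZMod p) :
    a.val • h2rkKz D v b = h2rkKz D v (a * b) :=
  (fconnKz_mul (zetaLoc D v) _ a b).symm

lemma h2puKz_surj (v : ι) (x : (D.Jloc v).V) (hx : p • x = 0) :
    ∃ a : ZMod p, h2rkKz D v a = x :=
  fconnKz_surj _ _ x (D.J_tors v x hx)

/-! ### The character on `G ⧸ U` -/

section Chi

variable (U : Subgroup G) [U.Normal] (hχ : ∀ s ∈ U, D.χ s = 1)

/-- `χ` on `G ⧸ U` -/
def h2puChi : G ⧸ U →* (ZMod p)ˣ :=
  QuotientGroup.lift U D.χ (fun s hs => MonoidHom.mem_ker.2 (hχ s hs))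

lemma h2puChi_mk (g : G) : h2puChi D U hχ (g : G ⧸ U) = D.χ g := rfl

lemma h2puChi_smul (σ : G) (ω : G ⧸ U) :
    h2puChi D U hχ (σ • ω) = D.χ σ * h2puChi D U hχ ω := by
  induction ω using QuotientGroup.induction_on with
  | H g =>
    show h2puChi D U hχ ((σ * g : G) : G ⧸ U) = _
    rw [h2puChi_mk, h2puChi_mk, map_mul]

lemma h2puChi_out (ω : G ⧸ U) : D.χ ω.out = h2puChi D U hχ ω := by
  rw [← h2puChi_mk D U hχ, QuotientGroup.out_eq']

lemma h2pu_out_smul (ω : G ⧸ U) : ω.out • ((1 : G) : G ⧸ U) = ω := by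
  show ((ω.out * 1 : G) : G ⧸ U) = ω
  rw [mul_one, QuotientGroup.out_eq']

/-! ### The untwisting map `κ` -/

/-- `κ : 𝔽_p[G/U] → Hom_ℤ(ℤ[G/U], E)`, `κ(x)(e_ω) = (x_ω χ_Ω(ω)) • ζ` -/
def h2puKappa : (permRep p U).V →+ ((h2pM U).V →+ D.E.V) :=
  AddMonoidHom.mk' (fun x : MonoidAlgebra (ZMod p) (G ⧸ U) =>
      chl_lift (G := G) (G ⧸ U)
        (fun ω => h2puKE D (x.coeff ω * (h2puChi D U hχ ω : ZMod p))))
    (fun x y => by
      apply chl_ext
      intro ω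
      rw [AddMonoidHom.add_apply, chl_lift_single, chl_lift_single, chl_lift_single, one_zsmul,
        one_zsmul, one_zsmul, MonoidAlgebra.coeff_add, Finsupp.add_apply, add_mul, map_add])

lemma h2puKappa_apply (x : MonoidAlgebra (ZMod p) (G ⧸ U)) (ω : G ⧸ U) :
    h2puKappa D U hχ x (h2pE U ω) =
      h2puKE D (x.coeff ω * (h2puChi D U hχ ω : ZMod p)) := by
  show chl_lift (G := G) (G ⧸ U) _ (MonoidAlgebra.single ω 1) = _
  rw [chl_lift_single, one_zsmul]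

lemma h2puKappa_injective : Function.Injective (h2puKappa D U hχ) := by
  rw [injective_iff_map_eq_zero]
  intro x hx
  apply MonoidAlgebra.coeff_injective
  ext ω
  have h1 := DFunLike.congr_fun hx (h2pE U ω)
  rw [h2puKappa_apply, AddMonoidHom.zero_apply] at h1
  have h2 := h2puKE_injective D (h1.trans (map_zero _).symm)
  have h3 : (x : MonoidAlgebra (ZMod p) (G ⧸ U)).coeff ω = 0 := by
    rcases mul_eq_zero.1 h2 with h | h
    · exact h
    · exact absurd h (Units.ne_zero _)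
  rw [h3]
  rfl

lemma h2puKappa_surj [Finite (G ⧸ U)] (h : (h2pM U).V →+ D.E.V) (hp : p • h = 0) :
    ∃ x, h2puKappa D U hχ x = h := by
  have h1 : ∀ ω : G ⧸ U, ∃ a : ZMod p, h2puKE D a = h (h2pE U ω) := fun ω =>
    h2puKE_surj D _ (by rw [← AddMonoidHom.nsmul_apply, hp, AddMonoidHom.zero_apply])
  choose a ha using h1
  refine ⟨MonoidAlgebra.ofCoeff (Finsupp.equivFunOnFinite.symm
    (fun ω => a ω * ((h2puChi D U hχ ω)⁻¹ : (ZMod p)ˣ))), ?_⟩
  apply chl_ext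
  intro ω
  rw [h2puKappa_apply, MonoidAlgebra.coeff_ofCoeff]
  show h2puKE D (a ω * ((h2puChi D U hχ ω)⁻¹ : (ZMod p)ˣ) * (h2puChi D U hχ ω : ZMod p)) = _
  rw [mul_assoc, Units.inv_mul, mul_one, ha]

lemma h2puKappa_equiv (σ : G) (x : (permRep p U).V) :
    h2puKappa D U hχ ((permRep p U).ρ σ x) =
      conjAdd (h2pM U) D.E σ (h2puKappa D U hχ x) := by
  have key : (h2puKappa D U hχ).comp ((permRep p U).ρ σ).toAddMonoidHom =
      (conjAdd (h2pM U) D.E σ).comp (h2puKappa D U hχ) := by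
    apply MonoidAlgebra.addMonoidHom_ext
    intro ω c
    apply chl_ext
    intro ω'
    show h2puKappa D U hχ ((permRep p U).ρ σ (MonoidAlgebra.single ω c)) (h2pE U ω') =
      conjAdd (h2pM U) D.E σ (h2puKappa D U hχ (MonoidAlgebra.single ω c)) (h2pE U ω')
    have e1 : (permRep p U).ρ σ (MonoidAlgebra.single ω c) = MonoidAlgebra.single (σ • ω) c :=
      Representation.ofMulAction_single σ ω c
    have e2 : (h2pM U).ρ σ⁻¹ (h2pE U ω') = h2pE U (σ⁻¹ • ω') := chl_ρ_single (G ⧸ U) σ⁻¹ ω' 1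
    rw [e1, conjAdd_apply, e2, h2puKappa_apply, h2puKappa_apply, h2puKE_ρ,
      MonoidAlgebra.coeff_single, MonoidAlgebra.coeff_single]
    classical
    rw [Finsupp.single_apply, Finsupp.single_apply]
    by_cases h : ω = σ⁻¹ • ω'
    · have h' : σ • ω = ω' := by rw [h, smul_inv_smul]
      have e3 : h2puChi D U hχ ω' = D.χ σ * h2puChi D U hχ (σ⁻¹ • ω') := by
        rw [← h2puChi_smul, smul_inv_smul]
      rw [if_pos h, if_pos h', e3]
      push_cast
      ring_nf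
    · have h' : ¬ σ • ω = ω' := fun h'' => h (by rw [← h'', inv_smul_smul])
      rw [if_neg h, if_neg h', zero_mul, zero_mul, mul_zero]
  exact DFunLike.congr_fun key x

/-! ### The place function of a `G`-map `Ψ` -/

/-- the basis vector `e_1` of `𝔽_p[G/U]` -/
def h2puE1 : (permRep p U).V := MonoidAlgebra.single ((1 : G) : G ⧸ U) (1 : ZMod p)

omit [U.Normal] in
lemma h2pu_tors (Ψ : (permRep p U).V →+ (PTJ D).V) (x : (permRep p U).V) : p • Ψ x = 0 := by
  rw [← map_nsmul]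
  have : p • x = 0 := by
    rw [← Nat.cast_smul_eq_nsmul (ZMod p) p x, ZMod.natCast_self, zero_smul]
  rw [this, map_zero]

omit [U.Normal] in
lemma h2pu_exists_n (Ψ : (permRep p U).V →+ (PTJ D).V) (v : ι) (g : G) :
    ∃ a : ZMod p, h2rkKz D v a = (Ψ (h2puE1 (p := p) U)).1 v g := by
  apply h2puKz_surj
  have := h2pu_tors D U Ψ (h2puE1 U)
  have h2 := congrArg (fun f : (PTJ D).V => f.1 v g) this
  exact h2

/-- `n_v(g)`: `Ψ(e_1)(v)(g) = n_v(g) • ζ_v` -/
def h2puN (Ψ : (permRep p U).V →+ (PTJ D).V) (v : ι) (g : G) : ZMod p :=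
  Classical.choose (h2pu_exists_n D U Ψ v g)

omit [U.Normal] in
lemma h2puN_spec (Ψ : (permRep p U).V →+ (PTJ D).V) (v : ι) (g : G) :
    h2rkKz D v (h2puN D U Ψ v g) = (Ψ (h2puE1 (p := p) U)).1 v g :=
  Classical.choose_spec (h2pu_exists_n D U Ψ v g)

omit [U.Normal] in
lemma h2puN_left (Ψ : (permRep p U).V →+ (PTJ D).V) (v : ι) (d : Gloc v) (g : G) :
    h2puN D U Ψ v (D.r v d * g) = (D.χ (D.r v d) : ZMod p) * h2puN D U Ψ v g := by
  apply h2rkKz_injective D v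
  rw [h2puN_spec, ← h2rkKz_ρ, h2puN_spec]
  exact ((Ψ (h2puE1 U)).2 v).1 d g

lemma h2puN_right (Ψ : (permRep p U).V →+ (PTJ D).V) (hΨ : IsGMap D (permRep p U) Ψ)
    (v : ι) (g u : G) (hu : u ∈ U) : h2puN D U Ψ v (g * u) = h2puN D U Ψ v g := by
  apply h2rkKz_injective D v
  rw [h2puN_spec, h2puN_spec]
  have h1 : (permRep p U).ρ u (h2puE1 U) = h2puE1 U := by
    show (permRep p U).ρ u (MonoidAlgebra.single ((1 : G) : G ⧸ U) (1 : ZMod p)) = _
    rw [show (permRep p U).ρ u (MonoidAlgebra.single ((1 : G) : G ⧸ U) (1 : ZMod p)) =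
      MonoidAlgebra.single (u • ((1 : G) : G ⧸ U)) (1 : ZMod p) from
      Representation.ofMulAction_single u _ _]
    have : u • ((1 : G) : G ⧸ U) = ((1 : G) : G ⧸ U) := by
      show ((u * 1 : G) : G ⧸ U) = _
      rw [mul_one]
      exact (QuotientGroup.eq_one_iff u).2 hu
    rw [this]
    rfl
  have h2 := hΨ u (h2puE1 U)
  rw [h1] at h2
  have h3 := congrArg (fun f : (PTJ D).V => f.1 v g) h2
  exact h3.symm

/-- the formula for `Ψ` on the basis -/
lemma h2pu_Psi_single (Ψ : (permRep p U).V →+ (PTJ D).V) (hΨ : IsGMap D (permRep p U) Ψ)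
    (ω : G ⧸ U) (c : ZMod p) (v : ι) (g : G) :
    (Ψ (MonoidAlgebra.single ω c)).1 v g = h2rkKz D v (c * h2puN D U Ψ v (g * ω.out)) := by
  have hne : NeZero p := ⟨(Fact.out : p.Prime).ne_zero⟩
  have h1 : (MonoidAlgebra.single ω c : MonoidAlgebra (ZMod p) (G ⧸ U)) =
      c.val • (permRep p U).ρ ω.out (h2puE1 U) := by
    rw [show (permRep p U).ρ ω.out (h2puE1 U) =
      MonoidAlgebra.single (ω.out • ((1 : G) : G ⧸ U)) (1 : ZMod p) from
      Representation.ofMulAction_single ω.out _ _, h2pu_out_smul]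
    apply MonoidAlgebra.coeff_injective
    rw [MonoidAlgebra.coeff_single]
    show _ = c.val • (MonoidAlgebra.single ω (1 : ZMod p)).coeff
    rw [MonoidAlgebra.coeff_single, Finsupp.smul_single, nsmul_eq_mul, mul_one,
      ZMod.natCast_zmod_val]
  rw [h1, map_nsmul, hΨ]
  show c.val • (Ψ (h2puE1 U)).1 v (g * ω.out) = _
  rw [← h2puN_spec, h2puKz_val_smul]

/-- `m̄_v(g) = χ(g)⁻¹ n_v(g)` -/
def h2puMbar (Ψ : (permRep p U).V →+ (PTJ D).V) (v : ι) (g : G) : ZMod p :=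
  (((D.χ g)⁻¹ : (ZMod p)ˣ) : ZMod p) * h2puN D U Ψ v g

/-- the place function of `Ψ` -/
def h2puM (Ψ : (permRep p U).V →+ (PTJ D).V) (v : ι) (g : G) : ℕ :=
  (h2puMbar D U Ψ v g).val

omit [U.Normal] in
lemma h2puN_eq (Ψ : (permRep p U).V →+ (PTJ D).V) (v : ι) (g : G) :
    h2puN D U Ψ v g = (D.χ g : ZMod p) * h2puMbar D U Ψ v g := by
  rw [h2puMbar, ← mul_assoc, Units.mul_inv, one_mul]

include hχ in
lemma h2puM_isPlaceFn (Ψ : (permRep p U).V →+ (PTJ D).V) (hΨ : IsGMap D (permRep p U) Ψ) :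
    IsPlaceFn D U (h2puM D U Ψ) := by
  refine ⟨fun v d g => ?_, fun v g u hu => ?_⟩
  · show (h2puMbar D U Ψ v (D.r v d * g)).val = (h2puMbar D U Ψ v g).val
    congr 1
    rw [h2puMbar, h2puMbar, h2puN_left, map_mul, mul_inv_rev]
    push_cast
    have h0 : ((D.χ (D.r v d) : (ZMod p)ˣ) : ZMod p) ≠ 0 := Units.ne_zero _
    have h1 : ((D.χ g : (ZMod p)ˣ) : ZMod p) ≠ 0 := Units.ne_zero _
    field_simp
  · show (h2puMbar D U Ψ v (g * u)).val = (h2puMbar D U Ψ v g).val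
    congr 1
    rw [h2puMbar, h2puMbar, h2puN_right D U Ψ hΨ v g u hu, map_mul, hχ u hu, mul_one]

/-- `Ψ = T_m ∘ i ∘ κ` -/
lemma h2pu_Psi_eq (Ψ : (permRep p U).V →+ (PTJ D).V) (hΨ : IsGMap D (permRep p U) Ψ)
    (T : ((h2pM U).V →+ (PTJ D).V) →+ (PTJ D).V) (hT : IsWtr D U (h2puM D U Ψ) T)
    (x : (permRep p U).V) :
    Ψ x = T ((homAdd D.i).comp (h2puKappa D U hχ x)) := by
  have key : Ψ = (T.comp (AddMonoidHom.compHom (homAdd D.i))).comp (h2puKappa D U hχ) := by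
    apply MonoidAlgebra.addMonoidHom_ext
    intro ω c
    show Ψ (MonoidAlgebra.single ω c) =
      T ((homAdd D.i).comp (h2puKappa D U hχ (MonoidAlgebra.single ω c)))
    apply Subtype.ext
    funext v g
    rw [h2pu_Psi_single D U Ψ hΨ ω c v g, hT _ v g]
    have hsum := finsum_eq_single (fun ω' : G ⧸ U => h2puM D U Ψ v (g * ω'.out) •
      (((homAdd D.i).comp (h2puKappa D U hχ (MonoidAlgebra.single ω c))) (h2pE U ω')).1 v g) ω
      (by
        intro ω' hω'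
        show h2puM D U Ψ v (g * ω'.out) •
          (D.i.hom (h2puKappa D U hχ (MonoidAlgebra.single ω c) (h2pE U ω'))).1 v g = 0
        rw [h2puKappa_apply, MonoidAlgebra.coeff_single, Finsupp.single_eq_of_ne hω', zero_mul,
          map_zero, map_zero]
        exact smul_zero _)
    rw [hsum]
    show _ = h2puM D U Ψ v (g * ω.out) •
      (D.i.hom (h2puKappa D U hχ (MonoidAlgebra.single ω c) (h2pE U ω))).1 v g
    rw [h2puKappa_apply, h2pu_i_KE, MonoidAlgebra.coeff_single, Finsupp.single_eq_same]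
    show _ = (h2puMbar D U Ψ v (g * ω.out)).val • _
    have e : D.χ (g * ω.out) = D.χ g * h2puChi D U hχ ω := by
      rw [map_mul, h2puChi_out D U hχ]
    rw [h2puKz_val_smul, h2puN_eq, e]
    congr 1
    push_cast
    ring
  exact DFunLike.congr_fun key x

include hχ in
/-- a place function which is constant mod `p` gives `π ∘ Ψ = 0` -/
lemma h2pu_const (Ψ : (permRep p U).V →+ (PTJ D).V) (hΨ : IsGMap D (permRep p U) Ψ)
    (hconst : ∀ v₁ g₁ v₂ g₂, h2puM D U Ψ v₁ g₁ ≡ h2puM D U Ψ v₂ g₂ [MOD p])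
    (x : (permRep p U).V) : D.π.hom (Ψ x) = 0 := by
  have hne : NeZero p := ⟨(Fact.out : p.Prime).ne_zero⟩
  have hbar : ∀ v₁ g₁ v₂ g₂, h2puMbar D U Ψ v₁ g₁ = h2puMbar D U Ψ v₂ g₂ := by
    intro v₁ g₁ v₂ g₂
    have h := (ZMod.natCast_eq_natCast_iff _ _ p).2 (hconst v₁ g₁ v₂ g₂)
    rw [h2puM, h2puM, ZMod.natCast_zmod_val, ZMod.natCast_zmod_val] at h
    exact h
  have key : (homAdd D.π).comp Ψ = 0 := by
    apply MonoidAlgebra.addMonoidHom_ext
    intro ω c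
    show D.π.hom (Ψ (MonoidAlgebra.single ω c)) = 0
    by_cases hι : Nonempty ι
    · obtain ⟨v₀⟩ := hι
      apply (D.exact _).2
      refine ⟨h2puKE D (c * (h2puChi D U hχ ω : ZMod p) * h2puMbar D U Ψ v₀ 1), ?_⟩
      apply Subtype.ext
      funext v g
      have e : D.χ (g * ω.out) = D.χ g * h2puChi D U hχ ω := by
        rw [map_mul, h2puChi_out D U hχ]
      rw [h2pu_i_KE, h2pu_Psi_single D U Ψ hΨ, h2puN_eq, hbar v (g * ω.out) v₀ 1, e]
      congr 1
      push_cast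
      ring
    · have : Ψ (MonoidAlgebra.single ω c) = 0 := by
        apply Subtype.ext
        funext v
        exact absurd ⟨v⟩ hι
      rw [this, map_zero]
  exact DFunLike.congr_fun key x

end Chi

/-- **h2p-untw.** -/
theorem stmtH2pUntw : StmtH2pUntw := by
  intro p _ G _ ι _ Gloc _ D U hUn hU hχ Ψ hΨ
  haveI := hUn
  haveI : U.FiniteIndex := D.𝒯.finiteIndex U hU
  haveI : Finite (G ⧸ U) := Subgroup.finite_quotient_of_finiteIndex
  refine ⟨h2puM D U Ψ, h2puM_isPlaceFn D U hχ Ψ hΨ, ?_, ?_⟩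
  · rintro ⟨x, hx⟩
    by_contra hcon
    push Not at hcon
    exact hx (h2pu_const D U hχ Ψ hΨ hcon x)
  · intro T hT y hylev hycoc hyp
    choose z hz using fun s => h2puKappa_surj D U hχ (y s) (hyp s)
    refine ⟨z, ⟨(mem_cocycles₂_def _).2 fun g h j => ?_, ?_⟩, fun s => ?_⟩
    · apply h2puKappa_injective D U hχ
      rw [map_zero, map_sub, map_add, map_sub, h2puKappa_equiv, hz, hz, hz, hz]
      exact hycoc (g, h, j)
    · obtain ⟨U', hU', hUy⟩ := hylev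
      refine ⟨U', hU', fun g g' s s' hs hs' => ?_⟩
      apply h2puKappa_injective D U hχ
      rw [hz, hz, hUy g g' s s' hs hs']
    · rw [h2pu_Psi_eq D U hχ Ψ hΨ T hT, hz]

end Fermat.Agent.TW.F

end
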