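/-
TW-F, block F-h2perm — FINAL (helper55): `stmtH2Perm : StmtH2Perm`, unconditional.

Pieces: h2p-seedmod (helper63), h2p-seedpair (helper55), h2p-mul / h2p-wtr / h2p-proj (helper88),
h2p-transl (helper35), h2p-cycU (helper9), h2p-shinj (helper30), h2p-untw / h2p-chase / h2p-asm
(helper68), glue (helper55).  Mathematics: NOTES/TW-F-h2perm.md.
-/
import Fermat.Agent.TW.F.H2pGlue
import Fermat.Agent.TW.F.H2pSeedMod
import Fermat.Agent.TW.F.H2pProj
import Fermat.Agent.TW.F.H2pTransl
import Fermat.Agent.TW.F.H2pCycU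
import Fermat.Agent.TW.F.H2pShInj
import Fermat.Agent.TW.F.H2pUntw

set_option autoImplicit false

namespace Fermat.Agent.TW.F

/-- **F-h2perm**: the permutation case of (H2Hom), unconditional. -/
theorem stmtH2Perm : StmtH2Perm :=
  stmtH2Perm_of stmtH2pSeedMod stmtH2pProj stmtH2pTransl stmtH2pCycU stmtH2pShInj stmtH2pUntw

/-- the six intermediate statements, unconditional -/
theorem stmtH2pSeed : StmtH2pSeed := stmtH2pSeed_of stmtH2pSeedMod

theorem stmtH2pSupp : StmtH2pSupp := stmtH2pSupp_of stmtH2pSeed stmtH2pProj stmtH2pTransl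

theorem stmtH2pDep : StmtH2pDep := stmtH2pDep_of stmtH2pCycU stmtH2pShInj

end Fermat.Agent.TW.F
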