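/-
TW-F, block F-h2perm, piece h2p-cycU (helper9): cyclicity of `H²_lev(U, C)[p]` for a normal level
`U`, on cochain functions `U × U → C`.

* `h2pcycu_transport`: a `p`-fundamental class is transported along an injective homomorphism
  `φ : Γ' → Γ` and a compatible isomorphism of modules (Mathlib `groupCohomology.mapIso`);
* `h2pcycuTower`: the tower of `U` cut out by the normal levels of `G` contained in `U`;
  `Res_U C` is discrete for it and has `p`-fundamental classes (`cm_glob` + transport);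
* `stmtH2pCycU` by `levH2_pTorsion_cyclic` for `(U, h2pcycuTower, Res_U C)`.
-/
import Fermat.Agent.TW.F.PlanH2Perm
import Fermat.Agent.PT.F.H2pCyclic
import Fermat.Agent.PT.F.Level

set_option autoImplicit false

noncomputable section

namespace Fermat.Agent.TW.F

open CategoryTheory groupCohomology Module Fermat.Agent.PT Fermat.Agent.PT.F

attribute [local instance 1100] Rep.hV2

section Transport

variable {Γ Γ' : Type} [Group Γ] [Group Γ']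

/-- the morphism of representations attached to a compatible linear equivalence -/
def h2pcycu_hom (φ : Γ' →* Γ) (Y : Rep.{0} ℤ Γ) (Y' : Rep.{0} ℤ Γ') (e : Y.V ≃+ Y'.V)
    (he : ∀ (g : Γ') (y : Y.V), e (Y.ρ (φ g) y) = Y'.ρ g (e y)) : Rep.res φ Y ⟶ Y' :=
  Rep.ofHom ⟨(e.toIntLinearEquiv (modM := Y.hV2) (modM₂ := Y'.hV2)).toLinearMap, fun g => by
    ext y
    exact he g y⟩

/-- the isomorphism on the cohomology of a subgroup and its image -/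
def h2pcycu_iso (φ : Γ' →* Γ) (hφ : Function.Injective φ)
    (Y : Rep.{0} ℤ Γ) (Y' : Rep.{0} ℤ Γ') (e : Y.V ≃+ Y'.V)
    (he : ∀ (g : Γ') (y : Y.V), e (Y.ρ (φ g) y) = Y'.ρ g (e y)) (H' : Subgroup Γ') (n : ℕ) :
    groupCohomology (Rep.res H'.subtype Y') n ≅
      groupCohomology (Rep.res (H'.map φ).subtype Y) n :=
  groupCohomology.mapIso (H'.equivMapOfInjective φ hφ) (A := Rep.res (H'.map φ).subtype Y)
    (B := Rep.res H'.subtype Y')
    (e.toIntLinearEquiv (modM := Y.hV2) (modM₂ := Y'.hV2)).symm (fun g => by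
      ext y
      show e.symm (Y'.ρ (g : Γ') y) = Y.ρ (φ (g : Γ')) (e.symm y)
      apply e.injective
      rw [he, e.apply_symm_apply, e.apply_symm_apply]) n

theorem h2pcycu_iso_inv_res (φ : Γ' →* Γ) (hφ : Function.Injective φ)
    (Y : Rep.{0} ℤ Γ) (Y' : Rep.{0} ℤ Γ') (e : Y.V ≃+ Y'.V)
    (he : ∀ (g : Γ') (y : Y.V), e (Y.ρ (φ g) y) = Y'.ρ g (e y)) (H' : Subgroup Γ') (n : ℕ) :
    groupCohomology.map (H'.map φ).subtype (𝟙 _) n ≫ (h2pcycu_iso φ hφ Y Y' e he H' n).inv =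
      groupCohomology.map φ (h2pcycu_hom φ Y Y' e he) n ≫
        groupCohomology.map H'.subtype (𝟙 _) n := by
  unfold h2pcycu_iso
  rw [groupCohomology.mapIso_inv, ← groupCohomology.map_comp, ← groupCohomology.map_comp]
  exact groupCohomology.map_congr (by ext g; rfl) (by ext y; rfl) n

/-- **transport of a `p`-fundamental class** along an injective homomorphism `φ : Γ' → Γ` and a
compatible isomorphism of modules. -/
theorem h2pcycu_transport {p : ℕ} (φ : Γ' →* Γ) (hφ : Function.Injective φ)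
    (Y : Rep.{0} ℤ Γ) (Y' : Rep.{0} ℤ Γ') (e : Y.V ≃+ Y'.V)
    (he : ∀ (g : Γ') (y : Y.V), e (Y.ρ (φ g) y) = Y'.ρ g (e y))
    (u : H2 Y) (hu : IsPFundClass p Y u) :
    IsPFundClass p Y' ((groupCohomology.map φ (h2pcycu_hom φ Y Y' e he) 2).hom u) := by
  have hpg : ∀ H' : Subgroup Γ', IsPGroup p H' → IsPGroup p (H'.map φ) := fun H' h => h.map φ
  refine ⟨fun H' hH' => ?_, fun H' hH' => ?_, fun H' hH' x => ?_⟩
  · have := hu.h1 (H'.map φ) (hpg H' hH')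
    exact (h2pcycu_iso φ hφ Y Y' e he H' 1).toLinearEquiv.toEquiv.subsingleton
  · rw [Nat.card_congr (h2pcycu_iso φ hφ Y Y' e he H' 2).toLinearEquiv.toEquiv,
      hu.h2_card (H'.map φ) (hpg H' hH')]
    exact (Nat.card_congr (H'.equivMapOfInjective φ hφ).toEquiv).symm
  · obtain ⟨n, hn⟩ := hu.h2_gen (H'.map φ) (hpg H' hH')
      ((h2pcycu_iso φ hφ Y Y' e he H' 2).hom.hom x)
    refine ⟨n, ?_⟩
    have h1 := congrArg (h2pcycu_iso φ hφ Y Y' e he H' 2).inv.hom hn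
    rw [map_zsmul] at h1
    have h2 : (h2pcycu_iso φ hφ Y Y' e he H' 2).inv.hom
        ((h2pcycu_iso φ hφ Y Y' e he H' 2).hom.hom x) = x := by
      rw [← ModuleCat.comp_apply, Iso.hom_inv_id, ModuleCat.id_apply]
    rw [h2] at h1
    rw [← h1]
    congr 1
    have h3 := h2pcycu_iso_inv_res φ hφ Y Y' e he H' 2
    have h4 := congrArg (fun F => F.hom u) h3
    simp only [ModuleCat.comp_apply] at h4
    exact h4.symm

end Transport

section Tower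

variable {G : Type} [Group G]

/-- the tower of `U` cut out by the normal levels of `G` contained in `U` -/
def h2pcycuTower (𝒯 : Tower G) (U : Subgroup G) (hU : U ∈ 𝒯.lev) (hUn : U.Normal) :
    Tower ↥U where
  lev := {V | ∃ W ∈ 𝒯.lev, W.Normal ∧ W ≤ U ∧ V = W.subgroupOf U}
  top_mem := ⟨U, hU, hUn, le_rfl, (Subgroup.subgroupOf_self U).symm⟩
  inf_mem := by
    rintro _ _ ⟨W, hW, hWn, hWU, rfl⟩ ⟨W', hW', hWn', -, rfl⟩
    refine ⟨W ⊓ W', 𝒯.inf_mem W W' hW hW', ?_, inf_le_left.trans hWU, ?_⟩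
    · have := hWn
      have := hWn'
      infer_instance
    · ext x
      simp only [Subgroup.mem_inf, Subgroup.mem_subgroupOf]
  finiteIndex := by
    rintro _ ⟨W, hW, -, -, rfl⟩
    have := 𝒯.finiteIndex W hW
    infer_instance
  exists_normal := by
    rintro _ ⟨W, hW, hWn, hWU, rfl⟩
    have := hWn
    exact ⟨_, ⟨W, hW, hWn, hWU, rfl⟩, le_rfl, inferInstance⟩

variable {𝒯 : Tower G} {U : Subgroup G} (hU : U ∈ 𝒯.lev) (hUn : U.Normal)

include hU in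
theorem h2pcycu_exists_normal {U₁ : Subgroup G} (hU₁ : U₁ ∈ 𝒯.lev) :
    ∃ W ∈ 𝒯.lev, W.Normal ∧ W ≤ U ∧ W ≤ U₁ := by
  obtain ⟨W, hW, h1, h2, hn⟩ := tower_exists_normal_le₂ 𝒯 hU hU₁
  exact ⟨W, hW, hn, h1, h2⟩

theorem h2pcycu_isLevel₁_of {X : Type} {ψ : U → X} (h : IsLevelOn 𝒯 U ψ) :
    IsLevel₁ (h2pcycuTower 𝒯 U hU hUn) ψ := by
  obtain ⟨U₁, hU₁, h⟩ := h
  obtain ⟨W, hW, hWn, hWU, hWU₁⟩ := h2pcycu_exists_normal hU hU₁
  exact ⟨W.subgroupOf U, ⟨W, hW, hWn, hWU, rfl⟩, fun g s hs => h g s (hWU₁ hs)⟩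

theorem h2pcycu_isLevelOn_of {X : Type} {ψ : U → X}
    (h : IsLevel₁ (h2pcycuTower 𝒯 U hU hUn) ψ) : IsLevelOn 𝒯 U ψ := by
  obtain ⟨_, ⟨W, hW, -, -, rfl⟩, h⟩ := h
  exact ⟨W, hW, fun s u hu => h s u hu⟩

theorem h2pcycu_isLevel₂_of {X : Type} {w : U × U → X} (h : IsLevelOn₂ 𝒯 U w) :
    IsLevel₂ (h2pcycuTower 𝒯 U hU hUn) w := by
  obtain ⟨U₁, hU₁, h⟩ := h
  obtain ⟨W, hW, hWn, hWU, hWU₁⟩ := h2pcycu_exists_normal hU hU₁
  exact ⟨W.subgroupOf U, ⟨W, hW, hWn, hWU, rfl⟩,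
    fun g g' s s' hs hs' => h g g' s s' (hWU₁ hs) (hWU₁ hs')⟩

/-- `Res_U X` is discrete for the tower of `U` -/
theorem h2pcycu_discrete (X : Rep.{0} ℤ G) (hX : IsDiscrete 𝒯 X) :
    IsDiscrete (h2pcycuTower 𝒯 U hU hUn) (Rep.res U.subtype X) := by
  intro x
  obtain ⟨U₁, hU₁, h⟩ := hX x
  obtain ⟨W, hW, hWn, hWU, hWU₁⟩ := h2pcycu_exists_normal hU hU₁
  exact ⟨W.subgroupOf U, ⟨W, hW, hWn, hWU, rfl⟩, fun s hs => h (s : G) (hWU₁ hs)⟩

end Tower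

section Compare

variable {G : Type} [Group G] (X : Rep.{0} ℤ G) (U W : Subgroup G) [hWn : W.Normal]
  (hWU : W ≤ U)

/-- the injection `U ⧸ (W ∩ U) → G ⧸ W` -/
def h2pcycu_φ : ↥U ⧸ W.subgroupOf U →* G ⧸ W :=
  QuotientGroup.map (W.subgroupOf U) W U.subtype (fun _ hx => hx)

theorem h2pcycu_φ_mk (x : U) :
    h2pcycu_φ U W ((x : ↥U) : ↥U ⧸ W.subgroupOf U) = ((x : G) : G ⧸ W) := rfl

theorem h2pcycu_φ_injective : Function.Injective (h2pcycu_φ U W) := by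
  rw [injective_iff_map_eq_one]
  intro q hq
  obtain ⟨x, rfl⟩ := QuotientGroup.mk_surjective q
  rw [h2pcycu_φ_mk, QuotientGroup.eq_one_iff] at hq
  exact (QuotientGroup.eq_one_iff x).2 hq

/-- `X^W` as a module over `G ⧸ W` and over `U ⧸ (W ∩ U)`: the same underlying set -/
def h2pcycu_e : (X.quotientToInvariants W).V ≃+
    ((Rep.res U.subtype X).quotientToInvariants (W.subgroupOf U)).V where
  toFun c := ⟨c.1, fun s => c.2 ⟨((s : ↥U) : G), s.2⟩⟩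
  invFun c := ⟨c.1, fun s => c.2 ⟨⟨(s : G), hWU s.2⟩, s.2⟩⟩
  left_inv _ := rfl
  right_inv _ := rfl
  map_add' _ _ := rfl

theorem h2pcycu_e_comm (g : ↥U ⧸ W.subgroupOf U) (y : (X.quotientToInvariants W).V) :
    h2pcycu_e X U W hWU ((X.quotientToInvariants W).ρ (h2pcycu_φ U W g) y) =
      ((Rep.res U.subtype X).quotientToInvariants (W.subgroupOf U)).ρ g
        (h2pcycu_e X U W hWU y) := by
  obtain ⟨x, rfl⟩ := QuotientGroup.mk_surjective g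
  rfl

end Compare

/-- `Res_U X` has `p`-fundamental classes for the tower of `U` -/
theorem h2pcycu_hasPFund {G : Type} [Group G] {𝒯 : Tower G} {U : Subgroup G} (hU : U ∈ 𝒯.lev)
    (hUn : U.Normal) (X : Rep.{0} ℤ G) (p : ℕ) (hcm : HasPFund 𝒯 X p) :
    HasPFund (h2pcycuTower 𝒯 U hU hUn) (Rep.res U.subtype X) p := by
  intro V hVn hV
  obtain ⟨W, hW, hWn, hWU, rfl⟩ := hV
  have := hWn
  obtain ⟨u, hu⟩ := hcm W hW
  have key := h2pcycu_transport (p := p) (h2pcycu_φ U W) (h2pcycu_φ_injective U W)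
    (X.quotientToInvariants W) ((Rep.res U.subtype X).quotientToInvariants (W.subgroupOf U))
    (h2pcycu_e X U W hWU) (h2pcycu_e_comm X U W hWU) u hu
  exact ⟨_, key⟩

/-- **h2p-cycU**. -/
theorem stmtH2pCycU : StmtH2pCycU := by
  intro p _ G _ ι _ Gloc _ D U hUn hU w₁ w₂ hw₁ hw₂ hl₁ hl₂ hp₁ hp₂
  have hp : p.Prime := Fact.out
  set 𝒯U := h2pcycuTower D.𝒯 U hU hUn with h𝒯U
  set X : Rep.{0} ℤ ↥U := Rep.res U.subtype D.C with hXdef
  have hX : IsDiscrete 𝒯U X := h2pcycu_discrete hU hUn D.C D.C_discrete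
  have hcm : HasPFund 𝒯U X p :=
    h2pcycu_hasPFund hU hUn D.C p (fun W _ hW => D.cm_glob W hW)
  obtain ⟨ψ₁, hψ₁, hd₁⟩ := hp₁
  obtain ⟨ψ₂, hψ₂, hd₂⟩ := hp₂
  have hψ₁' : IsLevel₁ 𝒯U ψ₁ := h2pcycu_isLevel₁_of hU hUn hψ₁
  have hψ₂' : IsLevel₁ 𝒯U ψ₂ := h2pcycu_isLevel₁_of hU hUn hψ₂
  let a₁ : ↥(levCocycles₂ 𝒯U X) := ⟨w₁, hw₁, h2pcycu_isLevel₂_of hU hUn hl₁⟩
  let a₂ : ↥(levCocycles₂ 𝒯U X) := ⟨w₂, hw₂, h2pcycu_isLevel₂_of hU hUn hl₂⟩
  have hpx₁ : p • levH2π 𝒯U X a₁ = 0 := by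
    rw [← map_nsmul, levH2π_eq_zero_iff]
    exact (mem_levCoboundaries₂_iff 𝒯U X _).2 ⟨ψ₁, hψ₁', hd₁.symm⟩
  have hpx₂ : p • levH2π 𝒯U X a₂ = 0 := by
    rw [← map_nsmul, levH2π_eq_zero_iff]
    exact (mem_levCoboundaries₂_iff 𝒯U X _).2 ⟨ψ₂, hψ₂', hd₂.symm⟩
  by_cases hx : levH2π 𝒯U X a₁ = 0
  · rw [levH2π_eq_zero_iff] at hx
    obtain ⟨ψ, hψ, hdψ⟩ := (mem_levCoboundaries₂_iff 𝒯U X _).1 hx
    refine ⟨1, 0, fun h => hp.one_lt.ne' (Nat.dvd_one.1 h.1), ψ,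
      h2pcycu_isLevelOn_of hU hUn hψ, ?_⟩
    rw [one_smul, zero_smul, add_zero]
    exact hdψ.symm
  · obtain ⟨n, hn⟩ := levH2_pTorsion_cyclic stmtH2pCyclic p hX hcm _ _ hpx₁ hpx₂ hx
    have h0 : levH2π 𝒯U X (a₂ - n • a₁) = 0 := by
      rw [map_sub, map_nsmul, hn, sub_self]
    rw [levH2π_eq_zero_iff] at h0
    obtain ⟨ψ, hψ, hdψ⟩ := (mem_levCoboundaries₂_iff 𝒯U X _).1 h0
    have hdψ' : (d₁₂ X).hom ψ = w₂ - n • w₁ := hdψ
    refine ⟨(p - 1) * n, 1, fun h => hp.one_lt.ne' (Nat.dvd_one.1 h.2), ψ + n • ψ₁,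
      h2pcycu_isLevelOn_of hU hUn (hψ.add ?_), ?_⟩
    · obtain ⟨V, hV, hVψ⟩ := hψ₁'
      exact ⟨V, hV, fun g s hs => by
        simp only [Pi.smul_apply]
        rw [hVψ g s hs]⟩
    · rw [map_add, map_nsmul, hdψ', ← hd₁, one_smul]
      have hpn : (p - 1) * n + n = p * n := by
        have h1 : 1 ≤ p := hp.one_lt.le
        calc (p - 1) * n + n = ((p - 1) + 1) * n := by ring
          _ = p * n := by rw [Nat.sub_add_cancel h1]
      have e1 : n • p • w₁ = (p * n) • w₁ := by rw [smul_smul, mul_comm]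
      rw [e1, ← hpn, add_smul]
      abel

end Fermat.Agent.TW.F

end
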