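/-
TW-F, piece F-connSurj (helper30): the connecting map is onto.

Given a level 1-cocycle `x` of `A` on `G_v`, the cochain `σ ↦ (m ↦ β(x σ, ε m) ζ_v)` is a level
1-cocycle of `G_v` in `Hom_ℤ(M₀, J_v)`; by `In4` it is `dZero t`, and `g := t ∘ inc` is
`G_v`-equivariant with `pairCoc g c + x ∪ c = d u`, `u σ = t (sec (c σ))`.
-/
import Fermat.Agent.TW.F.ConnCmp

set_option autoImplicit false

noncomputable section

namespace Fermat.Agent.TW.F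

open CategoryTheory groupCohomology Module Fermat.Agent.PT Fermat.Agent.PT.F

/-- **Comparison** (generic): if `g̃ : M₀ →+ J` extends `g` and `σ g̃ σ⁻¹ - g̃ = β(x σ, ε ·) ζ`, then
`pairCoc Pr g c + x ∪ c` is a level coboundary for every level 1-cocycle `c` of `B`. -/
theorem fcs_compare {p : ℕ} [Fact p.Prime] {G : Type} [Group G] {𝒯 : Tower G}
    {χ : G →* (ZMod p)ˣ} {A B : Rep.{0} (ZMod p) G} (P : DualPair χ A B) (J : Rep.{0} ℤ G)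
    (ζ : J.V) (hζp : p • ζ = 0) (Pr : Presentation 𝒯 B) (g : Pr.M₁ ⟶ J)
    (gt : Pr.M₀.V →+ J.V) (hgt : ∀ m₁ : Pr.M₁.V, gt (Pr.inc.hom m₁) = g.hom m₁)
    (x : G → A.V)
    (key : ∀ σ m, J.ρ σ (gt (Pr.M₀.ρ σ⁻¹ m)) - gt m = fconnKz ζ hζp (P.β (x σ) (Pr.ε m)))
    (c : G → B.V) (hc : c ∈ cocycles₁ B) (hcl : IsLevel₁ 𝒯 c) :
    pairCoc Pr g c + cupCoc P J ζ x c ∈ levCoboundaries₂ 𝒯 J := by
  rw [mem_levCoboundaries₂_iff]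
  refine ⟨fun σ => gt (Pr.sec (c σ)), hcl.comp (fun b => gt (Pr.sec b)), ?_⟩
  funext στ
  obtain ⟨σ, τ⟩ := στ
  have hε := pb_ε_d₁₂ Pr (fun σ => Pr.sec (c σ)) (pb_ε_sec_cocycle Pr c hc) (σ, τ)
  have h1 : pairCoc Pr g c (σ, τ) =
      gt ((d₁₂ Pr.M₀).hom (fun σ => Pr.sec (c σ)) (σ, τ)) := by
    show g.hom (Pr.incInv _) = _
    rw [← hgt, Pr.inc_incInv hε]
  have h2 : cupCoc P J ζ x c (σ, τ) =
      J.ρ σ (gt (Pr.M₀.ρ σ⁻¹ (Pr.M₀.ρ σ (Pr.sec (c τ))))) - gt (Pr.M₀.ρ σ (Pr.sec (c τ))) := by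
    rw [key, Pr.ε_ρ, Pr.ε_sec, fconnKz_apply]
    rfl
  rw [Pi.add_apply, h1, h2, pb_d₁₂_apply, pb_d₁₂_apply, fconn_inv_self, map_add, map_sub]
  abel

/-- **F-connSurj**. -/
theorem stmtConnSurj : StmtConnSurj := by
  intro p _ G _ ι _ Gloc _ D A B _ _ P Pr hIn4 v x hx hxl
  have hζp : p • zetaLoc D v = 0 := by
    show p • (D.j v).hom D.ζ = 0
    rw [← map_nsmul, D.ζ_tors, map_zero]
  have hζχ : ∀ d : Gloc v, (D.Jloc v).ρ d (zetaLoc D v) =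
      ((D.χ (D.r v d) : ZMod p).val) • zetaLoc D v := by
    intro d
    show (D.Jloc v).ρ d ((D.j v).hom D.ζ) = _ • (D.j v).hom D.ζ
    have h1 : (D.j v).hom (D.E.ρ (D.r v d) D.ζ) = (D.Jloc v).ρ d ((D.j v).hom D.ζ) :=
      Rep.hom_comm_apply (D.j v) d D.ζ
    rw [← h1, D.ζ_char, map_nsmul]
  have kz_ρ : ∀ (d : Gloc v) (a : ZMod p), (D.Jloc v).ρ d (fconnKz (zetaLoc D v) hζp a) =
      fconnKz (zetaLoc D v) hζp ((D.χ (D.r v d) : ZMod p) * a) := by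
    intro d a
    rw [fconnKz_mul, fconnKz_apply, map_nsmul, hζχ, smul_comm]
  have xcoc : ∀ d e : Gloc v, x (d * e) = A.ρ (D.r v d) (x e) + x d := fun d e =>
    (mem_cocycles₁_iff (A := Rep.res (D.r v) A) x).1 hx d e
  have hinv2 : ∀ (d : Gloc v) (m : Pr.M₀.V), Pr.M₀.ρ (D.r v d⁻¹) (Pr.M₀.ρ (D.r v d) m) = m :=
    fun d m => fconn_inv_self (Rep.res (D.r v) Pr.M₀) d m
  have hinvB : ∀ (d : Gloc v) (b : B.V), B.ρ (D.r v d) (B.ρ (D.r v d⁻¹) b) = b :=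
    fun d b => fconn_self_inv (Rep.res (D.r v) B) d b
  -- the cochain with values in `Hom_ℤ(M₀, J_v)`
  obtain ⟨Cc, hCc⟩ : ∃ Cc : Gloc v → (Pr.M₀.V →+ (D.Jloc v).V),
      ∀ d m, Cc d m = fconnKz (zetaLoc D v) hζp (P.β (x d) (Pr.ε m)) :=
    ⟨fun d => (fconnKz (zetaLoc D v) hζp).comp ((P.β (x d)).toAddMonoidHom.comp Pr.ε),
      fun _ _ => rfl⟩
  have hCl : IsLevel₁ (D.𝒯loc v) Cc := by
    obtain ⟨U, hU, h⟩ := hxl
    refine ⟨U, hU, fun d s hs => ?_⟩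
    ext m
    rw [hCc, hCc, h d s hs]
  have hCcoc : ∀ dd, dOne (Rep.res (D.r v) Pr.M₀) (D.Jloc v) Cc dd = 0 := by
    rintro ⟨d, e⟩
    ext m
    show (D.Jloc v).ρ d (Cc e (Pr.M₀.ρ (D.r v d⁻¹) m)) - Cc (d * e) m + Cc d m = 0
    have h1 : P.β (A.ρ (D.r v d) (x e)) (Pr.ε m) =
        (D.χ (D.r v d) : ZMod p) * P.β (x e) (Pr.ε (Pr.M₀.ρ (D.r v d⁻¹) m)) := by
      rw [← P.equivariant, Pr.ε_ρ, hinvB]
    rw [hCc, hCc, hCc, kz_ρ, xcoc, map_add, LinearMap.add_apply, map_add, h1]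
    abel
  obtain ⟨t, ht⟩ := hIn4 v Cc hCl hCcoc
  have key : ∀ (d : Gloc v) (m : Pr.M₀.V),
      (D.Jloc v).ρ d (t (Pr.M₀.ρ (D.r v d⁻¹) m)) - t m =
        fconnKz (zetaLoc D v) hζp (P.β (x d) (Pr.ε m)) := by
    intro d m
    rw [← hCc, ht d]
    rfl
  -- the morphism `g = t ∘ inc`
  have hequiv : ∀ (d : Gloc v) (m₁ : Pr.M₁.V),
      t (Pr.inc.hom (Pr.M₁.ρ (D.r v d) m₁)) = (D.Jloc v).ρ d (t (Pr.inc.hom m₁)) := by
    intro d m₁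
    have h1 := key d (Pr.inc.hom (Pr.M₁.ρ (D.r v d) m₁))
    have h2 : Pr.inc.hom (Pr.M₁.ρ (D.r v d) m₁) = Pr.M₀.ρ (D.r v d) (Pr.inc.hom m₁) :=
      Rep.hom_comm_apply Pr.inc _ _
    rw [pb_ε_inc, map_zero, map_zero] at h1
    rw [h2] at h1 ⊢
    rw [hinv2] at h1
    exact (sub_eq_zero.1 h1).symm
  let g : Rep.res (D.r v) Pr.M₁ ⟶ D.Jloc v :=
    mkHom (A := Rep.res (D.r v) Pr.M₁) (B := D.Jloc v) (t.comp (homAdd Pr.inc))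
      (fun d m₁ => hequiv d m₁)
  refine ⟨g, fun c hc hcl => ?_⟩
  exact fcs_compare (P.res (D.r v)) (D.Jloc v) (zetaLoc D v) hζp
    (LocNondeg.presRes Pr (D.𝒯loc v) (D.r v) (D.comap_mem v)) g t (fun _ => rfl) x
    (fun d m => key d m) c hc hcl

end Fermat.Agent.TW.F

end
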