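/-
TW-F, COMPLETE (helper68): the Greenberg–Wiles inequality `StmtGWFinal`, unconditional.

  stmtH2Perm          : H2Perm.lean (helper55 + F-h2perm team)
  stmtGWFinal_of_h2perm : Final.lean
-/
import Fermat.Agent.TW.F.Final
import Fermat.Agent.TW.F.H2Perm

set_option autoImplicit false

namespace Fermat.Agent.TW.F

/-- **TW-F**: the Greenberg–Wiles inequality, unconditional. -/
theorem stmtGWFinal : StmtGWFinal :=
  stmtGWFinal_of_h2perm stmtH2Perm

/-- (H2Hom), unconditional. -/
theorem stmtH2Hom : StmtH2Hom := stmtH2Hom_of stmtH2Perm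

/-- the finite-dimensional rank form of F-h2, unconditional. -/
theorem stmtH2RankFD : StmtH2RankFD := stmtH2Rank_of stmtH2Hom

end Fermat.Agent.TW.F
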