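/-
TW-F / F-h2perm, sub-lemma (N) for h2p-seedmod (helper54): the counting input.

* `h2pcnt_sum`  : a function `Γ → 𝔽_p` on a finite group which is left-invariant under a subgroup
                  `H` of order divisible by `p` has sum `0`;
* `h2pcnt_card` : the image of `r⁻¹U` in `G/U''` has `[r⁻¹U : r⁻¹U'']` elements.
-/
import Mathlib

set_option autoImplicit false
set_option linter.style.haveILetI false
set_option linter.unusedVariables false

namespace Fermat.Agent.TW.F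

open scoped BigOperators

section Sum

variable {Γ : Type} [Group Γ]

/-- `Γ ≃ Γ/H × H`, `γ ↦ (γH, out(γH)⁻¹ γ)`, with explicit inverse `(q, h) ↦ out(q) h` -/
noncomputable def h2pcntEquiv (H : Subgroup Γ) : Γ ≃ (Γ ⧸ H) × H where
  toFun γ := ((γ : Γ ⧸ H), ⟨((γ : Γ ⧸ H)).out⁻¹ * γ, by
    rw [← QuotientGroup.eq]
    exact QuotientGroup.out_eq' _⟩)
  invFun x := x.1.out * (x.2 : Γ)
  left_inv γ := by
    show ((γ : Γ ⧸ H)).out * (((γ : Γ ⧸ H)).out⁻¹ * γ) = γ
    rw [mul_inv_cancel_left]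
  right_inv x := by
    obtain ⟨q, h⟩ := x
    have h1 : ((q.out * (h : Γ) : Γ) : Γ ⧸ H) = q := by
      rw [QuotientGroup.mk_mul_of_mem _ h.2]
      exact QuotientGroup.out_eq' q
    refine Prod.ext h1 ?_
    apply Subtype.ext
    show ((q.out * (h : Γ) : Γ) : Γ ⧸ H).out⁻¹ * (q.out * (h : Γ)) = h
    rw [h1, inv_mul_cancel_left]

/-- a right-`H`-invariant function with values in `𝔽_p` on a finite group has sum `0` if
`p ∣ |H|` -/
theorem h2pcnt_sum_right (p : ℕ) [Fact p.Prime] [Fintype Γ] (H : Subgroup Γ)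
    (hH : p ∣ Nat.card H) (g : Γ → ZMod p) (hg : ∀ h ∈ H, ∀ γ, g (γ * h) = g γ) :
    ∑ γ, g γ = 0 := by
  classical
  haveI : Fintype (Γ ⧸ H) := Fintype.ofFinite _
  haveI : Fintype H := Fintype.ofFinite _
  rw [Fintype.sum_equiv (h2pcntEquiv H) g (fun x => g (x.1.out * (x.2 : Γ)))
    (fun γ => by
      show g γ = g (((γ : Γ ⧸ H)).out * (((γ : Γ ⧸ H)).out⁻¹ * γ))
      rw [mul_inv_cancel_left])]
  rw [Fintype.sum_prod_type]
  refine Finset.sum_eq_zero fun q _ => ?_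
  have h1 : ∀ h : H, g (q.out * (h : Γ)) = g q.out := fun h => hg h h.2 _
  simp only [h1, Finset.sum_const, Finset.card_univ]
  rw [← Nat.card_eq_fintype_card]
  obtain ⟨c, hc⟩ := hH
  rw [hc, mul_nsmul, nsmul_eq_mul]
  simp

/-- **(N1)** a left-`H`-invariant function with values in `𝔽_p` on a finite group has sum `0` if
`p ∣ |H|` -/
theorem h2pcnt_sum (p : ℕ) [Fact p.Prime] [Fintype Γ] (H : Subgroup Γ)
    (hH : p ∣ Nat.card H) (f : Γ → ZMod p) (hf : ∀ h ∈ H, ∀ γ, f (h * γ) = f γ) :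
    ∑ γ, f γ = 0 := by
  have h1 : ∑ γ, f γ = ∑ γ : Γ, f γ⁻¹ :=
    (Fintype.sum_equiv (Equiv.inv Γ) (fun γ => f γ⁻¹) f (fun _ => rfl)).symm
  rw [h1]
  refine h2pcnt_sum_right p H hH (fun γ => f γ⁻¹) fun h hh γ => ?_
  show f (γ * h)⁻¹ = f γ⁻¹
  rw [mul_inv_rev]
  exact hf _ (H.inv_mem hh) _

end Sum

section Card

/-- **(N2)** the image of `r⁻¹U` in `G/U''` has `[r⁻¹U : r⁻¹U'']` elements -/
theorem h2pcnt_card {G Gv : Type} [Group G] [Group Gv] (r : Gv →* G) (U U'' : Subgroup G)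
    [U''.Normal] (hle : U'' ≤ U) :
    Nat.card ((U.comap r).map ((QuotientGroup.mk' U'').comp r)) =
      (U''.comap r).relIndex (U.comap r) := by
  rw [← Subgroup.relIndex_ker]
  congr 1
  ext x
  simp [MonoidHom.mem_ker]

end Card

end Fermat.Agent.TW.F
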