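/-
TW-F / F-h2perm, helper lemmas for h2p-proj (helper54): the PLACES of `U` over `v`.

Double cosets `r_v(G_v) g U` as a quotient type `h2pplQ D U v` (finite if `U` has finite index),
`h2pplMk`, the indicator function `h2pplInd D U v q` of a place `q` is a place function
(`h2ppl_ind_isPlaceFn`), `h2ppl_ind_ne_zero`, and `Σ_q h2pplInd q v g = 1` (`h2ppl_ind_sum`).
For h2p-proj: `P_q := P_{m_q}` (h2p-mul); for `F` supported at `v`: `F = Σ_q P_q F`.
-/
import Fermat.Agent.TW.F.PlanH2Perm
import Fermat.Agent.TW.E.In1Perm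

set_option autoImplicit false
set_option linter.unusedSectionVars false
set_option linter.unusedVariables false
set_option linter.style.haveILetI false

noncomputable section

namespace Fermat.Agent.TW.F

open CategoryTheory groupCohomology Module Fermat.Agent.PT Fermat.Agent.PT.F Fermat.Agent.TW.E

section Places

variable {p : ℕ} {G : Type} [Group G] {ι : Type} {Gloc : ι → Type} [∀ v, Group (Gloc v)]
  (D : PTDatum p G ι Gloc) (U : Subgroup G) (v : ι)

/-- the double coset relation `g' ∈ r_v(G_v) g U` -/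
def h2pplSetoid : Setoid G where
  r g g' := ∃ d : Gloc v, ∃ u ∈ U, g' = D.r v d * g * u
  iseqv :=
    { refl := fun g => ⟨1, 1, U.one_mem, by rw [map_one, one_mul, mul_one]⟩
      symm := by
        rintro g g' ⟨d, u, hu, rfl⟩
        refine ⟨d⁻¹, u⁻¹, U.inv_mem hu, ?_⟩
        rw [map_inv]
        group
      trans := by
        rintro g g' g'' ⟨d, u, hu, rfl⟩ ⟨d', u', hu', rfl⟩
        refine ⟨d' * d, u * u', U.mul_mem hu hu', ?_⟩
        rw [map_mul]
        group }

/-- the places of `U` over `v` -/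
abbrev h2pplQ : Type := Quotient (h2pplSetoid D U v)

/-- the place of `g` -/
def h2pplMk (g : G) : h2pplQ D U v := Quotient.mk (h2pplSetoid D U v) g

lemma h2ppl_mk_eq (g g' : G) :
    h2pplMk D U v g = h2pplMk D U v g' ↔ ∃ d : Gloc v, ∃ u ∈ U, g' = D.r v d * g * u :=
  Quotient.eq (r := h2pplSetoid D U v)

lemma h2ppl_mk_left (d : Gloc v) (g : G) :
    h2pplMk D U v (D.r v d * g) = h2pplMk D U v g :=
  ((h2ppl_mk_eq D U v g (D.r v d * g)).2 ⟨d, 1, U.one_mem, by rw [mul_one]⟩).symm

lemma h2ppl_mk_right (g u : G) (hu : u ∈ U) :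
    h2pplMk D U v (g * u) = h2pplMk D U v g :=
  ((h2ppl_mk_eq D U v g (g * u)).2 ⟨1, u, hu, by rw [map_one, one_mul]⟩).symm

lemma h2ppl_finite [U.FiniteIndex] : Finite (h2pplQ D U v) := by
  haveI : Finite (G ⧸ U) := Subgroup.finite_quotient_of_finiteIndex
  refine Finite.of_surjective (fun ω : G ⧸ U => h2pplMk D U v ω.out) ?_
  intro q
  obtain ⟨g, rfl⟩ := Quotient.exists_rep q
  refine ⟨(g : G ⧸ U), ?_⟩
  obtain ⟨u, hu⟩ := QuotientGroup.mk_out_eq_mul U g
  show h2pplMk D U v (Quotient.out (g : G ⧸ U)) = h2pplMk D U v g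
  rw [hu]
  exact h2ppl_mk_right D U v g u u.2

open Classical in
/-- the indicator function of the place `q` over `v` -/
def h2pplInd (q : h2pplQ D U v) : ι → G → ℕ :=
  fun v' g => if v' = v ∧ h2pplMk D U v g = q then 1 else 0

lemma h2ppl_ind_isPlaceFn (q : h2pplQ D U v) : IsPlaceFn D U (h2pplInd D U v q) := by
  classical
  refine ⟨fun v' d g => ?_, fun v' g u hu => ?_⟩
  · by_cases hv : v' = v
    · subst hv
      simp only [h2pplInd, true_and, h2ppl_mk_left]
    · simp only [h2pplInd, hv, false_and, if_false]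
  · simp only [h2pplInd, h2ppl_mk_right D U v g u hu]

lemma h2ppl_ind_ne_zero (q : h2pplQ D U v) (v' : ι) (g : G)
    (h : h2pplInd D U v q v' g ≠ 0) : v' = v ∧ h2pplMk D U v g = q := by
  classical
  by_contra hc
  exact h (by simp only [h2pplInd, hc, if_false])

lemma h2ppl_ind_sum [Fintype (h2pplQ D U v)] (g : G) :
    ∑ q : h2pplQ D U v, h2pplInd D U v q v g = 1 := by
  classical
  simp only [h2pplInd, true_and]
  rw [Finset.sum_ite_eq]
  simp

end Places

end Fermat.Agent.TW.F

end
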